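import Fermat.Agent.S20.Defs

/-!
# S20 (PROJECT G), slice [I]: the counting bridge

The coset space `Q N = 𝒮ℒ ⧸ (Γ₀(N)).subgroupOf 𝒮ℒ` used by Mathlib's `NormTrace` is identified,
equivariantly, with the plain coset space `SL(2, ℤ) ⧸ Γ₀(N)`.  The four numerical invariants
`mu`, `fixS`, `fixR`, `orbT` of `Defs.lean` are transported to the corresponding counts on
`SL(2, ℤ) ⧸ Γ₀(N)` (index, fixed points of `S`, fixed points of `S * T`, orbits of `⟨T⟩`).
-/

set_option autoImplicit false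

noncomputable section

open CongruenceSubgroup Matrix.SpecialLinearGroup
open scoped MatrixGroups

namespace Fermat.Agent.S20.CountBridge

open Fermat.Agent.S20

/-- `SL(2, ℤ)` is isomorphic to its image `𝒮ℒ` in `GL(2, ℝ)`. -/
def slEquiv : SL(2, ℤ) ≃* 𝒮ℒ :=
  MonoidHom.ofInjective (f := (mapGL ℝ : SL(2, ℤ) →* GL (Fin 2) ℝ)) mapGL_injective

theorem slEquiv_apply (γ : SL(2, ℤ)) : slEquiv γ = sl γ := rfl

theorem sl_mul (γ δ : SL(2, ℤ)) : sl (γ * δ) = sl γ * sl δ := by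
  rw [← slEquiv_apply, ← slEquiv_apply, ← slEquiv_apply, map_mul]

theorem sl_inv (γ : SL(2, ℤ)) : sl γ⁻¹ = (sl γ)⁻¹ := by
  rw [← slEquiv_apply, ← slEquiv_apply, map_inv]

theorem sl_zpow (γ : SL(2, ℤ)) (n : ℤ) : sl (γ ^ n) = sl γ ^ n := by
  rw [← slEquiv_apply, ← slEquiv_apply, map_zpow]

theorem sl_surjective : Function.Surjective sl := slEquiv.surjective

theorem sl_mem_iff (N : ℕ) (γ : SL(2, ℤ)) :
    sl γ ∈ (G0 N).subgroupOf 𝒮ℒ ↔ γ ∈ Gamma0 N := by
  rw [Subgroup.mem_subgroupOf]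
  constructor
  · rintro ⟨δ, hδ, h⟩
    have h' : mapGL ℝ δ = mapGL ℝ γ := h
    exact mapGL_injective h' ▸ hδ
  · intro h
    exact ⟨γ, h, rfl⟩

/-- The identification of the two coset spaces. -/
def quotEquiv (N : ℕ) : SL(2, ℤ) ⧸ Gamma0 N ≃ Q N :=
  Quotient.congr slEquiv.toEquiv (by
    intro a b
    show QuotientGroup.leftRel _ a b ↔ QuotientGroup.leftRel _ (slEquiv a) (slEquiv b)
    rw [QuotientGroup.leftRel_apply, QuotientGroup.leftRel_apply, ← map_inv, ← map_mul,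
      slEquiv_apply, sl_mem_iff])

theorem quotEquiv_mk (N : ℕ) (γ : SL(2, ℤ)) :
    quotEquiv N (γ : SL(2, ℤ) ⧸ Gamma0 N) = ((sl γ : 𝒮ℒ) : Q N) := rfl

/-- The identification is equivariant along `sl`. -/
theorem quotEquiv_smul (N : ℕ) (γ : SL(2, ℤ)) (x : SL(2, ℤ) ⧸ Gamma0 N) :
    quotEquiv N (γ • x) = sl γ • quotEquiv N x := by
  induction x using QuotientGroup.induction_on with
  | H δ =>
    rw [MulAction.Quotient.smul_mk, quotEquiv_mk, quotEquiv_mk, MulAction.Quotient.smul_mk,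
      smul_eq_mul, smul_eq_mul, sl_mul]

theorem quotEquiv_symm_smul (N : ℕ) (γ : SL(2, ℤ)) (q : Q N) :
    (quotEquiv N).symm (sl γ • q) = γ • (quotEquiv N).symm q := by
  apply (quotEquiv N).injective
  rw [quotEquiv_smul, Equiv.apply_symm_apply, Equiv.apply_symm_apply]

/-- Transport of the index. -/
theorem mu_eq_card (N : ℕ) : mu N = Nat.card (SL(2, ℤ) ⧸ Gamma0 N) :=
  Nat.card_congr (quotEquiv N).symm

/-- Transport of a fixed point count. -/
theorem card_fixed_eq (N : ℕ) (γ : SL(2, ℤ)) :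
    Nat.card {q : Q N // sl γ • q = q} =
      Nat.card (MulAction.fixedBy (SL(2, ℤ) ⧸ Gamma0 N) γ) := by
  refine Nat.card_congr ((quotEquiv N).symm.subtypeEquiv ?_)
  intro q
  rw [MulAction.mem_fixedBy]
  constructor
  · intro h
    rw [← quotEquiv_symm_smul, h]
  · intro h
    apply (quotEquiv N).symm.injective
    rw [quotEquiv_symm_smul, h]

theorem fixS_eq_card (N : ℕ) :
    fixS N = Nat.card (MulAction.fixedBy (SL(2, ℤ) ⧸ Gamma0 N) ModularGroup.S) :=
  card_fixed_eq N ModularGroup.S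

theorem fixR_eq_card (N : ℕ) :
    fixR N = Nat.card (MulAction.fixedBy (SL(2, ℤ) ⧸ Gamma0 N)
      (ModularGroup.S * ModularGroup.T)) :=
  card_fixed_eq N (ModularGroup.S * ModularGroup.T)

/-- Transport of an orbit count for a cyclic subgroup. -/
theorem card_orbits_eq (N : ℕ) (γ : SL(2, ℤ)) :
    Nat.card (MulAction.orbitRel.Quotient (Subgroup.zpowers (sl γ)) (Q N)) =
      Nat.card (MulAction.orbitRel.Quotient (Subgroup.zpowers γ) (SL(2, ℤ) ⧸ Gamma0 N)) := by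
  refine Nat.card_congr (Quotient.congr (quotEquiv N).symm ?_)
  intro a b
  show MulAction.orbitRel _ _ a b ↔ MulAction.orbitRel _ _ _ _
  rw [MulAction.orbitRel_apply, MulAction.orbitRel_apply, MulAction.mem_orbit_iff,
    MulAction.mem_orbit_iff]
  constructor
  · rintro ⟨⟨g, hg⟩, h⟩
    obtain ⟨n, rfl⟩ := Subgroup.mem_zpowers_iff.mp hg
    refine ⟨⟨γ ^ n, Subgroup.zpow_mem_zpowers γ n⟩, ?_⟩
    have h' : (sl γ ^ n) • b = a := h
    show (γ ^ n) • (quotEquiv N).symm b = (quotEquiv N).symm a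
    rw [← quotEquiv_symm_smul, sl_zpow, h']
  · rintro ⟨⟨g, hg⟩, h⟩
    obtain ⟨n, rfl⟩ := Subgroup.mem_zpowers_iff.mp hg
    refine ⟨⟨sl γ ^ n, Subgroup.zpow_mem_zpowers (sl γ) n⟩, ?_⟩
    have h' : (γ ^ n) • (quotEquiv N).symm b = (quotEquiv N).symm a := h
    show (sl γ ^ n) • b = a
    apply (quotEquiv N).symm.injective
    rw [← sl_zpow, quotEquiv_symm_smul, h']

theorem orbT_eq_card (N : ℕ) :
    orbT N = Nat.card (MulAction.orbitRel.Quotient (Subgroup.zpowers ModularGroup.T)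
      (SL(2, ℤ) ⧸ Gamma0 N)) :=
  card_orbits_eq N ModularGroup.T

/-- The four hypotheses `hmu hfixS hfixR horb` of `Final.result_of`, from the four counts on
`SL(2, ℤ) ⧸ Γ₀(N)`. -/
theorem counts_of (N : ℕ)
    (h1 : Nat.card (SL(2, ℤ) ⧸ Gamma0 N) = ModularCurve.dedekindPsi N)
    (h2 : Nat.card (MulAction.fixedBy (SL(2, ℤ) ⧸ Gamma0 N) ModularGroup.S) =
      ModularCurve.nuTwo N)
    (h3 : Nat.card (MulAction.fixedBy (SL(2, ℤ) ⧸ Gamma0 N)
      (ModularGroup.S * ModularGroup.T)) = ModularCurve.nuThree N)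
    (h4 : Nat.card (MulAction.orbitRel.Quotient (Subgroup.zpowers ModularGroup.T)
      (SL(2, ℤ) ⧸ Gamma0 N)) = ModularCurve.cuspCount N) :
    mu N = ModularCurve.dedekindPsi N ∧ fixS N = ModularCurve.nuTwo N ∧
      fixR N = ModularCurve.nuThree N ∧ orbT N = ModularCurve.cuspCount N :=
  ⟨(mu_eq_card N).trans h1, (fixS_eq_card N).trans h2, (fixR_eq_card N).trans h3,
    (orbT_eq_card N).trans h4⟩

end Fermat.Agent.S20.CountBridge
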