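import Mathlib
import Fermat.Prelude.Def_ModularCurve_GenusNumerics

/-!
# Project R (S20/S24), slice R5: the coset space `SL(2,ℤ) ⧸ Γ₀(N)` as `P¹(ℤ/N)`

The first column of a matrix, reduced mod `N`, identifies the left cosets of `Γ₀(N)` with the
unimodular vectors of `(ℤ/N)²` modulo units.  This file provides the model:

* `col N g`: the first column of `g` mod `N`;
* `cross`: the `2 × 2` determinant of two vectors; `g⁻¹ g' ∈ Γ₀(N) ↔ cross (col g) (col g') = 0`;
* `exists_col_eq`: every unimodular vector is the first column of some `g ∈ SL(2,ℤ)`;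
* `cross_eq_zero_iff`: for unimodular vectors, `cross v w = 0` iff `w = u • v` for a unit `u`;
* the left action: `col (h * g) = h.mulVec (col g)`.
-/

set_option autoImplicit false

open CongruenceSubgroup Matrix.SpecialLinearGroup
open scoped MatrixGroups

namespace Fermat.Agent.S20.Count

/-- A vector `(a, c)` is unimodular if it generates the unit ideal. -/
def IsUnimod {R : Type*} [CommRing R] (v : R × R) : Prop := ∃ x y : R, x * v.1 + y * v.2 = 1

/-- The "cross product" (determinant) of two vectors. -/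
def cross {R : Type*} [CommRing R] (v w : R × R) : R := v.1 * w.2 - v.2 * w.1

/-- The first column of `g`, reduced mod `N`. -/
def col (N : ℕ) (g : SL(2, ℤ)) : ZMod N × ZMod N := (((g 0 0 : ℤ) : ZMod N), ((g 1 0 : ℤ) : ZMod N))

theorem col_isUnimod (N : ℕ) (g : SL(2, ℤ)) : IsUnimod (col N g) := by
  refine ⟨((g 1 1 : ℤ) : ZMod N), ((-(g 0 1) : ℤ) : ZMod N), ?_⟩
  have hdet : g 0 0 * g 1 1 - g 0 1 * g 1 0 = 1 := by
    have := g.det_coe
    rw [Matrix.det_fin_two] at this
    exact this
  have : ((g 1 1 * g 0 0 + -(g 0 1) * g 1 0 : ℤ) : ZMod N) = ((1 : ℤ) : ZMod N) := by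
    congr 1; linarith
  simpa [col] using this

/-- `g⁻¹ g' ∈ Γ₀(N)` iff the first columns of `g` and `g'` are proportional mod `N`. -/
theorem inv_mul_mem_Gamma0_iff (N : ℕ) (g g' : SL(2, ℤ)) :
    g⁻¹ * g' ∈ Gamma0 N ↔ cross (col N g) (col N g') = 0 := by
  rw [Gamma0_mem]
  have h : (g⁻¹ * g') 1 0 = g 0 0 * g' 1 0 - g 1 0 * g' 0 0 := by
    rw [Matrix.SpecialLinearGroup.coe_mul, Matrix.SpecialLinearGroup.coe_inv,
      Matrix.adjugate_fin_two, Matrix.mul_apply, Fin.sum_univ_two]
    simp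
    ring
  rw [h]
  simp only [cross, col]
  push_cast
  rfl

/-- Adjusting `A` by a multiple of `N` to make it coprime to `C`. -/
theorem exists_add_mul_coprime (A N C : ℕ) (hC : C ≠ 0) (h : Nat.Coprime (Nat.gcd A N) C) :
    ∃ k : ℕ, Nat.Coprime (A + k * N) C := by
  let ps : Finset ℕ := {p ∈ C.primeFactors | ¬ p ∣ A}
  refine ⟨ps.prod id, ?_⟩
  apply Nat.coprime_of_dvd
  intro p pp hp hpC
  by_cases hpA : p ∣ A
  · -- then `p ∣ k * N`, `p ∤ N`, so `p ∣ k`
    have h1 : p ∣ ps.prod id * N := (Nat.dvd_add_right hpA).mp hp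
    have hpN : ¬ p ∣ N := by
      intro hpN
      have : p ∣ Nat.gcd (Nat.gcd A N) C := Nat.dvd_gcd (Nat.dvd_gcd hpA hpN) hpC
      rw [h] at this
      exact pp.one_lt.ne' (Nat.dvd_one.mp this)
    have h2 : p ∣ ps.prod id := (pp.dvd_mul.mp h1).resolve_right hpN
    obtain ⟨q, hq, hpq⟩ := (Prime.dvd_finsetProd_iff pp.prime id).mp h2
    have hq' : q ∈ C.primeFactors ∧ ¬ q ∣ A := by simpa [ps] using hq
    have hqp : Nat.Prime q := Nat.prime_of_mem_primeFactors hq'.1
    have : p = q := (Nat.prime_dvd_prime_iff_eq pp hqp).mp hpq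
    exact hq'.2 (this ▸ hpA)
  · -- then `p ∈ ps`, so `p ∣ k`, so `p ∣ A`
    have hmem : p ∈ ps := by
      simp only [ps, Finset.mem_filter, Nat.mem_primeFactors]
      exact ⟨⟨pp, hpC, hC⟩, hpA⟩
    have h2 : p ∣ ps.prod id := Finset.dvd_prod_of_mem id hmem
    have : p ∣ A := (Nat.dvd_add_left (Dvd.dvd.mul_right h2 N)).mp hp
    exact hpA this

/-- Every unimodular vector mod `N` is the first column of a matrix in `SL(2,ℤ)`. -/
theorem exists_col_eq (N : ℕ) [NeZero N] {v : ZMod N × ZMod N} (hv : IsUnimod v) :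
    ∃ g : SL(2, ℤ), col N g = v := by
  obtain ⟨a, c⟩ := v
  obtain ⟨x, y, hxy⟩ := hv
  simp only at hxy
  -- integer lifts
  set A : ℕ := a.val with hA
  set C : ℕ := if c.val = 0 then N else c.val with hCdef
  have hC0 : C ≠ 0 := by
    rw [hCdef]
    split_ifs with h
    · exact NeZero.ne N
    · exact h
  have hCc : ((C : ℕ) : ZMod N) = c := by
    rw [hCdef]
    split_ifs with h
    · rw [ZMod.natCast_self]
      exact ((ZMod.val_eq_zero c).mp h).symm
    · exact ZMod.natCast_zmod_val c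
  have hAa : ((A : ℕ) : ZMod N) = a := ZMod.natCast_zmod_val a
  have hcop : Nat.Coprime (Nat.gcd A N) C := by
    apply Nat.coprime_of_dvd
    intro p pp hp1 hp2
    have hpA : p ∣ A := hp1.trans (Nat.gcd_dvd_left A N)
    have hpN : p ∣ N := hp1.trans (Nat.gcd_dvd_right A N)
    -- reduce the Bezout relation mod `p`
    have e : ((x.val * A + y.val * C : ℕ) : ZMod N) = ((1 : ℕ) : ZMod N) := by
      push_cast
      rw [ZMod.natCast_zmod_val x, ZMod.natCast_zmod_val y, hAa, hCc]
      exact hxy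
    have e2 : (x.val * A + y.val * C) ≡ 1 [MOD N] := (ZMod.natCast_eq_natCast_iff _ _ _).mp e
    have e3 : (x.val * A + y.val * C) ≡ 1 [MOD p] := e2.of_dvd hpN
    have e4 : (x.val * A + y.val * C) ≡ 0 [MOD p] :=
      (Nat.modEq_zero_iff_dvd).mpr (dvd_add (Dvd.dvd.mul_left hpA _) (Dvd.dvd.mul_left hp2 _))
    have e5 : 1 ≡ 0 [MOD p] := e3.symm.trans e4
    have : p ∣ 1 := (Nat.modEq_zero_iff_dvd).mp e5
    exact pp.one_lt.ne' (Nat.dvd_one.mp this)
  obtain ⟨k, hk⟩ := exists_add_mul_coprime A N C hC0 hcop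
  -- Bezout for the coprime pair `(A + k N, C)`
  have hk' : IsCoprime ((A + k * N : ℕ) : ℤ) ((C : ℕ) : ℤ) := Nat.isCoprime_iff_coprime.mpr hk
  obtain ⟨u, w, huw⟩ := hk'
  -- the matrix [[A', -w], [C, u]] has determinant A' u + w C = 1
  refine ⟨⟨!![((A + k * N : ℕ) : ℤ), -w; ((C : ℕ) : ℤ), u], ?_⟩, ?_⟩
  · rw [Matrix.det_fin_two_of]
    linear_combination huw
  · simp only [col]
    ext
    · simp only [Matrix.of_apply, Matrix.cons_val', Matrix.cons_val_zero,
        Matrix.cons_val_fin_one]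
      push_cast
      rw [hAa]
      simp
    · simp only [Matrix.of_apply, Matrix.cons_val', Matrix.cons_val_one,
        Matrix.cons_val_zero, Matrix.cons_val_fin_one]
      push_cast
      exact hCc

/-- For unimodular vectors, vanishing of the cross product means proportionality by a unit. -/
theorem cross_eq_zero_iff {R : Type*} [CommRing R] {v w : R × R} (hv : IsUnimod v)
    (hw : IsUnimod w) : cross v w = 0 ↔ ∃ u : Rˣ, w = ((u : R) * v.1, (u : R) * v.2) := by
  constructor
  · intro h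
    obtain ⟨x, y, hxy⟩ := hv
    obtain ⟨x', y', hxy'⟩ := hw
    have hc : v.1 * w.2 = v.2 * w.1 := by
      have := h
      simp only [cross] at this
      linear_combination this
    have h1 : (x * w.1 + y * w.2) * (x' * v.1 + y' * v.2) = 1 := by
      have e1 : (x * w.1 + y * w.2) * v.1 = w.1 := by linear_combination w.1 * hxy + y * hc
      have e2 : (x * w.1 + y * w.2) * v.2 = w.2 := by linear_combination w.2 * hxy - x * hc
      calc (x * w.1 + y * w.2) * (x' * v.1 + y' * v.2)
          = x' * ((x * w.1 + y * w.2) * v.1) + y' * ((x * w.1 + y * w.2) * v.2) := by ring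
        _ = x' * w.1 + y' * w.2 := by rw [e1, e2]
        _ = 1 := hxy'
    refine ⟨⟨x * w.1 + y * w.2, x' * v.1 + y' * v.2, h1, by rw [mul_comm]; exact h1⟩, ?_⟩
    ext
    · simp only
      linear_combination (-w.1) * hxy - y * hc
    · simp only
      linear_combination (-w.2) * hxy + x * hc
  · rintro ⟨u, rfl⟩
    simp only [cross]
    ring

/-- The left multiplication action on first columns. -/
theorem col_mul (N : ℕ) (h g : SL(2, ℤ)) :
    col N (h * g) =
      (((h 0 0 : ℤ) : ZMod N) * (col N g).1 + ((h 0 1 : ℤ) : ZMod N) * (col N g).2,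
        ((h 1 0 : ℤ) : ZMod N) * (col N g).1 + ((h 1 1 : ℤ) : ZMod N) * (col N g).2) := by
  simp only [col, Matrix.SpecialLinearGroup.coe_mul, Matrix.mul_apply, Fin.sum_univ_two]
  push_cast
  rfl

end Fermat.Agent.S20.Count
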