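import Fermat.Agent.S20.IsMF

/-!
# S20 (PROJECT G): translates at function level

`tr k f q := f ∣[k] (rep q)⁻¹` for a coset `q` with representative `rep q : SL(2, ℤ)`; for a
`Γ₀(N)`-invariant `f` this is Mathlib's `quotientFunc f q`, and it is additive / multiplicative
in `f` without any invariance hypothesis.
-/

set_option autoImplicit false

noncomputable section

namespace Fermat.Agent.S20

open UpperHalfPlane SlashInvariantForm CongruenceSubgroup

open scoped ModularForm Manifold MatrixGroups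

variable {N : ℕ}

/-- A representative in `SL(2, ℤ)` of a coset. -/
def rep (q : Q N) : SL(2, ℤ) := Classical.choose (q.out : 𝒮ℒ).2

theorem mapGL_rep (q : Q N) :
    Matrix.SpecialLinearGroup.mapGL ℝ (rep q) = ((q.out : 𝒮ℒ) : GL (Fin 2) ℝ) :=
  Classical.choose_spec (q.out : 𝒮ℒ).2

theorem sl_rep (q : Q N) : sl (rep q) = (q.out : 𝒮ℒ) := Subtype.ext (mapGL_rep q)

theorem mk_sl_rep (q : Q N) : (⟦sl (rep q)⟧ : Q N) = q := by
  rw [sl_rep]
  exact Quotient.out_eq q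

/-- The translate of a function by (the inverse of) a representative of the coset `q`. -/
def tr (k : ℤ) (f : ℍ → ℂ) (q : Q N) : ℍ → ℂ := f ∣[k] (rep q)⁻¹

theorem quotientFunc_eq_tr {k : ℤ} {F : Type*} [FunLike F ℍ ℂ]
    [SlashInvariantFormClass F (G0 N) k] (f : F) (q : Q N) :
    quotientFunc f q = tr k (⇑f) q := by
  conv_lhs => rw [← Quotient.out_eq q]
  rw [quotientFunc_mk, ← mapGL_rep, tr, ModularForm.SL_slash, map_inv]
  rfl

theorem tr_add (k : ℤ) (f f' : ℍ → ℂ) (q : Q N) : tr k (f + f') q = tr k f q + tr k f' q := by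
  simp [tr, SlashAction.add_slash]

theorem tr_zero (k : ℤ) (q : Q N) : tr k (0 : ℍ → ℂ) q = 0 := by
  simp [tr, SlashAction.zero_slash]

theorem tr_sum {ι : Type*} (s : Finset ι) (k : ℤ) (f : ι → ℍ → ℂ) (q : Q N) :
    tr k (∑ i ∈ s, f i) q = ∑ i ∈ s, tr k (f i) q := by
  simp [tr, SlashAction.sum_slash]

theorem tr_mul (k k' : ℤ) (f f' : ℍ → ℂ) (q : Q N) :
    tr (k + k') (f * f') q = tr k f q * tr k' f' q := by
  unfold tr
  rw [ModularForm.mul_slash_SL2]

theorem tr_smul (k : ℤ) (c : ℂ) (f : ℍ → ℂ) (q : Q N) : tr k (c • f) q = c • tr k f q := by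
  unfold tr
  rw [ModularForm.SL_smul_slash]

/-- Level one forms are their own translates. -/
theorem tr_levelOne {k : ℤ} {c : ℍ → ℂ} (hc : IsMF 𝒮ℒ k c) (q : Q N) : tr k c q = c := by
  obtain ⟨C, rfl⟩ := hc
  rw [tr, ModularForm.SL_slash]
  exact SlashInvariantFormClass.slash_action_eq C _ ⟨(rep q)⁻¹, rfl⟩

theorem tr_levelOne_mul {k k' : ℤ} {c : ℍ → ℂ} (hc : IsMF 𝒮ℒ k c) (f : ℍ → ℂ) (q : Q N) :
    tr (k + k') (c * f) q = c * tr k' f q := by
  rw [tr_mul, tr_levelOne hc]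

theorem tr_pow (k : ℤ) (f : ℍ → ℂ) (n : ℕ) (q : Q N) : tr (n * k) (f ^ n) q = (tr k f q) ^ n := by
  induction n with
  | zero =>
    simp only [Nat.cast_zero, zero_mul, pow_zero]
    exact tr_levelOne (N := N) ⟨(1 : ModularForm 𝒮ℒ 0), by ext; simp⟩ q
  | succ n ih =>
    have : ((n + 1 : ℕ) : ℤ) * k = n * k + k := by push_cast; ring
    rw [this, pow_succ, tr_mul, ih, pow_succ]

/-- The translate attached to the trivial coset. -/
theorem tr_one_coset {k : ℤ} {f : ℍ → ℂ} (hf : IsMF (G0 N) k f) :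
    tr k f (⟦1⟧ : Q N) = f := by
  obtain ⟨F, rfl⟩ := hf
  rw [← quotientFunc_eq_tr, quotientFunc_mk]
  simp

/-- The translates are permuted by `SL(2, ℤ)`. -/
theorem tr_slash {k : ℤ} {f : ℍ → ℂ} (hf : IsMF (G0 N) k f) (γ : SL(2, ℤ)) (q : Q N) :
    (tr k f q) ∣[k] γ = tr k f ((sl γ)⁻¹ • q) := by
  obtain ⟨F, rfl⟩ := hf
  rw [← quotientFunc_eq_tr, ← quotientFunc_eq_tr, ModularForm.SL_slash]
  exact quotientFunc_smul F (sl γ).2 q

theorem mdifferentiable_tr {k : ℤ} {f : ℍ → ℂ} (hf : IsMF (G0 N) k f) (q : Q N) :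
    MDiff (tr k f q) := by
  obtain ⟨F, rfl⟩ := hf
  rw [← quotientFunc_eq_tr]
  induction q using Quotient.inductionOn with
  | h r => exact (ModularForm.translate F (r : GL (Fin 2) ℝ)⁻¹).holo'

/-- The trace of a `Γ₀(N)`-form is the sum of its translates. -/
theorem isMF_sum_tr [NeZero N] {k : ℤ} {f : ℍ → ℂ} (hf : IsMF (G0 N) k f) :
    IsMF 𝒮ℒ k (∑ q : Q N, tr k f q) := by
  obtain ⟨F, rfl⟩ := hf
  refine ⟨ModularForm.trace 𝒮ℒ F, ?_⟩
  rw [ModularForm.coe_trace]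
  refine Finset.sum_congr ?_ fun q _ => quotientFunc_eq_tr F q
  ext; simp

end Fermat.Agent.S20
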