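import Fermat.Agent.S20.CountCusp
import Fermat.Agent.S20.CountBridge
import Fermat.Agent.S24.Counting.Card
import Fermat.Agent.S24.Counting.Cusps

/-!
# S20: the counting inputs, assembled

Hypothesis-free forms of the counting facts on `SL(2, ℤ) ⧸ Γ₀(N)`:

* `card_Q : #(SL(2,ℤ) ⧸ Γ₀(N)) = ψ(N)`, `index_Gamma0 : [SL(2,ℤ) : Γ₀(N)] = ψ(N)`;
* `mu_eq`, `fixS_eq`, `fixR_eq` in the vocabulary of `S20/Defs.lean`;
* `orbT_eq_of`: `orbT N = cuspCount N` from a count of cusp classes of unimodular vectors.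
-/

set_option autoImplicit false

open CongruenceSubgroup Matrix.SpecialLinearGroup
open scoped MatrixGroups

namespace Fermat.Agent.S20.CountFinal

open Fermat.Agent.S20.Count

variable (N : ℕ) [NeZero N]

/-- `#(SL(2,ℤ) ⧸ Γ₀(N)) = ψ(N)`. -/
theorem card_Q : Nat.card (SL(2, ℤ) ⧸ Gamma0 N) = ModularCurve.dedekindPsi N :=
  card_Q_of_card_prim N (Fermat.Agent.S24.Counting.Card.card_prim N)

/-- `[SL(2,ℤ) : Γ₀(N)] = ψ(N)`. -/
theorem index_Gamma0 : (Gamma0 N).index = ModularCurve.dedekindPsi N :=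
  index_Gamma0_of_card_prim N (Fermat.Agent.S24.Counting.Card.card_prim N)

omit [NeZero N] in
/-- The number of unimodular vectors mod `N`. -/
theorem card_V : Nat.card (V N) = N.totient * ModularCurve.dedekindPsi N :=
  Fermat.Agent.S24.Counting.Card.card_prim N

theorem mu_eq : Fermat.Agent.S20.mu N = ModularCurve.dedekindPsi N :=
  (Fermat.Agent.S20.CountBridge.mu_eq_card N).trans (card_Q N)

theorem fixS_eq : Fermat.Agent.S20.fixS N = ModularCurve.nuTwo N :=
  (Fermat.Agent.S20.CountBridge.fixS_eq_card N).trans (card_fixedBy_S N)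

theorem fixR_eq : Fermat.Agent.S20.fixR N = ModularCurve.nuThree N :=
  (Fermat.Agent.S20.CountBridge.fixR_eq_card N).trans (card_fixedBy_ST N)

/-- The cusp count, from the count of classes of unimodular vectors under
`(a, c) ∼ (u (a + k c), u c)`. -/
theorem card_orbits_T_of (s : Setoid (V N)) (hs : ∀ v w, s.r v w ↔ CuspRel N v w)
    (h : Nat.card (Quotient s) = ModularCurve.cuspCount N) :
    Nat.card (MulAction.orbitRel.Quotient (Subgroup.zpowers ModularGroup.T)
      (SL(2, ℤ) ⧸ Gamma0 N)) = ModularCurve.cuspCount N :=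
  (card_orbits_T_eq N s hs).trans h

theorem orbT_eq_of (s : Setoid (V N)) (hs : ∀ v w, s.r v w ↔ CuspRel N v w)
    (h : Nat.card (Quotient s) = ModularCurve.cuspCount N) :
    Fermat.Agent.S20.orbT N = ModularCurve.cuspCount N :=
  (Fermat.Agent.S20.CountBridge.orbT_eq_card N).trans (card_orbits_T_of N s hs h)

/-- **The number of cusps**: `#(⟨T⟩-orbits on SL(2,ℤ) ⧸ Γ₀(N)) = cuspCount N`. -/
theorem card_orbits_T :
    Nat.card (MulAction.orbitRel.Quotient (Subgroup.zpowers ModularGroup.T)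
      (SL(2, ℤ) ⧸ Gamma0 N)) = ModularCurve.cuspCount N :=
  card_orbits_T_of N (Fermat.Agent.S24.Counting.Cusps.cuspRel N) (fun _ _ => Iff.rfl)
    (Fermat.Agent.S24.Counting.Cusps.card_cusps N)

theorem orbT_eq : Fermat.Agent.S20.orbT N = ModularCurve.cuspCount N :=
  orbT_eq_of N (Fermat.Agent.S24.Counting.Cusps.cuspRel N) (fun _ _ => Iff.rfl)
    (Fermat.Agent.S24.Counting.Cusps.card_cusps N)

/-- The number of `⟨g T g⁻¹⟩`-orbits is `cuspCount N` too. -/
theorem card_orbits_conj_T (g : SL(2, ℤ)) :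
    Nat.card (MulAction.orbitRel.Quotient (Subgroup.zpowers (g * ModularGroup.T * g⁻¹))
      (SL(2, ℤ) ⧸ Gamma0 N)) = ModularCurve.cuspCount N :=
  (card_orbits_conj g ModularGroup.T).trans (card_orbits_T N)

/-- The four counting hypotheses of `Fermat.Agent.S20.result_of`. -/
theorem counts : Fermat.Agent.S20.mu N = ModularCurve.dedekindPsi N ∧
    Fermat.Agent.S20.fixS N = ModularCurve.nuTwo N ∧
    Fermat.Agent.S20.fixR N = ModularCurve.nuThree N ∧
    Fermat.Agent.S20.orbT N = ModularCurve.cuspCount N :=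
  ⟨mu_eq N, fixS_eq N, fixR_eq N, orbT_eq N⟩

/-! ### Orbit counts, hypothesis-free -/

open ModularGroup MulAction in
/-- `2 * #(⟨S⟩-orbits) = ψ(N) + ν₂(N)`. -/
theorem two_mul_card_orbits_S :
    2 * Nat.card (orbitRel.Quotient (Subgroup.zpowers S) (SL(2, ℤ) ⧸ Gamma0 N)) =
      ModularCurve.dedekindPsi N + ModularCurve.nuTwo N := by
  rw [← card_Q N]
  exact Fermat.Agent.S20.Count.two_mul_card_orbits_S N

open ModularGroup MulAction in
/-- `2 * #(⟨g S g⁻¹⟩-orbits) = ψ(N) + ν₂(N)`. -/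
theorem two_mul_card_orbits_conj_S (g : SL(2, ℤ)) :
    2 * Nat.card (orbitRel.Quotient (Subgroup.zpowers (g * S * g⁻¹)) (SL(2, ℤ) ⧸ Gamma0 N)) =
      ModularCurve.dedekindPsi N + ModularCurve.nuTwo N := by
  rw [← card_Q N]
  exact Fermat.Agent.S20.Count.two_mul_card_orbits_conj_S N g

open ModularGroup MulAction in
/-- `3 * #(⟨S T⟩-orbits) = ψ(N) + 2 ν₃(N)`. -/
theorem three_mul_card_orbits_ST :
    3 * Nat.card (orbitRel.Quotient (Subgroup.zpowers (S * T)) (SL(2, ℤ) ⧸ Gamma0 N)) =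
      ModularCurve.dedekindPsi N + 2 * ModularCurve.nuThree N := by
  rw [← card_Q N]
  exact Fermat.Agent.S20.Count.three_mul_card_orbits_ST N

open ModularGroup MulAction in
/-- `3 * #(⟨g (S T) g⁻¹⟩-orbits) = ψ(N) + 2 ν₃(N)`. -/
theorem three_mul_card_orbits_conj_ST (g : SL(2, ℤ)) :
    3 * Nat.card (orbitRel.Quotient (Subgroup.zpowers (g * (S * T) * g⁻¹))
      (SL(2, ℤ) ⧸ Gamma0 N)) =
      ModularCurve.dedekindPsi N + 2 * ModularCurve.nuThree N := by
  rw [← card_Q N]
  exact Fermat.Agent.S20.Count.three_mul_card_orbits_conj_ST N g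

/-! ### Orbits of a cyclic subgroup = cycles of the permutation -/

section cycles

variable {G X : Type*} [Group G] [MulAction G X]

omit [NeZero N] in
theorem toPerm_zpow (g : G) (n : ℤ) :
    (MulAction.toPerm g : Equiv.Perm X) ^ n = MulAction.toPerm (g ^ n) :=
  (map_zpow (MulAction.toPermHom G X) g n).symm

omit [NeZero N] in
/-- Two points are in the same `⟨g⟩`-orbit iff they are in the same cycle of the permutation
`x ↦ g • x`. -/
theorem orbitRel_zpowers_iff_sameCycle (g : G) (x y : X) :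
    MulAction.orbitRel (Subgroup.zpowers g) X x y ↔
      Equiv.Perm.SameCycle (MulAction.toPerm g : Equiv.Perm X) y x := by
  rw [MulAction.orbitRel_apply, MulAction.mem_orbit_iff]
  constructor
  · rintro ⟨⟨h, hh⟩, rfl⟩
    obtain ⟨n, rfl⟩ := Subgroup.mem_zpowers_iff.mp hh
    refine ⟨n, ?_⟩
    rw [toPerm_zpow]
    rfl
  · rintro ⟨n, hn⟩
    refine ⟨⟨g ^ n, Subgroup.zpow_mem_zpowers g n⟩, ?_⟩
    rw [← hn, toPerm_zpow]
    rfl

omit [NeZero N] in
/-- The number of `⟨g⟩`-orbits is the number of cycles (fixed points included) of the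
permutation `x ↦ g • x`. -/
theorem card_orbits_zpowers_eq_card_cycles (g : G) :
    Nat.card (MulAction.orbitRel.Quotient (Subgroup.zpowers g) X) =
      Nat.card (Quotient (Equiv.Perm.SameCycle.setoid (MulAction.toPerm g : Equiv.Perm X))) := by
  refine Nat.card_congr (Quotient.congr (Equiv.refl X) ?_)
  intro a b
  show MulAction.orbitRel (Subgroup.zpowers g) X a b ↔
    Equiv.Perm.SameCycle (MulAction.toPerm g : Equiv.Perm X) a b
  rw [orbitRel_zpowers_iff_sameCycle]
  exact ⟨Equiv.Perm.SameCycle.symm, Equiv.Perm.SameCycle.symm⟩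

end cycles

end Fermat.Agent.S20.CountFinal
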