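import Fermat.Agent.S20.Defs

/-!
# S20 (PROJECT G): function-level modular forms

`IsMF Γ k f` says that the function `f : ℍ → ℂ` is (the coercion of) a modular form of weight `k`
and level `Γ`.  Working with functions avoids all weight casts.
-/

set_option autoImplicit false

noncomputable section

namespace Fermat.Agent.S20

open UpperHalfPlane SlashInvariantForm CongruenceSubgroup

open scoped ModularForm Manifold MatrixGroups

/-- `f` is a modular form of weight `k` and level `Γ`. -/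
def IsMF (Γ : Subgroup (GL (Fin 2) ℝ)) (k : ℤ) (f : ℍ → ℂ) : Prop :=
  ∃ F : ModularForm Γ k, ⇑F = f

namespace IsMF

variable {Γ : Subgroup (GL (Fin 2) ℝ)} {k k' : ℤ} {f f' : ℍ → ℂ}

theorem coe (F : ModularForm Γ k) : IsMF Γ k F := ⟨F, rfl⟩

theorem cast (h : IsMF Γ k f) (hk : k = k') : IsMF Γ k' f := hk ▸ h

theorem congr (h : IsMF Γ k f) (hf : f = f') : IsMF Γ k f' := hf ▸ h

theorem zero : IsMF Γ k (0 : ℍ → ℂ) := ⟨0, rfl⟩

theorem add (h : IsMF Γ k f) (h' : IsMF Γ k f') : IsMF Γ k (f + f') := by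
  obtain ⟨F, rfl⟩ := h
  obtain ⟨F', rfl⟩ := h'
  exact ⟨F + F', rfl⟩

theorem neg (h : IsMF Γ k f) : IsMF Γ k (-f) := by
  obtain ⟨F, rfl⟩ := h
  exact ⟨-F, rfl⟩

theorem sub (h : IsMF Γ k f) (h' : IsMF Γ k f') : IsMF Γ k (f - f') := by
  obtain ⟨F, rfl⟩ := h
  obtain ⟨F', rfl⟩ := h'
  exact ⟨F - F', rfl⟩

theorem smul [Γ.HasDetOne] (c : ℂ) (h : IsMF Γ k f) : IsMF Γ k (c • f) := by
  obtain ⟨F, rfl⟩ := h
  exact ⟨c • F, rfl⟩

theorem mul [Γ.HasDetPlusMinusOne] (h : IsMF Γ k f) (h' : IsMF Γ k' f') :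
    IsMF Γ (k + k') (f * f') := by
  obtain ⟨F, rfl⟩ := h
  obtain ⟨F', rfl⟩ := h'
  exact ⟨F.mul F', rfl⟩

theorem pow [Γ.HasDetPlusMinusOne] (h : IsMF Γ k f) (n : ℕ) : IsMF Γ (n * k) (f ^ n) := by
  obtain ⟨F, rfl⟩ := h
  exact ⟨F.pow n, ModularForm.coe_pow F n⟩

theorem sum {ι : Type*} (s : Finset ι) {g : ι → ℍ → ℂ} (h : ∀ i ∈ s, IsMF Γ k (g i)) :
    IsMF Γ k (∑ i ∈ s, g i) := by
  classical
  induction s using Finset.induction_on with
  | empty => simpa using zero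
  | insert i t hi IH =>
    rw [Finset.sum_insert hi]
    exact (h i (Finset.mem_insert_self i t)).add
      (IH fun j hj => h j (Finset.mem_insert_of_mem hj))

theorem const [Γ.HasDetOne] (c : ℂ) : IsMF Γ 0 (fun _ => c) := ⟨ModularForm.const c, rfl⟩

/-- Restriction of the level. -/
theorem mono {Γ' : Subgroup (GL (Fin 2) ℝ)} (hΓ : Γ' ≤ Γ) (h : IsMF Γ k f) : IsMF Γ' k f := by
  obtain ⟨F, rfl⟩ := h
  exact ⟨{ toFun := F
           slash_action_eq' := fun γ hγ => F.slash_action_eq' γ (hΓ hγ)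
           holo' := F.holo'
           bdd_at_cusps' := fun hc => F.bdd_at_cusps' (hc.mono hΓ) }, rfl⟩

end IsMF

theorem G0_le_SL (N : ℕ) : G0 N ≤ 𝒮ℒ :=
  Subgroup.map_le_range (Matrix.SpecialLinearGroup.mapGL ℝ) (Gamma0 N)

/-- A level one form is a form for `Γ₀(N)`. -/
theorem IsMF.ofLevelOne {N : ℕ} {k : ℤ} {f : ℍ → ℂ} (h : IsMF 𝒮ℒ k f) : IsMF (G0 N) k f :=
  h.mono (G0_le_SL N)

end Fermat.Agent.S20
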