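import Fermat.Agent.S20.CountFinal

/-!
# Sizes of the orbits of `⟨S⟩`, `⟨S T⟩`, `⟨T⟩` (and conjugates) on `SL(2,ℤ) ⧸ Γ₀(N)`

* general: the orbit of `x` under `⟨g⟩` has `minimalPeriod (g • ·) x` elements; it divides any `n`
  with `g ^ n • x = x`; for a prime `p` it is `1` or `p` according to whether `g • x = x`;
* `S ^ 2`, `(S T) ^ 3`, `T ^ N` (and their conjugates) act trivially on `SL(2,ℤ) ⧸ Γ₀(N)`;
* orbit sizes: `1` or `2` for `S`, `1` or `3` for `S T`, a divisor of `N` for `T`.
-/

set_option autoImplicit false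

open CongruenceSubgroup Matrix.SpecialLinearGroup ModularGroup MulAction
open scoped MatrixGroups

namespace Fermat.Agent.S20.Count

section general

variable {G X : Type*} [Group G] [MulAction G X]

/-- The `⟨g⟩`-orbit of `x` has `minimalPeriod (g • ·) x` elements. -/
theorem card_orbit_zpowers (g : G) (x : X) :
    Nat.card (orbit (Subgroup.zpowers g) x) = Function.minimalPeriod (g • ·) x := by
  rw [Nat.card_congr (orbitZPowersEquiv g x), Nat.card_zmod]

theorem isPeriodicPt_of_pow_smul (g : G) (x : X) (n : ℕ) (h : g ^ n • x = x) :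
    Function.IsPeriodicPt (g • ·) n x := by
  rw [Function.IsPeriodicPt, Function.IsFixedPt, smul_iterate]
  exact h

/-- The size of the `⟨g⟩`-orbit of `x` divides any `n` with `g ^ n • x = x`. -/
theorem card_orbit_zpowers_dvd (g : G) (x : X) (n : ℕ) (h : g ^ n • x = x) :
    Nat.card (orbit (Subgroup.zpowers g) x) ∣ n := by
  rw [card_orbit_zpowers]
  exact (isPeriodicPt_of_pow_smul g x n h).minimalPeriod_dvd

/-- For a prime `p` with `g ^ p • x = x`, the `⟨g⟩`-orbit of `x` has `1` or `p` elements. -/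
theorem card_orbit_zpowers_prime (g : G) (x : X) (p : ℕ) (hp : p.Prime) (h : g ^ p • x = x)
    [Decidable (g • x = x)] :
    Nat.card (orbit (Subgroup.zpowers g) x) = if g • x = x then 1 else p := by
  have hd := card_orbit_zpowers_dvd g x p h
  rw [card_orbit_zpowers] at hd ⊢
  split_ifs with hfix
  · exact Function.minimalPeriod_eq_one_iff_isFixedPt.mpr hfix
  · rcases (Nat.dvd_prime hp).mp hd with h1 | h1
    · exact absurd (Function.minimalPeriod_eq_one_iff_isFixedPt.mp h1) hfix
    · exact h1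

/-- The class of `x` for the orbit relation is its orbit. -/
theorem card_class_orbitRel (H : Subgroup G) (x : X) :
    Nat.card {y : X // orbitRel H X x y} = Nat.card (orbit H x) := by
  refine Nat.card_congr (Equiv.subtypeEquivRight fun y => ?_)
  rw [orbitRel_apply]
  exact ⟨fun h => (orbitRel H X).symm h, fun h => (orbitRel H X).symm h⟩

theorem card_class_orbitRel' (H : Subgroup G) (x : X) :
    Nat.card {y : X // orbitRel H X y x} = Nat.card (orbit H x) := by
  refine Nat.card_congr (Equiv.subtypeEquivRight fun y => ?_)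
  rw [orbitRel_apply]

/-- If `s ^ n` acts trivially, so does `(g s g⁻¹) ^ n`. -/
theorem conj_pow_smul (g s : G) (n : ℕ) (h : ∀ x : X, s ^ n • x = x) (x : X) :
    (g * s * g⁻¹) ^ n • x = x := by
  rw [conj_pow, mul_smul, mul_smul, h, smul_inv_smul]

end general

variable (N : ℕ) [NeZero N]

omit [NeZero N] in
theorem S_sq_smul (q : Q N) : S ^ 2 • q = q := by
  have e2 : (S : SL(2, ℤ)) ^ 2 = -1 := by decide
  rw [e2, neg_one_smul]

omit [NeZero N] in
theorem ST_cube_smul (q : Q N) : (S * T) ^ 3 • q = q := by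
  have e3 : (S * T : SL(2, ℤ)) ^ 3 = -1 := by decide
  rw [e3, neg_one_smul]

omit [NeZero N] in
theorem T_pow_N_smul (q : Q N) : T ^ N • q = q := by
  induction q using QuotientGroup.induction_on with
  | H g =>
    rw [smul_mk, mk_eq_mk_iff]
    have h := col_T_zpow_mul N (N : ℤ) g
    rw [zpow_natCast] at h
    rw [h]
    simp [cross]
    ring

omit [NeZero N] in
/-- The orbit of `q` under `⟨g S g⁻¹⟩` has `1` or `2` elements. -/
theorem card_orbit_conj_S (g : SL(2, ℤ)) (q : Q N) [Decidable ((g * S * g⁻¹) • q = q)] :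
    Nat.card (orbit (Subgroup.zpowers (g * S * g⁻¹)) q) =
      if (g * S * g⁻¹) • q = q then 1 else 2 :=
  card_orbit_zpowers_prime _ q 2 Nat.prime_two (conj_pow_smul g S 2 (S_sq_smul N) q)

omit [NeZero N] in
theorem card_orbit_S (q : Q N) [Decidable (S • q = q)] :
    Nat.card (orbit (Subgroup.zpowers S) q) = if S • q = q then 1 else 2 :=
  card_orbit_zpowers_prime _ q 2 Nat.prime_two (S_sq_smul N q)

omit [NeZero N] in
/-- The orbit of `q` under `⟨g (S T) g⁻¹⟩` has `1` or `3` elements. -/
theorem card_orbit_conj_ST (g : SL(2, ℤ)) (q : Q N) [Decidable ((g * (S * T) * g⁻¹) • q = q)] :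
    Nat.card (orbit (Subgroup.zpowers (g * (S * T) * g⁻¹)) q) =
      if (g * (S * T) * g⁻¹) • q = q then 1 else 3 :=
  card_orbit_zpowers_prime _ q 3 Nat.prime_three (conj_pow_smul g (S * T) 3 (ST_cube_smul N) q)

omit [NeZero N] in
theorem card_orbit_ST (q : Q N) [Decidable ((S * T) • q = q)] :
    Nat.card (orbit (Subgroup.zpowers (S * T)) q) = if (S * T) • q = q then 1 else 3 :=
  card_orbit_zpowers_prime _ q 3 Nat.prime_three (ST_cube_smul N q)

omit [NeZero N] in
/-- The orbit of `q` under `⟨g T g⁻¹⟩` (the width of the cusp) divides `N`. -/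
theorem card_orbit_conj_T_dvd (g : SL(2, ℤ)) (q : Q N) :
    Nat.card (orbit (Subgroup.zpowers (g * T * g⁻¹)) q) ∣ N :=
  card_orbit_zpowers_dvd _ q N (conj_pow_smul g T N (T_pow_N_smul N) q)

omit [NeZero N] in
theorem card_orbit_T_dvd (q : Q N) : Nat.card (orbit (Subgroup.zpowers T) q) ∣ N :=
  card_orbit_zpowers_dvd _ q N (T_pow_N_smul N q)

/-- The orbits are nonempty finite, so their sizes are positive. -/
theorem card_orbit_pos (H : Subgroup SL(2, ℤ)) (q : Q N) : 0 < Nat.card (orbit H q) := by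
  haveI : Nonempty (orbit H q) := ⟨⟨q, mem_orbit_self q⟩⟩
  exact Nat.card_pos

end Fermat.Agent.S20.Count
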