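import Fermat.Agent.S20.Translates

/-!
# S20 (PROJECT G), slice [F]: the interface between the orbit/DFT bookkeeping (F1)-(F3)
and the analytic consequences (F4)-(F6).
-/

set_option autoImplicit false

noncomputable section

namespace Fermat.Agent.S20

open UpperHalfPlane

open scoped Real

/-- The output of the orbit/DFT bookkeeping (F1)-(F3): a constant invertible matrix `Λ` whose rows
are eigenvectors of the permutation of the translates induced by `τ ↦ τ + 1`, with eigenvalues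
`exp (2 π i e r)`, `0 ≤ e r ≤ 1 - 1/μ`, `2 ∑ e r = μ - c`. -/
structure DFTData (N : ℕ) [NeZero N] where
  /-- the constant block-DFT matrix -/
  Λ : Matrix (Q N) (Q N) ℂ
  /-- its inverse -/
  Λinv : Matrix (Q N) (Q N) ℂ
  hΛ : Λinv * Λ = 1
  /-- the exponents `b / h` of the rows -/
  e : Q N → ℝ
  e_nonneg : ∀ r, 0 ≤ e r
  e_le : ∀ r, e r ≤ 1 - 1 / (mu N : ℝ)
  sum_e : 2 * ∑ r, e r = (mu N : ℝ) - orbT N
  periodic : ∀ (k : ℤ) (f : ℍ → ℂ), IsMF (G0 N) k f → ∀ r τ,
    (∑ q, Λ r q * tr k f q ((1 : ℝ) +ᵥ τ)) =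
      Complex.exp (2 * π * Complex.I * e r) * ∑ q, Λ r q * tr k f q τ

end Fermat.Agent.S20
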