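import Mathlib
import Fermat.Prelude.Def_ModularCurve_GenusNumerics

/-!
# S20 (PROJECT G): common definitions

`M_*(Γ₀(N))` as a free graded module over `M_*(SL₂(ℤ)) = ℂ[E₄, E₆]`, the matrix of translates
of a homogeneous basis, and the permutation data of `S`, `ST`, `T` on the coset space.
-/

set_option autoImplicit false

noncomputable section

namespace Fermat.Agent.S20

open UpperHalfPlane SlashInvariantForm CongruenceSubgroup

open scoped ModularForm Manifold MatrixGroups

/-- `Γ₀(N)` as a subgroup of `GL(2, ℝ)`. -/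
abbrev G0 (N : ℕ) : Subgroup (GL (Fin 2) ℝ) := (Gamma0 N : Subgroup (GL (Fin 2) ℝ))

/-- The coset space `SL(2, ℤ) ⧸ Γ₀(N)` in the form used by Mathlib's `NormTrace`
(`quotientFunc f q` = the translate of `f` attached to the coset `q`). -/
abbrev Q (N : ℕ) : Type := 𝒮ℒ ⧸ (G0 N).subgroupOf 𝒮ℒ

/-- An element of `SL(2, ℤ)` as an element of the subgroup `𝒮ℒ` of `GL(2, ℝ)`. -/
def sl (γ : SL(2, ℤ)) : 𝒮ℒ := ⟨Matrix.SpecialLinearGroup.mapGL ℝ γ, γ, rfl⟩

instance (N : ℕ) [NeZero N] : Finite (Q N) := inferInstance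

instance instFintypeQ (N : ℕ) [NeZero N] : Fintype (Q N) := Fintype.ofFinite _

instance instDecEqQ (N : ℕ) : DecidableEq (Q N) := Classical.decEq _

/-- The index `μ = [SL(2, ℤ) : Γ₀(N)]`. -/
def mu (N : ℕ) : ℕ := Nat.card (Q N)

/-- Number of fixed points of `S` on the coset space. -/
def fixS (N : ℕ) : ℕ := Nat.card {q : Q N // sl ModularGroup.S • q = q}

/-- Number of fixed points of `S * T` on the coset space. -/
def fixR (N : ℕ) : ℕ := Nat.card {q : Q N // sl (ModularGroup.S * ModularGroup.T) • q = q}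

/-- Number of orbits of `⟨T⟩` on the coset space (= number of cusps). -/
def orbT (N : ℕ) : ℕ :=
  Nat.card (MulAction.orbitRel.Quotient (Subgroup.zpowers (sl ModularGroup.T)) (Q N))

/-- A homogeneous basis of `M_*(Γ₀(N))` over `M_*(SL₂(ℤ))`, indexed by the coset space
(so that the matrix of translates is square). -/
structure Gens (N : ℕ) [NeZero N] where
  /-- the weights of the generators -/
  κ : Q N → ℕ
  /-- the generators -/
  F : (j : Q N) → ModularForm (G0 N) (κ j)
  /-- every modular form is a combination with level one coefficients -/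
  gen : ∀ (k : ℤ) (f : ModularForm (G0 N) k),
    ∃ c : (j : Q N) → ModularForm 𝒮ℒ (k - κ j), ∀ τ, f τ = ∑ j, c j τ * F j τ
  /-- the generators are independent over level one -/
  indep : ∀ (k : ℤ) (c : (j : Q N) → ModularForm 𝒮ℒ (k - κ j)),
    (∀ τ, ∑ j, c j τ * F j τ = 0) → ∀ j, c j = 0

variable {N : ℕ} [NeZero N]

/-- The matrix of translates of the generators: rows = cosets, columns = generators. -/
def Gens.Φ (g : Gens N) (τ : ℍ) : Matrix (Q N) (Q N) ℂ :=
  fun q j => quotientFunc (g.F j) q τ

/-- Number of generators of weight `k`. -/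
def Gens.m (g : Gens N) (k : ℕ) : ℕ := (Finset.univ.filter fun j => g.κ j = k).card

end Fermat.Agent.S20
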