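import Mathlib
import Fermat.Agent.S20.Defs
import Fermat.Agent.S23.Removable

/-!
# S20 (PROJECT G), slice [B]: division of modular forms for `Γ₀(N)` by level one forms

* `exists_form`: the generic quotient construction;
* `regular` (B1): `E₆ g = E₄ h ⟹ g = E₄ u`;
* `div_delta` (B3): all translates `O(e^{-2π Im τ})` ⟹ `f = Δ u`;
* `div_simple` (B2): `f` vanishes on the (simple) zeros of a level one form `Q` with non-zero value
  at `i∞` ⟹ `f = Q u`.
-/

set_option autoImplicit false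

namespace Fermat.Agent.S20.Divide

open UpperHalfPlane ModularForm CongruenceSubgroup Filter Topology Asymptotics SlashInvariantForm
open scoped ModularForm Manifold MatrixGroups

variable {N : ℕ} [NeZero N]

/-- A level one form is invariant under every element of `SL(2, ℤ)`. -/
theorem levelOne_slash {w : ℤ} (D : ModularForm 𝒮ℒ w) (γ : SL(2, ℤ)) :
    (⇑D : ℍ → ℂ) ∣[w] γ = ⇑D := by
  rw [ModularForm.SL_slash]
  exact SlashInvariantFormClass.slash_action_eq D _ ⟨γ, rfl⟩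

/-- Slashing a product with a level one form. -/
theorem slash_of_eq_mul {k w : ℤ} {f u : ℍ → ℂ} (D : ModularForm 𝒮ℒ w)
    (heq : ∀ τ, f τ = D τ * u τ) (γ : SL(2, ℤ)) (τ : ℍ) :
    (f ∣[k] γ) τ = D τ * (u ∣[k - w] γ) τ := by
  have hf : f = ⇑D * u := funext heq
  have h1 := ModularForm.mul_slash_SL2 w (k - w) γ (⇑D) u
  have hk : w + (k - w) = k := by ring
  rw [hk, levelOne_slash D γ] at h1
  rw [hf, h1]
  rfl

/-- **Generic quotient.** A holomorphic `u` with `f = D * u`, `f` modular for `Γ₀(N)`, `D` of level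
one, is a modular form for `Γ₀(N)` as soon as every translate of `f` is `O(D)` at `i∞`. -/
theorem exists_form {k w : ℤ} (f : ModularForm (G0 N) k) (D : ModularForm 𝒮ℒ w) (u : ℍ → ℂ)
    (hu : MDifferentiable 𝓘(ℂ) 𝓘(ℂ) u) (heq : ∀ τ, f τ = D τ * u τ) {τ₀ : ℍ} (hD : D τ₀ ≠ 0)
    (hev : ∀ᶠ τ in atImInfty, D τ ≠ 0)
    (hO : ∀ γ : SL(2, ℤ), ((⇑f : ℍ → ℂ) ∣[k] γ) =O[atImInfty] (⇑D : ℍ → ℂ)) :
    ∃ U : ModularForm (G0 N) (k - w), ∀ τ, U τ = u τ := by
  have hslash : ∀ γ : SL(2, ℤ), γ ∈ Gamma0 N → u ∣[k - w] γ = u := by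
    intro γ hγ
    have h1 : ∀ τ, (u ∣[k - w] γ) τ * D τ = u τ * D τ := by
      intro τ
      have h2 := slash_of_eq_mul (k := k) D heq γ τ
      have h3 : (⇑f : ℍ → ℂ) ∣[k] γ = ⇑f := by
        rw [ModularForm.SL_slash]
        exact SlashInvariantFormClass.slash_action_eq f _ ⟨γ, hγ, rfl⟩
      rw [h3, heq τ] at h2
      rw [mul_comm, ← h2, mul_comm]
    exact Fermat.Agent.S23.Removable.eq_of_mul_eq_mul
      (hu.slash (k - w) _).continuous hu.continuous D.holo' hD h1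
  refine ⟨{ toFun := u
            slash_action_eq' := ?_
            holo' := hu
            bdd_at_cusps' := ?_ }, fun τ => rfl⟩
  · rintro γ' ⟨γ, hγ, rfl⟩
    have := hslash γ hγ
    rwa [ModularForm.SL_slash] at this
  · intro c hc
    rw [Subgroup.IsArithmetic.isCusp_iff_isCusp_SL2Z] at hc
    rw [OnePoint.isBoundedAt_iff_forall_SL2Z hc]
    intro γ _
    have hO' := hO γ
    rw [IsBoundedAtImInfty, BoundedAtFilter]
    rw [isBigO_iff] at hO' ⊢
    obtain ⟨C, hC⟩ := hO'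
    refine ⟨C, ?_⟩
    filter_upwards [hC, hev] with τ h1 h2
    have h3 := slash_of_eq_mul (k := k) D heq γ τ
    rw [h3, norm_mul] at h1
    simp only [Pi.one_apply, norm_one, mul_one]
    have hpos : 0 < ‖D τ‖ := norm_pos_iff.mpr h2
    rw [mul_comm] at h1
    exact le_of_mul_le_mul_right h1 hpos

/-- A function with a non-zero limit at `i∞` dominates every bounded function. -/
theorem isBigO_of_tendsto_ne_zero {F D : ℍ → ℂ} {c : ℂ} (hc : c ≠ 0)
    (hD : Tendsto D atImInfty (𝓝 c)) (hF : IsBoundedAtImInfty F) :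
    F =O[atImInfty] D := by
  rw [IsBoundedAtImInfty, BoundedAtFilter] at hF
  refine hF.trans ?_
  rw [isBigO_iff]
  refine ⟨2 / ‖c‖, ?_⟩
  have hpos : 0 < ‖c‖ := norm_pos_iff.mpr hc
  have h1 : ∀ᶠ τ in atImInfty, ‖c‖ / 2 < ‖D τ‖ :=
    hD.norm.eventually (lt_mem_nhds (half_lt_self hpos))
  filter_upwards [h1] with τ hτ
  simp only [Pi.one_apply, norm_one]
  rw [div_mul_eq_mul_div, le_div_iff₀ hpos]
  linarith

theorem eventually_ne_zero_of_tendsto {D : ℍ → ℂ} {c : ℂ} (hc : c ≠ 0)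
    (hD : Tendsto D atImInfty (𝓝 c)) : ∀ᶠ τ in atImInfty, D τ ≠ 0 :=
  hD.eventually_ne hc

theorem tendsto_E₄ : Tendsto (⇑E₄) atImInfty (𝓝 1) := by
  have hper := SlashInvariantFormClass.periodic_comp_ofComplex E₄
    (one_mem_strictPeriods_SL)
  have han : AnalyticAt ℂ (cuspFunction 1 E₄) 0 :=
    ModularFormClass.analyticAt_cuspFunction_zero E₄ one_pos one_mem_strictPeriods_SL
  have h0 : cuspFunction 1 E₄ 0 = 1 := by
    have h1 := EisensteinSeries.E_qExpansion_coeff_zero (by norm_num : 3 ≤ 4) ⟨2, rfl⟩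
    rw [qExpansion_coeff] at h1
    simpa using h1
  have hcomp : (cuspFunction 1 E₄ ∘ fun τ : ℍ ↦ Function.Periodic.qParam 1 τ : ℍ → ℂ) = E₄ := by
    funext τ
    simpa using eq_cuspFunction τ one_ne_zero hper
  have := han.continuousAt.tendsto.comp (qParam_tendsto_atImInfty one_pos)
  rw [hcomp, h0] at this
  exact this


/-- **B1 (regularity of `E₄, E₆`).** If `E₆ g = E₄ h` then `g` is divisible by `E₄`. -/
theorem regular {a : ℤ} (g : ModularForm (G0 N) a) (h : ModularForm (G0 N) (a + 2))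
    (H : ∀ τ, E₆ τ * g τ = E₄ τ * h τ) :
    ∃ u : ModularForm (G0 N) (a - 4), ∀ τ, g τ = E₄ τ * u τ := by
  set u : ℍ → ℂ := fun τ => (E₄ τ ^ 2 * g τ - E₆ τ * h τ) / (1728 * discriminant τ) with hu
  have hΔ : ∀ τ, (1728 : ℂ) * discriminant τ ≠ 0 := fun τ =>
    mul_ne_zero (by norm_num) (discriminant_ne_zero τ)
  have hmd : MDifferentiable 𝓘(ℂ) 𝓘(ℂ) u := by
    have h1 : MDifferentiable 𝓘(ℂ) 𝓘(ℂ) (fun τ => E₄ τ ^ 2 * g τ - E₆ τ * h τ) :=
      (((E₄.holo'.pow 2).mul g.holo').sub (E₆.holo'.mul h.holo'))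
    have h2 : MDifferentiable 𝓘(ℂ) 𝓘(ℂ) (fun τ => (1728 : ℂ) * discriminant τ) :=
      (mdifferentiable_const.mul CuspForm.discriminant.holo')
    exact h1.div h2 hΔ
  have heq : ∀ τ, g τ = E₄ τ * u τ := by
    intro τ
    have hd := discriminant_eq_E₄_cube_sub_E₆_sq τ
    have hH := H τ
    rw [hu]
    simp only
    rw [mul_div_assoc', eq_div_iff (hΔ τ), hd]
    linear_combination (-(E₆ τ)) * hH
  have h1 : (1 : ℂ) ≠ 0 := one_ne_zero
  obtain ⟨τ₀, hτ₀⟩ := (eventually_ne_zero_of_tendsto h1 tendsto_E₄).exists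
  obtain ⟨U, hU⟩ := exists_form g E₄ u hmd heq hτ₀
    (eventually_ne_zero_of_tendsto h1 tendsto_E₄)
    (fun γ => isBigO_of_tendsto_ne_zero h1 tendsto_E₄ (ModularFormClass.bdd_at_infty_slash g γ))
  refine ⟨ModularForm.mcast (by norm_num) U, fun τ => ?_⟩
  rw [heq τ]
  congr 1
  exact (hU τ).symm



omit [NeZero N] in
/-- The translate of `f` by `γ ∈ SL(2, ℤ)` is one of the functions `quotientFunc f q`. -/
theorem slash_eq_quotientFunc {k : ℤ} (f : ModularForm (G0 N) k) (γ : SL(2, ℤ)) :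
    (⇑f : ℍ → ℂ) ∣[k] γ = quotientFunc f (⟦(sl γ)⁻¹⟧ : Q N) := by
  rw [quotientFunc_mk, ModularForm.SL_slash]
  congr 1

/-- **B3.** If all translates of `f` are `O(e^{-2π Im τ})` at `i∞`, then `f` is divisible by `Δ`. -/
theorem div_delta {k : ℤ} (f : ModularForm (G0 N) k)
    (hf : ∀ q : Q N, quotientFunc f q =O[atImInfty] fun τ => Real.exp (-2 * Real.pi * τ.im)) :
    ∃ u : ModularForm (G0 N) (k - 12), ∀ τ, f τ = discriminant τ * u τ := by
  set D : ModularForm 𝒮ℒ 12 := CuspForm.toModularFormₗ CuspForm.discriminant with hD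
  have hDval : ∀ τ, D τ = discriminant τ := fun τ => rfl
  set u : ℍ → ℂ := fun τ => f τ / discriminant τ with hu
  have hmd : MDifferentiable 𝓘(ℂ) 𝓘(ℂ) u :=
    f.holo'.div CuspForm.discriminant.holo' discriminant_ne_zero
  have heq : ∀ τ, f τ = D τ * u τ := by
    intro τ
    rw [hDval, hu]
    simp only
    rw [mul_div_cancel₀ _ (discriminant_ne_zero τ)]
  obtain ⟨U, hU⟩ := exists_form f D u hmd heq (τ₀ := I) (discriminant_ne_zero I)
    (Eventually.of_forall fun τ => discriminant_ne_zero τ)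
    (fun γ => by
      rw [slash_eq_quotientFunc f γ]
      exact (hf _).trans exp_isBigO_discriminant)
  refine ⟨U, fun τ => ?_⟩
  rw [heq τ, hDval, hU τ]


/-- Division of holomorphic functions: if `F` vanishes at the zeros of `Q` and all zeros of `Q`
are simple, then `F = Q * G` with `G` holomorphic. -/
theorem exists_div_of_simple_zeros {U : Set ℂ} (hU : IsOpen U) {F Q : ℂ → ℂ}
    (hF : DifferentiableOn ℂ F U) (hQ : DifferentiableOn ℂ Q U)
    (hs : ∀ z ∈ U, Q z = 0 → deriv Q z ≠ 0) (hz : ∀ z ∈ U, Q z = 0 → F z = 0) :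
    ∃ G : ℂ → ℂ, DifferentiableOn ℂ G U ∧ ∀ z ∈ U, F z = Q z * G z := by
  classical
  set G : ℂ → ℂ := fun z => if Q z = 0 then deriv F z / deriv Q z else F z / Q z with hG
  refine ⟨G, ?_, ?_⟩
  · intro z₀ hz₀
    have hUn : U ∈ 𝓝 z₀ := hU.mem_nhds hz₀
    have hFz : DifferentiableAt ℂ F z₀ := (hF z₀ hz₀).differentiableAt hUn
    have hQz : DifferentiableAt ℂ Q z₀ := (hQ z₀ hz₀).differentiableAt hUn
    refine DifferentiableAt.differentiableWithinAt ?_
    by_cases h0 : Q z₀ = 0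
    · -- simple zero
      have hd : deriv Q z₀ ≠ 0 := hs z₀ hz₀ h0
      have hF0 : F z₀ = 0 := hz z₀ hz₀ h0
      have hq1 : DifferentiableOn ℂ (dslope Q z₀) U := (Complex.differentiableOn_dslope hUn).mpr hQ
      have hf1 : DifferentiableOn ℂ (dslope F z₀) U := (Complex.differentiableOn_dslope hUn).mpr hF
      have hq1z : DifferentiableAt ℂ (dslope Q z₀) z₀ := (hq1 z₀ hz₀).differentiableAt hUn
      have hf1z : DifferentiableAt ℂ (dslope F z₀) z₀ := (hf1 z₀ hz₀).differentiableAt hUn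
      have hq1ne : dslope Q z₀ z₀ ≠ 0 := by rw [dslope_same]; exact hd
      have hev : ∀ᶠ z in 𝓝 z₀, dslope Q z₀ z ≠ 0 :=
        hq1z.continuousAt.eventually_ne hq1ne
      have hcongr : G =ᶠ[𝓝 z₀] fun z => dslope F z₀ z / dslope Q z₀ z := by
        filter_upwards [hev] with z hzne
        by_cases hzz : z = z₀
        · subst hzz
          simp only [hG, h0, if_true, dslope_same]
        · have h1 : (z - z₀) * dslope Q z₀ z = Q z := by
            have := sub_smul_dslope Q z₀ z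
            rw [smul_eq_mul, h0, sub_zero] at this
            exact this
          have h2 : (z - z₀) * dslope F z₀ z = F z := by
            have := sub_smul_dslope F z₀ z
            rw [smul_eq_mul, hF0, sub_zero] at this
            exact this
          have hsub : z - z₀ ≠ 0 := sub_ne_zero.mpr hzz
          have hQne : Q z ≠ 0 := by rw [← h1]; exact mul_ne_zero hsub hzne
          simp only [hG, hQne, if_false]
          rw [← h1, ← h2, mul_div_mul_left _ _ hsub]
      exact (hf1z.div hq1z hq1ne).congr_of_eventuallyEq hcongr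
    · have hev : ∀ᶠ z in 𝓝 z₀, Q z ≠ 0 := hQz.continuousAt.eventually_ne h0
      have hcongr : G =ᶠ[𝓝 z₀] fun z => F z / Q z := by
        filter_upwards [hev] with z hzne
        simp only [hG, hzne, if_false]
      exact (hFz.div hQz h0).congr_of_eventuallyEq hcongr
  · intro z hzU
    by_cases h0 : Q z = 0
    · rw [hz z hzU h0, h0, zero_mul]
    · simp only [hG, h0, if_false]
      rw [mul_div_cancel₀ _ h0]

/-- **B2.** If `f` vanishes at the zeros of a level one form `Qf` all of whose zeros are simple and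
which does not vanish at `i∞`, then `f` is divisible by `Qf`. -/
theorem div_simple {w k : ℤ} (Qf : ModularForm 𝒮ℒ w)
    (hs : ∀ τ : ℍ, Qf τ = 0 → deriv (⇑Qf ∘ ofComplex) τ ≠ 0)
    (hc : ∃ c : ℂ, c ≠ 0 ∧ Tendsto Qf atImInfty (𝓝 c))
    (f : ModularForm (G0 N) k) (hf : ∀ τ, Qf τ = 0 → f τ = 0) :
    ∃ u : ModularForm (G0 N) (k - w), ∀ τ, f τ = Qf τ * u τ := by
  obtain ⟨c, hc0, hct⟩ := hc
  have hU : IsOpen {z : ℂ | 0 < z.im} := isOpen_upperHalfPlaneSet
  have hval : ∀ (F : ℍ → ℂ) (z : ℂ) (hz : 0 < z.im), (F ∘ ofComplex) z = F ⟨z, hz⟩ :=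
    fun F z hz => comp_ofComplex_of_im_pos F z hz
  obtain ⟨G, hGd, hGmul⟩ := exists_div_of_simple_zeros hU
    (F := ⇑f ∘ ofComplex) (Q := ⇑Qf ∘ ofComplex)
    (mdifferentiable_iff.mp f.holo') (mdifferentiable_iff.mp Qf.holo')
    (fun z hz h0 => by
      rw [hval _ z hz] at h0
      exact hs ⟨z, hz⟩ h0)
    (fun z hz h0 => by
      rw [hval _ z hz] at h0 ⊢
      exact hf ⟨z, hz⟩ h0)
  set u : ℍ → ℂ := fun τ => G (τ : ℂ) with hu
  have hmd : MDifferentiable 𝓘(ℂ) 𝓘(ℂ) u := by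
    rw [mdifferentiable_iff]
    refine hGd.congr fun z hz => ?_
    exact hval u z hz
  have heq : ∀ τ, f τ = Qf τ * u τ := by
    intro τ
    have := hGmul (τ : ℂ) τ.im_pos
    rwa [comp_ofComplex, comp_ofComplex] at this
  obtain ⟨τ₀, hτ₀⟩ := (eventually_ne_zero_of_tendsto hc0 hct).exists
  obtain ⟨U, hUu⟩ := exists_form f Qf u hmd heq hτ₀ (eventually_ne_zero_of_tendsto hc0 hct)
    (fun γ => isBigO_of_tendsto_ne_zero hc0 hct (ModularFormClass.bdd_at_infty_slash f γ))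
  exact ⟨U, fun τ => by rw [heq τ, hUu τ]⟩

end Fermat.Agent.S20.Divide
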