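import Mathlib

set_option autoImplicit false

noncomputable section

namespace Fermat.Agent.S20.LevelOneMono

open UpperHalfPlane ModularForm ModularFormClass MatrixGroups EisensteinSeries Filter
open scoped Topology Manifold

local notation "Δ" => ModularForm.discriminant

/-- The monomial `E₄^a E₆^b` as a level one modular form of weight `k = 4a + 6b`. -/
def monoK {k : ℤ} (a b : ℕ) (h : (a : ℤ) * 4 + (b : ℤ) * 6 = k) : ModularForm 𝒮ℒ k :=
  ModularForm.mcast h ((E₄.pow a).mul (E₆.pow b))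

@[simp]
lemma monoK_apply {k : ℤ} (a b : ℕ) (h : (a : ℤ) * 4 + (b : ℤ) * 6 = k) (τ : ℍ) :
    monoK a b h τ = E₄ τ ^ a * E₆ τ ^ b := by
  simp [monoK, ModularForm.mcast_apply]

lemma monoK_coeff_zero {k : ℤ} (a b : ℕ) (h : (a : ℤ) * 4 + (b : ℤ) * 6 = k) :
    (qExpansion 1 (monoK a b h)).coeff 0 = 1 := by
  rw [monoK, ModularForm.qExpansion_mcast, ModularForm.qExpansion_mul one_pos one_mem_strictPeriods_SL,
    ModularForm.qExpansion_pow one_pos one_mem_strictPeriods_SL,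
    ModularForm.qExpansion_pow one_pos one_mem_strictPeriods_SL]
  simp only [PowerSeries.coeff_zero_eq_constantCoeff, map_mul, map_pow]
  have h4 := E_qExpansion_coeff_zero (k := 4) (by norm_num) ⟨2, rfl⟩
  have h6 := E_qExpansion_coeff_zero (k := 6) (by norm_num) ⟨3, rfl⟩
  simp only [PowerSeries.coeff_zero_eq_constantCoeff] at h4 h6
  rw [h4, h6]; simp

/-- monomial functions -/
def mv (p : ℕ × ℕ) : ℍ → ℂ := fun τ => E₄ τ ^ p.1 * E₆ τ ^ p.2

/-- exponent pairs of weight `k` -/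
def Wt (k : ℤ) : Set (ℕ × ℕ) := {p | (4 * p.1 + 6 * p.2 : ℤ) = k}

/-- span of the monomials of weight `k` -/
def Sp (k : ℤ) : Submodule ℂ (ℍ → ℂ) := Submodule.span ℂ (mv '' Wt k)

lemma mv_mem_Sp {k : ℤ} {p : ℕ × ℕ} (hp : p ∈ Wt k) : mv p ∈ Sp k :=
  Submodule.subset_span ⟨p, hp, rfl⟩

lemma mul_mv_mem_Sp {k : ℤ} (q : ℕ × ℕ) {F : ℍ → ℂ} (hF : F ∈ Sp k) :
    mv q * F ∈ Sp (k + (4 * q.1 + 6 * q.2 : ℤ)) := by
  induction hF using Submodule.span_induction with
  | mem x hx =>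
    obtain ⟨p, hp, rfl⟩ := hx
    have : mv q * mv p = mv (q + p) := by
      ext τ; simp only [mv, Pi.mul_apply, Prod.fst_add, Prod.snd_add, pow_add]; ring
    rw [this]
    apply mv_mem_Sp
    simp only [Wt, Set.mem_ofPred_eq] at hp ⊢
    simp only [Prod.fst_add, Prod.snd_add]; push_cast; linarith
  | zero => simp
  | add x y _ _ hx hy => rw [mul_add]; exact Submodule.add_mem _ hx hy
  | smul a x _ hx => rw [mul_smul_comm]; exact Submodule.smul_mem _ a hx

lemma discriminant_mul_mem_Sp {k : ℤ} {F : ℍ → ℂ} (hF : F ∈ Sp (k - 12)) :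
    (fun τ => Δ τ * F τ) ∈ Sp k := by
  have h1 := mul_mv_mem_Sp (3, 0) hF
  have h2 := mul_mv_mem_Sp (0, 2) hF
  have e1 : k - 12 + (4 * ((3, 0) : ℕ × ℕ).1 + 6 * ((3, 0) : ℕ × ℕ).2 : ℤ) = k := by
    simp
  have e2 : k - 12 + (4 * ((0, 2) : ℕ × ℕ).1 + 6 * ((0, 2) : ℕ × ℕ).2 : ℤ) = k := by
    simp
  rw [e1] at h1; rw [e2] at h2
  have : (fun τ => Δ τ * F τ) = (1 / 1728 : ℂ) • (mv (3, 0) * F - mv (0, 2) * F) := by
    ext τ
    simp only [Pi.smul_apply, Pi.sub_apply, Pi.mul_apply, mv, smul_eq_mul,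
      discriminant_eq_E₄_cube_sub_E₆_sq]
    ring
  rw [this]
  exact Submodule.smul_mem _ _ (Submodule.sub_mem _ h1 h2)

lemma exists_exponents {k : ℤ} (hk : 4 ≤ k) (hev : Even k) :
    ∃ a b : ℕ, (a : ℤ) * 4 + (b : ℤ) * 6 = k := by
  obtain ⟨m, hm⟩ := hev
  rcases Int.emod_two_eq_zero_or_one m with h | h
  · refine ⟨(m / 2).toNat, 0, ?_⟩
    have : 0 ≤ m / 2 := by omega
    rw [Int.toNat_of_nonneg this]; omega
  · refine ⟨((m - 3) / 2).toNat, 1, ?_⟩
    have : 0 ≤ (m - 3) / 2 := by omega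
    rw [Int.toNat_of_nonneg this]; omega

theorem coe_mem_Sp_aux (n : ℕ) : ∀ (k : ℤ), k.toNat = n → ∀ f : ModularForm 𝒮ℒ k,
    (⇑f : ℍ → ℂ) ∈ Sp k := by
  induction n using Nat.strong_induction_on with
  | _ n ih =>
    intro k hk f
    by_cases hneg : k < 0
    · rw [levelOne_neg_weight_eq_zero hneg f]; exact Submodule.zero_mem _
    by_cases hodd : Odd k
    · rw [levelOne_odd_weight_eq_zero hodd f]; simp
    have hev : Even k := Int.not_odd_iff_even.mp hodd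
    by_cases h0 : k = 0
    · subst h0
      obtain ⟨c, hc⟩ := levelOne_weight_zero_const f
      have : (⇑f : ℍ → ℂ) = c • mv (0, 0) := by
        rw [hc]; ext τ; simp [mv]
      rw [this]
      exact Submodule.smul_mem _ _ (mv_mem_Sp (by simp [Wt]))
    by_cases h2 : k = 2
    · subst h2
      have : f = 0 := rank_zero_iff_forall_zero.mp levelOne_weight_two_rank_zero f
      rw [this]; simp
    have hk4 : 4 ≤ k := by
      obtain ⟨m, hm⟩ := hev; omega
    obtain ⟨a, b, hab⟩ := exists_exponents hk4 hev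
    set v : ℂ := (qExpansion 1 f).coeff 0 with hv
    set g : ModularForm 𝒮ℒ k := f - v • monoK a b hab with hg
    have hcusp : (qExpansion 1 g).coeff 0 = 0 := by
      rw [hg, FunLike.coe_sub, ModularForm.qExpansion_sub one_pos one_mem_strictPeriods_SL,
        FunLike.coe_smul, ModularForm.qExpansion_smul one_pos one_mem_strictPeriods_SL, map_sub,
        PowerSeries.coeff_smul, monoK_coeff_zero]
      simp [hv]
    set u := CuspForm.discriminantEquiv (toCuspForm g hcusp) with hu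
    have hlt : (k - 12).toNat < n := by omega
    have hmem := ih _ hlt (k - 12) rfl u
    have hΔu := discriminant_mul_mem_Sp (k := k) hmem
    have hfe : (⇑f : ℍ → ℂ) = v • mv (a, b) + fun τ => Δ τ * u τ := by
      ext τ
      have := discriminant_mul_discriminantEquiv_apply (toCuspForm g hcusp) τ
      simp only [Pi.add_apply, Pi.smul_apply, smul_eq_mul, mv]
      rw [this, toCuspForm_apply, hg]
      simp
    rw [hfe]
    refine Submodule.add_mem _ (Submodule.smul_mem _ _ (mv_mem_Sp ?_)) hΔu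
    simp only [Wt, Set.mem_ofPred_eq]; linarith

theorem coe_mem_Sp {k : ℤ} (f : ModularForm 𝒮ℒ k) : (⇑f : ℍ → ℂ) ∈ Sp k :=
  coe_mem_Sp_aux _ k rfl f

/-- **A1**: every level one modular form is a combination of monomials `E₄^a E₆^b`. -/
theorem exists_monomials {k : ℤ} (f : ModularForm 𝒮ℒ k) :
    ∃ c : ℕ × ℕ →₀ ℂ, (∀ p ∈ c.support, (4 * p.1 + 6 * p.2 : ℤ) = k) ∧
      ∀ τ, f τ = c.sum fun p a => a * E₄ τ ^ p.1 * E₆ τ ^ p.2 := by
  have h := coe_mem_Sp f
  rw [Sp, Finsupp.mem_span_image_iff_linearCombination] at h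
  obtain ⟨l, hl, hlf⟩ := h
  refine ⟨l, fun p hp => hl hp, fun τ => ?_⟩
  rw [← hlf, Finsupp.linearCombination_apply, Finsupp.sum, Finsupp.sum, Finset.sum_apply]
  refine Finset.sum_congr rfl fun p _ => ?_
  simp only [Pi.smul_apply, mv, smul_eq_mul]; ring

/-- **A3** (first half). -/
theorem dvd_of_ne_zero_at {w : ℤ} (P : ModularForm 𝒮ℒ w) (τ₁ : ℍ) (h : P τ₁ ≠ 0) :
    (E₆ τ₁ = 0 → 4 ∣ w) ∧ (E₄ τ₁ = 0 → 6 ∣ w) := by
  obtain ⟨c, hc, hP⟩ := exists_monomials P
  rw [hP τ₁, Finsupp.sum] at h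
  obtain ⟨p, hp, hpne⟩ := Finset.exists_ne_zero_of_sum_ne_zero h
  have hw := hc p hp
  have h4 : E₄ τ₁ ^ p.1 ≠ 0 := fun h0 => hpne (by rw [h0]; ring)
  have h6 : E₆ τ₁ ^ p.2 ≠ 0 := fun h0 => hpne (by rw [h0]; ring)
  constructor
  · intro h0
    have : p.2 = 0 := by
      by_contra hne
      exact h6 (by rw [h0, zero_pow hne])
    rw [this] at hw
    exact ⟨p.1, by rw [← hw]; push_cast; ring⟩
  · intro h0
    have : p.1 = 0 := by
      by_contra hne
      exact h4 (by rw [h0, zero_pow hne])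
    rw [this] at hw
    exact ⟨p.2, by rw [← hw]; push_cast; ring⟩

lemma E₄_ne_zero_of_E₆_eq_zero {τ : ℍ} (h : E₆ τ = 0) : E₄ τ ≠ 0 := by
  intro h4
  have := discriminant_eq_E₄_cube_sub_E₆_sq τ
  rw [h, h4] at this
  exact discriminant_ne_zero τ (by rw [this]; simp)

lemma E₆_ne_zero_of_E₄_eq_zero {τ : ℍ} (h : E₄ τ = 0) : E₆ τ ≠ 0 := by
  intro h6
  exact E₄_ne_zero_of_E₆_eq_zero h6 h

/-- **A3** (second half). -/
theorem exists_ne_zero_at (τ₁ : ℍ) (w : ℕ) (hw : Even w) (h2 : w ≠ 2)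
    (h4 : E₆ τ₁ = 0 → 4 ∣ w) (h6 : E₄ τ₁ = 0 → 6 ∣ w) :
    ∃ P : ModularForm 𝒮ℒ w, P τ₁ ≠ 0 := by
  by_cases hE6 : E₆ τ₁ = 0
  · obtain ⟨a, ha⟩ := h4 hE6
    refine ⟨monoK a 0 (by rw [ha]; push_cast; ring), ?_⟩
    simp only [monoK_apply, pow_zero, mul_one]
    exact pow_ne_zero _ (E₄_ne_zero_of_E₆_eq_zero hE6)
  by_cases hE4 : E₄ τ₁ = 0
  · obtain ⟨b, hb⟩ := h6 hE4
    refine ⟨monoK 0 b (by rw [hb]; push_cast; ring), ?_⟩
    simp only [monoK_apply, pow_zero, one_mul]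
    exact pow_ne_zero _ hE6
  by_cases h0 : w = 0
  · subst h0
    exact ⟨monoK 0 0 (by simp), by simp⟩
  have hw4 : (4 : ℤ) ≤ w := by
    obtain ⟨m, hm⟩ := hw; omega
  obtain ⟨a, b, hab⟩ := exists_exponents hw4 (by exact_mod_cast hw)
  exact ⟨monoK a b hab, by
    simp only [monoK_apply]; exact mul_ne_zero (pow_ne_zero _ hE4) (pow_ne_zero _ hE6)⟩

/-- **A4**: a nowhere vanishing level one form with nonzero limit at `i∞` has weight `0`. -/
theorem weight_eq_zero_of_nonvanishing {k : ℤ} (U : ModularForm 𝒮ℒ k) (h : ∀ τ, U τ ≠ 0)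
    (hc : ∃ c : ℂ, c ≠ 0 ∧ Tendsto U atImInfty (𝓝 c)) : k = 0 := by
  rcases lt_trichotomy k 0 with hk | hk | hk
  · exact absurd (congrFun (levelOne_neg_weight_eq_zero hk U) UpperHalfPlane.I) (h _)
  · exact hk
  · exfalso
    obtain ⟨c, hc0, hc⟩ := hc
    have hslash : ∀ γ : SL(2, ℤ), (fun z ↦ 1 / U z) ∣[-k] γ = fun z ↦ 1 / U z := by
      intro γ
      have hγ : (γ : GL (Fin 2) ℝ) ∈ 𝒮ℒ := ⟨γ, rfl⟩
      have : (fun z ↦ 1 / U z) = (⇑(1 : ModularForm 𝒮ℒ 0) / ⇑U) := by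
        ext z; simp
      rw [this, show (-k : ℤ) = 0 - k by ring, div_slash_SL2, SL_slash, SL_slash,
        SlashInvariantForm.slash_action_eqn _ _ hγ,
        SlashInvariantForm.slash_action_eqn _ _ hγ]
    let V : ModularForm 𝒮ℒ (-k) :=
      { toFun := fun z ↦ 1 / U z
        slash_action_eq' := fun _ ⟨γ, hγ⟩ ↦ hγ ▸ hslash γ
        holo' := (mdifferentiable_const (c := (1 : ℂ))).div U.holo' h
        bdd_at_cusps' := fun {c'} hc' ↦ by
          rw [Subgroup.IsArithmetic.isCusp_iff_isCusp_SL2Z] at hc'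
          rw [OnePoint.isBoundedAt_iff_forall_SL2Z hc']
          intro γ _
          rw [hslash γ, IsBoundedAtImInfty, BoundedAtFilter]
          have : Tendsto (fun z ↦ 1 / U z) atImInfty (𝓝 (1 / c)) :=
            tendsto_const_nhds.div hc hc0
          exact this.isBigO_one ℝ }
    have hV := levelOne_neg_weight_eq_zero (by omega : -k < 0) V
    have := congrFun hV UpperHalfPlane.I
    simp only [V] at this
    change 1 / U UpperHalfPlane.I = 0 at this
    exact one_div_ne_zero (h _) this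

end Fermat.Agent.S20.LevelOneMono
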