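import Fermat.Agent.S20.Nonvanishing
import Fermat.Agent.S20.CuspData
import Fermat.Agent.S23.QRing
import Fermat.Agent.S20.LevelOneMono
import Fermat.Agent.S20.Divide

/-!
# S20 (PROJECT G), slice [F], analytic half (F4)-(F6)

Given the block-DFT data of the `T`-orbits on the coset space (`DFTData`), the behaviour at `i∞`
of the matrix of translates of a homogeneous basis: the weight sum `∑ κ = 6 (μ - c)` and the
cuspidality of `Δ · Φ⁻¹`.
-/

set_option autoImplicit false

noncomputable section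

namespace Fermat.Agent.S20.CuspAnalytic

open UpperHalfPlane SlashInvariantForm CongruenceSubgroup Filter Topology Complex Function

open Fermat.Agent.S23.QRing

open scoped ModularForm Manifold MatrixGroups Real

/-! ### General analytic lemmas -/

/-- A function invariant under `τ ↦ τ + 1` gives a `1`-periodic function on `ℂ`. -/
theorem periodic_comp_ofComplex_of_vadd {F : ℍ → ℂ} (h : ∀ τ : ℍ, F ((1 : ℝ) +ᵥ τ) = F τ) :
    Periodic (F ∘ ofComplex) 1 := by
  intro z
  simp only [comp_apply]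
  by_cases hz : 0 < z.im
  · have hz1 : 0 < (z + 1).im := by simpa using hz
    rw [ofComplex_apply_of_im_pos hz1, ofComplex_apply_of_im_pos hz, ← h ⟨z, hz⟩]
    congr 1
    ext
    simp [add_comm]
  · have hz1 : ¬ 0 < (z + 1).im := by simpa using hz
    rw [ofComplex_apply_of_im_nonpos (not_lt.mp hz1), ofComplex_apply_of_im_nonpos (not_lt.mp hz)]

theorem IsQ.tendsto {F : ℍ → ℂ} (hF : IsQ F) : Tendsto F atImInfty (𝓝 (valueAtInfty F)) := by
  have h := exp_decay_sub_atImInfty one_pos hF.periodic hF.holo hF.bdd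
  have h0 : Tendsto (fun τ : ℍ => Real.exp (-2 * π * τ.im / 1)) atImInfty (𝓝 0) := by
    have : Tendsto (fun τ : ℍ => τ.im) atImInfty atTop := tendsto_comap
    refine Real.tendsto_exp_atBot.comp ?_
    simp only [div_one]
    refine Tendsto.const_mul_atTop_of_neg ?_ this
    nlinarith [Real.pi_pos]
  have := h.trans_tendsto h0
  have h2 := this.add_const (valueAtInfty F)
  simpa using h2

/-- A `1`-periodic holomorphic function tending to `0` at `i∞` decays like `|q|`. -/
theorem IsQ.isBigO_of_tendsto_zero {F : ℍ → ℂ} (hF : IsQ F) (h0 : Tendsto F atImInfty (𝓝 0)) :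
    F =O[atImInfty] fun τ => Real.exp (-2 * π * τ.im) := by
  have h := IsZeroAtImInfty.exp_decay_atImInfty (f := F) h0 one_pos hF.periodic hF.holo hF.bdd
  simpa using h

theorem mdiff_of_differentiable {g : ℂ → ℂ} (hg : Differentiable ℂ g) :
    MDiff (fun τ : ℍ => g τ) := by
  rw [UpperHalfPlane.mdifferentiable_iff]
  refine hg.differentiableOn.congr fun z hz => ?_
  simp only [comp_apply]
  rw [ofComplex_apply_of_im_pos hz]

theorem boundedAtFilter_sum {ι : Type*} (s : Finset ι) {F : ι → ℍ → ℂ}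
    (h : ∀ i ∈ s, IsBoundedAtImInfty (F i)) : IsBoundedAtImInfty (∑ i ∈ s, F i) := by
  classical
  induction s using Finset.induction_on with
  | empty =>
    simp only [Finset.sum_empty]
    exact Filter.const_boundedAtFilter _ 0
  | insert i t hi IH =>
    rw [Finset.sum_insert hi]
    exact (h i (Finset.mem_insert_self i t)).add
      (IH fun j hj => h j (Finset.mem_insert_of_mem hj))

/-! ### The rows `L`, the normalising exponentials `ex` and the normalised rows `A` -/

variable {N : ℕ} [NeZero N] (d : DFTData N)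

/-- The `r`-th DFT row of the translates of `f`. -/
def L (k : ℤ) (f : ℍ → ℂ) (r : Q N) : ℍ → ℂ := fun τ => ∑ q, d.Λ r q * tr k f q τ

/-- `exp (-2 π i e_r τ)`. -/
def ex (r : Q N) : ℍ → ℂ := fun τ => Complex.exp (-(2 * π * Complex.I * d.e r) * τ)

/-- The normalised row. -/
def A (k : ℤ) (f : ℍ → ℂ) (r : Q N) : ℍ → ℂ := ex d r * L d k f r

theorem mdiff_ex (r : Q N) : MDiff (ex d r) :=
  mdiff_of_differentiable (g := fun z => Complex.exp (-(2 * π * Complex.I * d.e r) * z))
    ((differentiable_id.const_mul _).cexp)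

theorem norm_ex (r : Q N) (τ : ℍ) : ‖ex d r τ‖ = Real.exp (2 * π * d.e r * τ.im) := by
  rw [ex, Complex.norm_exp]
  congr 1
  simp

theorem ex_ne_zero (r : Q N) (τ : ℍ) : ex d r τ ≠ 0 := Complex.exp_ne_zero _

theorem ex_vadd (r : Q N) (τ : ℍ) :
    ex d r ((1 : ℝ) +ᵥ τ) = Complex.exp (-(2 * π * Complex.I * d.e r)) * ex d r τ := by
  rw [ex, ex, ← Complex.exp_add]
  congr 1
  simp only [coe_vadd, Complex.ofReal_one]
  ring

theorem mdiff_L {k : ℤ} {f : ℍ → ℂ} (hf : IsMF (G0 N) k f) (r : Q N) : MDiff (L d k f r) := by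
  have : L d k f r = ∑ q, (fun _ : ℍ => d.Λ r q) * tr k f q := by
    ext τ
    simp [L, Finset.sum_apply]
  rw [this]
  exact MDifferentiable.sum fun q _ => mdifferentiable_const.mul (mdifferentiable_tr hf q)

theorem L_vadd {k : ℤ} {f : ℍ → ℂ} (hf : IsMF (G0 N) k f) (r : Q N) (τ : ℍ) :
    L d k f r ((1 : ℝ) +ᵥ τ) = Complex.exp (2 * π * Complex.I * d.e r) * L d k f r τ :=
  d.periodic k f hf r τ

theorem A_vadd {k : ℤ} {f : ℍ → ℂ} (hf : IsMF (G0 N) k f) (r : Q N) (τ : ℍ) :
    A d k f r ((1 : ℝ) +ᵥ τ) = A d k f r τ := by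
  simp only [A, Pi.mul_apply]
  rw [ex_vadd, L_vadd d hf]
  have : Complex.exp (-(2 * π * Complex.I * d.e r)) * Complex.exp (2 * π * Complex.I * d.e r) = 1 := by
    rw [← Complex.exp_add, neg_add_cancel, Complex.exp_zero]
  linear_combination (ex d r τ * L d k f r τ) * this

theorem mdiff_A {k : ℤ} {f : ℍ → ℂ} (hf : IsMF (G0 N) k f) (r : Q N) : MDiff (A d k f r) :=
  (mdiff_ex d r).mul (mdiff_L d hf r)

theorem isBoundedAtImInfty_tr {k : ℤ} {f : ℍ → ℂ} (hf : IsMF (G0 N) k f) (q : Q N) :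
    IsBoundedAtImInfty (tr k f q) := by
  obtain ⟨F, rfl⟩ := hf
  exact ModularFormClass.bdd_at_infty_slash F (rep q)⁻¹

theorem isBoundedAtImInfty_L {k : ℤ} {f : ℍ → ℂ} (hf : IsMF (G0 N) k f) (r : Q N) :
    IsBoundedAtImInfty (L d k f r) := by
  have : L d k f r = ∑ q, (fun _ : ℍ => d.Λ r q) * tr k f q := by
    ext τ
    simp [L, Finset.sum_apply]
  rw [this]
  refine boundedAtFilter_sum _ fun q _ => ?_
  exact (Filter.const_boundedAtFilter _ _).mul (isBoundedAtImInfty_tr hf q)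

/-- `q = exp (2 π i τ)`. -/
def qfun : ℍ → ℂ := fun τ => Complex.exp (2 * π * Complex.I * τ)

theorem mdiff_qfun : MDiff qfun :=
  mdiff_of_differentiable (g := fun z => Complex.exp (2 * π * Complex.I * z))
    ((differentiable_id.const_mul _).cexp)

theorem norm_qfun (τ : ℍ) : ‖qfun τ‖ = Real.exp (-2 * π * τ.im) := by
  rw [qfun, Complex.norm_exp]
  congr 1
  simp

theorem qfun_ne_zero (τ : ℍ) : qfun τ ≠ 0 := Complex.exp_ne_zero _

theorem qfun_vadd (τ : ℍ) : qfun ((1 : ℝ) +ᵥ τ) = qfun τ := by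
  rw [qfun, qfun]
  simp only [coe_vadd, Complex.ofReal_one]
  rw [mul_add, Complex.exp_add, mul_one, Complex.exp_two_pi_mul_I, one_mul]

theorem tendsto_im_atImInfty : Tendsto (fun τ : ℍ => τ.im) atImInfty atTop := tendsto_comap

theorem mu_pos : 0 < mu N := Nat.card_pos

/-- `q · ex_r → 0` at `i∞`. -/
theorem tendsto_qfun_mul_ex (r : Q N) : Tendsto (qfun * ex d r) atImInfty (𝓝 0) := by
  rw [tendsto_zero_iff_norm_tendsto_zero]
  have hnorm : ∀ τ : ℍ, ‖(qfun * ex d r) τ‖ = Real.exp (-(2 * π * (1 - d.e r)) * τ.im) := by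
    intro τ
    rw [Pi.mul_apply, norm_mul, norm_qfun, norm_ex, ← Real.exp_add]
    congr 1
    ring
  simp_rw [hnorm]
  refine Real.tendsto_exp_atBot.comp ?_
  refine Tendsto.const_mul_atTop_of_neg ?_ tendsto_im_atImInfty
  have h1 : (0 : ℝ) < 1 / (mu N : ℝ) := by
    have : (0 : ℝ) < mu N := by exact_mod_cast mu_pos
    positivity
  have h2 := d.e_le r
  have : 0 < 1 - d.e r := by linarith
  have := Real.pi_pos
  nlinarith

theorem isQ_A {k : ℤ} {f : ℍ → ℂ} (hf : IsMF (G0 N) k f) (r : Q N) : IsQ (A d k f r) := by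
  -- `B = q · A` is zero at `i∞`
  have hBzero : Tendsto (qfun * A d k f r) atImInfty (𝓝 0) := by
    have : qfun * A d k f r = (qfun * ex d r) * L d k f r := by
      unfold A
      ring
    rw [this]
    exact Filter.ZeroAtFilter.mul_boundedAtFilter (tendsto_qfun_mul_ex d r)
      (isBoundedAtImInfty_L d hf r)
  have hBQ : IsQ (qfun * A d k f r) :=
    { periodic := periodic_comp_ofComplex_of_vadd fun τ => by
        simp only [Pi.mul_apply]
        rw [qfun_vadd, A_vadd d hf]
      holo := mdiff_qfun.mul (mdiff_A d hf r)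
      bdd := Filter.ZeroAtFilter.boundedAtFilter hBzero }
  have hdecay := IsQ.isBigO_of_tendsto_zero hBQ hBzero
  refine ⟨periodic_comp_ofComplex_of_vadd (A_vadd d hf r), mdiff_A d hf r, ?_⟩
  obtain ⟨C, hC⟩ := hdecay.bound
  refine Asymptotics.IsBigO.of_bound C ?_
  filter_upwards [hC] with τ hτ
  simp only [Pi.mul_apply, norm_mul, norm_qfun, Real.norm_eq_abs, Real.abs_exp, Pi.one_apply,
    norm_one, mul_one] at hτ ⊢
  have hpos : 0 < Real.exp (-2 * π * τ.im) := Real.exp_pos _
  exact le_of_mul_le_mul_left (by linarith) hpos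

/-- The limit of the normalised row. -/
def a (k : ℤ) (f : ℍ → ℂ) (r : Q N) : ℂ := valueAtInfty (A d k f r)

theorem tendsto_A {k : ℤ} {f : ℍ → ℂ} (hf : IsMF (G0 N) k f) (r : Q N) :
    Tendsto (A d k f r) atImInfty (𝓝 (a d k f r)) :=
  IsQ.tendsto (isQ_A d hf r)

/-! ### Linearity of the rows in `f` -/

variable (g : Gens N)

theorem L_combination {k : ℤ} (c : Q N → ℍ → ℂ) (hc : ∀ j, IsMF 𝒮ℒ (k - g.κ j) (c j)) (r : Q N) :
    L d k (∑ j, c j * ⇑(g.F j)) r = ∑ j, c j * L d (g.κ j) (g.F j) r := by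
  ext τ
  simp only [L, Finset.sum_apply, Pi.mul_apply]
  simp_rw [g.tr_combination c hc, Finset.sum_apply, Pi.mul_apply, Finset.mul_sum]
  rw [Finset.sum_comm]
  refine Finset.sum_congr rfl fun j _ => Finset.sum_congr rfl fun q _ => ?_
  ring

theorem A_combination {k : ℤ} (c : Q N → ℍ → ℂ) (hc : ∀ j, IsMF 𝒮ℒ (k - g.κ j) (c j)) (r : Q N) :
    A d k (∑ j, c j * ⇑(g.F j)) r = ∑ j, c j * A d (g.κ j) (g.F j) r := by
  unfold A
  rw [L_combination d g c hc, Finset.mul_sum]
  refine Finset.sum_congr rfl fun j _ => ?_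
  ring

/-- Recovering the translates from the rows. -/
theorem tr_eq_sum_L (k : ℤ) (f : ℍ → ℂ) (q : Q N) :
    tr k f q = ∑ r, (fun _ : ℍ => d.Λinv q r) * L d k f r := by
  ext τ
  simp only [L, Finset.sum_apply, Pi.mul_apply, Finset.mul_sum]
  rw [Finset.sum_comm]
  have h := d.hΛ
  have : ∀ q' : Q N, ∑ r, d.Λinv q r * (d.Λ r q' * tr k f q' τ) =
      (if q = q' then 1 else 0) * tr k f q' τ := by
    intro q'
    have h1 := congrFun (congrFun h q) q'
    rw [Matrix.mul_apply, Matrix.one_apply] at h1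
    rw [← h1, Finset.sum_mul]
    refine Finset.sum_congr rfl fun r _ => ?_
    ring
  simp_rw [this]
  simp

/-! ### The matrices `Am τ` and `A0` -/

/-- The matrix of normalised rows of the generators. -/
def Am (τ : ℍ) : Matrix (Q N) (Q N) ℂ := fun r j => A d (g.κ j) (g.F j) r τ

/-- Its limit at `i∞`. -/
def A0 : Matrix (Q N) (Q N) ℂ := fun r j => a d (g.κ j) (g.F j) r

theorem Am_eq (τ : ℍ) :
    Am d g τ = Matrix.diagonal (fun r => ex d r τ) * d.Λ * g.Φ τ := by
  ext r j
  rw [Matrix.mul_assoc, Matrix.diagonal_mul, Matrix.mul_apply]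
  simp only [Am, A, L, Pi.mul_apply, g.Φ_apply]

theorem tendsto_Am : Tendsto (Am d g) atImInfty (𝓝 (A0 d g)) := by
  refine tendsto_pi_nhds.mpr fun r => tendsto_pi_nhds.mpr fun j => ?_
  exact tendsto_A d (g.isMF_F j) r

theorem tendsto_det_Am : Tendsto (fun τ => (Am d g τ).det) atImInfty (𝓝 (A0 d g).det) :=
  ((continuous_id.matrix_det).tendsto (A0 d g)).comp (tendsto_Am d g)

/-- The product of the normalising exponentials. -/
theorem prod_ex (τ : ℍ) :
    ∏ r, ex d r τ = Complex.exp (-(π * Complex.I * ((mu N : ℝ) - orbT N : ℝ)) * τ) := by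
  simp only [ex]
  rw [← Complex.exp_sum]
  congr 1
  rw [← Finset.sum_mul]
  congr 1
  have h := d.sum_e
  have h' : (2 : ℂ) * ∑ r, (d.e r : ℂ) = (((mu N : ℝ) - orbT N : ℝ) : ℂ) := by
    rw [← h]
    push_cast
    ring
  rw [Finset.sum_neg_distrib, ← Finset.mul_sum]
  linear_combination (-(π * Complex.I)) * h'

theorem det_Am (τ : ℍ) :
    (Am d g τ).det = (∏ r, ex d r τ) * d.Λ.det * (g.Φ τ).det := by
  rw [Am_eq, Matrix.det_mul, Matrix.det_mul, Matrix.det_diagonal]

theorem det_Λ_ne_zero : d.Λ.det ≠ 0 := by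
  intro h
  have := congrArg Matrix.det d.hΛ
  rw [Matrix.det_mul, h, mul_zero, Matrix.det_one] at this
  exact zero_ne_one this

/-! ### Level one forms with value `1` at `i∞` -/

theorem tendsto_levelOne {k : ℤ} (P : ModularForm 𝒮ℒ k) :
    Tendsto P atImInfty (𝓝 ((qExpansion 1 P).coeff 0)) := by
  have hQ : IsQ (⇑P) := isQ_of_levelOne P
  have h := IsQ.tendsto hQ
  rwa [← qExpansion_coeff_zero one_pos hQ.analyticAt hQ.periodic] at h

theorem exists_levelOne_tendsto_one (w : ℕ) (hw : Even w) (h4 : w = 0 ∨ 4 ≤ w) :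
    ∃ P : ModularForm 𝒮ℒ w, Tendsto P atImInfty (𝓝 1) := by
  rcases h4 with rfl | h4
  · refine ⟨LevelOneMono.monoK 0 0 (by simp), ?_⟩
    have := tendsto_levelOne (LevelOneMono.monoK (k := ((0 : ℕ) : ℤ)) 0 0 (by simp))
    rwa [LevelOneMono.monoK_coeff_zero] at this
  · obtain ⟨a, b, hab⟩ := LevelOneMono.exists_exponents (k := (w : ℤ)) (by exact_mod_cast h4)
      (by exact_mod_cast hw)
    refine ⟨LevelOneMono.monoK a b hab, ?_⟩
    have := tendsto_levelOne (LevelOneMono.monoK a b hab)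
    rwa [LevelOneMono.monoK_coeff_zero] at this

theorem isMF_discriminant : IsMF 𝒮ℒ 12 (ModularForm.discriminant) :=
  ⟨CuspForm.discriminant.toModularFormₗ, rfl⟩

/-! ### (F4) The limit matrix is invertible -/

theorem det_A0_ne_zero : (A0 d g).det ≠ 0 := by
  classical
  intro hdet
  obtain ⟨v, hv0, hAv⟩ := Matrix.exists_mulVec_eq_zero_iff.mpr hdet
  obtain ⟨j₀, hj₀⟩ : ∃ j₀, v j₀ ≠ 0 := by
    by_contra hcon
    push Not at hcon
    exact hv0 (funext hcon)
  -- the weight
  set K' : ℕ := (∑ j, g.κ j) + 4 with hK'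
  have hκle : ∀ j, g.κ j ≤ ∑ j, g.κ j := fun j =>
    Finset.single_le_sum (f := g.κ) (fun i _ => Nat.zero_le _) (Finset.mem_univ j)
  have hsum_even : Even (∑ j, g.κ j) := Finset.even_sum _ fun j _ => g.κ_even j
  have hPex : ∀ j, ∃ P : ModularForm 𝒮ℒ ((K' - g.κ j : ℕ) : ℤ), Tendsto P atImInfty (𝓝 1) := by
    intro j
    have hle := hκle j
    obtain ⟨r, hr⟩ := g.κ_even j
    obtain ⟨s, hs⟩ := hsum_even
    exact exists_levelOne_tendsto_one (K' - g.κ j) ⟨s + 2 - r, by omega⟩ (Or.inr (by omega))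
  choose P hP using hPex
  let c : Q N → ℍ → ℂ := fun j => v j • ⇑(P j)
  have hc : ∀ j, IsMF 𝒮ℒ ((K' : ℤ) - g.κ j) (c j) := by
    intro j
    have hle : g.κ j ≤ K' := by have := hκle j; omega
    refine (IsMF.smul _ (IsMF.coe (P j))).cast ?_
    rw [Nat.cast_sub hle]
  have hclim : ∀ j, Tendsto (c j) atImInfty (𝓝 (v j)) := by
    intro j
    have h1 := (hP j).const_mul (v j)
    rw [mul_one] at h1
    refine h1.congr fun τ => ?_
    simp [c]
  set G : ℍ → ℂ := ∑ j, c j * ⇑(g.F j) with hGdef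
  have hG : IsMF (G0 N) (K' : ℤ) G := by
    refine IsMF.sum _ fun j _ => ?_
    exact ((hc j).ofLevelOne.mul (g.isMF_F j)).cast (by ring)
  -- the normalised rows of `G` tend to `0`
  have hAG : ∀ r, Tendsto (A d (K' : ℤ) G r) atImInfty (𝓝 0) := by
    intro r
    rw [hGdef, A_combination d g c hc r]
    have h0 : (0 : ℂ) = ∑ j, v j * A0 d g r j := by
      have := congrFun hAv r
      simp only [Matrix.mulVec, dotProduct, Pi.zero_apply] at this
      rw [← this]
      exact Finset.sum_congr rfl fun j _ => mul_comm _ _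
    rw [h0]
    have : (∑ j, c j * A d (g.κ j) (g.F j) r) =
        fun τ => ∑ j, c j τ * A d (g.κ j) (g.F j) r τ := by
      ext τ
      simp [Finset.sum_apply]
    rw [this]
    refine tendsto_finsetSum _ fun j _ => ?_
    exact (hclim j).mul (tendsto_A d (g.isMF_F j) r)
  -- hence decay like `|q|`
  have hAdecay : ∀ r, A d (K' : ℤ) G r =O[atImInfty] fun τ => Real.exp (-2 * π * τ.im) :=
    fun r => IsQ.isBigO_of_tendsto_zero (isQ_A d hG r) (hAG r)
  have hLdecay : ∀ r, L d (K' : ℤ) G r =O[atImInfty] fun τ => Real.exp (-2 * π * τ.im) := by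
    intro r
    refine Asymptotics.IsBigO.trans ?_ (hAdecay r)
    refine Asymptotics.IsBigO.of_bound 1 (Eventually.of_forall fun τ => ?_)
    simp only [A, Pi.mul_apply, norm_mul, one_mul, norm_ex]
    have h1 : 1 ≤ Real.exp (2 * π * d.e r * τ.im) := by
      rw [Real.one_le_exp_iff]
      have := d.e_nonneg r
      have := τ.im_pos
      have := Real.pi_pos
      positivity
    exact le_mul_of_one_le_left (norm_nonneg _) h1
  have htrdecay : ∀ q : Q N, tr (K' : ℤ) G q =O[atImInfty] fun τ => Real.exp (-2 * π * τ.im) := by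
    intro q
    rw [tr_eq_sum_L d]
    refine Asymptotics.IsBigO.sum fun r _ => ?_
    exact (hLdecay r).const_mul_left _
  -- divide by `Δ`
  obtain ⟨Gb, hGb⟩ := hG
  obtain ⟨u, hu⟩ := Divide.div_delta Gb (fun q => by
    rw [quotientFunc_eq_tr, hGb]
    exact htrdecay q)
  obtain ⟨b, hb, hub⟩ := g.gen' (IsMF.coe u)
  have hrel : ∑ j, (c j - ModularForm.discriminant * b j) * ⇑(g.F j) = 0 := by
    have h1 : ∑ j, (c j - ModularForm.discriminant * b j) * ⇑(g.F j) =
        G - ModularForm.discriminant * ∑ j, b j * ⇑(g.F j) := by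
      rw [hGdef, Finset.mul_sum, ← Finset.sum_sub_distrib]
      refine Finset.sum_congr rfl fun j _ => ?_
      ring
    rw [h1, ← hub, ← hGb]
    ext τ
    simp only [Pi.sub_apply, Pi.mul_apply, Pi.zero_apply]
    rw [hu τ, sub_self]
  have hcoef : ∀ j, IsMF 𝒮ℒ ((K' : ℤ) - g.κ j) (c j - ModularForm.discriminant * b j) := by
    intro j
    refine (hc j).sub ((isMF_discriminant.mul (hb j)).cast (by ring))
  have hj := g.indep' _ hcoef hrel j₀
  -- take the limit at `i∞`
  have hlim1 : Tendsto (c j₀ - ModularForm.discriminant * b j₀) atImInfty (𝓝 (v j₀ - 0)) := by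
    refine (hclim j₀).sub ?_
    obtain ⟨B, hB⟩ := hb j₀
    rw [← hB]
    exact Filter.ZeroAtFilter.mul_boundedAtFilter ModularForm.discriminant_isZeroAtImInfty
      (ModularFormClass.bdd_at_infty B)
  rw [hj, sub_zero] at hlim1
  have : v j₀ = 0 := (tendsto_nhds_unique hlim1 tendsto_const_nhds)
  exact hj₀ this

/-! ### Entrywise forms (the `LimitData` interface of the assembly) -/

theorem Am_apply (τ : ℍ) (r j : Q N) :
    Am d g τ r j =
      Complex.exp (-(2 * π * Complex.I * d.e r * τ)) * ∑ q, d.Λ r q * g.Φ τ q j := by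
  simp only [Am, A, L, ex, Pi.mul_apply, g.Φ_apply]
  congr 2
  ring

theorem tendsto_Am_apply (r j : Q N) :
    Tendsto (fun τ => Am d g τ r j) atImInfty (𝓝 (A0 d g r j)) :=
  tendsto_A d (g.isMF_F j) r

end Fermat.Agent.S20.CuspAnalytic
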