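import Mathlib

set_option autoImplicit false
set_option linter.unusedSectionVars false

noncomputable section

namespace Fermat.Agent.S20.CuspDFT

open Finset

/-! ### Roots of unity -/

/-- The standard primitive `h`-th root of unity. -/
def zeta (h : ℕ) : ℂ := Complex.exp (2 * Real.pi * Complex.I / h)

theorem zeta_isPrimitiveRoot (h : ℕ) [NeZero h] : IsPrimitiveRoot (zeta h) h :=
  Complex.isPrimitiveRoot_exp h (NeZero.ne h)

theorem zeta_pow_self (h : ℕ) [NeZero h] : zeta h ^ h = 1 :=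
  (zeta_isPrimitiveRoot h).pow_eq_one

theorem zeta_ne_zero (h : ℕ) : zeta h ≠ 0 := Complex.exp_ne_zero _

theorem zeta_pow_eq_exp (h b : ℕ) :
    zeta h ^ b = Complex.exp (2 * Real.pi * Complex.I * (((b : ℝ) / (h : ℝ) : ℝ) : ℂ)) := by
  rw [zeta, ← Complex.exp_nat_mul]
  congr 1
  push_cast
  ring

/-- sums over `ZMod h` of a function of the value -/
theorem sum_zmod_val {M : Type*} [AddCommMonoid M] (h : ℕ) [NeZero h] (f : ℕ → M) :
    ∑ a : ZMod h, f a.val = ∑ i ∈ Finset.range h, f i := by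
  cases h with
  | zero => exact absurd rfl (NeZero.ne 0)
  | succ n => exact Fin.sum_univ_eq_sum_range f (n + 1)

theorem geom_sum_root {ρ : ℂ} {h : ℕ} (h1 : ρ ^ h = 1) (hne : ρ ≠ 1) :
    ∑ i ∈ Finset.range h, ρ ^ i = 0 := by
  have := mul_geom_sum ρ h
  rw [h1, sub_self] at this
  rcases mul_eq_zero.mp this with h2 | h2
  · exact absurd (sub_eq_zero.mp h2) hne
  · exact h2

theorem sum_range_cast (n : ℕ) : 2 * ∑ i ∈ Finset.range n, (i : ℝ) = (n : ℝ) * ((n : ℝ) - 1) := by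
  induction n with
  | zero => simp
  | succ n ih =>
    rw [Finset.sum_range_succ, mul_add, ih]
    push_cast
    ring

/-- orthogonality of characters of `ZMod h`, in terms of values -/
theorem sum_zeta_orth (h : ℕ) [NeZero h] (a a' : ZMod h) :
    ∑ b : ZMod h, (zeta h)⁻¹ ^ (a.val * b.val) * zeta h ^ (b.val * a'.val) =
      if a = a' then (h : ℂ) else 0 := by
  set ρ : ℂ := (zeta h)⁻¹ ^ a.val * zeta h ^ a'.val with hρ
  have h1 : ∀ b : ZMod h, (zeta h)⁻¹ ^ (a.val * b.val) * zeta h ^ (b.val * a'.val) = ρ ^ b.val := by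
    intro b
    rw [hρ, mul_pow, ← pow_mul, ← pow_mul, mul_comm a'.val]
  rw [Finset.sum_congr rfl fun b _ => h1 b, sum_zmod_val h (fun i => ρ ^ i)]
  have hρh : ρ ^ h = 1 := by
    rw [hρ, mul_pow, ← pow_mul, ← pow_mul, mul_comm a.val, mul_comm a'.val, pow_mul, pow_mul,
      inv_pow, zeta_pow_self, inv_one, one_pow, one_pow, one_mul]
  split_ifs with haa
  · subst haa
    have : ρ = 1 := by
      rw [hρ, inv_pow]
      exact inv_mul_cancel₀ (pow_ne_zero _ (zeta_ne_zero h))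
    rw [this]
    simp
  · apply geom_sum_root hρh
    intro h1
    apply haa
    have h2 : zeta h ^ a'.val = zeta h ^ a.val := by
      rw [hρ, inv_pow] at h1
      have hz : zeta h ^ a.val ≠ 0 := pow_ne_zero _ (zeta_ne_zero h)
      field_simp at h1
      exact h1
    have := (zeta_isPrimitiveRoot h).pow_inj (ZMod.val_lt a') (ZMod.val_lt a) h2
    exact (ZMod.val_injective h this).symm

/-! ### The block DFT on a sigma type -/

section Sigma

variable {Ω : Type*} [Fintype Ω] [DecidableEq Ω] (h : Ω → ℕ) [∀ ω, NeZero (h ω)]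

/-- The index type: pairs (orbit, position). -/
abbrev Idx : Type _ := Σ ω : Ω, ZMod (h ω)

/-- The block DFT matrix. -/
def L (s s' : Idx h) : ℂ :=
  if s.1 = s'.1 then zeta (h s.1) ^ (s.2.val * s'.2.val) else 0

/-- The inverse block DFT matrix. -/
def Linv (s s' : Idx h) : ℂ :=
  if s.1 = s'.1 then ((h s.1 : ℂ))⁻¹ * (zeta (h s.1))⁻¹ ^ (s.2.val * s'.2.val) else 0

/-- The exponents. -/
def ex (s : Idx h) : ℝ := (s.2.val : ℝ) / (h s.1 : ℝ)

theorem ex_nonneg (s : Idx h) : 0 ≤ ex h s := by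
  unfold ex
  positivity

theorem ex_le (s : Idx h) : ex h s ≤ 1 - 1 / (h s.1 : ℝ) := by
  unfold ex
  have hpos : (0 : ℝ) < h s.1 := by
    have := NeZero.pos (h s.1)
    exact_mod_cast this
  have hlt : s.2.val + 1 ≤ h s.1 := ZMod.val_lt s.2
  have : ((s.2.val : ℝ) + 1) ≤ h s.1 := by exact_mod_cast hlt
  rw [div_le_iff₀ hpos, sub_mul, div_mul_cancel₀ _ hpos.ne']
  linarith

theorem card_idx : Fintype.card (Idx h) = ∑ ω, h ω := by
  rw [Fintype.card_sigma]
  simp

theorem sum_ex : 2 * ∑ s : Idx h, ex h s = (Fintype.card (Idx h) : ℝ) - Fintype.card Ω := by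
  rw [Fintype.sum_sigma, card_idx, Finset.mul_sum]
  have h1 : ∀ ω : Ω, 2 * ∑ a : ZMod (h ω), ex h ⟨ω, a⟩ = (h ω : ℝ) - 1 := by
    intro ω
    have hpos : (0 : ℝ) < h ω := by
      have := NeZero.pos (h ω)
      exact_mod_cast this
    unfold ex
    simp only
    rw [sum_zmod_val (h ω) (fun i => (i : ℝ) / (h ω : ℝ)), ← Finset.sum_div, ← mul_div_assoc,
      sum_range_cast, mul_div_assoc, mul_comm, div_mul_cancel₀ _ hpos.ne']
  rw [Finset.sum_congr rfl fun ω _ => h1 ω, Finset.sum_sub_distrib]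
  simp

theorem Linv_mul_L (s s'' : Idx h) :
    ∑ s' : Idx h, Linv h s s' * L h s' s'' = if s = s'' then 1 else 0 := by
  obtain ⟨ω, a⟩ := s
  obtain ⟨ω'', a''⟩ := s''
  rw [Fintype.sum_sigma]
  have h1 : ∀ ω' : Ω, ∑ b : ZMod (h ω'), Linv h ⟨ω, a⟩ ⟨ω', b⟩ * L h ⟨ω', b⟩ ⟨ω'', a''⟩ =
      if ω = ω' then ∑ b : ZMod (h ω'), Linv h ⟨ω, a⟩ ⟨ω', b⟩ * L h ⟨ω', b⟩ ⟨ω'', a''⟩ else 0 := by
    intro ω'
    split_ifs with hω
    · rfl
    · apply Finset.sum_eq_zero
      intro b _
      simp [Linv, hω]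
  rw [Finset.sum_congr rfl fun ω' _ => h1 ω', Finset.sum_ite_eq]
  simp only [Finset.mem_univ, if_true]
  by_cases hω : ω = ω''
  · subst hω
    have h2 : ∀ b : ZMod (h ω), Linv h ⟨ω, a⟩ ⟨ω, b⟩ * L h ⟨ω, b⟩ ⟨ω, a''⟩ =
        ((h ω : ℂ))⁻¹ * ((zeta (h ω))⁻¹ ^ (a.val * b.val) * zeta (h ω) ^ (b.val * a''.val)) := by
      intro b
      simp only [Linv, L, if_true]
      ring
    rw [Finset.sum_congr rfl fun b _ => h2 b, ← Finset.mul_sum, sum_zeta_orth]
    have hne : (h ω : ℂ) ≠ 0 := by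
      exact_mod_cast NeZero.ne (h ω)
    by_cases haa : a = a''
    · subst haa
      simp [hne]
    · have : (⟨ω, a⟩ : Idx h) ≠ ⟨ω, a''⟩ := by
        intro heq
        apply haa
        simpa using heq
      simp [haa, this]
  · have : (⟨ω, a⟩ : Idx h) ≠ ⟨ω'', a''⟩ := by
      intro heq
      apply hω
      exact (Sigma.mk.inj_iff.mp heq).1
    rw [if_neg this]
    apply Finset.sum_eq_zero
    intro b _
    simp [L, hω]

/-- The shift relation: moving the column index one step along its orbit multiplies the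
row by a root of unity. -/
theorem L_shift (s : Idx h) (ω : Ω) (a : ZMod (h ω)) :
    L h s ⟨ω, a + 1⟩ = zeta (h s.1) ^ s.2.val * L h s ⟨ω, a⟩ := by
  unfold L
  simp only
  split_ifs with hω
  · have hval : (a + 1).val = (a.val + 1) % h ω := by
      rw [ZMod.val_add, ZMod.val_one_eq_one_mod, Nat.add_mod_mod]
    have hz : (zeta (h s.1) ^ s.2.val) ^ (h ω) = 1 := by
      rw [← hω, ← pow_mul, mul_comm, pow_mul, zeta_pow_self, one_pow]
    rw [hval, pow_mul, ← pow_eq_pow_mod _ hz, pow_succ, ← pow_mul, mul_comm]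
  · simp

end Sigma

/-! ### Transport to a coset space with the action of a cyclic group -/

section Group

open MulAction Subgroup

variable {G : Type*} [Group G] (H : Subgroup G) (t : G) [Fintype (G ⧸ H)] [DecidableEq (G ⧸ H)]

/-- The orbits of `⟨t⟩` on `G ⧸ H`. -/
abbrev Orb : Type _ := orbitRel.Quotient (zpowers t) (G ⧸ H)

instance instFintypeOrb : Fintype (Orb H t) := Fintype.ofFinite _

instance instDecEqOrb : DecidableEq (Orb H t) := Classical.decEq _

/-- The length of an orbit. -/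
abbrev per (ω : Orb H t) : ℕ := Function.minimalPeriod (t • ·) ω.out

/-- The bijection with pairs (orbit, position). -/
def idx : G ⧸ H ≃ Idx (per H t) := quotientEquivSigmaZMod H t

theorem idx_smul (q : G ⧸ H) : idx H t (t • q) = ⟨(idx H t q).1, (idx H t q).2 + 1⟩ := by
  obtain ⟨⟨ω, a⟩, rfl⟩ := (idx H t).symm.surjective q
  rw [Equiv.apply_symm_apply]
  show quotientEquivSigmaZMod H t (t • (quotientEquivSigmaZMod H t).symm ⟨ω, a⟩) = _
  rw [quotientEquivSigmaZMod_symm_apply, ← mul_smul, ← zpow_one_add, quotientEquivSigmaZMod_apply]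
  congr 1
  push_cast
  exact add_comm _ _

/-- The block DFT matrix on the coset space. -/
def Λ : Matrix (G ⧸ H) (G ⧸ H) ℂ := fun r q => L (per H t) (idx H t r) (idx H t q)

/-- Its inverse. -/
def Λinv : Matrix (G ⧸ H) (G ⧸ H) ℂ := fun q r => Linv (per H t) (idx H t q) (idx H t r)

/-- The exponents. -/
def e (r : G ⧸ H) : ℝ := ex (per H t) (idx H t r)

theorem Λinv_mul_Λ : Λinv H t * Λ H t = 1 := by
  ext q q''
  rw [Matrix.mul_apply, Matrix.one_apply]
  unfold Λinv Λ
  rw [← Equiv.sum_comp (idx H t).symm]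
  simp only [Equiv.apply_symm_apply]
  rw [Linv_mul_L]
  simp only [EmbeddingLike.apply_eq_iff_eq]

theorem e_nonneg (r : G ⧸ H) : 0 ≤ e H t r := ex_nonneg _ _

theorem per_le_card (ω : Orb H t) : per H t ω ≤ Fintype.card (G ⧸ H) := by
  rw [Fintype.card_congr (idx H t), card_idx]
  exact Finset.single_le_sum (f := per H t) (fun _ _ => Nat.zero_le _) (Finset.mem_univ ω)

theorem e_le (r : G ⧸ H) : e H t r ≤ 1 - 1 / (Fintype.card (G ⧸ H) : ℝ) := by
  refine (ex_le _ _).trans ?_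
  have h1 := per_le_card H t (idx H t r).1
  have hpos : (0 : ℝ) < per H t (idx H t r).1 := by
    have := NeZero.pos (per H t (idx H t r).1)
    exact_mod_cast this
  have h2 : (per H t (idx H t r).1 : ℝ) ≤ Fintype.card (G ⧸ H) := by exact_mod_cast h1
  have := one_div_le_one_div_of_le hpos h2
  linarith

theorem sum_e : 2 * ∑ r, e H t r = (Fintype.card (G ⧸ H) : ℝ) - Fintype.card (Orb H t) := by
  unfold e
  rw [Equiv.sum_comp (idx H t) (fun s => ex (per H t) s), sum_ex, Fintype.card_congr (idx H t)]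

theorem Λ_periodic (φ : G ⧸ H → ℂ) (r : G ⧸ H) :
    ∑ q, Λ H t r q * φ (t⁻¹ • q) =
      Complex.exp (2 * Real.pi * Complex.I * (e H t r : ℂ)) * ∑ q, Λ H t r q * φ q := by
  rw [← Equiv.sum_comp (MulAction.toPerm t : G ⧸ H ≃ G ⧸ H), Finset.mul_sum]
  refine Finset.sum_congr rfl fun q _ => ?_
  simp only [MulAction.toPerm_apply, inv_smul_smul]
  unfold Λ e ex
  rw [idx_smul, L_shift, ← zeta_pow_eq_exp, mul_assoc]

end Group

end Fermat.Agent.S20.CuspDFT
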