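import Fermat.Agent.S20.CuspData
import Fermat.Agent.S20.CuspDFT

/-!
# S20 (PROJECT G), slice [F], part (F1)-(F3): the block DFT data for the action of `T`
on the coset space `Q N`.
-/

set_option autoImplicit false

noncomputable section

namespace Fermat.Agent.S20.CuspDFTInst

open UpperHalfPlane SlashInvariantForm CongruenceSubgroup

open scoped ModularForm Manifold MatrixGroups Real

variable {N : ℕ}

/-- Slashing with `T` is the translation `τ ↦ τ + 1`. -/
theorem slash_T_apply (k : ℤ) (f : ℍ → ℂ) (τ : ℍ) :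
    (f ∣[k] ModularGroup.T) τ = f ((1 : ℝ) +ᵥ τ) := by
  rw [ModularForm.SL_slash_apply, modular_T_smul]
  have : denom (Matrix.SpecialLinearGroup.toGL
      ((Matrix.SpecialLinearGroup.map (Int.castRingHom ℝ)) ModularGroup.T)) (τ : ℂ) = 1 := by
    simp [denom, ModularGroup.coe_T]
  rw [this]
  simp

/-- (F1) the translates are permuted by `τ ↦ τ + 1`. -/
theorem tr_vadd {k : ℤ} {f : ℍ → ℂ} (hf : IsMF (G0 N) k f) (q : Q N) (τ : ℍ) :
    tr k f q ((1 : ℝ) +ᵥ τ) = tr k f ((sl ModularGroup.T)⁻¹ • q) τ := by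
  rw [← tr_slash hf ModularGroup.T q, slash_T_apply]

variable (N) [NeZero N]

/-- The block DFT data of the `T`-action on the cosets. -/
def dftData : DFTData N where
  Λ := CuspDFT.Λ ((G0 N).subgroupOf 𝒮ℒ) (sl ModularGroup.T)
  Λinv := CuspDFT.Λinv ((G0 N).subgroupOf 𝒮ℒ) (sl ModularGroup.T)
  hΛ := CuspDFT.Λinv_mul_Λ _ _
  e := CuspDFT.e ((G0 N).subgroupOf 𝒮ℒ) (sl ModularGroup.T)
  e_nonneg := CuspDFT.e_nonneg _ _
  e_le := fun r => by
    have := CuspDFT.e_le ((G0 N).subgroupOf 𝒮ℒ) (sl ModularGroup.T) r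
    rwa [mu, Nat.card_eq_fintype_card]
  sum_e := by
    have := CuspDFT.sum_e ((G0 N).subgroupOf 𝒮ℒ) (sl ModularGroup.T)
    rw [mu, orbT, Nat.card_eq_fintype_card, Nat.card_eq_fintype_card]
    exact this
  periodic := fun k f hf r τ => by
    have := CuspDFT.Λ_periodic ((G0 N).subgroupOf 𝒮ℒ) (sl ModularGroup.T)
      (fun q => tr k f q τ) r
    simp only [tr_vadd hf]
    exact this

end Fermat.Agent.S20.CuspDFTInst
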