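import Fermat.Agent.S20.CuspData
import Fermat.Agent.S20.LevelOneMono

set_option autoImplicit false
set_option linter.unusedSectionVars false

noncomputable section

namespace Fermat.Agent.S20.CuspFinal

open UpperHalfPlane SlashInvariantForm CongruenceSubgroup Filter Topology

open scoped ModularForm Manifold MatrixGroups Real

local notation "Δ" => ModularForm.discriminant

variable {N : ℕ} [NeZero N]

/-! ### (P1) the discriminant at `i∞` -/

theorem tendsto_exp_div_discriminant :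
    Tendsto (fun τ : ℍ => Complex.exp (2 * π * Complex.I * τ) / Δ τ) atImInfty (𝓝 1) := by
  have h := ModularForm.tendsto_atImInfty_tprod_one_sub_eta_q_pow
  have h2 := h.inv₀ one_ne_zero
  rw [inv_one] at h2
  refine h2.congr fun τ => ?_
  rw [ModularForm.discriminant_eq_q_prod]
  have hq : Function.Periodic.qParam 1 (τ : ℂ) = Complex.exp (2 * π * Complex.I * τ) := by
    simp [Function.Periodic.qParam]
  rw [hq]
  have hne : Complex.exp (2 * π * Complex.I * τ) ≠ 0 := Complex.exp_ne_zero _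
  field_simp

/-! ### (P3) the unbundled weight lemma -/

theorem weight_eq_zero_of_nonvanishing' {w : ℤ} (R : ℍ → ℂ) (hol : MDiff R)
    (hinv : ∀ γ : SL(2, ℤ), R ∣[w] γ = R) (hne : ∀ τ, R τ ≠ 0)
    (hlim : ∃ c : ℂ, c ≠ 0 ∧ Tendsto R atImInfty (𝓝 c)) : w = 0 := by
  let V : ModularForm 𝒮ℒ w :=
    { toFun := R
      slash_action_eq' := fun _ ⟨γ, hγ⟩ ↦ hγ ▸ hinv γ
      holo' := hol
      bdd_at_cusps' := fun {c'} hc' ↦ by
        rw [Subgroup.IsArithmetic.isCusp_iff_isCusp_SL2Z] at hc'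
        rw [OnePoint.isBoundedAt_iff_forall_SL2Z hc']
        intro γ _
        rw [hinv γ, IsBoundedAtImInfty, BoundedAtFilter]
        obtain ⟨c, -, hc⟩ := hlim
        exact hc.isBigO_one ℝ }
  exact LevelOneMono.weight_eq_zero_of_nonvanishing V hne hlim

/-! ### (P2) the transformation law of `det Φ ^ 2` -/

theorem Φ_smul (g : Gens N) (γ : SL(2, ℤ)) (τ : ℍ) (q j : Q N) :
    g.Φ (γ • τ) q j = denom γ τ ^ (g.κ j) * g.Φ τ ((sl γ)⁻¹ • q) j := by
  have h := congrFun (quotientFunc_smul (g.F j) (sl γ).2 q) τ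
  change ((quotientFunc (g.F j) q) ∣[(g.κ j : ℤ)] γ) τ = _ at h
  rw [ModularForm.SL_slash_apply] at h
  have hd : denom γ τ ≠ 0 := denom_ne_zero _ _
  unfold Gens.Φ
  rw [← h, mul_comm, mul_assoc, ← zpow_natCast, ← zpow_add₀ hd]
  simp

theorem det_sq_smul (g : Gens N) (γ : SL(2, ℤ)) (τ : ℍ) :
    (g.Φ (γ • τ)).det ^ 2 = denom γ τ ^ (2 * ∑ j, g.κ j) * (g.Φ τ).det ^ 2 := by
  have h1 : g.Φ (γ • τ) = Matrix.of fun q j => denom γ τ ^ (g.κ j) *
      ((g.Φ τ).submatrix (MulAction.toPerm (sl γ)⁻¹ : Equiv.Perm (Q N)) id) q j := by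
    ext q j
    simp only [Matrix.of_apply, Matrix.submatrix_apply, id, MulAction.toPerm_apply]
    exact Φ_smul g γ τ q j
  rw [h1, Matrix.det_mul_row, Matrix.det_permute, Finset.prod_pow_eq_pow_sum, mul_pow, mul_pow,
    ← pow_mul, mul_comm (∑ j, g.κ j) 2]
  have : (((Equiv.Perm.sign (MulAction.toPerm (sl γ)⁻¹ : Equiv.Perm (Q N)) : ℤˣ) : ℤ) : ℂ) ^ 2
      = 1 := by
    rcases Int.units_eq_one_or (Equiv.Perm.sign (MulAction.toPerm (sl γ)⁻¹ : Equiv.Perm (Q N)))
      with h | h <;> simp [h]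
  rw [this, one_mul]

/-! ### The interface with the core of (F4) -/

/-- The limit data produced by the core: the 1-periodic matrix `A`, its limit `A0` at `i∞`,
and the non-vanishing of `det A0`. -/
structure LimitData (g : Gens N) (d : DFTData N) where
  /-- the normalised matrix -/
  A : ℍ → Matrix (Q N) (Q N) ℂ
  hA : ∀ τ r j, A τ r j =
    Complex.exp (-(2 * π * Complex.I * d.e r * τ)) * ∑ q, d.Λ r q * g.Φ τ q j
  /-- its limit -/
  A0 : Matrix (Q N) (Q N) ℂ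
  tendsto : ∀ r j, Tendsto (fun τ => A τ r j) atImInfty (𝓝 (A0 r j))
  det_ne : A0.det ≠ 0

variable {g : Gens N} {d : DFTData N}

theorem det_Λ_ne_zero (d : DFTData N) : d.Λ.det ≠ 0 := by
  intro h
  have := congrArg Matrix.det d.hΛ
  rw [Matrix.det_mul, h, mul_zero, Matrix.det_one] at this
  exact zero_ne_one this

theorem orbT_le_mu (d : DFTData N) : orbT N ≤ mu N := by
  have h1 : 0 ≤ 2 * ∑ r, d.e r := by
    have := Finset.sum_nonneg fun r (_ : r ∈ Finset.univ) => d.e_nonneg r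
    linarith
  rw [d.sum_e] at h1
  have : (orbT N : ℝ) ≤ mu N := by linarith
  exact_mod_cast this

theorem A_eq (L : LimitData g d) (τ : ℍ) :
    L.A τ = Matrix.diagonal (fun r => Complex.exp (-(2 * π * Complex.I * d.e r * τ))) *
      (d.Λ * g.Φ τ) := by
  ext r j
  rw [L.hA, Matrix.diagonal_mul, Matrix.mul_apply]

/-- (P5) the determinant of `A`. -/
theorem det_A (L : LimitData g d) (τ : ℍ) :
    (L.A τ).det = Complex.exp (-(π * Complex.I * ((mu N - orbT N : ℕ) : ℂ) * τ)) *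
      (d.Λ.det * (g.Φ τ).det) := by
  rw [A_eq, Matrix.det_mul, Matrix.det_diagonal, Matrix.det_mul, ← Complex.exp_sum]
  congr 2
  have h1 : ((mu N - orbT N : ℕ) : ℂ) = (((mu N : ℝ) - orbT N : ℝ) : ℂ) := by
    rw [Nat.cast_sub (orbT_le_mu d)]
    push_cast
    ring
  rw [h1, ← d.sum_e, Finset.sum_neg_distrib]
  push_cast
  rw [neg_inj, Finset.mul_sum, Finset.mul_sum, Finset.sum_mul]
  apply Finset.sum_congr rfl
  intro r _
  ring

theorem tendsto_A (L : LimitData g d) : Tendsto L.A atImInfty (𝓝 L.A0) :=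
  tendsto_pi_nhds.mpr fun r => tendsto_pi_nhds.mpr fun j => L.tendsto r j

theorem tendsto_det_A (L : LimitData g d) :
    Tendsto (fun τ => (L.A τ).det) atImInfty (𝓝 L.A0.det) :=
  ((continuous_id.matrix_det (A := fun M : Matrix (Q N) (Q N) ℂ => M)).tendsto L.A0).comp
    (tendsto_A L)

theorem tendsto_inv_A (L : LimitData g d) (j r : Q N) :
    Tendsto (fun τ => (L.A τ)⁻¹ j r) atImInfty (𝓝 (L.A0⁻¹ j r)) := by
  have hc : ContinuousAt (Inv.inv : Matrix (Q N) (Q N) ℂ → _) L.A0 := by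
    apply continuousAt_matrix_inv
    rw [Ring.inverse_eq_inv']
    exact continuousAt_inv₀ L.det_ne
  have h := (hc.tendsto.comp (tendsto_A L))
  exact (tendsto_pi_nhds.mp (tendsto_pi_nhds.mp h j) r)

theorem discriminant_smul (σ : SL(2, ℤ)) (τ : ℍ) : Δ (σ • τ) = denom σ τ ^ (12 : ℤ) * Δ τ :=
  SlashInvariantForm.slash_action_eqn'' CuspForm.discriminant
    (show (Matrix.SpecialLinearGroup.mapGL ℝ σ) ∈ 𝒮ℒ from ⟨σ, rfl⟩) τ

theorem mdiff_det {n : Type} [Fintype n] [DecidableEq n] (M : ℍ → Matrix n n ℂ)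
    (hM : ∀ a b, MDiff fun τ => M τ a b) : MDiff fun τ => (M τ).det := by
  have : (fun τ => (M τ).det) =
      ∑ σ : Equiv.Perm n, ((Equiv.Perm.sign σ : ℤ) : ℂ) • ∏ i, fun τ => M τ (σ i) i := by
    funext τ
    rw [Matrix.det_apply, Finset.sum_apply]
    refine Finset.sum_congr rfl fun σ _ => ?_
    rw [Pi.smul_apply, Finset.prod_apply]
    simp [Units.smul_def, zsmul_eq_mul]
  rw [this]
  exact .sum fun σ _ => .const_smul _ (.prod fun i _ => hM _ _)

theorem mdiff_Φ (g : Gens N) (q j : Q N) : MDiff fun τ => g.Φ τ q j := by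
  unfold Gens.Φ
  induction q using Quotient.inductionOn with
  | h r => exact (ModularForm.translate (g.F j) (r : GL (Fin 2) ℝ)⁻¹).holo'

/-- The function `det Φ ^ 2 / Δ ^ (μ - c)`. -/
def Rfun (g : Gens N) (τ : ℍ) : ℂ := (g.Φ τ).det ^ 2 / Δ τ ^ (mu N - orbT N)

theorem Rfun_eq (L : LimitData g d) (τ : ℍ) :
    Rfun g τ = (L.A τ).det ^ 2 / d.Λ.det ^ 2 *
      (Complex.exp (2 * π * Complex.I * τ) / Δ τ) ^ (mu N - orbT N) := by
  have hΛ := det_Λ_ne_zero d
  have hΔ : Δ τ ≠ 0 := ModularForm.discriminant_ne_zero τ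
  have hE : Complex.exp (-(π * Complex.I * ((mu N - orbT N : ℕ) : ℂ) * τ)) ^ 2 *
      Complex.exp (2 * π * Complex.I * τ) ^ (mu N - orbT N) = 1 := by
    rw [← Complex.exp_nat_mul, ← Complex.exp_nat_mul, ← Complex.exp_add]
    convert Complex.exp_zero using 2
    push_cast
    ring
  unfold Rfun
  rw [det_A L τ, div_pow, mul_pow, mul_pow]
  generalize Complex.exp (-(π * Complex.I * ((mu N - orbT N : ℕ) : ℂ) * τ)) = E at hE ⊢
  generalize Complex.exp (2 * π * Complex.I * τ) = X at hE ⊢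
  field_simp
  linear_combination (-(g.Φ τ).det ^ 2) * hE

theorem tendsto_Rfun (L : LimitData g d) :
    Tendsto (Rfun g) atImInfty (𝓝 (L.A0.det ^ 2 / d.Λ.det ^ 2)) := by
  have h1 := ((tendsto_det_A L).pow 2).div_const (d.Λ.det ^ 2)
  have h2 := tendsto_exp_div_discriminant.pow (mu N - orbT N)
  have h3 := h1.mul h2
  rw [one_pow, mul_one] at h3
  refine h3.congr fun τ => ?_
  exact (Rfun_eq L τ).symm

theorem Rfun_slash (g : Gens N) (γ : SL(2, ℤ)) :
    (Rfun g) ∣[((2 * ∑ j, g.κ j : ℕ) : ℤ) - ((12 * (mu N - orbT N) : ℕ) : ℤ)] γ = Rfun g := by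
  funext τ
  rw [ModularForm.SL_slash_apply]
  unfold Rfun
  rw [det_sq_smul, discriminant_smul]
  have hD : denom γ τ ≠ 0 := denom_ne_zero _ _
  have hΔ : Δ τ ≠ 0 := ModularForm.discriminant_ne_zero τ
  rw [neg_sub, zpow_sub₀ hD, zpow_natCast, zpow_natCast, mul_pow, ← zpow_natCast (denom γ τ ^ (12 : ℤ)),
    ← zpow_mul, ← Nat.cast_ofNat (R := ℤ), ← Nat.cast_mul, zpow_natCast]
  field_simp

/-- (P7) the sum of the weights. -/
theorem sum_κ_of (g : Gens N) (hdet : ∀ τ, (g.Φ τ).det ≠ 0) (L : LimitData g d) :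
    ∑ j, g.κ j + 6 * orbT N = 6 * mu N := by
  have hle := orbT_le_mu d
  have hΔ : ∀ τ : ℍ, Δ τ ≠ 0 := ModularForm.discriminant_ne_zero
  have hw := weight_eq_zero_of_nonvanishing' (Rfun g)
    ((MDifferentiable.pow (mdiff_det _ fun a b => mdiff_Φ g a b) 2).div
      (CuspForm.discriminant.holo'.pow _) fun τ => pow_ne_zero _ (hΔ τ))
    (Rfun_slash g) (fun τ => div_ne_zero (pow_ne_zero _ (hdet τ)) (pow_ne_zero _ (hΔ τ)))
    ⟨_, div_ne_zero (pow_ne_zero _ L.det_ne) (pow_ne_zero _ (det_Λ_ne_zero d)), tendsto_Rfun L⟩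
  have h2 : 2 * ∑ j, g.κ j = 12 * (mu N - orbT N) := by
    have : ((2 * ∑ j, g.κ j : ℕ) : ℤ) = (12 * (mu N - orbT N) : ℕ) := by linarith
    exact_mod_cast this
  omega

/-! ### (P8) `Δ · Φ⁻¹` tends to zero -/

theorem mu_pos : 0 < mu N := by
  rw [mu, Nat.card_eq_fintype_card]
  exact Fintype.card_pos_iff.mpr ⟨((1 : 𝒮ℒ) : Q N)⟩

theorem tendsto_exp_mul_atImInfty {c : ℝ} (hc : 0 < c) :
    Tendsto (fun τ : ℍ => Complex.exp (2 * π * Complex.I * c * τ)) atImInfty (𝓝 0) := by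
  rw [tendsto_zero_iff_norm_tendsto_zero]
  have h1 : ∀ τ : ℍ, ‖Complex.exp (2 * π * Complex.I * c * τ)‖ = Real.exp (-(2 * π * c) * τ.im) := by
    intro τ
    rw [Complex.norm_exp]
    congr 1
    simp
  simp only [h1]
  have h2 : Tendsto (fun τ : ℍ => τ.im) atImInfty atTop := tendsto_comap
  have h3 : Tendsto (fun τ : ℍ => -(2 * π * c) * τ.im) atImInfty atBot := by
    apply Tendsto.const_mul_atTop_of_neg _ h2
    have : 0 < 2 * π * c := by positivity
    linarith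
  exact Real.tendsto_exp_atBot.comp h3

theorem tendsto_discriminant_mul_exp (d : DFTData N) (r : Q N) :
    Tendsto (fun τ : ℍ => Δ τ * Complex.exp (-(2 * π * Complex.I * d.e r * τ))) atImInfty
      (𝓝 0) := by
  have hpos : 0 < 1 - d.e r := by
    have h1 := d.e_le r
    have h2 : (0 : ℝ) < 1 / (mu N : ℝ) := by
      have : (0 : ℝ) < mu N := by exact_mod_cast mu_pos (N := N)
      positivity
    linarith
  have h1 := tendsto_exp_mul_atImInfty hpos
  have h2 := (tendsto_exp_div_discriminant.inv₀ one_ne_zero)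
  have h3 := h1.mul h2
  rw [zero_mul] at h3
  refine h3.congr fun τ => ?_
  have hΔ : Δ τ ≠ 0 := ModularForm.discriminant_ne_zero τ
  have hX : Complex.exp (2 * π * Complex.I * τ) ≠ 0 := Complex.exp_ne_zero _
  have hsplit : Complex.exp (2 * π * Complex.I * ((1 - d.e r : ℝ) : ℂ) * τ) =
      Complex.exp (2 * π * Complex.I * τ) * Complex.exp (-(2 * π * Complex.I * d.e r * τ)) := by
    rw [← Complex.exp_add]
    congr 1
    push_cast
    ring
  rw [hsplit]
  field_simp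

/-- `Φ⁻¹ = A⁻¹ · diag(E) · Λ`. -/
theorem inv_Φ_eq (hdet : ∀ τ, (g.Φ τ).det ≠ 0) (L : LimitData g d) (τ : ℍ) :
    (g.Φ τ)⁻¹ = (L.A τ)⁻¹ *
      (Matrix.diagonal (fun r => Complex.exp (-(2 * π * Complex.I * d.e r * τ))) * d.Λ) := by
  apply Matrix.inv_eq_left_inv
  have hA : (L.A τ).det ≠ 0 := by
    rw [det_A]
    exact mul_ne_zero (Complex.exp_ne_zero _) (mul_ne_zero (det_Λ_ne_zero d) (hdet τ))
  rw [Matrix.mul_assoc, Matrix.mul_assoc, ← A_eq L τ]
  exact Matrix.nonsing_inv_mul _ (Ne.isUnit hA)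

/-- (P8) = (F6). -/
theorem tendsto_delta_inv_of (g : Gens N) (hdet : ∀ τ, (g.Φ τ).det ≠ 0) (L : LimitData g d)
    (j q : Q N) :
    Tendsto (fun τ => Δ τ * (g.Φ τ)⁻¹ j q) atImInfty (𝓝 0) := by
  have h1 : ∀ τ : ℍ, Δ τ * (g.Φ τ)⁻¹ j q =
      ∑ r, (L.A τ)⁻¹ j r * d.Λ r q *
        (Δ τ * Complex.exp (-(2 * π * Complex.I * d.e r * τ))) := by
    intro τ
    rw [inv_Φ_eq hdet L τ, Matrix.mul_apply, Finset.mul_sum]
    refine Finset.sum_congr rfl fun r _ => ?_
    rw [Matrix.diagonal_mul]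
    ring
  simp only [h1]
  have h2 : ∀ r ∈ (Finset.univ : Finset (Q N)), Tendsto (fun τ : ℍ => (L.A τ)⁻¹ j r * d.Λ r q *
      (Δ τ * Complex.exp (-(2 * π * Complex.I * d.e r * τ)))) atImInfty
      (𝓝 (L.A0⁻¹ j r * d.Λ r q * 0)) := fun r _ =>
    ((tendsto_inv_A L j r).mul_const _).mul (tendsto_discriminant_mul_exp d r)
  have h3 := tendsto_finsetSum _ h2
  simpa using h3

end Fermat.Agent.S20.CuspFinal


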