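import Mathlib
import Fermat.Agent.LevelOne.Ramanujan

/-
PROJECT G (S20), slice [A]: level-one facts.  Author: helper3.

Exports (namespace `Fermat.Agent.S20.LevelOne`):
* `exists_monomials`  (A1)  every level-one form is an isobaric polynomial in `E₄`, `E₆`;
* `exists_simple`     (A2)  for every `τ₁` a level-one form `Qf` of weight `w > 0` vanishing at `τ₁`,
                            with simple zeros only, non-zero limit at `i∞`, dividing every level-one form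
                            that vanishes at `τ₁`  (`Qf = E₄`, `E₆` or `Δ(τ₁) E₄³ - E₄(τ₁)³ Δ`);
* `weight_eq_zero_of_nonvanishing` (A4).
(A3 is in `Fermat/Agent/S20/LevelOneMono.lean`.)
-/
set_option autoImplicit false

namespace Fermat.Agent.S20.LevelOne

open UpperHalfPlane ModularForm ModularFormClass MatrixGroups EisensteinSeries Filter Topology
open Fermat.Agent.LevelOne.Ramanujan
open scoped Manifold

local notation "Δ" => ModularForm.discriminant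

/-- `F` is (the function underlying) a level-one modular form of weight `k`. -/
def IsMF (k : ℤ) (F : ℍ → ℂ) : Prop := ∃ G : ModularForm 𝒮ℒ k, ⇑G = F

namespace IsMF

variable {k k₁ k₂ : ℤ} {F G : ℍ → ℂ}

theorem of_form (f : ModularForm 𝒮ℒ k) : IsMF k f := ⟨f, rfl⟩

theorem zero (k : ℤ) : IsMF k 0 := ⟨0, rfl⟩

theorem add (hF : IsMF k F) (hG : IsMF k G) : IsMF k (F + G) := by
  obtain ⟨f, rfl⟩ := hF
  obtain ⟨g, rfl⟩ := hG
  exact ⟨f + g, rfl⟩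

theorem neg (hF : IsMF k F) : IsMF k (-F) := by
  obtain ⟨f, rfl⟩ := hF
  exact ⟨-f, rfl⟩

theorem sub (hF : IsMF k F) (hG : IsMF k G) : IsMF k (F - G) := by
  obtain ⟨f, rfl⟩ := hF
  obtain ⟨g, rfl⟩ := hG
  exact ⟨f - g, rfl⟩

theorem smul (c : ℂ) (hF : IsMF k F) : IsMF k (c • F) := by
  obtain ⟨f, rfl⟩ := hF
  exact ⟨c • f, rfl⟩

theorem cast (h : k₁ = k₂) (hF : IsMF k₁ F) : IsMF k₂ F := h ▸ hF

theorem mul (hF : IsMF k₁ F) (hG : IsMF k₂ G) : IsMF (k₁ + k₂) (F * G) := by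
  obtain ⟨f, rfl⟩ := hF
  obtain ⟨g, rfl⟩ := hG
  exact ⟨f.mul g, rfl⟩

theorem one : IsMF 0 (1 : ℍ → ℂ) := ⟨1, by ext z; simp⟩

theorem pow (hF : IsMF k F) (n : ℕ) : IsMF (n * k) (F ^ n) := by
  obtain ⟨f, rfl⟩ := hF
  exact ⟨f.pow n, by simp⟩

end IsMF

theorem isMF_E₄ : IsMF 4 E₄ := ⟨E₄, rfl⟩
theorem isMF_E₆ : IsMF 6 E₆ := ⟨E₆, rfl⟩
theorem isMF_Δ : IsMF 12 Δ := ⟨ΔMF, rfl⟩

/-- The monomial `E₄^a E₆^b`. -/
noncomputable def mono (a b : ℕ) : ℍ → ℂ := fun τ => E₄ τ ^ a * E₆ τ ^ b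

theorem isMF_mono (a b : ℕ) : IsMF (4 * a + 6 * b) (mono a b) := by
  have h := (isMF_E₄.pow a).mul (isMF_E₆.pow b)
  have h' : IsMF (4 * (a : ℤ) + 6 * b) ((E₄ : ℍ → ℂ) ^ a * (E₆ : ℍ → ℂ) ^ b) :=
    h.cast (by ring)
  exact h'

theorem tendsto_mono (a b : ℕ) : Tendsto (mono a b) atImInfty (𝓝 1) := by
  have h := (tendsto_E₄.pow a).mul (tendsto_E₆.pow b)
  simp only [one_pow, mul_one] at h
  exact h

theorem exists_mono_weight (k : ℤ) (hk : Even k) (h0 : 0 ≤ k) (h2 : k ≠ 2) :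
    ∃ a b : ℕ, (4 * (a : ℤ) + 6 * b) = k := by
  obtain ⟨m, hm⟩ := hk
  rcases Int.even_or_odd m with ⟨j, hj⟩ | ⟨j, hj⟩
  · -- k = 4 j
    refine ⟨j.toNat, 0, ?_⟩
    have : 0 ≤ j := by omega
    rw [Int.toNat_of_nonneg this]
    omega
  · -- k = 4 j + 2, j ≥ 1
    refine ⟨(j - 1).toNat, 1, ?_⟩
    have : 0 ≤ j - 1 := by omega
    rw [Int.toNat_of_nonneg this]
    omega

namespace IsMF

variable {k : ℤ} {F : ℍ → ℂ}

theorem eq_zero_of_neg (hk : k < 0) (hF : IsMF k F) : F = 0 := by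
  obtain ⟨f, rfl⟩ := hF
  exact levelOne_neg_weight_eq_zero hk f

theorem eq_zero_of_odd (hk : Odd k) (hF : IsMF k F) : F = 0 := by
  obtain ⟨f, rfl⟩ := hF
  rw [ModularForm.levelOne_odd_weight_eq_zero hk f]
  rfl

theorem eq_zero_of_two (hF : IsMF 2 F) : F = 0 := by
  obtain ⟨f, rfl⟩ := hF
  rw [rank_zero_iff_forall_zero.mp levelOne_weight_two_rank_zero f]
  rfl

theorem const_of_zero (hF : IsMF 0 F) : ∃ c : ℂ, F = fun _ => c := by
  obtain ⟨f, rfl⟩ := hF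
  obtain ⟨c, hc⟩ := levelOne_weight_zero_const f
  exact ⟨c, hc⟩

theorem tendsto (hF : IsMF k F) : ∃ a : ℂ, Tendsto F atImInfty (𝓝 a) := by
  obtain ⟨f, rfl⟩ := hF
  exact ⟨_, tendsto_coeff_zero f⟩

theorem mdiff (hF : IsMF k F) : MDiff F := by
  obtain ⟨f, rfl⟩ := hF
  exact ModularFormClass.holo f

/-- A level-one form vanishing at `i∞` is divisible by `Δ`. -/
theorem exists_mul_delta (hF : IsMF k F) (h0 : Tendsto F atImInfty (𝓝 0)) :
    ∃ h, IsMF (k - 12) h ∧ ∀ τ, F τ = Δ τ * h τ := by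
  obtain ⟨f, rfl⟩ := hF
  have hc : (qExpansion 1 f).coeff 0 = 0 := coeff_zero_of_tendsto f h0
  refine ⟨CuspForm.discriminantEquiv (toCuspForm f hc), ⟨_, rfl⟩, fun τ => ?_⟩
  rw [discriminant_mul_discriminantEquiv_apply]
  rfl

end IsMF

/-- `F = a₀ M + Δ h` where `a₀` is the value of `F` at `i∞` and `M → 1`. -/
theorem IsMF.decomp {k : ℤ} {F M : ℍ → ℂ} (hF : IsMF k F) {a₀ : ℂ}
    (ha : Tendsto F atImInfty (𝓝 a₀)) (hM : IsMF k M) (hM1 : Tendsto M atImInfty (𝓝 1)) :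
    ∃ h, IsMF (k - 12) h ∧ ∀ τ, F τ = a₀ * M τ + Δ τ * h τ := by
  have h1 : IsMF k (F - a₀ • M) := hF.sub (hM.smul a₀)
  have h2 : Tendsto (F - a₀ • M) atImInfty (𝓝 0) := by
    have := ha.sub (hM1.const_mul a₀)
    simp only [mul_one, sub_self] at this
    exact this
  obtain ⟨h, hh, hrel⟩ := h1.exists_mul_delta h2
  refine ⟨h, hh, fun τ => ?_⟩
  have := hrel τ
  simp only [Pi.sub_apply, Pi.smul_apply, smul_eq_mul] at this
  linear_combination this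

/-- In the weights `k < 12` and `k = 14` a form is a multiple of a monomial. -/
theorem IsMF.eq_zero_of_small {k : ℤ} {F : ℍ → ℂ} (hk : k < 12 ∨ k = 14) {a b : ℕ}
    (hab : (4 * (a : ℤ) + 6 * b) = k) (τ₁ : ℍ) (hM : mono a b τ₁ ≠ 0) (hF : IsMF k F)
    (h0 : F τ₁ = 0) : F = 0 := by
  obtain ⟨a₀, ha⟩ := hF.tendsto
  obtain ⟨h, hh, hrel⟩ := hF.decomp ha ((isMF_mono a b).cast hab) (tendsto_mono a b)
  have hh0 : h = 0 := by
    rcases hk with hk | hk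
    · exact hh.eq_zero_of_neg (by omega)
    · exact (hh.cast (by omega)).eq_zero_of_two
  have h1 := hrel τ₁
  rw [hh0, h0] at h1
  simp only [Pi.zero_apply, mul_zero, add_zero] at h1
  have ha0 : a₀ = 0 := by
    rcases mul_eq_zero.mp h1.symm with h | h
    · exact h
    · exact absurd h hM
  funext τ
  rw [hrel τ, hh0, ha0]
  simp

/-- **Division by a level-one form** with a zero at `τ₁` and non-zero value at `i∞`, assuming
the statement in the finitely many small weights. -/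
theorem div_aux (τ₁ : ℍ) (w : ℕ) (hw : Even w) (hw0 : 0 < w) {Qf : ℍ → ℂ} (hQ : IsMF w Qf) (hQ0 : Qf τ₁ = 0)
    {a : ℂ} (ha : a ≠ 0) (hlim : Tendsto Qf atImInfty (𝓝 a))
    (hB : ∀ k : ℤ, Even k → 0 ≤ k → (k - w < 0 ∨ k - w = 2) →
      ∀ F, IsMF k F → F τ₁ = 0 → F = 0) :
    ∀ n : ℕ, ∀ k : ℤ, k ≤ n → ∀ F, IsMF k F → F τ₁ = 0 →
      ∃ U, IsMF (k - w) U ∧ ∀ τ, F τ = Qf τ * U τ := by
  intro n
  induction n using Nat.strong_induction_on with
  | _ n ih =>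
    intro k hk F hF h0
    have hzero : F = 0 → ∃ U, IsMF (k - w) U ∧ ∀ τ, F τ = Qf τ * U τ := fun h =>
      ⟨0, IsMF.zero _, fun τ => by rw [h]; simp⟩
    rcases lt_or_ge k 0 with hneg | hnn
    · exact hzero (hF.eq_zero_of_neg hneg)
    rcases Int.even_or_odd k with hev | hodd
    swap
    · exact hzero (hF.eq_zero_of_odd hodd)
    by_cases hsmall : k - w < 0 ∨ k - w = 2
    · exact hzero (hB k hev hnn hsmall F hF h0)
    · have hkw0 : 0 ≤ k - w := by omega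
      have hkw2 : k - w ≠ 2 := fun h => hsmall (Or.inr h)
      have hkwev : Even (k - (w : ℤ)) := hev.sub (by exact_mod_cast hw)
      obtain ⟨i, j, hij⟩ := exists_mono_weight (k - w) hkwev hkw0 hkw2
      have hM' : IsMF (k - w) (mono i j) := (isMF_mono i j).cast hij
      obtain ⟨a₀, ha₀⟩ := hF.tendsto
      -- the comparison form `Qf * M' / a`
      have hC : IsMF k (a⁻¹ • (Qf * mono i j)) := ((hQ.mul hM').cast (by ring)).smul _
      have hC1 : Tendsto (a⁻¹ • (Qf * mono i j)) atImInfty (𝓝 1) := by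
        have := (hlim.mul (tendsto_mono i j)).const_mul a⁻¹
        simp only [mul_one, inv_mul_cancel₀ ha] at this
        exact this
      obtain ⟨h, hh, hrel⟩ := hF.decomp ha₀ hC hC1
      have hΔ : Δ τ₁ ≠ 0 := discriminant_ne_zero τ₁
      have hh0 : h τ₁ = 0 := by
        have := hrel τ₁
        simp only [Pi.smul_apply, Pi.mul_apply, smul_eq_mul, hQ0, h0, zero_mul, mul_zero,
          zero_add] at this
        rcases mul_eq_zero.mp this.symm with h' | h'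
        · exact absurd h' hΔ
        · exact h'
      have hn : 0 < n := by
        rcases Nat.eq_zero_or_pos n with rfl | h
        · exfalso
          have h1 : k = 0 := by omega
          have h2 : (0 : ℤ) < (w : ℤ) := by exact_mod_cast hw0
          omega
        · exact h
      obtain ⟨U', hU', hrel'⟩ := ih (n - 1) (by omega) (k - 12) (by omega) h hh hh0
      refine ⟨(a₀ * a⁻¹) • mono i j + Δ * U', ?_, fun τ => ?_⟩
      · exact (hM'.smul _).add ((isMF_Δ.mul hU').cast (by ring))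
      · rw [hrel τ, hrel' τ]
        simp only [Pi.smul_apply, Pi.mul_apply, Pi.add_apply, smul_eq_mul]
        ring

open Derivative in
theorem deriv_ne_zero_of_D_ne_zero {F : ℍ → ℂ} {τ : ℍ} (h : D F τ ≠ 0) :
    deriv (F ∘ ofComplex) τ ≠ 0 := by
  intro h0
  apply h
  simp [normalizedDerivOfComplex, h0]

theorem E₄_E₆_not_both_zero (τ : ℍ) : E₄ τ ≠ 0 ∨ E₆ τ ≠ 0 := by
  by_contra h
  push Not at h
  have h1 := discriminant_eq_E₄_cube_sub_E₆_sq τ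
  rw [h.1, h.2] at h1
  simp only [ne_eq, OfNat.ofNat_ne_zero, not_false_eq_true, zero_pow, sub_self, zero_div] at h1
  exact discriminant_ne_zero τ h1

theorem E₆_ne_zero_of_E₄ {τ : ℍ} (h : E₄ τ = 0) : E₆ τ ≠ 0 :=
  (E₄_E₆_not_both_zero τ).resolve_left (not_not.mpr h)

theorem E₄_ne_zero_of_E₆ {τ : ℍ} (h : E₆ τ = 0) : E₄ τ ≠ 0 :=
  (E₄_E₆_not_both_zero τ).resolve_right (not_not.mpr h)

/-- Packaging of `div_aux` for bundled forms. -/
theorem div_bundled (τ₁ : ℍ) (w : ℕ) (hw : Even w) (hw0 : 0 < w) (Qf : ModularForm 𝒮ℒ w)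
    (hQ0 : Qf τ₁ = 0) {a : ℂ} (ha : a ≠ 0) (hlim : Tendsto Qf atImInfty (𝓝 a))
    (hB : ∀ k : ℤ, Even k → 0 ≤ k → (k - w < 0 ∨ k - w = 2) →
      ∀ F, IsMF k F → F τ₁ = 0 → F = 0) (k : ℤ) (P : ModularForm 𝒮ℒ k) (hP : P τ₁ = 0) :
    ∃ U : ModularForm 𝒮ℒ (k - w), ∀ τ, P τ = Qf τ * U τ := by
  obtain ⟨U, ⟨U', rfl⟩, hU⟩ := div_aux τ₁ w hw hw0 (IsMF.of_form Qf) hQ0 ha hlim hB k.toNat k
    (Int.self_le_toNat k) P (IsMF.of_form P) hP
  exact ⟨U', hU⟩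

open Derivative in
/-- Case `E₄ τ₁ = 0`. -/
theorem exists_simple_E₄ (τ₁ : ℍ) (h4 : E₄ τ₁ = 0) :
    ∃ (w : ℕ) (Qf : ModularForm 𝒮ℒ w), 0 < w ∧ Qf τ₁ = 0 ∧
      (∀ τ : ℍ, Qf τ = 0 → deriv (⇑Qf ∘ ofComplex) τ ≠ 0) ∧
      (∃ c : ℂ, c ≠ 0 ∧ Tendsto Qf atImInfty (𝓝 c)) ∧
      ∀ (k : ℤ) (P : ModularForm 𝒮ℒ k), P τ₁ = 0 →
        ∃ U : ModularForm 𝒮ℒ (k - w), ∀ τ, P τ = Qf τ * U τ := by
  have h6 : E₆ τ₁ ≠ 0 := E₆_ne_zero_of_E₄ h4
  refine ⟨4, E₄, by norm_num, h4, fun τ hτ => ?_, ⟨1, one_ne_zero, tendsto_E₄⟩, ?_⟩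
  · apply deriv_ne_zero_of_D_ne_zero
    rw [D_E₄, hτ]
    have := E₆_ne_zero_of_E₄ hτ
    simpa using this
  · refine div_bundled τ₁ 4 ⟨2, rfl⟩ (by norm_num) E₄ h4 one_ne_zero tendsto_E₄ ?_
    intro k hev h0 hs F hF hF0
    have hk : k = 0 ∨ k = 2 ∨ k = 6 := by
      obtain ⟨m, hm⟩ := hev
      push_cast at hs
      omega
    rcases hk with rfl | rfl | rfl
    · exact hF.eq_zero_of_small (Or.inl (by norm_num)) (a := 0) (b := 0) (by norm_num) τ₁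
        (by simp [mono]) hF0
    · exact hF.eq_zero_of_two
    · exact hF.eq_zero_of_small (Or.inl (by norm_num)) (a := 0) (b := 1) (by norm_num) τ₁
        (by simpa [mono] using h6) hF0

open Derivative in
/-- Case `E₆ τ₁ = 0`. -/
theorem exists_simple_E₆ (τ₁ : ℍ) (h6 : E₆ τ₁ = 0) :
    ∃ (w : ℕ) (Qf : ModularForm 𝒮ℒ w), 0 < w ∧ Qf τ₁ = 0 ∧
      (∀ τ : ℍ, Qf τ = 0 → deriv (⇑Qf ∘ ofComplex) τ ≠ 0) ∧
      (∃ c : ℂ, c ≠ 0 ∧ Tendsto Qf atImInfty (𝓝 c)) ∧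
      ∀ (k : ℤ) (P : ModularForm 𝒮ℒ k), P τ₁ = 0 →
        ∃ U : ModularForm 𝒮ℒ (k - w), ∀ τ, P τ = Qf τ * U τ := by
  have h4 : E₄ τ₁ ≠ 0 := E₄_ne_zero_of_E₆ h6
  refine ⟨6, E₆, by norm_num, h6, fun τ hτ => ?_, ⟨1, one_ne_zero, tendsto_E₆⟩, ?_⟩
  · apply deriv_ne_zero_of_D_ne_zero
    rw [D_E₆, hτ]
    have := E₄_ne_zero_of_E₆ hτ
    simpa using this
  · refine div_bundled τ₁ 6 ⟨3, rfl⟩ (by norm_num) E₆ h6 one_ne_zero tendsto_E₆ ?_
    intro k hev h0 hs F hF hF0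
    have hk : k = 0 ∨ k = 2 ∨ k = 4 ∨ k = 8 := by
      obtain ⟨m, hm⟩ := hev
      push_cast at hs
      omega
    rcases hk with rfl | rfl | rfl | rfl
    · exact hF.eq_zero_of_small (Or.inl (by norm_num)) (a := 0) (b := 0) (by norm_num) τ₁
        (by simp [mono]) hF0
    · exact hF.eq_zero_of_two
    · exact hF.eq_zero_of_small (Or.inl (by norm_num)) (a := 1) (b := 0) (by norm_num) τ₁
        (by simpa [mono] using h4) hF0
    · exact hF.eq_zero_of_small (Or.inl (by norm_num)) (a := 2) (b := 0) (by norm_num) τ₁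
        (by simpa [mono] using h4) hF0

/-- The generic form `Δ(τ₁) E₄³ - E₄(τ₁)³ Δ` vanishing at `τ₁`. -/
noncomputable def Qgen (τ₁ : ℍ) : ModularForm 𝒮ℒ 12 :=
  (Δ τ₁) • ModularForm.mcast (by norm_num) (E₄.pow 3) - (E₄ τ₁ ^ 3) • ΔMF

theorem Qgen_apply (τ₁ τ : ℍ) : Qgen τ₁ τ = Δ τ₁ * E₄ τ ^ 3 - E₄ τ₁ ^ 3 * Δ τ := by
  have h : (E₄.pow 3) τ = E₄ τ ^ 3 := by
    rw [ModularForm.coe_pow]; rfl
  simp [Qgen, ΔMF_apply, h]

theorem coe_Qgen (τ₁ : ℍ) :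
    ⇑(Qgen τ₁) = (Δ τ₁) • ((E₄ : ℍ → ℂ) ^ 3) - (E₄ τ₁ ^ 3) • (Δ : ℍ → ℂ) := by
  funext τ
  rw [Qgen_apply]
  simp

theorem Qgen_self (τ₁ : ℍ) : Qgen τ₁ τ₁ = 0 := by
  rw [Qgen_apply]; ring

theorem tendsto_Qgen (τ₁ : ℍ) : Tendsto (Qgen τ₁) atImInfty (𝓝 (Δ τ₁)) := by
  have h := ((tendsto_E₄.pow 3).const_mul (Δ τ₁)).sub (tendsto_Δ.const_mul (E₄ τ₁ ^ 3))
  simp only [one_pow, mul_one, mul_zero, sub_zero] at h
  refine h.congr fun τ => ?_
  rw [Qgen_apply]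

open Derivative in
theorem D_Qgen (τ₁ τ : ℍ) :
    D (Qgen τ₁) τ = E2 τ * Qgen τ₁ τ - Δ τ₁ * E₄ τ ^ 2 * E₆ τ := by
  have hE : MDiff (E₄ : ℍ → ℂ) := ModularFormClass.holo E₄
  have hΔ : MDiff (Δ : ℍ → ℂ) := ModularFormClass.holo ΔMF
  have hE3 : MDiff ((E₄ : ℍ → ℂ) ^ 3) := by
    have : ((E₄ : ℍ → ℂ) ^ 3) = ⇑(E₄.pow 3) := (ModularForm.coe_pow E₄ 3).symm
    rw [this]
    exact ModularFormClass.holo (E₄.pow 3)
  rw [coe_Qgen, normalizedDerivOfComplex_sub _ _ (hE3.const_smul _) (hΔ.const_smul _),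
    normalizedDerivOfComplex_smul _ _ hE3, normalizedDerivOfComplex_smul _ _ hΔ,
    normalizedDerivOfComplex_pow _ _ hE]
  simp only [Pi.sub_apply, Pi.smul_apply, Pi.mul_apply, Pi.pow_apply, smul_eq_mul]
  rw [D_E₄, D_Δ]
  simp only [Pi.natCast_apply]
  push_cast
  ring

open Derivative in
/-- Generic case `E₄ τ₁ ≠ 0`, `E₆ τ₁ ≠ 0`. -/
theorem exists_simple_gen (τ₁ : ℍ) (h4 : E₄ τ₁ ≠ 0) (h6 : E₆ τ₁ ≠ 0) :
    ∃ (w : ℕ) (Qf : ModularForm 𝒮ℒ w), 0 < w ∧ Qf τ₁ = 0 ∧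
      (∀ τ : ℍ, Qf τ = 0 → deriv (⇑Qf ∘ ofComplex) τ ≠ 0) ∧
      (∃ c : ℂ, c ≠ 0 ∧ Tendsto Qf atImInfty (𝓝 c)) ∧
      ∀ (k : ℤ) (P : ModularForm 𝒮ℒ k), P τ₁ = 0 →
        ∃ U : ModularForm 𝒮ℒ (k - w), ∀ τ, P τ = Qf τ * U τ := by
  have hΔ₁ : Δ τ₁ ≠ 0 := discriminant_ne_zero τ₁
  refine ⟨12, Qgen τ₁, by norm_num, Qgen_self τ₁, fun τ hτ => ?_,
    ⟨Δ τ₁, hΔ₁, tendsto_Qgen τ₁⟩, ?_⟩
  · apply deriv_ne_zero_of_D_ne_zero
    rw [D_Qgen, hτ, mul_zero, zero_sub, neg_ne_zero]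
    rw [Qgen_apply] at hτ
    have hΔτ : Δ τ ≠ 0 := discriminant_ne_zero τ
    have hE4 : E₄ τ ≠ 0 := by
      intro h0
      rw [h0] at hτ
      have : E₄ τ₁ ^ 3 * Δ τ = 0 := by linear_combination -hτ
      exact mul_ne_zero (pow_ne_zero 3 h4) hΔτ this
    have hE6 : E₆ τ ≠ 0 := by
      intro h0
      have e1 := discriminant_eq_E₄_cube_sub_E₆_sq τ
      have e2 := discriminant_eq_E₄_cube_sub_E₆_sq τ₁
      rw [h0] at e1
      -- `E₄ τ ^ 3 = 1728 Δ τ`, so `Δ τ * (1728 Δ τ₁ - E₄ τ₁ ^ 3) = 0`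
      have e3 : Δ τ * (1728 * Δ τ₁ - E₄ τ₁ ^ 3) = 0 := by
        have : E₄ τ ^ 3 = 1728 * Δ τ := by rw [e1]; ring
        rw [this] at hτ
        linear_combination hτ
      have e4 : 1728 * Δ τ₁ - E₄ τ₁ ^ 3 = 0 := (mul_eq_zero.mp e3).resolve_left hΔτ
      have e5 : E₆ τ₁ ^ 2 = 0 := by
        rw [e2] at e4
        linear_combination -e4
      exact h6 ((pow_eq_zero_iff (two_ne_zero)).mp e5)
    exact mul_ne_zero (mul_ne_zero hΔ₁ (pow_ne_zero 2 hE4)) hE6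
  · refine div_bundled τ₁ 12 ⟨6, rfl⟩ (by norm_num) (Qgen τ₁) (Qgen_self τ₁) hΔ₁
      (tendsto_Qgen τ₁) ?_
    intro k hev h0 hs F hF hF0
    have hk : k = 0 ∨ k = 2 ∨ k = 4 ∨ k = 6 ∨ k = 8 ∨ k = 10 ∨ k = 14 := by
      obtain ⟨m, hm⟩ := hev
      push_cast at hs
      omega
    have hm : ∀ a b : ℕ, mono a b τ₁ ≠ 0 := fun a b =>
      mul_ne_zero (pow_ne_zero a h4) (pow_ne_zero b h6)
    rcases hk with rfl | rfl | rfl | rfl | rfl | rfl | rfl
    · exact hF.eq_zero_of_small (Or.inl (by norm_num)) (a := 0) (b := 0) (by norm_num) τ₁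
        (hm _ _) hF0
    · exact hF.eq_zero_of_two
    · exact hF.eq_zero_of_small (Or.inl (by norm_num)) (a := 1) (b := 0) (by norm_num) τ₁
        (hm _ _) hF0
    · exact hF.eq_zero_of_small (Or.inl (by norm_num)) (a := 0) (b := 1) (by norm_num) τ₁
        (hm _ _) hF0
    · exact hF.eq_zero_of_small (Or.inl (by norm_num)) (a := 2) (b := 0) (by norm_num) τ₁
        (hm _ _) hF0
    · exact hF.eq_zero_of_small (Or.inl (by norm_num)) (a := 1) (b := 1) (by norm_num) τ₁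
        (hm _ _) hF0
    · exact hF.eq_zero_of_small (Or.inr rfl) (a := 2) (b := 1) (by norm_num) τ₁
        (hm _ _) hF0

/-- **A2.** For every `τ₁` there is a level-one form vanishing at `τ₁`, with only simple zeros,
non-zero at `i∞`, which divides every level-one form vanishing at `τ₁`. -/
theorem exists_simple (τ₁ : ℍ) :
    ∃ (w : ℕ) (Qf : ModularForm 𝒮ℒ w), 0 < w ∧ Qf τ₁ = 0 ∧
      (∀ τ : ℍ, Qf τ = 0 → deriv (⇑Qf ∘ ofComplex) τ ≠ 0) ∧
      (∃ c : ℂ, c ≠ 0 ∧ Tendsto Qf atImInfty (𝓝 c)) ∧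
      ∀ (k : ℤ) (P : ModularForm 𝒮ℒ k), P τ₁ = 0 →
        ∃ U : ModularForm 𝒮ℒ (k - w), ∀ τ, P τ = Qf τ * U τ := by
  by_cases h4 : E₄ τ₁ = 0
  · exact exists_simple_E₄ τ₁ h4
  by_cases h6 : E₆ τ₁ = 0
  · exact exists_simple_E₆ τ₁ h6
  exact exists_simple_gen τ₁ h4 h6

/-- Bundle a level-one modular form from a function. -/
noncomputable def ofFun (k : ℤ) (F : ℍ → ℂ) (hol : MDiff F)
    (hinv : ∀ γ : SL(2, ℤ), F ∣[k] γ = F) (hbdd : IsBoundedAtImInfty F) : ModularForm 𝒮ℒ k where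
  toFun := F
  slash_action_eq' := fun _ ⟨γ, hγ⟩ => hγ ▸ hinv γ
  holo' := hol
  bdd_at_cusps' {c} hc := by
    rw [Subgroup.IsArithmetic.isCusp_iff_isCusp_SL2Z] at hc
    rw [OnePoint.isBoundedAt_iff_forall_SL2Z hc]
    intro γ _
    show IsBoundedAtImInfty (F ∣[k] γ)
    rw [hinv γ]
    exact hbdd

@[simp] theorem coe_ofFun (k : ℤ) (F : ℍ → ℂ) (hol : MDiff F)
    (hinv : ∀ γ : SL(2, ℤ), F ∣[k] γ = F) (hbdd : IsBoundedAtImInfty F) :
    ⇑(ofFun k F hol hinv hbdd) = F := rfl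

/-- **A4.** A level-one form without zeros on `ℍ` and with non-zero value at `i∞` has weight
zero. -/
theorem weight_eq_zero_of_nonvanishing {k : ℤ} (U : ModularForm 𝒮ℒ k) (h : ∀ τ, U τ ≠ 0)
    (hc : ∃ c : ℂ, c ≠ 0 ∧ Tendsto U atImInfty (𝓝 c)) : k = 0 := by
  obtain ⟨c, hc0, hlim⟩ := hc
  rcases lt_trichotomy k 0 with hk | hk | hk
  · exfalso
    have := levelOne_neg_weight_eq_zero hk U
    exact h UpperHalfPlane.I (by rw [this]; rfl)
  · exact hk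
  · exfalso
    -- `1 / U` is a modular form of negative weight
    have hone : ∀ γ : SL(2, ℤ), (1 : ℍ → ℂ) ∣[(0 : ℤ)] γ = 1 := fun γ => by
      have := SlashInvariantForm.slash_action_eqn (1 : ModularForm 𝒮ℒ 0) (γ : GL (Fin 2) ℝ)
        ⟨γ, rfl⟩
      have h1 : ((1 : ModularForm 𝒮ℒ 0) : ℍ → ℂ) = 1 := by ext z; simp
      rw [h1] at this
      exact this
    have hU : ∀ γ : SL(2, ℤ), (U : ℍ → ℂ) ∣[k] γ = U := fun γ =>
      SlashInvariantForm.slash_action_eqn U (γ : GL (Fin 2) ℝ) ⟨γ, rfl⟩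
    have hinv : ∀ γ : SL(2, ℤ), ((1 : ℍ → ℂ) / (U : ℍ → ℂ)) ∣[(0 - k : ℤ)] γ = 1 / U :=
      fun γ => by rw [div_slash_SL2, hone γ, hU γ]
    have hol : MDiff ((1 : ℍ → ℂ) / (U : ℍ → ℂ)) := by
      have h1 : MDiff (1 : ℍ → ℂ) := ModularFormClass.holo (1 : ModularForm 𝒮ℒ 0) |> fun h => by
        have h1 : ((1 : ModularForm 𝒮ℒ 0) : ℍ → ℂ) = 1 := by ext z; simp
        rwa [h1] at h
      exact h1.div (ModularFormClass.holo U) h
    have hbdd : IsBoundedAtImInfty ((1 : ℍ → ℂ) / (U : ℍ → ℂ)) := by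
      have ht : Tendsto ((1 : ℍ → ℂ) / (U : ℍ → ℂ)) atImInfty (𝓝 (1 / c)) :=
        (tendsto_const_nhds (x := (1 : ℂ))).div hlim hc0
      exact ht.isBigO_one ℝ
    have hV := levelOne_neg_weight_eq_zero (k := 0 - k) (by omega) (ofFun (0 - k) _ hol hinv hbdd)
    have := congrFun hV UpperHalfPlane.I
    simp only [coe_ofFun, Pi.zero_apply, one_div, Pi.inv_apply, inv_eq_zero] at this
    exact h _ this

/-! ### A1: level-one forms are isobaric polynomials in `E₄`, `E₆` -/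

/-- Evaluation of a formal combination of monomials. -/
noncomputable def evalC (c : ℕ × ℕ →₀ ℂ) (τ : ℍ) : ℂ :=
  c.sum fun p a => a * E₄ τ ^ p.1 * E₆ τ ^ p.2

/-- `F` is an isobaric polynomial of weight `k` in `E₄`, `E₆`. -/
def IsPoly (k : ℤ) (F : ℍ → ℂ) : Prop :=
  ∃ c : ℕ × ℕ →₀ ℂ, (∀ p ∈ c.support, (4 * p.1 + 6 * p.2 : ℤ) = k) ∧ ∀ τ, F τ = evalC c τ

namespace IsPoly

variable {k : ℤ} {F G : ℍ → ℂ}

theorem zero (k : ℤ) : IsPoly k 0 := ⟨0, by simp, fun τ => by simp [evalC]⟩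

theorem add (hF : IsPoly k F) (hG : IsPoly k G) : IsPoly k (F + G) := by
  obtain ⟨c, hc, hF⟩ := hF
  obtain ⟨d, hd, hG⟩ := hG
  classical
  refine ⟨c + d, fun p hp => ?_, fun τ => ?_⟩
  · rcases Finset.mem_union.mp (Finsupp.support_add hp) with h | h
    · exact hc p h
    · exact hd p h
  · rw [Pi.add_apply, hF τ, hG τ, evalC, evalC, evalC, Finsupp.sum_add_index']
    · intro p; simp
    · intro p a b; ring

theorem smul (r : ℂ) (hF : IsPoly k F) : IsPoly k (r • F) := by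
  obtain ⟨c, hc, hF⟩ := hF
  refine ⟨r • c, fun p hp => hc p (Finsupp.support_smul hp), fun τ => ?_⟩
  rw [Pi.smul_apply, hF τ, evalC, evalC, Finsupp.sum_smul_index (by intro p; simp),
    Finsupp.smul_sum]
  refine Finsupp.sum_congr fun p _ => ?_
  simp only [smul_eq_mul]
  ring

theorem sub (hF : IsPoly k F) (hG : IsPoly k G) : IsPoly k (F - G) := by
  have : F - G = F + (-1 : ℂ) • G := by
    funext τ; simp [sub_eq_add_neg]
  rw [this]
  exact hF.add (hG.smul _)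

theorem mono (a b : ℕ) : IsPoly (4 * a + 6 * b) (mono a b) := by
  refine ⟨Finsupp.single (a, b) 1, fun p hp => ?_, fun τ => ?_⟩
  · have := Finsupp.support_single_subset hp
    rw [Finset.mem_singleton] at this
    subst this
    rfl
  · rw [evalC, Finsupp.sum_single_index (by simp)]
    simp [LevelOne.mono]

theorem cast {k' : ℤ} (h : k = k') (hF : IsPoly k F) : IsPoly k' F := h ▸ hF

/-- Multiplication by a monomial. -/
theorem mono_mul (i j : ℕ) (hF : IsPoly k F) :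
    IsPoly (k + (4 * i + 6 * j)) (LevelOne.mono i j * F) := by
  obtain ⟨c, hc, hF⟩ := hF
  classical
  refine ⟨c.mapDomain (fun p => (p.1 + i, p.2 + j)), fun p hp => ?_, fun τ => ?_⟩
  · obtain ⟨q, hq, rfl⟩ := Finset.mem_image.mp (Finsupp.mapDomain_support hp)
    have := hc q hq
    push_cast
    linarith
  · rw [Pi.mul_apply, hF τ, evalC, evalC, Finsupp.sum_mapDomain_index (by intro p; simp)
      (by intro p a b; ring), Finsupp.mul_sum]
    refine Finsupp.sum_congr fun p _ => ?_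
    simp only [LevelOne.mono]
    ring

/-- Multiplication by `Δ`. -/
theorem delta_mul (hF : IsPoly k F) : IsPoly (k + 12) (Δ * F) := by
  have h1 : IsPoly (k + 12) (LevelOne.mono 3 0 * F) := (hF.mono_mul 3 0).cast (by norm_num)
  have h2 : IsPoly (k + 12) (LevelOne.mono 0 2 * F) := (hF.mono_mul 0 2).cast (by norm_num)
  have : (Δ : ℍ → ℂ) * F = (1 / 1728 : ℂ) • (LevelOne.mono 3 0 * F - LevelOne.mono 0 2 * F) := by
    funext τ
    simp only [Pi.mul_apply, Pi.smul_apply, Pi.sub_apply, smul_eq_mul, LevelOne.mono,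
      discriminant_eq_E₄_cube_sub_E₆_sq τ]
    ring
  rw [this]
  exact (h1.sub h2).smul _

end IsPoly

theorem isPoly_of_isMF (n : ℕ) : ∀ k : ℤ, k ≤ n → ∀ F, IsMF k F → IsPoly k F := by
  induction n using Nat.strong_induction_on with
  | _ n ih =>
    intro k hk F hF
    rcases lt_or_ge k 0 with hneg | hnn
    · rw [hF.eq_zero_of_neg hneg]; exact IsPoly.zero k
    rcases Int.even_or_odd k with hev | hodd
    swap
    · rw [hF.eq_zero_of_odd hodd]; exact IsPoly.zero k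
    by_cases h2 : k = 2
    · subst h2
      rw [hF.eq_zero_of_two]; exact IsPoly.zero 2
    obtain ⟨a, b, hab⟩ := exists_mono_weight k hev hnn h2
    obtain ⟨a₀, ha₀⟩ := hF.tendsto
    obtain ⟨h, hh, hrel⟩ := hF.decomp ha₀ ((isMF_mono a b).cast hab) (tendsto_mono a b)
    have hF' : F = a₀ • mono a b + Δ * h := by
      funext τ
      rw [hrel τ]
      simp
    rw [hF']
    refine ((IsPoly.mono a b).cast hab).smul a₀ |>.add ?_
    have hph : IsPoly (k - 12) h := by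
      rcases Nat.eq_zero_or_pos n with rfl | hn
      · have : k - 12 < 0 := by omega
        rw [hh.eq_zero_of_neg this]; exact IsPoly.zero _
      · exact ih (n - 1) (by omega) (k - 12) (by omega) h hh
    exact hph.delta_mul.cast (by ring)

/-- **A1.** Every level-one form is an isobaric polynomial in `E₄` and `E₆`. -/
theorem exists_monomials {k : ℤ} (f : ModularForm 𝒮ℒ k) :
    ∃ c : ℕ × ℕ →₀ ℂ, (∀ p ∈ c.support, (4 * p.1 + 6 * p.2 : ℤ) = k) ∧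
      ∀ τ, f τ = c.sum fun p a => a * E₄ τ ^ p.1 * E₆ τ ^ p.2 :=
  isPoly_of_isMF k.toNat k (Int.self_le_toNat k) f (IsMF.of_form f)

end Fermat.Agent.S20.LevelOne
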