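import Fermat.Agent.S20.Nonvanishing
import Fermat.Agent.S20.LevelOne
import Fermat.Agent.S20.LevelOneMono
import Fermat.Agent.S20.Divide

/-!
# S20 (PROJECT G), slice [E], hypothesis-free form

`det_ne_zero (g : Gens N) (τ : ℍ) : (g.Φ τ).det ≠ 0`, obtained by feeding the landed level-one
inputs (A2 = `LevelOne.exists_simple`, A3 = `LevelOneMono.dvd_of_ne_zero_at`,
`LevelOneMono.exists_ne_zero_at`) and the division lemma (B2 = `Divide.div_simple`) into
`det_ne_zero_of`.
-/

set_option autoImplicit false

namespace Fermat.Agent.S20.DetNeZero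

open UpperHalfPlane

variable {N : ℕ} [NeZero N]

/-- **Slice [E]**, hypothesis-free: the matrix of translates of a homogeneous basis is invertible
at every point of the upper half plane. -/
theorem det_ne_zero (g : Gens N) (τ : ℍ) : (g.Φ τ).det ≠ 0 :=
  det_ne_zero_of g LevelOne.exists_simple
    (fun _ P τ₁ h => LevelOneMono.dvd_of_ne_zero_at P τ₁ h)
    LevelOneMono.exists_ne_zero_at
    (fun _ _ Qf hs hc f hf => Divide.div_simple Qf hs hc f hf) τ

end Fermat.Agent.S20.DetNeZero
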