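import Mathlib
import Fermat.Agent.S20.Defs
import Fermat.Agent.S23.Integral

/-!
# S20 (PROJECT G), slice [G]: trace duality (Step 6)

Let `g : Gens N` be a homogeneous basis of `M_*(Γ₀(N))` over `M_*(SL₂(ℤ))` and `Φ τ` the matrix
of translates.  Assuming `det Φ τ ≠ 0` everywhere (slice [E]) and that `Δ · Φ⁻¹` tends to `0`
at `i∞` entrywise (slice [F]), the rows of `Δ · Φ⁻¹` give nonzero cusp forms
`s_j = Δ · (Φ⁻¹)_{j,⟦1⟧}` of weight `12 - κ_j` for `Γ₀(N)`; hence `κ_j ≤ 10`, and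
`S₂(Γ₀(N))` has basis `{s_j : κ_j = 10}` by trace duality
`f = ∑_j Tr(f F_j) (Φ⁻¹)_{j,⟦1⟧}`.

Main results: `kappa_le_ten`, `finrank_cusp`; reusable: `Phi_smul`, `Psi_smul`, `mdiff_det`,
`mdiff_inv_apply`, `exists_dualForm`, `dualFun_ne_zero`, `expansion`.
-/

set_option autoImplicit false
set_option linter.unusedSectionVars false

noncomputable section

namespace Fermat.Agent.S20.Duality

open UpperHalfPlane SlashInvariantForm CongruenceSubgroup Filter Topology ModularForm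
open scoped ModularForm Manifold MatrixGroups

local notation "Δ" => ModularForm.discriminant

variable {N : ℕ} [NeZero N]

theorem sl_mem (γ : SL(2, ℤ)) : (Matrix.SpecialLinearGroup.mapGL ℝ γ) ∈ 𝒮ℒ := ⟨γ, rfl⟩

/-- The base coset. -/
def q0 (N : ℕ) : Q N := QuotientGroup.mk 1

theorem exists_sl_smul_q0 (q : Q N) : ∃ σ : SL(2, ℤ), (sl σ)⁻¹ • q0 N = q := by
  induction q using Quotient.inductionOn with
  | h r =>
    obtain ⟨r, σ, rfl⟩ := r
    refine ⟨σ⁻¹, ?_⟩
    show (sl σ⁻¹)⁻¹ • (QuotientGroup.mk 1 : Q N) = QuotientGroup.mk _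
    rw [MulAction.Quotient.smul_mk]
    congr 1
    ext1
    simp [sl]

theorem sl_smul_q0_of_mem (γ : SL(2, ℤ)) (hγ : γ ∈ Gamma0 N) : (sl γ)⁻¹ • q0 N = q0 N := by
  show (sl γ)⁻¹ • (QuotientGroup.mk 1 : Q N) = QuotientGroup.mk 1
  rw [MulAction.Quotient.smul_mk, QuotientGroup.eq]
  rw [Subgroup.mem_subgroupOf]
  simp only [smul_eq_mul, mul_one, inv_inv, mul_one]
  exact ⟨γ, hγ, rfl⟩

theorem mdiff_Phi (g : Gens N) (q j : Q N) : MDiff (fun τ => g.Φ τ q j) := by
  induction q using Quotient.inductionOn with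
  | h r => exact (g.F j).holo'.slash _ _

theorem delta_smul (γ : SL(2, ℤ)) (τ : ℍ) : Δ (γ • τ) = denom γ τ ^ (12 : ℤ) * Δ τ :=
  SlashInvariantForm.slash_action_eqn'' CuspForm.discriminant (sl_mem γ) τ

theorem quotientFunc_apply_smul {k : ℤ} (f : ModularForm (G0 N) k) (γ : SL(2, ℤ)) (q : Q N)
    (τ : ℍ) :
    quotientFunc f q (γ • τ) = quotientFunc f ((sl γ)⁻¹ • q) τ * denom γ τ ^ k := by
  have h := congrFun (quotientFunc_smul f (sl_mem γ) q) τ
  have h2 : (quotientFunc f q ∣[k] (Matrix.SpecialLinearGroup.mapGL ℝ γ)) τ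
      = quotientFunc f q (γ • τ) * denom γ τ ^ (-k) := SL_slash_apply (quotientFunc f q) γ τ
  rw [h2] at h
  have hne : denom γ τ ^ k ≠ 0 := zpow_ne_zero _ (denom_ne_zero _ _)
  have : quotientFunc f ((sl γ)⁻¹ • q) τ = quotientFunc f q (γ • τ) * denom γ τ ^ (-k) := h.symm
  rw [this, zpow_neg, mul_assoc, inv_mul_cancel₀ hne, mul_one]

theorem Phi_smul (g : Gens N) (γ : SL(2, ℤ)) (τ : ℍ) (q j : Q N) :
    g.Φ (γ • τ) q j = g.Φ τ ((sl γ)⁻¹ • q) j * denom γ τ ^ (g.κ j : ℤ) :=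
  quotientFunc_apply_smul (g.F j) γ q τ

theorem Psi_smul (g : Gens N) (hdet : ∀ τ, (g.Φ τ).det ≠ 0) (γ : SL(2, ℤ)) (τ : ℍ) (j q : Q N) :
    (g.Φ (γ • τ))⁻¹ j q = (g.Φ τ)⁻¹ j ((sl γ)⁻¹ • q) * denom γ τ ^ (-(g.κ j : ℤ)) := by
  set A := g.Φ τ with hA
  set B := g.Φ (γ • τ) with hB
  set d := denom γ τ with hd
  have hd0 : d ≠ 0 := denom_ne_zero _ _
  let Ψ' : Matrix (Q N) (Q N) ℂ := fun j q => d ^ (g.κ j : ℤ) * B⁻¹ j (sl γ • q)
  have hΨ' : Ψ' * A = 1 := by
    ext j j'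
    rw [Matrix.mul_apply]
    have hBB : B⁻¹ * B = 1 := Matrix.nonsing_inv_mul _ (isUnit_iff_ne_zero.mpr (hdet _))
    have hterm : ∀ q, Ψ' j q * A q j' = d ^ (g.κ j : ℤ) * d ^ (-(g.κ j' : ℤ)) *
        (B⁻¹ j (sl γ • q) * B (sl γ • q) j') := by
      intro q
      have h1 := Phi_smul g γ τ (sl γ • q) j'
      rw [inv_smul_smul] at h1
      have h2 : B (sl γ • q) j' = A q j' * d ^ (g.κ j' : ℤ) := h1
      have hne : d ^ (g.κ j' : ℤ) ≠ 0 := zpow_ne_zero _ hd0
      rw [h2, zpow_neg]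
      simp only [Ψ']
      field_simp
    simp_rw [hterm]
    have hre : ∑ q, B⁻¹ j (sl γ • q) * B (sl γ • q) j' = ∑ q, B⁻¹ j q * B q j' :=
      Equiv.sum_comp (MulAction.toPerm (sl γ)) (fun q => B⁻¹ j q * B q j')
    rw [← Finset.mul_sum, hre, ← Matrix.mul_apply, hBB]
    by_cases hjj : j = j'
    · subst hjj
      rw [Matrix.one_apply_eq, mul_one, ← zpow_add₀ hd0, add_neg_cancel, zpow_zero]
    · rw [Matrix.one_apply_ne hjj, mul_zero]
  have hAinv : A⁻¹ = Ψ' := Matrix.inv_eq_left_inv hΨ'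
  rw [hAinv]
  simp only [Ψ']
  rw [smul_inv_smul, zpow_neg, mul_comm, ← mul_assoc, inv_mul_cancel₀ (zpow_ne_zero _ hd0), one_mul]

theorem mdiff_det {n : Type} [Fintype n] [DecidableEq n] (M : ℍ → Matrix n n ℂ)
    (hM : ∀ i j, MDiff (fun τ => M τ i j)) : MDiff (fun τ => (M τ).det) := by
  have h : (fun τ => (M τ).det) = ∑ σ : Equiv.Perm n,
      (((Equiv.Perm.sign σ : ℤ) : ℂ)) • ∏ i, (fun τ => M τ (σ i) i) := by
    ext τ
    simp only [Matrix.det_apply, Finset.sum_apply, Pi.smul_apply, Finset.prod_apply, smul_eq_mul]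
    refine Finset.sum_congr rfl fun σ _ => ?_
    rw [Units.smul_def, zsmul_eq_mul]
  rw [h]
  exact MDifferentiable.sum fun σ _ => (MDifferentiable.prod fun i _ => hM _ _).const_smul _

theorem mdiff_inv_apply {n : Type} [Fintype n] [DecidableEq n] (M : ℍ → Matrix n n ℂ)
    (hM : ∀ i j, MDiff (fun τ => M τ i j)) (hdet : ∀ τ, (M τ).det ≠ 0) (i j : n) :
    MDiff (fun τ => (M τ)⁻¹ i j) := by
  have h : (fun τ => (M τ)⁻¹ i j) =
      (fun τ => (M τ).det)⁻¹ * (fun τ => ((M τ).updateRow j (Pi.single i 1)).det) := by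
    ext τ
    simp only [Pi.mul_apply, Pi.inv_apply]
    rw [Matrix.inv_def, Ring.inverse_eq_inv', Matrix.smul_apply, Matrix.adjugate_apply, smul_eq_mul]
  rw [h]
  refine ((mdiff_det M hM).inv hdet).mul (mdiff_det _ fun a b => ?_)
  by_cases ha : a = j
  · subst ha
    simp only [Matrix.updateRow_self]
    exact mdifferentiable_const
  · simp only [Matrix.updateRow_ne ha]
    exact hM a b

/-- The function underlying the dual cusp form attached to the generator `j`. -/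
def dualFun (g : Gens N) (j : Q N) : ℍ → ℂ := fun τ => Δ τ * (g.Φ τ)⁻¹ j (q0 N)

theorem mdiff_dualFun (g : Gens N) (hdet : ∀ τ, (g.Φ τ).det ≠ 0) (j : Q N) :
    MDiff (dualFun g j) := by
  have h1 : MDiff (fun τ => (g.Φ τ)⁻¹ j (q0 N)) :=
    mdiff_inv_apply (fun τ => g.Φ τ) (fun q j => mdiff_Phi g q j) hdet j (q0 N)
  exact CuspForm.discriminant.holo'.mul h1

theorem dualFun_slash (g : Gens N) (hdet : ∀ τ, (g.Φ τ).det ≠ 0) (j : Q N) (σ : SL(2, ℤ))
    (τ : ℍ) :
    (dualFun g j ∣[(12 : ℤ) - g.κ j] σ) τ = Δ τ * (g.Φ τ)⁻¹ j ((sl σ)⁻¹ • q0 N) := by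
  rw [SL_slash_apply, dualFun, delta_smul, Psi_smul g hdet]
  have hd0 : denom σ τ ≠ 0 := denom_ne_zero _ _
  rw [neg_sub, zpow_sub₀ hd0, zpow_neg]
  field_simp

theorem exists_dualForm (g : Gens N) (hdet : ∀ τ, (g.Φ τ).det ≠ 0)
    (hF : ∀ j q, Tendsto (fun τ => Δ τ * (g.Φ τ)⁻¹ j q) atImInfty (𝓝 0)) (j : Q N)
    (k : ℤ) (hk : k = 12 - g.κ j) :
    ∃ F : CuspForm (Gamma0 N) k, ⇑F = dualFun g j := by
  subst hk
  refine Fermat.Agent.S23.Integral.exists_cuspForm_of_zero (dualFun g j) (mdiff_dualFun g hdet j)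
    (fun γ hγ => ?_) (fun σ => ?_)
  · ext τ
    rw [dualFun_slash g hdet, sl_smul_q0_of_mem γ hγ]
    rfl
  · show Tendsto (dualFun g j ∣[(12 : ℤ) - g.κ j] σ) atImInfty (𝓝 0)
    have : (dualFun g j ∣[(12 : ℤ) - g.κ j] σ) =
        fun τ => Δ τ * (g.Φ τ)⁻¹ j ((sl σ)⁻¹ • q0 N) := funext fun τ => dualFun_slash g hdet j σ τ
    rw [this]
    exact hF j _

theorem dualFun_ne_zero (g : Gens N) (hdet : ∀ τ, (g.Φ τ).det ≠ 0) (j : Q N) :
    dualFun g j ≠ 0 := by
  intro h0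
  have hrow : ∀ q, (g.Φ I)⁻¹ j q = 0 := by
    intro q
    obtain ⟨σ, rfl⟩ := exists_sl_smul_q0 q
    have h1 := dualFun_slash g hdet j σ I
    rw [h0] at h1
    simp only [SlashAction.zero_slash, Pi.zero_apply] at h1
    exact (mul_eq_zero.mp h1.symm).resolve_left (discriminant_ne_zero _)
  have h2 : ((g.Φ I)⁻¹ * g.Φ I) j j = 1 := by
    rw [Matrix.nonsing_inv_mul _ (isUnit_iff_ne_zero.mpr (hdet _)), Matrix.one_apply_eq]
  rw [Matrix.mul_apply] at h2
  simp [hrow] at h2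

theorem neg_one_mem_G0 (N : ℕ) : (-1 : GL (Fin 2) ℝ) ∈ G0 N := by
  refine ⟨-1, ?_, ?_⟩
  · rw [SetLike.mem_coe, Gamma0_mem]
    simp
  · ext i j
    simp

/-- A cusp form of weight `≤ 1` for `Γ₀(N)` vanishes. -/
theorem cuspForm_eq_zero_of_weight_le_one {k : ℤ} (hk : k ≤ 1) (F : CuspForm (Gamma0 N) k) :
    (F : ℍ → ℂ) = 0 := by
  rcases lt_trichotomy k 0 with hneg | hzero | hpos
  · have := ModularForm.isZero_of_neg_weight hneg (ModularFormClass.modularForm F)
    ext τ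
    have h2 := DFunLike.congr_fun this τ
    simpa using h2
  · subst hzero
    obtain ⟨c, hc⟩ := ModularForm.eq_const_of_weight_zero (ModularFormClass.modularForm F)
    have hc' : (F : ℍ → ℂ) = Function.const ℍ c := hc
    have hz : Tendsto (F : ℍ → ℂ) atImInfty (𝓝 0) := CuspFormClass.zero_at_infty F
    rw [hc'] at hz
    have : c = 0 := tendsto_nhds_unique tendsto_const_nhds hz
    rw [hc', this]
    rfl
  · have h1 : k = 1 := le_antisymm hk hpos
    subst h1
    have := ModularForm.eq_zero_of_neg_one_mem (neg_one_mem_G0 N) odd_one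
      (ModularFormClass.modularForm F)
    ext τ
    have h2 := DFunLike.congr_fun this τ
    simpa using h2

/-- **Step 6, part 1**: the weights of the generators are at most `10`. -/
theorem kappa_le_ten (g : Gens N) (hdet : ∀ τ, (g.Φ τ).det ≠ 0)
    (hF : ∀ j q, Tendsto (fun τ => Δ τ * (g.Φ τ)⁻¹ j q) atImInfty (𝓝 0)) (j : Q N) :
    g.κ j ≤ 10 := by
  by_contra hcon
  rw [not_le] at hcon
  obtain ⟨F, hFc⟩ := exists_dualForm g hdet hF j _ rfl
  have hk : (12 : ℤ) - g.κ j ≤ 1 := by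
    have : (11 : ℤ) ≤ g.κ j := by exact_mod_cast hcon
    linarith
  exact dualFun_ne_zero g hdet j (hFc ▸ cuspForm_eq_zero_of_weight_le_one hk F)

/-- Translates of the product of a cusp form with a generator. -/
theorem quotientFunc_mul (g : Gens N) {k : ℤ} (f : CuspForm (G0 N) k) (j q : Q N) (τ : ℍ) :
    quotientFunc (f.mulModularForm (g.F j)) q τ = quotientFunc f q τ * g.Φ τ q j := by
  induction q using Quotient.inductionOn with
  | h r =>
    obtain ⟨r, σ, rfl⟩ := r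
    have h1 := congrFun (mul_slash_SL2 k (g.κ j) σ⁻¹ (f : ℍ → ℂ) (g.F j : ℍ → ℂ)) τ
    simp only [Gens.Φ, quotientFunc_mk, CuspForm.coe_mulModularForm, ← map_inv]
    exact h1

theorem exists_trace_coeff (g : Gens N) (hκ : ∀ j, g.κ j ≤ 10) (f : CuspForm (Gamma0 N) 2)
    (j : Q N) :
    ∃ c : ℂ, (g.κ j ≠ 10 → c = 0) ∧
      ∀ τ, ∑ q, quotientFunc f q τ * g.Φ τ q j = c * Δ τ := by
  set T := CuspForm.trace 𝒮ℒ (f.mulModularForm (g.F j)) with hT
  have hTapp : ∀ τ, T τ = ∑ q, quotientFunc f q τ * g.Φ τ q j := by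
    intro τ
    rw [hT, CuspForm.coe_trace, Finset.sum_apply]
    refine Finset.sum_congr ?_ fun q _ => quotientFunc_mul g f j q τ
    congr
  by_cases h10 : g.κ j = 10
  · have hw : (2 : ℤ) + g.κ j = 12 := by rw [h10]; norm_num
    obtain ⟨c, hc⟩ := CuspForm.exists_smul_discriminant_of_weight_eq_twelve (CuspForm.mcast hw T)
    refine ⟨c, fun h => absurd h10 h, fun τ => ?_⟩
    rw [← hTapp]
    have h2 := DFunLike.congr_fun hc τ
    exact h2.symm
  · have hlt : (2 : ℤ) + g.κ j < 12 := by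
      have := hκ j
      omega
    have hz : T = 0 :=
      rank_zero_iff_forall_zero.mp (CuspForm.rank_eq_zero_of_weight_lt_twelve hlt) T
    refine ⟨0, fun _ => rfl, fun τ => ?_⟩
    rw [← hTapp, hz]
    simp

theorem quotientFunc_q0 {k : ℤ} (f : CuspForm (G0 N) k) (τ : ℍ) :
    quotientFunc f (q0 N) τ = f τ := by
  show quotientFunc f (QuotientGroup.mk 1) τ = f τ
  have : quotientFunc f (QuotientGroup.mk (1 : 𝒮ℒ) : Q N) = (f : ℍ → ℂ) ∣[k] ((1 : 𝒮ℒ) : GL (Fin 2) ℝ)⁻¹ :=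
    quotientFunc_mk f 1
  rw [this]
  simp

/-- **Trace duality**: every weight two cusp form is a combination of the dual forms of the
generators of weight `10`. -/
theorem expansion (g : Gens N) (hdet : ∀ τ, (g.Φ τ).det ≠ 0) (hκ : ∀ j, g.κ j ≤ 10)
    (f : CuspForm (Gamma0 N) 2) :
    ∃ c : Q N → ℂ, (∀ j, g.κ j ≠ 10 → c j = 0) ∧ ∀ τ, f τ = ∑ j, c j * dualFun g j τ := by
  choose c hc0 hc using exists_trace_coeff g hκ f
  refine ⟨c, hc0, fun τ => ?_⟩
  have hΦΨ : g.Φ τ * (g.Φ τ)⁻¹ = 1 := Matrix.mul_nonsing_inv _ (isUnit_iff_ne_zero.mpr (hdet _))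
  calc f τ = ∑ q, quotientFunc f q τ * (g.Φ τ * (g.Φ τ)⁻¹) q (q0 N) := by
        rw [hΦΨ, Finset.sum_eq_single (q0 N)]
        · rw [Matrix.one_apply_eq, mul_one, quotientFunc_q0]
        · intro q _ hq
          rw [Matrix.one_apply_ne hq, mul_zero]
        · intro h
          exact absurd (Finset.mem_univ _) h
    _ = ∑ q, ∑ j, quotientFunc f q τ * g.Φ τ q j * (g.Φ τ)⁻¹ j (q0 N) := by
        refine Finset.sum_congr rfl fun q _ => ?_
        rw [Matrix.mul_apply, Finset.mul_sum]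
        refine Finset.sum_congr rfl fun j _ => ?_
        ring
    _ = ∑ j, (∑ q, quotientFunc f q τ * g.Φ τ q j) * (g.Φ τ)⁻¹ j (q0 N) := by
        rw [Finset.sum_comm]
        refine Finset.sum_congr rfl fun j _ => ?_
        rw [Finset.sum_mul]
    _ = ∑ j, c j * dualFun g j τ := by
        refine Finset.sum_congr rfl fun j _ => ?_
        rw [hc j τ, dualFun]
        ring

/-- **Step 6, part 2**: the dimension of the space of weight two cusp forms is the number of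
generators of weight `10`. -/
theorem finrank_cusp (g : Gens N) (hdet : ∀ τ, (g.Φ τ).det ≠ 0)
    (hF : ∀ j q, Tendsto (fun τ => Δ τ * (g.Φ τ)⁻¹ j q) atImInfty (𝓝 0)) :
    Module.finrank ℂ (CuspForm (Gamma0 N) 2) = g.m 10 := by
  classical
  have hκ := kappa_le_ten g hdet hF
  have hs : ∀ j : {j : Q N // g.κ j = 10}, ∃ F : CuspForm (Gamma0 N) 2, ⇑F = dualFun g j.1 :=
    fun j => exists_dualForm g hdet hF j.1 2 (by rw [j.2]; norm_num)
  choose s hs using hs
  let L : ({j : Q N // g.κ j = 10} → ℂ) →ₗ[ℂ] CuspForm (Gamma0 N) 2 :=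
    Fintype.linearCombination ℂ s
  have hL : ∀ c τ, L c τ = ∑ j : {j : Q N // g.κ j = 10}, c j * dualFun g j.1 τ := by
    intro c τ
    simp only [L, Fintype.linearCombination_apply]
    rw [FunLike.coe_sum, Finset.sum_apply]
    refine Finset.sum_congr rfl fun j _ => ?_
    rw [smul_apply, hs, smul_eq_mul]
  have hinj : Function.Injective L := by
    rw [← LinearMap.ker_eq_bot, LinearMap.ker_eq_bot']
    intro c hc
    have hzero : ∀ τ q, ∑ j : {j : Q N // g.κ j = 10}, c j * (g.Φ τ)⁻¹ j.1 q = 0 := by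
      intro τ q
      obtain ⟨σ, rfl⟩ := exists_sl_smul_q0 q
      have h1 : L c (σ • τ) = 0 := by rw [hc]; rfl
      rw [hL] at h1
      have h2 : ∀ j : {j : Q N // g.κ j = 10}, c j * dualFun g j.1 (σ • τ) =
          (Δ (σ • τ) * denom σ τ ^ (-(10 : ℤ))) * (c j * (g.Φ τ)⁻¹ j.1 ((sl σ)⁻¹ • q0 N)) := by
        intro j
        rw [dualFun, Psi_smul g hdet, j.2]
        push_cast
        ring
      simp_rw [h2] at h1
      rw [← Finset.mul_sum] at h1
      refine (mul_eq_zero.mp h1).resolve_left (mul_ne_zero (discriminant_ne_zero _) ?_)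
      exact zpow_ne_zero _ (denom_ne_zero _ _)
    ext j0
    have hΨΦ : (g.Φ I)⁻¹ * g.Φ I = 1 := Matrix.nonsing_inv_mul _ (isUnit_iff_ne_zero.mpr (hdet _))
    calc c j0 = ∑ j : {j : Q N // g.κ j = 10}, c j * ((g.Φ I)⁻¹ * g.Φ I) j.1 j0.1 := by
          rw [hΨΦ, Finset.sum_eq_single j0]
          · rw [Matrix.one_apply_eq, mul_one]
          · intro j _ hj
            rw [Matrix.one_apply_ne (fun h => hj (Subtype.ext h)), mul_zero]
          · intro h
            exact absurd (Finset.mem_univ _) h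
      _ = ∑ j : {j : Q N // g.κ j = 10}, ∑ q, c j * (g.Φ I)⁻¹ j.1 q * g.Φ I q j0.1 := by
          refine Finset.sum_congr rfl fun j _ => ?_
          rw [Matrix.mul_apply, Finset.mul_sum]
          refine Finset.sum_congr rfl fun q _ => ?_
          ring
      _ = ∑ q, (∑ j : {j : Q N // g.κ j = 10}, c j * (g.Φ I)⁻¹ j.1 q) * g.Φ I q j0.1 := by
          rw [Finset.sum_comm]
          refine Finset.sum_congr rfl fun q _ => ?_
          rw [Finset.sum_mul]
      _ = 0 := by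
          simp_rw [hzero I, zero_mul]
          exact Finset.sum_const_zero
  have hsurj : Function.Surjective L := by
    intro f
    obtain ⟨c, hc0, hc⟩ := expansion g hdet hκ f
    refine ⟨fun j => c j.1, ?_⟩
    ext τ
    rw [hL, hc τ]
    have h1 : ∑ j, c j * dualFun g j τ =
        ∑ j ∈ Finset.univ.filter (fun j => g.κ j = 10), c j * dualFun g j τ := by
      refine (Finset.sum_filter_of_ne fun j _ hj => ?_).symm
      by_contra h10
      exact hj (by rw [hc0 j h10, zero_mul])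
    rw [h1]
    exact (Finset.sum_subtype (Finset.univ.filter (fun j => g.κ j = 10)) (p := fun j => g.κ j = 10)
      (fun j => by simp) (fun j => c j * dualFun g j τ)).symm
  rw [← (LinearEquiv.ofBijective L ⟨hinj, hsurj⟩).finrank_eq, Module.finrank_fintype_fun_eq_card,
    Gens.m, Fintype.card_subtype]

end Fermat.Agent.S20.Duality
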