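import Mathlib

/-!
# S20 (PROJECT G), slice [H]: eigenvalue counts for permutation matrices (trace / Burnside form)

Let `s` be a permutation of a finite set `Q`, and let `M : Matrix Q B ℂ` be invertible
(two-sided inverse `N : Matrix B Q ℂ`) with `M (s q) F = c F * M q F` for all `q`, `F`
(i.e. `P_s M = M diag(c)`).  Then the permutation matrix of `s` is similar to `diag(c)`, hence
`∑ F, c F ^ j = #Fix(s ^ j)` for all `j`.  Counting consequences for `c F = (-1) ^ a F` and
`c F = ω ^ a F` (`ω` a primitive cube root of unity).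
-/

set_option autoImplicit false
set_option linter.unusedSectionVars false

open Matrix

namespace Fermat.Agent.S20.Eigen

section Trace

variable {Q B : Type*} [Fintype Q] [DecidableEq Q] [Fintype B] [DecidableEq B]

theorem permMatrix_pow (s : Equiv.Perm Q) (j : ℕ) :
    (s ^ j).permMatrix ℂ = (s.permMatrix ℂ) ^ j := by
  induction j with
  | zero => simp
  | succ j ih => rw [pow_succ', Matrix.permMatrix_mul, ih, pow_succ]

/-- Number of fixed points, as used below. -/
noncomputable def fixCount (s : Equiv.Perm Q) : ℕ := (Function.fixedPoints s).ncard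

theorem fixCount_eq_card (s : Equiv.Perm Q) :
    fixCount s = Fintype.card {q : Q // s q = q} := by
  unfold fixCount
  rw [← Nat.card_coe_set_eq, Nat.card_eq_fintype_card]
  rfl

theorem fixCount_one : fixCount (1 : Equiv.Perm Q) = Fintype.card Q := by
  rw [fixCount_eq_card]
  simp

theorem fixCount_inv (s : Equiv.Perm Q) : fixCount s⁻¹ = fixCount s := by
  unfold fixCount
  congr 1
  ext q
  simp only [Function.mem_fixedPoints, Function.IsFixedPt]
  rw [Equiv.Perm.inv_eq_iff_eq]
  exact eq_comm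

theorem trace_permMatrix_pow (s : Equiv.Perm Q) (j : ℕ) :
    Matrix.trace ((s.permMatrix ℂ) ^ j) = (fixCount (s ^ j) : ℂ) := by
  rw [← permMatrix_pow, Matrix.trace_permutation]
  rfl

/-- **Main trace identity.** If `P_s M = M diag(c)` and `M` is invertible then
`∑ F, c F ^ j = #Fix(s ^ j)`. -/
theorem sum_pow_eq_fixCount (s : Equiv.Perm Q) (M : Matrix Q B ℂ) (N : Matrix B Q ℂ)
    (hMN : M * N = 1) (hNM : N * M = 1) (c : B → ℂ)
    (hM : ∀ q F, M (s q) F = c F * M q F) (j : ℕ) :
    ∑ F, c F ^ j = (fixCount (s ^ j) : ℂ) := by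
  have h1 : s.permMatrix ℂ * M = M * Matrix.diagonal c := by
    ext q F
    rw [Equiv.Perm.permMatrix, PEquiv.toMatrix_toPEquiv_mul, Matrix.submatrix_apply,
      Matrix.mul_diagonal, id, hM, mul_comm]
  have hj : (s.permMatrix ℂ) ^ j * M = M * (Matrix.diagonal c) ^ j := by
    induction j with
    | zero => simp
    | succ j ih =>
      rw [pow_succ, Matrix.mul_assoc, h1, ← Matrix.mul_assoc, ih, Matrix.mul_assoc, ← pow_succ]
  have h2 : (Matrix.diagonal c) ^ j = N * ((s.permMatrix ℂ) ^ j * M) := by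
    rw [hj, ← Matrix.mul_assoc, hNM, Matrix.one_mul]
  have h3 : Matrix.trace ((Matrix.diagonal c) ^ j) = Matrix.trace ((s.permMatrix ℂ) ^ j) := by
    rw [h2, Matrix.trace_mul_comm, Matrix.mul_assoc, hMN, Matrix.mul_one]
  rw [← trace_permMatrix_pow, ← h3, Matrix.diagonal_pow, Matrix.trace_diagonal]
  rfl

/-- Variant with the relation written as `M q F = c F * M (s q) F`. -/
theorem sum_pow_eq_fixCount' (s : Equiv.Perm Q) (M : Matrix Q B ℂ) (N : Matrix B Q ℂ)
    (hMN : M * N = 1) (hNM : N * M = 1) (c : B → ℂ)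
    (hM : ∀ q F, M q F = c F * M (s q) F) :
    ∑ F, c F = (fixCount s : ℂ) := by
  have h := sum_pow_eq_fixCount s⁻¹ M N hMN hNM c (fun q F => by
    have := hM (s⁻¹ q) F
    simpa using this) 1
  simpa [fixCount_inv] using h

/-- Cardinalities agree when an invertible rectangular matrix exists. -/
theorem card_eq_of_inverse (M : Matrix Q B ℂ) (N : Matrix B Q ℂ)
    (hMN : M * N = 1) (hNM : N * M = 1) : Fintype.card B = Fintype.card Q := by
  have h := sum_pow_eq_fixCount (1 : Equiv.Perm Q) M N hMN hNM (fun _ => 1)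
    (fun q F => by simp) 0
  simp only [pow_zero, Finset.sum_const, Finset.card_univ, nsmul_eq_mul, mul_one,
    fixCount_one] at h
  exact_mod_cast h

/-- A rectangular matrix which becomes an invertible square matrix after reindexing the columns
along `e : Q ≃ B` has a two-sided inverse. -/
theorem exists_inverse_of_isUnit_det (e : Q ≃ B) (M : Matrix Q B ℂ)
    (h : IsUnit (M.submatrix id e).det) :
    ∃ N : Matrix B Q ℂ, M * N = 1 ∧ N * M = 1 := by
  set M' : Matrix Q Q ℂ := M.submatrix id e with hM'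
  have h1 : M' * M'⁻¹ = 1 := Matrix.mul_nonsing_inv M' h
  have h2 : M'⁻¹ * M' = 1 := Matrix.nonsing_inv_mul M' h
  have hM : M = M'.submatrix id e.symm := by
    ext q F; simp [hM']
  refine ⟨(M'⁻¹).submatrix e.symm id, ?_, ?_⟩
  · rw [hM, Matrix.submatrix_mul_equiv, h1]; simp
  · rw [hM]
    have : (M'⁻¹).submatrix (⇑e.symm) id * M'.submatrix id ⇑e.symm
        = (M'⁻¹ * M').submatrix e.symm e.symm := by
      rw [Matrix.submatrix_mul (e₂ := (id : Q → Q)) (he₂ := Function.bijective_id)]
    rw [this, h2, Matrix.submatrix_one_equiv]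

end Trace

section Count

variable {Q B : Type*} [Fintype Q] [DecidableEq Q] [Fintype B] [DecidableEq B]

/-- **Order two.** If `P_s M = M diag((-1)^a)` with `M` invertible, then the number of `F` with
`a F` even is `(#Q + #Fix s)/2`. -/
theorem two_mul_card_even (s : Equiv.Perm Q) (M : Matrix Q B ℂ) (N : Matrix B Q ℂ)
    (hMN : M * N = 1) (hNM : N * M = 1) (a : B → ℕ)
    (hM : ∀ q F, M (s q) F = (-1 : ℂ) ^ (a F) * M q F) :
    2 * (Finset.univ.filter (fun F => Even (a F))).card = Fintype.card Q + fixCount s := by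
  have h1 := sum_pow_eq_fixCount s M N hMN hNM (fun F => (-1 : ℂ) ^ (a F)) hM 1
  have hcard := card_eq_of_inverse M N hMN hNM
  simp only [pow_one] at h1
  have h2 : ∀ F, (-1 : ℂ) ^ (a F) = if Even (a F) then 1 else -1 := by
    intro F
    split_ifs with h
    · exact h.neg_one_pow
    · exact (Nat.not_even_iff_odd.mp h).neg_one_pow
  simp_rw [h2] at h1
  rw [Finset.sum_ite, Finset.sum_const, Finset.sum_const] at h1
  have h3 : (Finset.univ.filter (fun F => Even (a F))).card +
      (Finset.univ.filter (fun F => ¬ Even (a F))).card = Fintype.card B := by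
    rw [Finset.card_filter_add_card_filter_not, Finset.card_univ]
  have h4 : ((Finset.univ.filter (fun F => Even (a F))).card : ℂ) -
      ((Finset.univ.filter (fun F => ¬ Even (a F))).card : ℂ) = (fixCount s : ℂ) := by
    rw [← h1]; simp [sub_eq_add_neg]
  have h5 : ((Finset.univ.filter (fun F => Even (a F))).card : ℤ) -
      ((Finset.univ.filter (fun F => ¬ Even (a F))).card : ℤ) = (fixCount s : ℤ) := by
    exact_mod_cast h4
  omega

/-- Decomposition of `∑ F, ω ^ (j * a F)` by residue classes mod 3. -/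
theorem sum_pow_mod_three {ω : ℂ} (hω : ω ^ 3 = 1) (a : B → ℕ) (j : ℕ) :
    ∑ F, (ω ^ (a F)) ^ j =
      ∑ r ∈ Finset.range 3, ((Finset.univ.filter (fun F => a F % 3 = r)).card : ℂ) *
        (ω ^ r) ^ j := by
  have h1 : ∀ F, (ω ^ (a F)) ^ j = (ω ^ (a F % 3)) ^ j := by
    intro F
    congr 1
    conv_lhs => rw [← Nat.mod_add_div (a F) 3, pow_add, pow_mul, hω, one_pow, mul_one]
  simp_rw [h1]
  rw [← Finset.sum_fiberwise_of_maps_to (s := Finset.univ) (t := Finset.range 3)
    (g := fun F => a F % 3) (fun F _ => Finset.mem_range.mpr (Nat.mod_lt _ (by norm_num)))]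
  refine Finset.sum_congr rfl (fun r _ => ?_)
  rw [Finset.sum_congr rfl (fun F hF => by rw [(Finset.mem_filter.mp hF).2] :
    ∀ F ∈ Finset.univ.filter (fun F => a F % 3 = r), (ω ^ (a F % 3)) ^ j = (ω ^ r) ^ j)]
  rw [Finset.sum_const, nsmul_eq_mul]

/-- **Order three.** If `P_s M = M diag(ω^a)` with `M` invertible, `ω` a primitive cube root of
unity and `s ^ 3 = 1`, then `#{F | a F ≡ 0 mod 3} = (#Q + 2 #Fix s)/3` and
`#{F | a F ≡ r mod 3} = (#Q - #Fix s)/3` for `r = 1, 2`. -/
theorem three_mul_card_mod_three (s : Equiv.Perm Q) (hs : s ^ 3 = 1) (M : Matrix Q B ℂ)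
    (N : Matrix B Q ℂ) (hMN : M * N = 1) (hNM : N * M = 1) {ω : ℂ} (hω : IsPrimitiveRoot ω 3)
    (a : B → ℕ) (hM : ∀ q F, M (s q) F = ω ^ (a F) * M q F) :
    3 * (Finset.univ.filter (fun F => a F % 3 = 0)).card = Fintype.card Q + 2 * fixCount s ∧
    3 * (Finset.univ.filter (fun F => a F % 3 = 1)).card + fixCount s = Fintype.card Q ∧
    3 * (Finset.univ.filter (fun F => a F % 3 = 2)).card + fixCount s = Fintype.card Q := by
  have hω3 : ω ^ 3 = 1 := hω.pow_eq_one
  have hω1 : ω ≠ 1 := hω.ne_one (by norm_num)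
  have hsum : ω ^ 2 + ω + 1 = 0 := by
    have h : (ω - 1) * (ω ^ 2 + ω + 1) = 0 := by ring_nf; rw [hω3]; ring
    rcases mul_eq_zero.mp h with h | h
    · exact absurd (sub_eq_zero.mp h) hω1
    · exact h
  have key := fun j => sum_pow_eq_fixCount s M N hMN hNM (fun F => ω ^ (a F)) hM j
  have k0 := key 0
  have k1 := key 1
  have k2 := key 2
  rw [sum_pow_mod_three hω3] at k0 k1 k2
  have hs2 : fixCount (s ^ 2) = fixCount s := by
    have : s ^ 2 = s⁻¹ := by
      rw [eq_inv_iff_mul_eq_one, ← pow_succ, hs]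
    rw [this, fixCount_inv]
  rw [hs2] at k2
  rw [pow_zero, fixCount_one] at k0
  rw [pow_one] at k1
  simp only [Finset.sum_range_succ, Finset.sum_range_zero, zero_add, pow_zero, pow_one,
    mul_one] at k0 k1 k2
  set n0 := (Finset.univ.filter (fun F => a F % 3 = 0)).card with hn0
  set n1 := (Finset.univ.filter (fun F => a F % 3 = 1)).card with hn1
  set n2 := (Finset.univ.filter (fun F => a F % 3 = 2)).card with hn2
  set f := fixCount s with hf
  -- `ω^4 = ω`
  have hω4 : (ω ^ 2) ^ 2 = ω := by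
    calc (ω ^ 2) ^ 2 = ω ^ 3 * ω := by ring
      _ = ω := by rw [hω3, one_mul]
  rw [hω4] at k2
  have hω2 : ω ^ 2 = -1 - ω := by linear_combination hsum
  rw [hω2] at k1 k2
  -- three times n0
  have e0 : (3 * n0 : ℂ) = (Fintype.card Q : ℂ) + 2 * f := by
    linear_combination k0 + k1 + k2
  have e0' : 3 * n0 = Fintype.card Q + 2 * f := by exact_mod_cast e0
  -- n1 = n2
  have e12 : ((n1 : ℂ) - n2) * (1 + 2 * ω) = 0 := by linear_combination k1 - k2
  have hne : (1 + 2 * ω : ℂ) ≠ 0 := by
    intro h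
    have hω' : ω = -1 / 2 := by linear_combination h / 2
    rw [hω'] at hsum
    norm_num at hsum
  have e12' : (n1 : ℂ) = n2 := by
    rcases mul_eq_zero.mp e12 with h | h
    · exact sub_eq_zero.mp h
    · exact absurd h hne
  have e12'' : n1 = n2 := by exact_mod_cast e12'
  have e1 : (n0 : ℂ) + n1 + n2 = Fintype.card Q := by linear_combination k0
  have e1' : n0 + n1 + n2 = Fintype.card Q := by exact_mod_cast e1
  refine ⟨e0', ?_, ?_⟩ <;> omega

end Count

end Fermat.Agent.S20.Eigen
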