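import Fermat.Agent.S20.Defs
import Fermat.Agent.S20.Eigen

/-!
# S20 (PROJECT G), slice [H], concrete part: eigenvalue counts at the elliptic points

For `g : Gens N`: all weights are even, exactly one generator has weight `0`, and — given
invertibility of the matrix of translates `g.Φ` at `i` resp. `ρ` — the relations
`hS`, `hR0`, `hR1`, `hR2` of `Final.result_of`.
-/

set_option autoImplicit false
set_option linter.unusedSectionVars false

noncomputable section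

namespace Fermat.Agent.S20.EigenInst

open UpperHalfPlane SlashInvariantForm CongruenceSubgroup Fermat.Agent.S20 ModularGroup

open scoped ModularForm Manifold MatrixGroups

variable {N : ℕ} [NeZero N]

/-- The translates at a transformed point. -/
theorem quotientFunc_smul_apply {k : ℤ} (f : ModularForm (G0 N) k) (γ : SL(2, ℤ)) (q : Q N)
    (τ : ℍ) :
    quotientFunc f ((sl γ)⁻¹ • q) τ = denom γ τ ^ (-k) * quotientFunc f q (γ • τ) := by
  have h := quotientFunc_smul f (sl γ).2 q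
  have h2 := congrFun h τ
  rw [← h2]
  have : (quotientFunc f q ∣[k] ((sl γ : 𝒮ℒ) : GL (Fin 2) ℝ)) = (quotientFunc f q ∣[k] γ) := rfl
  rw [this, ModularForm.SL_slash_apply, mul_comm]

/-- The permutation of the coset space induced by `γ⁻¹`. -/
def perm (N : ℕ) (γ : SL(2, ℤ)) : Equiv.Perm (Q N) := MulAction.toPerm (sl γ)⁻¹

theorem perm_apply (γ : SL(2, ℤ)) (q : Q N) : perm N γ q = (sl γ)⁻¹ • q := rfl

/-- The basic relation at a fixed point. -/
theorem Φ_perm (g : Gens N) (γ : SL(2, ℤ)) (τ : ℍ) (hτ : γ • τ = τ) (q j : Q N) :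
    g.Φ τ (perm N γ q) j = denom γ τ ^ (-(g.κ j : ℤ)) * g.Φ τ q j := by
  unfold Gens.Φ
  rw [perm_apply, quotientFunc_smul_apply, hτ]

theorem fixCount_perm (γ : SL(2, ℤ)) :
    Eigen.fixCount (perm N γ) = Nat.card {q : Q N // sl γ • q = q} := by
  rw [Eigen.fixCount_eq_card, Nat.card_eq_fintype_card]
  refine Fintype.card_congr (Equiv.subtypeEquivRight (fun q => ?_))
  rw [perm_apply, inv_smul_eq_iff, eq_comm]

theorem card_Q : Fintype.card (Q N) = mu N := by
  rw [mu, Nat.card_eq_fintype_card]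

/-! ### The generators are nonzero and have even weight -/

theorem F_ne_zero (g : Gens N) (j : Q N) : ∃ τ, g.F j τ ≠ 0 := by
  by_contra hcon
  push Not at hcon
  let c : (j' : Q N) → ModularForm 𝒮ℒ ((g.κ j : ℤ) - g.κ j') := fun j' =>
    if h : j' = j then ModularForm.mcast (by rw [h]; ring) (ModularForm.const 1) else 0
  have h0 := g.indep (g.κ j) c (fun τ => by
    refine Finset.sum_eq_zero (fun j' _ => ?_)
    by_cases h : j' = j
    · subst h; rw [hcon, mul_zero]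
    · simp only [c, dif_neg h]; simp) j
  have h1 : c j I = 1 := by
    simp only [c, dif_pos rfl]
    rfl
  rw [h0] at h1
  simp at h1

theorem neg_one_mem_G0 (N : ℕ) :
    (Matrix.SpecialLinearGroup.mapGL ℝ (-1 : SL(2, ℤ))) ∈ G0 N := by
  refine ⟨-1, ?_, rfl⟩
  show (-1 : SL(2, ℤ)) ∈ Gamma0 N
  rw [Gamma0_mem]
  simp

theorem κ_even (g : Gens N) (j : Q N) : Even (g.κ j) := by
  by_contra hodd
  rw [Nat.not_even_iff_odd] at hodd
  obtain ⟨τ, hτ⟩ := F_ne_zero g j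
  have h1 := SlashInvariantFormClass.slash_action_eq (g.F j) _ (neg_one_mem_G0 N)
  have h2 := congrFun h1 τ
  have h3 : ((g.F j : ℍ → ℂ) ∣[(g.κ j : ℤ)] (-1 : SL(2, ℤ))) τ = g.F j τ := h2
  rw [ModularForm.SL_slash_apply, ModularGroup.SL_neg_smul, one_smul] at h3
  have h4 : denom ((-1 : SL(2, ℤ))) τ = -1 := by
    rw [ModularGroup.denom_apply]
    simp
  rw [h4] at h3
  have h5 : ((-1 : ℂ)) ^ (-(g.κ j : ℤ)) = -1 := by
    rw [zpow_neg, zpow_natCast, hodd.neg_one_pow]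
    norm_num
  rw [h5] at h3
  apply hτ
  linear_combination (-1/2 : ℂ) * h3

/-! ### Exactly one generator of weight zero -/

theorem exists_κ_zero (g : Gens N) : ∃ j, g.κ j = 0 := by
  obtain ⟨c, hc⟩ := g.gen 0 (ModularForm.const 1)
  by_contra hne
  push Not at hne
  have h0 : ∀ j, c j = 0 := fun j =>
    ModularForm.isZero_of_neg_weight (by have := hne j; omega) (c j)
  have h1 := hc I
  simp [h0] at h1

theorem κ_zero_unique (g : Gens N) {j₁ j₂ : Q N} (h₁ : g.κ j₁ = 0) (h₂ : g.κ j₂ = 0) :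
    j₁ = j₂ := by
  by_contra hne
  obtain ⟨a, ha⟩ := ModularForm.eq_const_of_weight_zero
    (ModularForm.mcast (by simp [h₁] : (g.κ j₁ : ℤ) = 0) (g.F j₁))
  obtain ⟨b, hb⟩ := ModularForm.eq_const_of_weight_zero
    (ModularForm.mcast (by simp [h₂] : (g.κ j₂ : ℤ) = 0) (g.F j₂))
  have ha' : ∀ τ, g.F j₁ τ = a := fun τ => congrFun ha τ
  have hb' : ∀ τ, g.F j₂ τ = b := fun τ => congrFun hb τ
  let c : (j : Q N) → ModularForm 𝒮ℒ ((0 : ℤ) - g.κ j) := fun j =>
    if h : j = j₁ then ModularForm.mcast (by rw [h, h₁]; simp) (ModularForm.const b)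
    else if h' : j = j₂ then ModularForm.mcast (by rw [h', h₂]; simp) (ModularForm.const (-a))
    else 0
  have hc1 : ∀ τ, c j₁ τ = b := by
    intro τ
    simp only [c, dif_pos rfl]
    rfl
  have hc2 : ∀ τ, c j₂ τ = -a := by
    intro τ
    have : ¬ j₂ = j₁ := fun h => hne h.symm
    simp only [c, dif_neg this]
    rfl
  have h0 := g.indep 0 c (fun τ => by
    rw [Finset.sum_eq_add j₁ j₂ hne]
    · rw [hc1, hc2, ha', hb']; ring
    · intro j _ hj
      simp only [c, dif_neg hj.1, dif_neg hj.2]; simp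
    · intro h; exact absurd (Finset.mem_univ _) h
    · intro h; exact absurd (Finset.mem_univ _) h) j₁
  have hb0 : b = 0 := by
    have := hc1 I
    rw [h0] at this
    simpa using this.symm
  obtain ⟨τ, hτ⟩ := F_ne_zero g j₂
  exact hτ (by rw [hb', hb0])

theorem m_zero (g : Gens N) : g.m 0 = 1 := by
  obtain ⟨j0, hj0⟩ := exists_κ_zero g
  unfold Gens.m
  rw [Finset.card_eq_one]
  refine ⟨j0, ?_⟩
  ext j
  simp only [Finset.mem_filter, Finset.mem_univ, true_and, Finset.mem_singleton]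
  exact ⟨fun h => κ_zero_unique g h hj0, fun h => h ▸ hj0⟩

/-! ### The action of `-1` on the coset space is trivial -/

theorem sl_mul (γ δ : SL(2, ℤ)) : sl (γ * δ) = sl γ * sl δ := by
  apply Subtype.ext
  simp [sl]

theorem sl_one : sl 1 = 1 := by
  apply Subtype.ext
  simp [sl]

theorem sl_pow (γ : SL(2, ℤ)) (n : ℕ) : sl (γ ^ n) = sl γ ^ n := by
  induction n with
  | zero => simp [sl_one]
  | succ n ih => rw [pow_succ, pow_succ, sl_mul, ih]

theorem exists_eq_sl (h : 𝒮ℒ) : ∃ γ : SL(2, ℤ), h = sl γ := by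
  obtain ⟨γ, hγ⟩ := h.2
  exact ⟨γ, Subtype.ext hγ.symm⟩

theorem sl_neg_one_smul (q : Q N) : sl (-1) • q = q := by
  refine Quotient.inductionOn q (fun h => ?_)
  obtain ⟨γ, rfl⟩ := exists_eq_sl h
  show ((sl (-1) * sl γ : 𝒮ℒ) : Q N) = ((sl γ : 𝒮ℒ) : Q N)
  rw [QuotientGroup.eq]
  have hcomm : sl (-1) * sl γ = sl γ * sl (-1) := by
    rw [← sl_mul, ← sl_mul]; congr 1; simp
  rw [hcomm, mul_inv_rev, inv_mul_cancel_right]
  rw [Subgroup.mem_subgroupOf]
  exact inv_mem (neg_one_mem_G0 N)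

/-! ### Counting by weight -/

theorem card_filter_three (g : Gens N) (P : ℕ → Prop) [DecidablePred P] (k₁ k₂ k₃ : ℕ)
    (h12 : k₁ ≠ k₂) (h13 : k₁ ≠ k₃) (h23 : k₂ ≠ k₃)
    (h : ∀ j, P (g.κ j) ↔ g.κ j = k₁ ∨ g.κ j = k₂ ∨ g.κ j = k₃) :
    (Finset.univ.filter (fun j => P (g.κ j))).card = g.m k₁ + g.m k₂ + g.m k₃ := by
  classical
  have hcover : (Finset.univ.filter (fun j => P (g.κ j))) =
      (Finset.univ.filter fun j => g.κ j = k₁) ∪ (Finset.univ.filter fun j => g.κ j = k₂) ∪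
      (Finset.univ.filter fun j => g.κ j = k₃) := by
    ext j
    simp only [Finset.mem_univ, Finset.mem_union, Finset.mem_filter, true_and]
    rw [h j, or_assoc]
  rw [hcover]
  unfold Gens.m
  rw [Finset.card_union_of_disjoint, Finset.card_union_of_disjoint]
  · rw [Finset.disjoint_left]
    intro j
    simp only [Finset.mem_filter, Finset.mem_univ, true_and]
    intro h1 h2; exact h12 (h1.symm.trans h2)
  · rw [Finset.disjoint_left]
    intro j
    simp only [Finset.mem_union, Finset.mem_filter, Finset.mem_univ, true_and]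
    rintro (h1 | h1) h2
    · exact h13 (h1.symm.trans h2)
    · exact h23 (h1.symm.trans h2)

theorem card_filter_two (g : Gens N) (P : ℕ → Prop) [DecidablePred P] (k₁ k₂ : ℕ)
    (h12 : k₁ ≠ k₂) (h : ∀ j, P (g.κ j) ↔ g.κ j = k₁ ∨ g.κ j = k₂) :
    (Finset.univ.filter (fun j => P (g.κ j))).card = g.m k₁ + g.m k₂ := by
  classical
  have hcover : (Finset.univ.filter (fun j => P (g.κ j))) =
      (Finset.univ.filter fun j => g.κ j = k₁) ∪ (Finset.univ.filter fun j => g.κ j = k₂) := by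
    ext j
    simp only [Finset.mem_univ, Finset.mem_union, Finset.mem_filter, true_and]
    rw [h j]
  rw [hcover]
  unfold Gens.m
  rw [Finset.card_union_of_disjoint]
  rw [Finset.disjoint_left]
  intro j
  simp only [Finset.mem_filter, Finset.mem_univ, true_and]
  intro h1 h2; exact h12 (h1.symm.trans h2)

/-! ### The point `i` -/

theorem S_smul_I : (S : SL(2, ℤ)) • I = I := by
  rw [ModularGroup.stabilizer_I]; simp

/-- **Relation `hS`.** -/
theorem hS (g : Gens N) (hκ : ∀ j, g.κ j ≤ 10) (hdet : (g.Φ I).det ≠ 0) :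
    2 * (g.m 0 + g.m 4 + g.m 8) = mu N + fixS N := by
  have hunit : IsUnit (g.Φ I).det := Ne.isUnit hdet
  have hMN : g.Φ I * (g.Φ I)⁻¹ = 1 := Matrix.mul_nonsing_inv _ hunit
  have hNM : (g.Φ I)⁻¹ * g.Φ I = 1 := Matrix.nonsing_inv_mul _ hunit
  have hM : ∀ q j, g.Φ I (perm N S q) j = (-1 : ℂ) ^ (g.κ j / 2) * g.Φ I q j := by
    intro q j
    rw [Φ_perm g S I S_smul_I q j]
    congr 1
    obtain ⟨r, hr⟩ := κ_even g j
    have hr2 : g.κ j / 2 = r := by omega
    rw [hr2, ModularGroup.denom_S, hr, zpow_neg, zpow_natCast, ← two_mul, pow_mul]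
    have : ((I : ℍ) : ℂ) ^ 2 = -1 := by
      rw [UpperHalfPlane.coe_I, Complex.I_sq]
    rw [this, ← inv_pow]
    norm_num
  have key := Eigen.two_mul_card_even (perm N S) (g.Φ I) (g.Φ I)⁻¹ hMN hNM
    (fun j => g.κ j / 2) hM
  rw [fixCount_perm, card_Q] at key
  have hcount : (Finset.univ.filter (fun j => Even (g.κ j / 2))).card
      = g.m 0 + g.m 4 + g.m 8 := by
    refine card_filter_three g (fun k => Even (k / 2)) 0 4 8 (by norm_num) (by norm_num)
      (by norm_num) (fun j => ?_)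
    have h1 := hκ j
    obtain ⟨r, hr⟩ := κ_even g j
    have : g.κ j = 0 ∨ g.κ j = 2 ∨ g.κ j = 4 ∨ g.κ j = 6 ∨ g.κ j = 8 ∨ g.κ j = 10 := by omega
    rcases this with h | h | h | h | h | h <;> rw [h] <;> decide
  rw [hcount] at key
  exact key

/-! ### The point `ρ` -/

theorem ST_smul_ρ : (S * T : SL(2, ℤ)) • ρ = ρ := by
  rw [ModularGroup.stabilizer_ρ]; simp

theorem ST_pow_three : (S * T : SL(2, ℤ)) ^ 3 = -1 := by decide

theorem perm_ST_pow_three : perm N (S * T) ^ 3 = 1 := by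
  ext q
  have h : ∀ q : Q N, (perm N (S * T) ^ 3) q = (sl ((S * T) ^ 3))⁻¹ • q := by
    intro q
    rw [sl_pow, pow_succ, pow_succ, pow_one, Equiv.Perm.mul_apply, Equiv.Perm.mul_apply,
      perm_apply, perm_apply, perm_apply, smul_smul, smul_smul, ← mul_inv_rev, ← mul_inv_rev,
      pow_succ, pow_succ, pow_one, mul_assoc]
  rw [h, ST_pow_three, inv_smul_eq_iff, sl_neg_one_smul]
  rfl

theorem denom_ST_ρ : denom (S * T : SL(2, ℤ)) ρ = (ρ : ℂ) + 1 := by
  rw [ModularGroup.denom_apply]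
  have h10 : (S * T : SL(2, ℤ)) 1 0 = 1 := by decide
  have h11 : (S * T : SL(2, ℤ)) 1 1 = 1 := by decide
  rw [h10, h11]
  simp

theorem ρ_cube : (ρ : ℂ) ^ 3 = 1 := by
  have h := UpperHalfPlane.ρ_sq
  calc (ρ : ℂ) ^ 3 = (ρ : ℂ) * (ρ : ℂ) ^ 2 := by ring
    _ = 1 := by rw [h]; linear_combination -h

theorem ρ_ne_zero : (ρ : ℂ) ≠ 0 := UpperHalfPlane.ne_zero ρ

theorem isPrimitiveRoot_ρ_sq : IsPrimitiveRoot ((ρ : ℂ) ^ 2) 3 := by
  have h3 : ((ρ : ℂ) ^ 2) ^ 3 = 1 := by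
    rw [← pow_mul, mul_comm, pow_mul, ρ_cube, one_pow]
  have h1 : (ρ : ℂ) ^ 2 ≠ 1 := by
    intro h
    have h2 := UpperHalfPlane.ρ_sq
    rw [h] at h2
    have h4 : (ρ : ℂ) = -2 := by linear_combination h2
    have h5 := ρ.im_pos
    have h6 : (ρ : ℂ).im = 0 := by rw [h4]; simp
    rw [UpperHalfPlane.coe_im] at h6
    rw [h6] at h5
    exact lt_irrefl _ h5
  refine IsPrimitiveRoot.mk_of_lt _ (by norm_num) h3 (fun l hl0 hl3 => ?_)
  interval_cases l
  · rwa [pow_one]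
  · intro h
    apply h1
    have h5 : ((ρ : ℂ) ^ 2) ^ 3 = (ρ : ℂ) ^ 2 := by rw [pow_succ, h, one_mul]
    rw [← h5, h3]

/-- The three relations at `ρ`. -/
theorem hR (g : Gens N) (hκ : ∀ j, g.κ j ≤ 10) (hdet : (g.Φ ρ).det ≠ 0) :
    3 * (g.m 0 + g.m 6) = mu N + 2 * fixR N ∧
    3 * (g.m 2 + g.m 8) + fixR N = mu N ∧
    3 * (g.m 4 + g.m 10) + fixR N = mu N := by
  have hunit : IsUnit (g.Φ ρ).det := Ne.isUnit hdet
  have hMN : g.Φ ρ * (g.Φ ρ)⁻¹ = 1 := Matrix.mul_nonsing_inv _ hunit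
  have hNM : (g.Φ ρ)⁻¹ * g.Φ ρ = 1 := Matrix.nonsing_inv_mul _ hunit
  have hζ : ((ρ : ℂ) + 1) ^ 2 = (ρ : ℂ) := by
    have h := UpperHalfPlane.ρ_sq
    linear_combination h
  have hρinv : (ρ : ℂ)⁻¹ = (ρ : ℂ) ^ 2 := by
    have h3 : (ρ : ℂ) ^ 2 * (ρ : ℂ) = 1 := by rw [← pow_succ]; exact ρ_cube
    exact (eq_inv_of_mul_eq_one_left h3).symm
  have hM : ∀ q j, g.Φ ρ (perm N (S * T) q) j = ((ρ : ℂ) ^ 2) ^ (g.κ j / 2) * g.Φ ρ q j := by
    intro q j
    rw [Φ_perm g (S * T) ρ ST_smul_ρ q j]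
    congr 1
    obtain ⟨r, hr⟩ := κ_even g j
    have hr2 : g.κ j / 2 = r := by omega
    rw [hr2, denom_ST_ρ, hr, zpow_neg, zpow_natCast, ← two_mul, pow_mul, hζ, ← inv_pow, hρinv]
  have key := Eigen.three_mul_card_mod_three (perm N (S * T)) perm_ST_pow_three (g.Φ ρ)
    (g.Φ ρ)⁻¹ hMN hNM isPrimitiveRoot_ρ_sq (fun j => g.κ j / 2) hM
  rw [fixCount_perm, card_Q] at key
  have hcases : ∀ j, g.κ j = 0 ∨ g.κ j = 2 ∨ g.κ j = 4 ∨ g.κ j = 6 ∨ g.κ j = 8 ∨ g.κ j = 10 := by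
    intro j
    have h1 := hκ j
    obtain ⟨r, hr⟩ := κ_even g j
    omega
  have hc0 : (Finset.univ.filter (fun j => g.κ j / 2 % 3 = 0)).card = g.m 0 + g.m 6 := by
    refine card_filter_two g (fun k => k / 2 % 3 = 0) 0 6 (by norm_num) (fun j => ?_)
    rcases hcases j with h | h | h | h | h | h <;> rw [h] <;> decide
  have hc1 : (Finset.univ.filter (fun j => g.κ j / 2 % 3 = 1)).card = g.m 2 + g.m 8 := by
    refine card_filter_two g (fun k => k / 2 % 3 = 1) 2 8 (by norm_num) (fun j => ?_)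
    rcases hcases j with h | h | h | h | h | h <;> rw [h] <;> decide
  have hc2 : (Finset.univ.filter (fun j => g.κ j / 2 % 3 = 2)).card = g.m 4 + g.m 10 := by
    refine card_filter_two g (fun k => k / 2 % 3 = 2) 4 10 (by norm_num) (fun j => ?_)
    rcases hcases j with h | h | h | h | h | h <;> rw [h] <;> decide
  rw [hc0, hc1, hc2] at key
  exact key

theorem hR0 (g : Gens N) (hκ : ∀ j, g.κ j ≤ 10) (hdet : (g.Φ ρ).det ≠ 0) :
    3 * (g.m 0 + g.m 6) = mu N + 2 * fixR N := (hR g hκ hdet).1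

theorem hR1 (g : Gens N) (hκ : ∀ j, g.κ j ≤ 10) (hdet : (g.Φ ρ).det ≠ 0) :
    3 * (g.m 2 + g.m 8) + fixR N = mu N := (hR g hκ hdet).2.1

theorem hR2 (g : Gens N) (hκ : ∀ j, g.κ j ≤ 10) (hdet : (g.Φ ρ).det ≠ 0) :
    3 * (g.m 4 + g.m 10) + fixR N = mu N := (hR g hκ hdet).2.2

end Fermat.Agent.S20.EigenInst
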