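import Fermat.Agent.S20.Defs

/-!
# S20 (PROJECT G): final arithmetic

From the numerical relations between the numbers `m k` of generators of weight `k`
to the genus formula.
-/

set_option autoImplicit false

noncomputable section

namespace Fermat.Agent.S20

open UpperHalfPlane CongruenceSubgroup

open scoped ModularForm MatrixGroups

variable {N : ℕ} [NeZero N]

/-- Splitting the index set by weight. -/
theorem Gens.card_eq (g : Gens N) (hκ : ∀ j, g.κ j ≤ 10) (heven : ∀ j, Even (g.κ j)) :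
    g.m 0 + g.m 2 + g.m 4 + g.m 6 + g.m 8 + g.m 10 = mu N := by
  classical
  have hcover : (Finset.univ : Finset (Q N)) =
      (Finset.univ.filter fun j => g.κ j = 0) ∪ (Finset.univ.filter fun j => g.κ j = 2) ∪
      (Finset.univ.filter fun j => g.κ j = 4) ∪ (Finset.univ.filter fun j => g.κ j = 6) ∪
      (Finset.univ.filter fun j => g.κ j = 8) ∪ (Finset.univ.filter fun j => g.κ j = 10) := by
    ext j
    simp only [Finset.mem_univ, Finset.mem_union, Finset.mem_filter, true_and, true_iff]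
    have h1 := hκ j
    obtain ⟨r, hr⟩ := heven j
    omega
  have hmu : mu N = (Finset.univ : Finset (Q N)).card := by
    rw [mu, Nat.card_eq_fintype_card, Finset.card_univ]
  rw [hmu, hcover]
  unfold Gens.m
  repeat rw [Finset.card_union_of_disjoint]
  all_goals
    rw [Finset.disjoint_left]
    intro j
    simp only [Finset.mem_union, Finset.mem_filter, Finset.mem_univ, true_and]
    omega

/-- The weighted count. -/
theorem Gens.sum_κ_eq (g : Gens N) (hκ : ∀ j, g.κ j ≤ 10) (heven : ∀ j, Even (g.κ j)) :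
    ∑ j, g.κ j = 2 * g.m 2 + 4 * g.m 4 + 6 * g.m 6 + 8 * g.m 8 + 10 * g.m 10 := by
  classical
  have key : ∀ j, g.κ j = (if g.κ j = 2 then 2 else 0) + (if g.κ j = 4 then 4 else 0) +
      (if g.κ j = 6 then 6 else 0) + (if g.κ j = 8 then 8 else 0) +
      (if g.κ j = 10 then 10 else 0) := by
    intro j
    have h1 := hκ j
    obtain ⟨r, hr⟩ := heven j
    have : g.κ j = 0 ∨ g.κ j = 2 ∨ g.κ j = 4 ∨ g.κ j = 6 ∨ g.κ j = 8 ∨ g.κ j = 10 := by omega
    rcases this with h | h | h | h | h | h <;> simp [h]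
  have hm : ∀ k : ℕ, (∑ j : Q N, if g.κ j = k then k else 0) = k * g.m k := by
    intro k
    rw [Gens.m, ← Finset.sum_filter, Finset.sum_const, smul_eq_mul, mul_comm]
  calc ∑ j, g.κ j
      = ∑ j, ((if g.κ j = 2 then 2 else 0) + (if g.κ j = 4 then 4 else 0) +
          (if g.κ j = 6 then 6 else 0) + (if g.κ j = 8 then 8 else 0) +
          (if g.κ j = 10 then 10 else 0)) := Finset.sum_congr rfl fun j _ => key j
    _ = _ := by
        simp only [Finset.sum_add_distrib]
        rw [hm 2, hm 4, hm 6, hm 8, hm 10]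

/-- **Final arithmetic** (Step 8): the dimension formula from the structural relations. -/
theorem result_of (g : Gens N)
    (hκ : ∀ j, g.κ j ≤ 10) (heven : ∀ j, Even (g.κ j))
    (h0 : g.m 0 = 1)
    (hsum : ∑ j, g.κ j + 6 * orbT N = 6 * mu N)
    (hS : 2 * (g.m 0 + g.m 4 + g.m 8) = mu N + fixS N)
    (hR0 : 3 * (g.m 0 + g.m 6) = mu N + 2 * fixR N)
    (hR1 : 3 * (g.m 2 + g.m 8) + fixR N = mu N)
    (hR2 : 3 * (g.m 4 + g.m 10) + fixR N = mu N)
    (hdim : Module.finrank ℂ (CuspForm (Gamma0 N) 2) = g.m 10)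
    (hmu : mu N = ModularCurve.dedekindPsi N) (hfixS : fixS N = ModularCurve.nuTwo N)
    (hfixR : fixR N = ModularCurve.nuThree N) (horb : orbT N = ModularCurve.cuspCount N) :
    (Module.finrank ℂ (CuspForm (Gamma0 N) 2) : ℚ) = ModularCurve.genusFormula N := by
  have hc := g.card_eq hκ heven
  have hs := g.sum_κ_eq hκ heven
  rw [hdim, ModularCurve.genusFormula, ← hmu, ← hfixS, ← hfixR, ← horb]
  have e1 : (g.m 0 : ℚ) + g.m 2 + g.m 4 + g.m 6 + g.m 8 + g.m 10 = mu N := by exact_mod_cast hc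
  have e2 : (2 * g.m 2 : ℚ) + 4 * g.m 4 + 6 * g.m 6 + 8 * g.m 8 + 10 * g.m 10 + 6 * orbT N
      = 6 * mu N := by rw [hs] at hsum; exact_mod_cast hsum
  have e3 : (2 : ℚ) * (g.m 0 + g.m 4 + g.m 8) = mu N + fixS N := by exact_mod_cast hS
  have e4 : (3 : ℚ) * (g.m 0 + g.m 6) = mu N + 2 * fixR N := by exact_mod_cast hR0
  have e5 : (3 : ℚ) * (g.m 2 + g.m 8) + fixR N = mu N := by exact_mod_cast hR1
  have e6 : (3 : ℚ) * (g.m 4 + g.m 10) + fixR N = mu N := by exact_mod_cast hR2
  have e0 : (g.m 0 : ℚ) = 1 := by exact_mod_cast h0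
  linarith

end Fermat.Agent.S20
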