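import Mathlib

/-!
# S20 (PROJECT G), slice [C]: abstract graded Nakayama

Pure linear algebra (Mathlib only).  In a commutative `𝕜`-algebra `V` we are given a graded
family of subspaces `M k` (`k : ℤ`, zero in negative degree) stable under multiplication by two
elements `e4`, `e6` of weights 4 and 6, such that `e4` is injective on every `M k` and
`e6 g = e4 h` forces `g ∈ e4 M` (`Setting`).  Then `M` has a homogeneous family `F j`
(weights `κ j`) which generates `M` over the monomial spans `Rmon` of `e4, e6` and is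
independent over them (`Setting.exists_basis`).
-/

set_option autoImplicit false

namespace Fermat.Agent.S20.FreeAbstract

open Finset

universe u v

variable {𝕜 : Type v} [Field 𝕜] {V : Type u} [CommRing V] [Algebra 𝕜 V]

/-- Span of the monomials `e4 ^ a * e6 ^ b` of weight `4 a + 6 b = w`. -/
def Rmon (𝕜 : Type v) [Field 𝕜] {V : Type u} [CommRing V] [Algebra 𝕜 V] (e4 e6 : V) (w : ℤ) :
    Submodule 𝕜 V :=
  Submodule.span 𝕜 {x | ∃ a b : ℕ, (4 * (a : ℤ) + 6 * (b : ℤ)) = w ∧ x = e4 ^ a * e6 ^ b}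

variable {e4 e6 : V}

theorem monomial_mem_Rmon' {w : ℤ} (a b : ℕ) (h : 4 * (a : ℤ) + 6 * (b : ℤ) = w) :
    e4 ^ a * e6 ^ b ∈ Rmon 𝕜 e4 e6 w :=
  Submodule.subset_span ⟨a, b, h, rfl⟩

theorem one_mem_Rmon : (1 : V) ∈ Rmon 𝕜 e4 e6 0 := by
  have := monomial_mem_Rmon' (𝕜 := 𝕜) (e4 := e4) (e6 := e6) (w := 0) 0 0 (by norm_num)
  simpa using this

theorem Rmon_neg {w : ℤ} (hw : w < 0) : Rmon 𝕜 e4 e6 w = ⊥ := by
  rw [Rmon, Submodule.span_eq_bot]
  rintro x ⟨a, b, h, -⟩
  omega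

theorem e4_mul_mem_Rmon {w : ℤ} {c : V} (hc : c ∈ Rmon 𝕜 e4 e6 w) :
    e4 * c ∈ Rmon 𝕜 e4 e6 (w + 4) := by
  induction hc using Submodule.span_induction with
  | mem x hx =>
    obtain ⟨a, b, h, rfl⟩ := hx
    have : e4 * (e4 ^ a * e6 ^ b) = e4 ^ (a + 1) * e6 ^ b := by ring
    rw [this]
    exact monomial_mem_Rmon' (a + 1) b (by push_cast; omega)
  | zero => simp
  | add x y _ _ hx hy => rw [mul_add]; exact add_mem hx hy
  | smul r x _ hx => rw [mul_smul_comm]; exact Submodule.smul_mem _ r hx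

theorem e6_mul_mem_Rmon {w : ℤ} {c : V} (hc : c ∈ Rmon 𝕜 e4 e6 w) :
    e6 * c ∈ Rmon 𝕜 e4 e6 (w + 6) := by
  induction hc using Submodule.span_induction with
  | mem x hx =>
    obtain ⟨a, b, h, rfl⟩ := hx
    have : e6 * (e4 ^ a * e6 ^ b) = e4 ^ a * e6 ^ (b + 1) := by ring
    rw [this]
    exact monomial_mem_Rmon' a (b + 1) (by push_cast; omega)
  | zero => simp
  | add x y _ _ hx hy => rw [mul_add]; exact add_mem hx hy
  | smul r x _ hx => rw [mul_smul_comm]; exact Submodule.smul_mem _ r hx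

/-- Every element of `Rmon w` is `e4 * a' + γ • e6 ^ (w / 6)` with `a' ∈ Rmon (w - 4)`. -/
theorem Rmon_decomp {w : ℤ} {c : V} (hc : c ∈ Rmon 𝕜 e4 e6 w) :
    ∃ a' ∈ Rmon 𝕜 e4 e6 (w - 4), ∃ γ : 𝕜, (γ = 0 ∨ 6 * ((w.toNat / 6 : ℕ) : ℤ) = w) ∧
      c = e4 * a' + γ • e6 ^ (w.toNat / 6) := by
  induction hc using Submodule.span_induction with
  | mem x hx =>
    obtain ⟨a, b, h, rfl⟩ := hx
    rcases Nat.eq_zero_or_pos a with ha | ha
    · subst ha
      refine ⟨0, zero_mem _, 1, Or.inr (by omega), ?_⟩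
      have hb : w.toNat / 6 = b := by omega
      rw [hb]; simp
    · obtain ⟨a', rfl⟩ : ∃ a', a = a' + 1 := ⟨a - 1, by omega⟩
      refine ⟨e4 ^ a' * e6 ^ b, monomial_mem_Rmon' a' b (by push_cast at h ⊢; omega), 0,
        Or.inl rfl, ?_⟩
      rw [zero_smul, add_zero]; ring
  | zero => exact ⟨0, zero_mem _, 0, Or.inl rfl, by simp⟩
  | add x y _ _ hx hy =>
    obtain ⟨a1, ha1, γ1, h1, rfl⟩ := hx
    obtain ⟨a2, ha2, γ2, h2, rfl⟩ := hy
    refine ⟨a1 + a2, add_mem ha1 ha2, γ1 + γ2, ?_, ?_⟩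
    · rcases h1 with h1 | h1
      · rcases h2 with h2 | h2
        · left; rw [h1, h2, add_zero]
        · exact Or.inr h2
      · exact Or.inr h1
    · rw [add_smul, mul_add]; abel
  | smul r x _ hx =>
    obtain ⟨a1, ha1, γ1, h1, rfl⟩ := hx
    refine ⟨r • a1, Submodule.smul_mem _ r ha1, r * γ1, ?_, ?_⟩
    · rcases h1 with h1 | h1
      · left; rw [h1, mul_zero]
      · exact Or.inr h1
    · rw [smul_add, mul_smul_comm, mul_smul]

/-- One graded piece: a complement of `Nk` in `Mk` with a basis. -/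
theorem exists_compl_basis_aux (Mk Nk : Submodule 𝕜 V) (h : Nk ≤ Mk) :
    ∃ (I : Type u) (b : I → V), (∀ i, b i ∈ Mk) ∧
      Mk ≤ Nk ⊔ Submodule.span 𝕜 (Set.range b) ∧
      ∀ (t : Finset I) (γ : I → 𝕜), ∑ i ∈ t, γ i • b i ∈ Nk → ∀ i ∈ t, γ i = 0 := by
  obtain ⟨C', hC'⟩ := Submodule.exists_isCompl Nk
  set C : Submodule 𝕜 V := C' ⊓ Mk with hC
  let B := Module.Basis.ofVectorSpace 𝕜 C
  refine ⟨Module.Basis.ofVectorSpaceIndex 𝕜 C, fun i => ((B i : C) : V), fun i => (B i).2.2, ?_, ?_⟩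
  · intro f hf
    have htop : f ∈ Nk ⊔ C' := by rw [hC'.sup_eq_top]; trivial
    obtain ⟨n, hn, c, hc, rfl⟩ := Submodule.mem_sup.mp htop
    have hcM : c ∈ Mk := by
      have : c = (n + c) - n := by abel
      rw [this]; exact sub_mem hf (h hn)
    have hcC : c ∈ C := ⟨hc, hcM⟩
    have hspan : (⟨c, hcC⟩ : C) ∈ Submodule.span 𝕜 (Set.range B) := by
      rw [B.span_eq]; trivial
    have hc' : c ∈ Submodule.span 𝕜 (Set.range fun i => ((B i : C) : V)) := by
      have := Submodule.mem_map_of_mem (f := C.subtype) hspan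
      rw [Submodule.map_span, ← Set.range_comp] at this
      exact this
    exact Submodule.add_mem_sup hn hc'
  · intro t γ hsum
    have hC'mem : ∑ i ∈ t, γ i • ((B i : C) : V) ∈ C' :=
      Submodule.sum_mem _ fun i _ => Submodule.smul_mem _ _ (B i).2.1
    have hzero : ∑ i ∈ t, γ i • ((B i : C) : V) = 0 := by
      have : ∑ i ∈ t, γ i • ((B i : C) : V) ∈ Nk ⊓ C' := ⟨hsum, hC'mem⟩
      rw [hC'.inf_eq_bot] at this
      exact (Submodule.mem_bot _).mp this
    have hzero' : ∑ i ∈ t, γ i • B i = 0 := by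
      apply Subtype.ext
      rw [Submodule.coe_sum]
      simpa using hzero
    exact linearIndependent_iff'.mp B.linearIndependent t γ hzero'

/-- The abstract setting: a graded family of subspaces of a commutative algebra, stable under
two commuting multiplications of weights 4 and 6 forming a regular sequence. -/
structure Setting (𝕜 : Type v) [Field 𝕜] {V : Type u} [CommRing V] [Algebra 𝕜 V]
    (e4 e6 : V) (M : ℤ → Submodule 𝕜 V) : Prop where
  neg : ∀ k : ℤ, k < 0 → M k = ⊥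
  e4_mem : ∀ (k : ℤ) (f : V), f ∈ M k → e4 * f ∈ M (k + 4)
  e6_mem : ∀ (k : ℤ) (f : V), f ∈ M k → e6 * f ∈ M (k + 6)
  e4_inj : ∀ (k : ℤ) (f : V), f ∈ M k → e4 * f = 0 → f = 0
  regular : ∀ (a : ℤ) (g h : V), g ∈ M a → h ∈ M (a + 2) → e6 * g = e4 * h →
    ∃ u ∈ M (a - 4), g = e4 * u

variable {M : ℤ → Submodule 𝕜 V}

theorem mem_of_eq {a b : ℤ} (h : a = b) {f : V} (hf : f ∈ M a) : f ∈ M b := h ▸ hf

/-- The decomposable part `e4 M_{k-4} + e6 M_{k-6}` of `M_k`. -/
def Nk (e4 e6 : V) (M : ℤ → Submodule 𝕜 V) (k : ℤ) : Submodule 𝕜 V :=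
  (M (k - 4)).map (LinearMap.mulLeft 𝕜 e4) ⊔ (M (k - 6)).map (LinearMap.mulLeft 𝕜 e6)

theorem mem_Nk {k : ℤ} {x : V} :
    x ∈ Nk e4 e6 M k ↔ ∃ u ∈ M (k - 4), ∃ u' ∈ M (k - 6), x = e4 * u + e6 * u' := by
  rw [Nk, Submodule.mem_sup]
  constructor
  · rintro ⟨y, hy, z, hz, rfl⟩
    obtain ⟨u, hu, rfl⟩ := Submodule.mem_map.mp hy
    obtain ⟨u', hu', rfl⟩ := Submodule.mem_map.mp hz
    exact ⟨u, hu, u', hu', rfl⟩
  · rintro ⟨u, hu, u', hu', rfl⟩
    exact ⟨e4 * u, Submodule.mem_map.mpr ⟨u, hu, rfl⟩, e6 * u',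
      Submodule.mem_map.mpr ⟨u', hu', rfl⟩, rfl⟩

namespace Setting

variable (S : Setting 𝕜 e4 e6 M)
include S

theorem Nk_le (k : ℤ) : Nk e4 e6 M k ≤ M k := by
  intro x hx
  obtain ⟨u, hu, u', hu', rfl⟩ := mem_Nk.mp hx
  exact add_mem (mem_of_eq (by ring) (S.e4_mem _ _ hu)) (mem_of_eq (by ring) (S.e6_mem _ _ hu'))

theorem e4_pow_mem (n : ℕ) {k : ℤ} {f : V} (hf : f ∈ M k) : e4 ^ n * f ∈ M (k + 4 * n) := by
  induction n with
  | zero => simpa using hf
  | succ n ih =>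
    have := S.e4_mem _ _ ih
    rw [pow_succ, mul_comm (e4 ^ n) e4, mul_assoc]
    exact mem_of_eq (by push_cast; ring) this

theorem e6_pow_mem (n : ℕ) {k : ℤ} {f : V} (hf : f ∈ M k) : e6 ^ n * f ∈ M (k + 6 * n) := by
  induction n with
  | zero => simpa using hf
  | succ n ih =>
    have := S.e6_mem _ _ ih
    rw [pow_succ, mul_comm (e6 ^ n) e6, mul_assoc]
    exact mem_of_eq (by push_cast; ring) this

theorem Rmon_mul_mem {w k : ℤ} {c f : V} (hc : c ∈ Rmon 𝕜 e4 e6 w) (hf : f ∈ M k) :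
    c * f ∈ M (w + k) := by
  induction hc using Submodule.span_induction with
  | mem x hx =>
    obtain ⟨a, b, h, rfl⟩ := hx
    have h1 := S.e4_pow_mem a (S.e6_pow_mem b hf)
    rw [mul_assoc]
    exact mem_of_eq (by rw [← h]; ring) h1
  | zero => simp
  | add x y _ _ hx hy => rw [add_mul]; exact add_mem hx hy
  | smul r x _ hx => rw [smul_mul_assoc]; exact Submodule.smul_mem _ r hx

/-- Iterated regularity. -/
theorem peel : ∀ (b : ℕ) (a : ℤ) (g h : V), g ∈ M a → h ∈ M (a + 6 * b - 4) →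
    e6 ^ b * g = e4 * h → ∃ u ∈ M (a - 4), g = e4 * u := by
  intro b
  induction b with
  | zero =>
    intro a g h _ hh heq
    refine ⟨h, mem_of_eq (by push_cast; ring) hh, ?_⟩
    simpa using heq
  | succ b ih =>
    intro a g h hg hh heq
    have hg' : e6 ^ b * g ∈ M (a + 6 * b) := S.e6_pow_mem b hg
    have hh' : h ∈ M (a + 6 * b + 2) := mem_of_eq (by push_cast; ring) hh
    have heq' : e6 * (e6 ^ b * g) = e4 * h := by rw [← heq]; ring
    obtain ⟨u', hu', hu'eq⟩ := S.regular _ _ _ hg' hh' heq'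
    exact ih a g u' hg hu' hu'eq

end Setting


/-- A homogeneous family `F` (weights `κ`) whose weight-`k` members span `M k` modulo the
decomposable part `Nk k` and are independent modulo it. -/
structure IsGradedBasis (𝕜 : Type v) [Field 𝕜] {V : Type u} [CommRing V] [Algebra 𝕜 V]
    (e4 e6 : V) (M : ℤ → Submodule 𝕜 V) {ι : Type u} (κ : ι → ℕ) (F : ι → V) : Prop where
  mem : ∀ j, F j ∈ M (κ j)
  span : ∀ k : ℕ, M k ≤ Nk e4 e6 M k ⊔ Submodule.span 𝕜 (F '' {j | κ j = k})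
  indep : ∀ (k : ℕ) (t : Finset ι) (γ : ι → 𝕜), (∀ j ∈ t, κ j = k) →
    ∑ j ∈ t, γ j • F j ∈ Nk e4 e6 M k → ∀ j ∈ t, γ j = 0

theorem Setting.exists_gradedBasis (S : Setting 𝕜 e4 e6 M) :
    ∃ (ι : Type u) (κ : ι → ℕ) (F : ι → V), IsGradedBasis 𝕜 e4 e6 M κ F := by
  choose I b h1 h2 h3 using fun k : ℕ =>
    exists_compl_basis_aux (M (k : ℤ)) (Nk e4 e6 M (k : ℤ)) (S.Nk_le k)
  refine ⟨Σ k : ℕ, I k, fun j => j.1, fun j => b j.1 j.2, fun j => h1 j.1 j.2, ?_, ?_⟩
  · intro k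
    refine (h2 k).trans (sup_le_sup_left (Submodule.span_mono ?_) _)
    rintro _ ⟨i, rfl⟩
    exact ⟨⟨k, i⟩, rfl, rfl⟩
  · intro k t γ ht hsum
    have hinj : Set.InjOn (Sigma.mk k : I k → Σ k : ℕ, I k) (Sigma.mk k ⁻¹' ↑t) :=
      sigma_mk_injective.injOn
    have hpre : ∑ i ∈ t.preimage (Sigma.mk k) hinj, γ ⟨k, i⟩ • b k i
        = ∑ j ∈ t, γ j • b j.1 j.2 := by
      refine Finset.sum_preimage (Sigma.mk k) t hinj (fun j => γ j • b j.1 j.2) ?_
      rintro ⟨k', i⟩ hj hnot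
      have hk : k' = k := ht _ hj
      subst hk
      exact absurd ⟨i, rfl⟩ hnot
    rw [← hpre] at hsum
    have := h3 k (t.preimage (Sigma.mk k) hinj) (fun i => γ ⟨k, i⟩) hsum
    rintro ⟨k', i⟩ hj
    have hk : k' = k := ht _ hj
    subst hk
    exact this i (Finset.mem_preimage.mpr hj)

section Rep

variable {ι : Type u} {κ : ι → ℕ} {F : ι → V}

/-- `f` is a combination of the `F j` with coefficients in the monomial spans. -/
def Rep (𝕜 : Type v) [Field 𝕜] {V : Type u} [CommRing V] [Algebra 𝕜 V] (e4 e6 : V)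
    {ι : Type u} (κ : ι → ℕ) (F : ι → V) (k : ℤ) (f : V) : Prop :=
  ∃ c : ι →₀ V, (∀ j, c j ∈ Rmon 𝕜 e4 e6 (k - κ j)) ∧ f = c.sum fun j x => x * F j

theorem rep_zero (k : ℤ) : Rep 𝕜 e4 e6 κ F k 0 :=
  ⟨0, fun j => by simp, by simp⟩

theorem rep_add {k : ℤ} {f g : V} (hf : Rep 𝕜 e4 e6 κ F k f) (hg : Rep 𝕜 e4 e6 κ F k g) :
    Rep 𝕜 e4 e6 κ F k (f + g) := by
  obtain ⟨c1, h1, rfl⟩ := hf
  obtain ⟨c2, h2, rfl⟩ := hg
  refine ⟨c1 + c2, fun j => by rw [Finsupp.add_apply]; exact add_mem (h1 j) (h2 j), ?_⟩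
  rw [Finsupp.sum_add_index' (fun j => zero_mul _) (fun j x y => add_mul _ _ _)]

theorem rep_smul {k : ℤ} {f : V} (r : 𝕜) (hf : Rep 𝕜 e4 e6 κ F k f) :
    Rep 𝕜 e4 e6 κ F k (r • f) := by
  obtain ⟨c, h, rfl⟩ := hf
  refine ⟨c.mapRange (fun x => r • x) (smul_zero r), fun j => ?_, ?_⟩
  · rw [Finsupp.mapRange_apply]; exact Submodule.smul_mem _ r (h j)
  · rw [Finsupp.sum_mapRange_index (fun j => zero_mul _), Finsupp.smul_sum]
    simp only [smul_mul_assoc]

theorem rep_e4 {k : ℤ} {f : V} (hf : Rep 𝕜 e4 e6 κ F (k - 4) f) :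
    Rep 𝕜 e4 e6 κ F k (e4 * f) := by
  obtain ⟨c, h, rfl⟩ := hf
  refine ⟨c.mapRange (fun x => e4 * x) (mul_zero e4), fun j => ?_, ?_⟩
  · rw [Finsupp.mapRange_apply]
    have := e4_mul_mem_Rmon (h j)
    rwa [show k - 4 - (κ j : ℤ) + 4 = k - κ j by ring] at this
  · rw [Finsupp.sum_mapRange_index (fun j => zero_mul _), Finsupp.mul_sum]
    simp only [mul_assoc]

theorem rep_e6 {k : ℤ} {f : V} (hf : Rep 𝕜 e4 e6 κ F (k - 6) f) :
    Rep 𝕜 e4 e6 κ F k (e6 * f) := by
  obtain ⟨c, h, rfl⟩ := hf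
  refine ⟨c.mapRange (fun x => e6 * x) (mul_zero e6), fun j => ?_, ?_⟩
  · rw [Finsupp.mapRange_apply]
    have := e6_mul_mem_Rmon (h j)
    rwa [show k - 6 - (κ j : ℤ) + 6 = k - κ j by ring] at this
  · rw [Finsupp.sum_mapRange_index (fun j => zero_mul _), Finsupp.mul_sum]
    simp only [mul_assoc]

theorem rep_gen (j : ι) : Rep 𝕜 e4 e6 κ F (κ j) (F j) := by
  classical
  refine ⟨Finsupp.single j 1, fun j' => ?_, ?_⟩
  · rw [Finsupp.single_apply]
    split_ifs with h
    · subst h; rw [sub_self]; exact one_mem_Rmon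
    · exact zero_mem _
  · rw [Finsupp.sum_single_index (zero_mul _), one_mul]

theorem IsGradedBasis.rep (S : Setting 𝕜 e4 e6 M) (hB : IsGradedBasis 𝕜 e4 e6 M κ F) :
    ∀ (n : ℕ) (k : ℤ), k < n → ∀ f ∈ M k, Rep 𝕜 e4 e6 κ F k f := by
  intro n
  induction n with
  | zero =>
    intro k hk f hf
    rw [S.neg k (by simpa using hk)] at hf
    rw [(Submodule.mem_bot _).mp hf]
    exact rep_zero k
  | succ n ih =>
    intro k hk f hf
    by_cases hk0 : k < 0
    · rw [S.neg k hk0] at hf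
      rw [(Submodule.mem_bot _).mp hf]
      exact rep_zero k
    · lift k to ℕ using not_lt.mp hk0
      have hspan : ∀ y ∈ Submodule.span 𝕜 (F '' {j | κ j = k}), Rep 𝕜 e4 e6 κ F k y := by
        intro y hy
        induction hy using Submodule.span_induction with
        | mem z hz =>
          obtain ⟨j, hj, rfl⟩ := hz
          have hj' : κ j = k := hj
          have := rep_gen (𝕜 := 𝕜) (e4 := e4) (e6 := e6) (κ := κ) (F := F) j
          rwa [hj'] at this
        | zero => exact rep_zero _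
        | add z w _ _ hz hw => exact rep_add hz hw
        | smul r z _ hz => exact rep_smul r hz
      obtain ⟨x, hx, y, hy, rfl⟩ := Submodule.mem_sup.mp (hB.span k hf)
      refine rep_add ?_ (hspan y hy)
      obtain ⟨u, hu, u', hu', rfl⟩ := mem_Nk.mp hx
      refine rep_add (rep_e4 (ih _ ?_ u hu)) (rep_e6 (ih _ ?_ u' hu'))
      · push_cast at hk ⊢; omega
      · push_cast at hk ⊢; omega

end Rep


section Indep

variable {ι : Type u} {κ : ι → ℕ} {F : ι → V}

theorem IsGradedBasis.indep_aux (S : Setting 𝕜 e4 e6 M) (hB : IsGradedBasis 𝕜 e4 e6 M κ F) :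
    ∀ (n : ℕ) (k : ℤ), k < n → ∀ (s : Finset ι) (c : ι → V),
      (∀ j, c j ∈ Rmon 𝕜 e4 e6 (k - κ j)) → ∑ j ∈ s, c j * F j = 0 → ∀ j ∈ s, c j = 0 := by
  classical
  intro n
  induction n with
  | zero =>
    intro k hk s c hc _ j _
    have hneg : k - (κ j : ℤ) < 0 := by
      have : k < 0 := by simpa using hk
      have : (0 : ℤ) ≤ κ j := Int.natCast_nonneg _
      omega
    have := hc j
    rw [Rmon_neg hneg] at this
    exact (Submodule.mem_bot _).mp this
  | succ n ih =>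
    intro k hk s c hc hsum
    choose a ha γ hγ hceq using fun j => Rmon_decomp (hc j)
    set β : ι → ℕ := fun j => (k - (κ j : ℤ)).toNat / 6 with hβ
    -- all the `e6`-pure parts vanish
    have hγ0 : ∀ j ∈ s, γ j = 0 := by
      by_contra hcon
      push Not at hcon
      obtain ⟨j1, hj1s, hj1γ⟩ := hcon
      set s' : Finset ι := s.filter fun j => γ j ≠ 0 with hs'
      have hne : s'.Nonempty := ⟨j1, Finset.mem_filter.mpr ⟨hj1s, hj1γ⟩⟩
      obtain ⟨j0, hj0, hmin⟩ := Finset.exists_min_image s' β hne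
      set b : ℕ := β j0 with hb
      have hβeq : ∀ j ∈ s', 6 * (β j : ℤ) = k - κ j := by
        intro j hj
        rcases hγ j with h | h
        · exact absurd h (Finset.mem_filter.mp hj).2
        · exact h
      have hble : ∀ j ∈ s', b ≤ β j := hmin
      -- the two sides
      set g : V := ∑ j ∈ s', γ j • (e6 ^ (β j - b) * F j) with hg
      set h : V := -∑ j ∈ s, a j * F j with hh
      have hgM : g ∈ M (k - 6 * b) := by
        refine Submodule.sum_mem _ fun j hj => Submodule.smul_mem _ _ ?_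
        have h1 := S.e6_pow_mem (β j - b) (hB.mem j)
        refine mem_of_eq ?_ h1
        have h2 : ((β j - b : ℕ) : ℤ) = (β j : ℤ) - b := Nat.cast_sub (hble j hj)
        have h3 := hβeq j hj
        rw [h2]; linarith
      have hhM : h ∈ M (k - 6 * b + 6 * b - 4) := by
        refine Submodule.neg_mem _ (Submodule.sum_mem _ fun j _ => ?_)
        have h1 := S.Rmon_mul_mem (ha j) (hB.mem j)
        exact mem_of_eq (by ring) h1
      have hsplit : e4 * ∑ j ∈ s, a j * F j + ∑ j ∈ s', γ j • (e6 ^ β j * F j) = 0 := by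
        have h1 : ∑ j ∈ s', γ j • (e6 ^ β j * F j) = ∑ j ∈ s, γ j • (e6 ^ β j * F j) := by
          refine Finset.sum_filter_of_ne fun j _ hj0 hγj => hj0 ?_
          rw [hγj, zero_smul]
        rw [h1, Finset.mul_sum, ← Finset.sum_add_distrib, ← hsum]
        refine Finset.sum_congr rfl fun j _ => ?_
        rw [hceq j, add_mul, mul_assoc, smul_mul_assoc]
      have heq : e6 ^ b * g = e4 * h := by
        have h1 : e6 ^ b * g = ∑ j ∈ s', γ j • (e6 ^ β j * F j) := by
          rw [hg, Finset.mul_sum]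
          refine Finset.sum_congr rfl fun j hj => ?_
          have h2 : β j = b + (β j - b) := by have := hble j hj; omega
          rw [mul_smul_comm, ← mul_assoc, ← pow_add, ← h2]
        rw [h1, hh, mul_neg]
        exact eq_neg_of_add_eq_zero_right hsplit
      obtain ⟨u, hu, hgu⟩ := S.peel b (k - 6 * b) g h hgM hhM heq
      -- split off the minimal layer
      set s'' : Finset ι := s'.filter fun j => β j = b with hs''
      set u' : V := ∑ j ∈ s'.filter (fun j => ¬ β j = b), γ j • (e6 ^ (β j - b - 1) * F j) with hu'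
      have hu'M : u' ∈ M (k - 6 * b - 6) := by
        refine Submodule.sum_mem _ fun j hj => Submodule.smul_mem _ _ ?_
        obtain ⟨hjs', hjb⟩ := Finset.mem_filter.mp hj
        have hlt : b < β j := lt_of_le_of_ne (hble j hjs') (Ne.symm hjb)
        have h1 := S.e6_pow_mem (β j - b - 1) (hB.mem j)
        refine mem_of_eq ?_ h1
        have h2 : ((β j - b - 1 : ℕ) : ℤ) = (β j : ℤ) - b - 1 := by omega
        have h3 := hβeq j hjs'
        rw [h2]; linarith
      have hgsplit : g = ∑ j ∈ s'', γ j • F j + e6 * u' := by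
        rw [hg, ← Finset.sum_filter_add_sum_filter_not s' (fun j => β j = b)]
        congr 1
        · refine Finset.sum_congr rfl fun j hj => ?_
          have : β j = b := (Finset.mem_filter.mp hj).2
          rw [this, Nat.sub_self, pow_zero, one_mul]
        · rw [hu', Finset.mul_sum]
          refine Finset.sum_congr rfl fun j hj => ?_
          obtain ⟨hjs', hjb⟩ := Finset.mem_filter.mp hj
          have hlt : b < β j := lt_of_le_of_ne (hble j hjs') (Ne.symm hjb)
          have h2 : β j - b = (β j - b - 1) + 1 := by omega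
          rw [mul_smul_comm, ← mul_assoc, ← pow_succ', ← h2]
      have hk0 : ((κ j0 : ℕ) : ℤ) = k - 6 * b := by
        have := hβeq j0 hj0
        rw [hb]; linarith
      have hlayer : ∑ j ∈ s'', γ j • F j ∈ Nk e4 e6 M (κ j0 : ℤ) := by
        rw [mem_Nk]
        refine ⟨u, mem_of_eq (by rw [hk0]) hu, -u', Submodule.neg_mem _ (mem_of_eq (by rw [hk0]) hu'M), ?_⟩
        have : ∑ j ∈ s'', γ j • F j = g - e6 * u' := by rw [hgsplit]; ring
        rw [this, hgu]; ring
      have hκ : ∀ j ∈ s'', κ j = κ j0 := by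
        intro j hj
        obtain ⟨hjs', hjb⟩ := Finset.mem_filter.mp hj
        have h1 := hβeq j hjs'
        have h2 := hβeq j0 hj0
        rw [hjb] at h1
        have : ((κ j : ℕ) : ℤ) = κ j0 := by rw [← hb] at h2; linarith
        exact_mod_cast this
      have := hB.indep (κ j0) s'' γ hκ hlayer j0 (Finset.mem_filter.mpr ⟨hj0, rfl⟩)
      exact (Finset.mem_filter.mp hj0).2 this
    -- now cancel `e4`
    have hc' : ∀ j ∈ s, c j = e4 * a j := by
      intro j hj
      rw [hceq j, hγ0 j hj, zero_smul, add_zero]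
    have hsum' : e4 * ∑ j ∈ s, a j * F j = 0 := by
      rw [Finset.mul_sum, ← hsum]
      refine Finset.sum_congr rfl fun j hj => ?_
      rw [hc' j hj, mul_assoc]
    have hmem : ∑ j ∈ s, a j * F j ∈ M (k - 4) := by
      refine Submodule.sum_mem _ fun j _ => ?_
      exact mem_of_eq (by ring) (S.Rmon_mul_mem (ha j) (hB.mem j))
    have hzero := S.e4_inj _ _ hmem hsum'
    have ha' : ∀ j, a j ∈ Rmon 𝕜 e4 e6 (k - 4 - κ j) := by
      intro j
      have := ha j
      rwa [show k - (κ j : ℤ) - 4 = k - 4 - κ j by ring] at this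
    have hk' : k - 4 < n := by push_cast at hk; omega
    have haz := ih (k - 4) hk' s a ha' hzero
    intro j hj
    rw [hc' j hj, haz j hj, mul_zero]

end Indep

/-- **Graded Nakayama by hand**: existence of a homogeneous family which generates `M` over the
monomial spans and is independent over them. -/
theorem Setting.exists_basis (S : Setting 𝕜 e4 e6 M) :
    ∃ (ι : Type u) (κ : ι → ℕ) (F : ι → V), (∀ j, F j ∈ M (κ j)) ∧
      (∀ (k : ℤ) (f : V), f ∈ M k → ∃ (s : Finset ι) (c : ι → V),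
        (∀ j, c j ∈ Rmon 𝕜 e4 e6 (k - κ j)) ∧ f = ∑ j ∈ s, c j * F j) ∧
      (∀ (k : ℤ) (s : Finset ι) (c : ι → V), (∀ j ∈ s, c j ∈ Rmon 𝕜 e4 e6 (k - κ j)) →
        ∑ j ∈ s, c j * F j = 0 → ∀ j ∈ s, c j = 0) := by
  classical
  obtain ⟨ι, κ, F, hB⟩ := S.exists_gradedBasis
  refine ⟨ι, κ, F, hB.mem, ?_, ?_⟩
  · intro k f hf
    obtain ⟨c, hc, rfl⟩ := hB.rep S (k.toNat + 1) k (by push_cast; omega) f hf
    exact ⟨c.support, c, hc, rfl⟩
  · intro k s c hc hsum j hj
    have h1 : ∀ j, (if j ∈ s then c j else 0) ∈ Rmon 𝕜 e4 e6 (k - κ j) := by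
      intro j
      split_ifs with h
      · exact hc j h
      · exact zero_mem _
    have h2 : ∑ j ∈ s, (if j ∈ s then c j else 0) * F j = 0 := by
      rw [← hsum]
      exact Finset.sum_congr rfl fun j hj => by rw [if_pos hj]
    have := hB.indep_aux S (k.toNat + 1) k (by push_cast; omega) s _ h1 h2 j hj
    rwa [if_pos hj] at this

end Fermat.Agent.S20.FreeAbstract
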