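import Fermat.Agent.S20.IsMF
import Fermat.Agent.S20.FreeAbstract
import Fermat.Agent.S20.Divide

/-!
# S20 (PROJECT G), slice [C]: `M_*(Γ₀(N))` has a homogeneous basis over `ℂ[E₄, E₆]`

Instantiation of the abstract graded Nakayama lemma (`FreeAbstract`) with the spaces of modular
forms for `Γ₀(N)` (as functions on `ℍ`), `e4 = E₄`, `e6 = E₆`.  Regularity is slice [B]
(`Divide.regular`).  The only open input is A1 (`every level one form is a polynomial in
E₄, E₆`), taken as a hypothesis in `exists_basis_of`.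
-/

set_option autoImplicit false

noncomputable section

namespace Fermat.Agent.S20.Free

open UpperHalfPlane ModularForm CongruenceSubgroup Filter Topology
open scoped ModularForm Manifold MatrixGroups
open Fermat.Agent.S20 Fermat.Agent.S20.FreeAbstract

variable {N : ℕ} [NeZero N]

/-- The functions on `ℍ` which are modular forms of weight `k` for `Γ₀(N)`. -/
def Msub (N : ℕ) [NeZero N] (k : ℤ) : Submodule ℂ (ℍ → ℂ) where
  carrier := {f | IsMF (G0 N) k f}
  add_mem' := fun hf hg => IsMF.add hf hg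
  zero_mem' := IsMF.zero
  smul_mem' := fun c _ hf => IsMF.smul c hf

theorem mem_Msub {k : ℤ} {f : ℍ → ℂ} : f ∈ Msub N k ↔ IsMF (G0 N) k f := Iff.rfl

theorem exists_E₄_ne_zero : ∃ τ₀ : ℍ, E₄ τ₀ ≠ 0 :=
  (Divide.eventually_ne_zero_of_tendsto one_ne_zero Divide.tendsto_E₄).exists

/-- The abstract setting holds for modular forms on `Γ₀(N)`. -/
theorem setting (N : ℕ) [NeZero N] :
    Setting ℂ (⇑E₄ : ℍ → ℂ) (⇑E₆ : ℍ → ℂ) (Msub N) where
  neg := by
    intro k hk
    rw [eq_bot_iff]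
    rintro f ⟨F, rfl⟩
    rw [ModularForm.isZero_of_neg_weight hk F]
    exact zero_mem _
  e4_mem := by
    intro k f hf
    exact (((IsMF.coe E₄).ofLevelOne (N := N)).mul (mem_Msub.mp hf)).cast (by ring)
  e6_mem := by
    intro k f hf
    exact (((IsMF.coe E₆).ofLevelOne (N := N)).mul (mem_Msub.mp hf)).cast (by ring)
  e4_inj := by
    rintro k f ⟨F, rfl⟩ h0
    obtain ⟨τ₀, hτ₀⟩ := exists_E₄_ne_zero
    refine Fermat.Agent.S23.Removable.eq_of_mul_eq_mul (D := ⇑E₄) F.holo'.continuous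
      continuous_const E₄.holo' hτ₀ fun τ => ?_
    have := congrFun h0 τ
    simp only [Pi.mul_apply, Pi.zero_apply] at this
    rw [mul_comm, this]
    simp
  regular := by
    rintro a g h ⟨G, rfl⟩ ⟨H, rfl⟩ heq
    obtain ⟨u, hu⟩ := Divide.regular G H fun τ => by
      have := congrFun heq τ
      simpa only [Pi.mul_apply] using this
    exact ⟨⇑u, IsMF.coe u, funext fun τ => by simpa only [Pi.mul_apply] using hu τ⟩

/-- Elements of the monomial spans are level one forms. -/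
theorem isMF_of_mem_Rmon {w : ℤ} {c : ℍ → ℂ}
    (hc : c ∈ Rmon ℂ (⇑E₄ : ℍ → ℂ) (⇑E₆ : ℍ → ℂ) w) : IsMF 𝒮ℒ w c := by
  induction hc using Submodule.span_induction with
  | mem x hx =>
    obtain ⟨a, b, h, rfl⟩ := hx
    exact (((IsMF.coe E₄).pow a).mul ((IsMF.coe E₆).pow b)).cast (by rw [← h]; ring)
  | zero => exact IsMF.zero
  | add x y _ _ hx hy => exact hx.add hy
  | smul r x _ hx => exact hx.smul r

/-- The shape of A1: every level one form is a polynomial in `E₄, E₆`. -/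
def A1 : Prop :=
  ∀ (k : ℤ) (f : ModularForm 𝒮ℒ k), ∃ c : ℕ × ℕ →₀ ℂ,
    (∀ p ∈ c.support, (4 * p.1 + 6 * p.2 : ℤ) = k) ∧
      ∀ τ, f τ = c.sum fun p a => a * E₄ τ ^ p.1 * E₆ τ ^ p.2

theorem mem_Rmon_of_A1 (hA1 : A1) {w : ℤ} (c : ModularForm 𝒮ℒ w) :
    (⇑c : ℍ → ℂ) ∈ Rmon ℂ (⇑E₄ : ℍ → ℂ) (⇑E₆ : ℍ → ℂ) w := by
  obtain ⟨m, hm, hc⟩ := hA1 w c
  have : (⇑c : ℍ → ℂ) = ∑ p ∈ m.support, m p • ((⇑E₄ : ℍ → ℂ) ^ p.1 * (⇑E₆ : ℍ → ℂ) ^ p.2) := by
    funext τ
    rw [hc τ, Finsupp.sum, Finset.sum_apply]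
    refine Finset.sum_congr rfl fun p _ => ?_
    simp only [Pi.smul_apply, Pi.mul_apply, Pi.pow_apply, smul_eq_mul, mul_assoc]
  rw [this]
  exact Submodule.sum_mem _ fun p hp =>
    Submodule.smul_mem _ _ (monomial_mem_Rmon' p.1 p.2 (hm p hp))

/-- **Slice [C]** (with A1 as a hypothesis): `M_*(Γ₀(N))` has a homogeneous family which generates
it over level one and is independent over level one. -/
theorem exists_basis_of (hA1 : A1) (N : ℕ) [NeZero N] :
    ∃ (ι : Type) (κ : ι → ℕ) (F : (j : ι) → ModularForm (G0 N) (κ j)),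
      (∀ (k : ℤ) (f : ModularForm (G0 N) k), ∃ (s : Finset ι)
        (c : (j : ι) → ModularForm 𝒮ℒ (k - κ j)), ∀ τ, f τ = ∑ j ∈ s, c j τ * F j τ) ∧
      ∀ (k : ℤ) (s : Finset ι) (c : (j : ι) → ModularForm 𝒮ℒ (k - κ j)),
        (∀ τ, ∑ j ∈ s, c j τ * F j τ = 0) → ∀ j ∈ s, c j = 0 := by
  obtain ⟨ι, κ, F', hF', hgen, hind⟩ := (setting N).exists_basis
  choose F hF using hF'
  refine ⟨ι, κ, F, ?_, ?_⟩
  · intro k f
    obtain ⟨s, c', hc', hf⟩ := hgen k ⇑f (IsMF.coe f)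
    choose c hc using fun j => isMF_of_mem_Rmon (hc' j)
    refine ⟨s, c, fun τ => ?_⟩
    have := congrFun hf τ
    rw [this, Finset.sum_apply]
    refine Finset.sum_congr rfl fun j _ => ?_
    rw [Pi.mul_apply, hc j, hF j]
  · intro k s c hsum j hj
    have h0 : ∑ j ∈ s, (⇑(c j) : ℍ → ℂ) * F' j = 0 := by
      funext τ
      rw [Finset.sum_apply, Pi.zero_apply, ← hsum τ]
      refine Finset.sum_congr rfl fun j _ => ?_
      rw [Pi.mul_apply, hF j]
    have := hind k s (fun j => ⇑(c j)) (fun j _ => mem_Rmon_of_A1 hA1 (c j)) h0 j hj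
    exact DFunLike.coe_injective this

end Fermat.Agent.S20.Free
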