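import Fermat.Agent.S20.Rank
import Fermat.Agent.S20.Free
import Fermat.Agent.S20.LevelOneMono

/-!
# S20 (PROJECT G), slice [D], hypothesis-free: `Nonempty (Gens N)`

Slice [C] (`Free.exists_basis_of`) with A1 (`LevelOneMono.exists_monomials`) gives a homogeneous
basis over level one; slice [D] (`Rank.nonempty_gens_of_basis`) indexes it by the coset space.
-/

set_option autoImplicit false

namespace Fermat.Agent.S20.RankFinal

open Fermat.Agent.S20

/-- **Slice [D]**: `M_*(Γ₀(N))` has a homogeneous basis over level one indexed by the coset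
space `SL(2, ℤ) ⧸ Γ₀(N)`. -/
theorem nonempty_gens (N : ℕ) [NeZero N] : Nonempty (Gens N) :=
  Rank.nonempty_gens_of_basis
    (Free.exists_basis_of (fun _ f => LevelOneMono.exists_monomials f) N)

end Fermat.Agent.S20.RankFinal
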