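import Fermat.Agent.S20.CountOrbits

/-!
# Project R (S20/S24), slice R5: cusps as `⟨T⟩`-orbits on `SL(2,ℤ) ⧸ Γ₀(N)`

The `⟨T⟩`-orbits on `SL(2,ℤ) ⧸ Γ₀(N)` are in bijection with the classes of unimodular vectors
`(a, c)` of `(ℤ/N)²` under `(a, c) ∼ u (a + k c, c)` (`u` a unit, `k ∈ ℤ/N`).  The number of these
classes is counted elsewhere (`cuspCount N`); this file provides the bridge.
-/

set_option autoImplicit false

open CongruenceSubgroup Matrix.SpecialLinearGroup ModularGroup MulAction
open scoped MatrixGroups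

namespace Fermat.Agent.S20.Count

variable (N : ℕ)

theorem col_T_zpow_mul (n : ℤ) (g : SL(2, ℤ)) :
    col N (T ^ n * g) = ((col N g).1 + (n : ZMod N) * (col N g).2, (col N g).2) := by
  rw [col_mul]
  simp [coe_T_zpow]

/-- The relation on unimodular vectors whose classes are the cusps. -/
def CuspRel (v w : V N) : Prop :=
  ∃ (u : (ZMod N)ˣ) (k : ZMod N), w.1.1 = u * (v.1.1 + k * v.1.2) ∧ w.1.2 = u * v.1.2

variable [NeZero N]

/-- A chosen matrix with prescribed first column. -/
noncomputable def liftV (v : V N) : SL(2, ℤ) := Classical.choose (exists_col_eq N (v := v.1) v.2)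

theorem col_liftV (v : V N) : col N (liftV N v) = v.1 :=
  Classical.choose_spec (exists_col_eq N (v := v.1) v.2)

/-- The orbit of the coset attached to a unimodular vector. -/
noncomputable def orbitOfV (v : V N) : orbitRel.Quotient (Subgroup.zpowers T) (Q N) :=
  Quotient.mk'' (QuotientGroup.mk (liftV N v) : Q N)

theorem orbitOfV_eq_iff (v w : V N) : orbitOfV N v = orbitOfV N w ↔ CuspRel N v w := by
  unfold orbitOfV
  rw [Quotient.eq'', orbitRel_apply, mem_orbit_iff]
  constructor
  · rintro ⟨⟨t, ht⟩, h⟩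
    obtain ⟨n, rfl⟩ := Subgroup.mem_zpowers_iff.mp ht
    -- `T^n • ⟦g_w⟧ = ⟦g_v⟧`
    have h' : (QuotientGroup.mk (T ^ n * liftV N w) : Q N) = QuotientGroup.mk (liftV N v) := h
    rw [mk_eq_mk_iff, col_T_zpow_mul, col_liftV, col_liftV] at h'
    have hun : IsUnimod ((w.1.1 + (n : ZMod N) * w.1.2, w.1.2) : ZMod N × ZMod N) := by
      obtain ⟨x, y, hxy⟩ := w.2
      exact ⟨x, y - x * (n : ZMod N), by simp only; linear_combination hxy⟩
    obtain ⟨u, hu⟩ := (cross_eq_zero_iff hun v.2).mp h'
    -- `v = u • (w + n w₂ e₁)`, so `w = u⁻¹ • (v - n u w₂ ...)`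
    have hu1 : v.1.1 = (u : ZMod N) * (w.1.1 + (n : ZMod N) * w.1.2) := congrArg Prod.fst hu
    have hu2 : v.1.2 = (u : ZMod N) * w.1.2 := congrArg Prod.snd hu
    have hinv : ((u⁻¹ : (ZMod N)ˣ) : ZMod N) * (u : ZMod N) = 1 := by
      rw [← Units.val_mul, inv_mul_cancel, Units.val_one]
    refine ⟨u⁻¹, -(n : ZMod N), ?_, ?_⟩
    · rw [hu1, hu2]
      linear_combination (-w.1.1) * hinv
    · rw [hu2]
      linear_combination (-w.1.2) * hinv
  · rintro ⟨u, k, h1, h2⟩
    refine ⟨⟨T ^ (-(k.val : ℤ)), Subgroup.zpow_mem_zpowers T _⟩, ?_⟩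
    show (QuotientGroup.mk (T ^ (-(k.val : ℤ)) * liftV N w) : Q N) = QuotientGroup.mk (liftV N v)
    rw [mk_eq_mk_iff, col_T_zpow_mul, col_liftV, col_liftV]
    simp only [cross]
    have hk : ((-(k.val : ℤ) : ℤ) : ZMod N) = -k := by
      push_cast
      rw [ZMod.natCast_zmod_val]
    rw [hk, h1, h2]
    ring

theorem orbitOfV_surjective : Function.Surjective (orbitOfV N) := by
  intro o
  induction o using Quotient.inductionOn' with
  | h q =>
    induction q using QuotientGroup.induction_on with
    | H g =>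
      refine ⟨⟨col N g, col_isUnimod N g⟩, ?_⟩
      unfold orbitOfV
      congr 1
      rw [mk_eq_mk_iff, col_liftV]
      simp only [cross]
      ring

/-- **Bridge**: the number of `⟨T⟩`-orbits on `SL(2,ℤ) ⧸ Γ₀(N)` equals the number of classes of
any setoid on unimodular vectors whose relation is `CuspRel`. -/
theorem card_orbits_T_eq (s : Setoid (V N)) (hs : ∀ v w, s.r v w ↔ CuspRel N v w) :
    Nat.card (orbitRel.Quotient (Subgroup.zpowers T) (Q N)) = Nat.card (Quotient s) := by
  symm
  refine Nat.card_congr (Equiv.ofBijective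
    (Quotient.lift (orbitOfV N) fun v w h => (orbitOfV_eq_iff N v w).mpr ((hs v w).mp h)) ⟨?_, ?_⟩)
  · intro a b
    induction a using Quotient.inductionOn with
    | h v =>
      induction b using Quotient.inductionOn with
      | h w =>
        intro h
        exact Quotient.sound ((hs v w).mpr ((orbitOfV_eq_iff N v w).mp h))
  · intro o
    obtain ⟨v, hv⟩ := orbitOfV_surjective N o
    exact ⟨Quotient.mk s v, hv⟩

/-- Conjugates of `T` have the same number of orbits. -/
theorem card_orbits_conj {G X : Type*} [Group G] [MulAction G X] (g t : G) :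
    Nat.card (orbitRel.Quotient (Subgroup.zpowers (g * t * g⁻¹)) X) =
      Nat.card (orbitRel.Quotient (Subgroup.zpowers t) X) := by
  have key : ∀ x y : X, orbitRel (Subgroup.zpowers (g * t * g⁻¹)) X x y ↔
      orbitRel (Subgroup.zpowers t) X (g⁻¹ • x) (g⁻¹ • y) := by
    intro x y
    simp only [orbitRel_apply, mem_orbit_iff]
    constructor
    · rintro ⟨⟨a, ha⟩, h⟩
      obtain ⟨n, rfl⟩ := Subgroup.mem_zpowers_iff.mp ha
      refine ⟨⟨t ^ n, Subgroup.zpow_mem_zpowers t n⟩, ?_⟩
      have h' : (g * t * g⁻¹) ^ n • y = x := h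
      show t ^ n • g⁻¹ • y = g⁻¹ • x
      rw [← h', conj_zpow]
      simp [mul_smul]
    · rintro ⟨⟨a, ha⟩, h⟩
      obtain ⟨n, rfl⟩ := Subgroup.mem_zpowers_iff.mp ha
      refine ⟨⟨(g * t * g⁻¹) ^ n, Subgroup.zpow_mem_zpowers _ n⟩, ?_⟩
      have h' : t ^ n • g⁻¹ • y = g⁻¹ • x := h
      show (g * t * g⁻¹) ^ n • y = x
      rw [conj_zpow, mul_smul, mul_smul, h']
      simp
  refine Nat.card_congr
    { toFun := Quotient.map' (fun x => g⁻¹ • x) fun x y h => (key x y).mp h
      invFun := Quotient.map' (fun x => g • x) fun x y h => by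
        have := (key (g • x) (g • y)).mpr (by simpa using h)
        exact this
      left_inv := fun o => by
        induction o using Quotient.inductionOn' with
        | h x => simp [Quotient.map'_mk'']
      right_inv := fun o => by
        induction o using Quotient.inductionOn' with
        | h x => simp [Quotient.map'_mk''] }

end Fermat.Agent.S20.Count
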