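import Fermat.Agent.S20.CountModel

/-!
# Project R (S20/S24), slice R5: fixed points of `S` and `S T` on `SL(2,ℤ) ⧸ Γ₀(N)`

* `fixed_S_iff`, `fixed_ST_iff`: fixed cosets in terms of the first column;
* `card_fixedBy_S : Nat.card (fixedBy (SL(2,ℤ) ⧸ Γ₀(N)) S) = nuTwo N`;
* `card_fixedBy_ST : Nat.card (fixedBy (SL(2,ℤ) ⧸ Γ₀(N)) (S * T)) = nuThree N`;
* invariance under conjugation and inversion, triviality of the action of `-1`.
-/

set_option autoImplicit false

open CongruenceSubgroup Matrix.SpecialLinearGroup ModularGroup MulAction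
open scoped MatrixGroups

namespace Fermat.Agent.S20.Count

variable (N : ℕ)

/-- The coset space `SL(2,ℤ) ⧸ Γ₀(N)`. -/
abbrev Q : Type := SL(2, ℤ) ⧸ Gamma0 N

theorem mk_eq_mk_iff (g g' : SL(2, ℤ)) :
    (QuotientGroup.mk g : Q N) = QuotientGroup.mk g' ↔ cross (col N g) (col N g') = 0 := by
  rw [QuotientGroup.eq, inv_mul_mem_Gamma0_iff]

theorem smul_mk (h g : SL(2, ℤ)) : h • (QuotientGroup.mk g : Q N) = QuotientGroup.mk (h * g) :=
  rfl

theorem col_S_mul (g : SL(2, ℤ)) : col N (S * g) = (-(col N g).2, (col N g).1) := by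
  rw [col_mul]
  simp [coe_S]

theorem col_ST_mul (g : SL(2, ℤ)) :
    col N (S * T * g) = (-(col N g).2, (col N g).1 + (col N g).2) := by
  rw [col_mul]
  simp [coe_S, coe_T, Matrix.mul_apply, Fin.sum_univ_two]

theorem col_T_mul (g : SL(2, ℤ)) : col N (T * g) = ((col N g).1 + (col N g).2, (col N g).2) := by
  rw [col_mul]
  simp [coe_T]

/-- A coset is fixed by `S` iff its first column `(a, c)` satisfies `a² + c² = 0`. -/
theorem fixed_S_iff (g : SL(2, ℤ)) :
    S • (QuotientGroup.mk g : Q N) = QuotientGroup.mk g ↔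
      (col N g).1 ^ 2 + (col N g).2 ^ 2 = 0 := by
  rw [smul_mk, mk_eq_mk_iff, col_S_mul]
  simp only [cross]
  constructor
  · intro h; linear_combination -h
  · intro h; linear_combination -h

/-- A coset is fixed by `S T` iff its first column `(a, c)` satisfies `a² + a c + c² = 0`. -/
theorem fixed_ST_iff (g : SL(2, ℤ)) :
    (S * T) • (QuotientGroup.mk g : Q N) = QuotientGroup.mk g ↔
      (col N g).1 ^ 2 + (col N g).1 * (col N g).2 + (col N g).2 ^ 2 = 0 := by
  rw [smul_mk, mk_eq_mk_iff, col_ST_mul]
  simp only [cross]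
  constructor
  · intro h; linear_combination -h
  · intro h; linear_combination -h

/-- `-1` acts trivially. -/
theorem neg_one_smul (q : Q N) : (-1 : SL(2, ℤ)) • q = q := by
  induction q using QuotientGroup.induction_on with
  | H g =>
    rw [smul_mk, mk_eq_mk_iff]
    have : col N (-1 * g) = (-(col N g).1, -(col N g).2) := by
      rw [col_mul]
      simp
    rw [this]
    simp only [cross]
    ring

theorem isUnimod_one_right (x : ZMod N) : IsUnimod ((x, 1) : ZMod N × ZMod N) :=
  ⟨0, 1, by simp⟩

section lifts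

variable [NeZero N]

/-- A chosen matrix with first column `(x, 1)` mod `N`. -/
noncomputable def liftOne (x : ZMod N) : SL(2, ℤ) :=
  Classical.choose (exists_col_eq N (isUnimod_one_right N x))

theorem col_liftOne (x : ZMod N) : col N (liftOne N x) = (x, 1) :=
  Classical.choose_spec (exists_col_eq N (isUnimod_one_right N x))

theorem mk_liftOne_injective :
    Function.Injective (fun x : ZMod N => (QuotientGroup.mk (liftOne N x) : Q N)) := by
  intro x y h
  simp only at h
  rw [mk_eq_mk_iff, col_liftOne, col_liftOne] at h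
  simp only [cross] at h
  linear_combination h

/-- A coset whose first column has invertible second entry is `⟦liftOne (a / c)⟧`. -/
theorem mk_eq_mk_liftOne (g : SL(2, ℤ)) (ci : ZMod N) (hci : (col N g).2 * ci = 1) :
    (QuotientGroup.mk g : Q N) = QuotientGroup.mk (liftOne N ((col N g).1 * ci)) := by
  rw [mk_eq_mk_iff, col_liftOne]
  simp only [cross]
  linear_combination (-(col N g).1) * hci

end lifts

/-- The fixed points of `S` correspond to the square roots of `-1` mod `N`. -/
theorem card_fixedBy_S [NeZero N] :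
    Nat.card (fixedBy (Q N) S) = ModularCurve.nuTwo N := by
  unfold ModularCurve.nuTwo
  symm
  let f : {x : ZMod N // x ^ 2 + 1 = 0} → fixedBy (Q N) S := fun x =>
    ⟨QuotientGroup.mk (liftOne N x.1), by
      rw [mem_fixedBy, fixed_S_iff, col_liftOne]
      simpa using x.2⟩
  refine Nat.card_congr (Equiv.ofBijective f ⟨?_, ?_⟩)
  · intro x y h
    have h' : (QuotientGroup.mk (liftOne N x.1) : Q N) = QuotientGroup.mk (liftOne N y.1) :=
      congrArg Subtype.val h
    exact Subtype.ext (mk_liftOne_injective N h')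
  · rintro ⟨q, hq⟩
    induction q using QuotientGroup.induction_on with
    | H g =>
      rw [mem_fixedBy, fixed_S_iff] at hq
      obtain ⟨x', y', hxy⟩ := col_isUnimod N g
      set a := (col N g).1 with ha
      set c := (col N g).2 with hc
      have hci : c * (-x' ^ 2 * c + 2 * x' * y' * a + y' ^ 2 * c) = 1 := by
        linear_combination (x' * a + y' * c + 1) * hxy - x' ^ 2 * hq
      refine ⟨⟨a * (-x' ^ 2 * c + 2 * x' * y' * a + y' ^ 2 * c), ?_⟩, ?_⟩
      · linear_combination (-x' ^ 2 * c + 2 * x' * y' * a + y' ^ 2 * c) ^ 2 * hq +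
          (c * (-x' ^ 2 * c + 2 * x' * y' * a + y' ^ 2 * c) + 1) * (-1) * hci
      · apply Subtype.ext
        exact (mk_eq_mk_liftOne N g _ hci).symm

/-- The fixed points of `S T` correspond to the primitive cube roots of unity mod `N`. -/
theorem card_fixedBy_ST [NeZero N] :
    Nat.card (fixedBy (Q N) (S * T)) = ModularCurve.nuThree N := by
  unfold ModularCurve.nuThree
  symm
  let f : {x : ZMod N // x ^ 2 + x + 1 = 0} → fixedBy (Q N) (S * T) := fun x =>
    ⟨QuotientGroup.mk (liftOne N x.1), by
      rw [mem_fixedBy, fixed_ST_iff, col_liftOne]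
      simpa using x.2⟩
  refine Nat.card_congr (Equiv.ofBijective f ⟨?_, ?_⟩)
  · intro x y h
    have h' : (QuotientGroup.mk (liftOne N x.1) : Q N) = QuotientGroup.mk (liftOne N y.1) :=
      congrArg Subtype.val h
    exact Subtype.ext (mk_liftOne_injective N h')
  · rintro ⟨q, hq⟩
    induction q using QuotientGroup.induction_on with
    | H g =>
      rw [mem_fixedBy, fixed_ST_iff] at hq
      obtain ⟨x', y', hxy⟩ := col_isUnimod N g
      set a := (col N g).1 with ha
      set c := (col N g).2 with hc
      have hci : c * (-x' ^ 2 * a - x' ^ 2 * c + 2 * x' * y' * a + y' ^ 2 * c) = 1 := by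
        linear_combination (x' * a + y' * c + 1) * hxy - x' ^ 2 * hq
      refine ⟨⟨a * (-x' ^ 2 * a - x' ^ 2 * c + 2 * x' * y' * a + y' ^ 2 * c), ?_⟩, ?_⟩
      · set d := (-x' ^ 2 * a - x' ^ 2 * c + 2 * x' * y' * a + y' ^ 2 * c) with hd
        linear_combination d ^ 2 * hq + (-(a * d) - c * d - 1) * hci
      · apply Subtype.ext
        exact (mk_eq_mk_liftOne N g _ hci).symm

end Fermat.Agent.S20.Count
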