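import Fermat.Agent.S20.CountFix

/-!
# Project R (S20/S24), slice R5: index of `Γ₀(N)` and orbit counts on `SL(2,ℤ) ⧸ Γ₀(N)`

* `card_unimod_eq`: `#{unimodular vectors} = #(SL(2,ℤ) ⧸ Γ₀(N)) * φ(N)` (free action of the units);
* `card_Q_of_card_prim`: `#(SL(2,ℤ) ⧸ Γ₀(N)) = ψ(N)` from `#{unimodular vectors} = φ(N) ψ(N)`;
* conjugation / inversion invariance of fixed-point counts;
* Burnside: `2 * #(⟨S⟩-orbits) = # + ν₂`, `3 * #(⟨S T⟩-orbits) = # + 2 ν₃` (also for conjugates).
-/

set_option autoImplicit false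

open CongruenceSubgroup Matrix.SpecialLinearGroup ModularGroup MulAction
open scoped MatrixGroups

namespace Fermat.Agent.S20.Count

variable (N : ℕ)

/-- The unimodular vectors of `(ℤ/N)²`. -/
abbrev V : Type := {v : ZMod N × ZMod N // IsCoprime v.1 v.2}

theorem isUnimod_iff_isCoprime {R : Type*} [CommRing R] (v : R × R) :
    IsUnimod v ↔ IsCoprime v.1 v.2 := Iff.rfl

instance [NeZero N] : Finite (Q N) := Subgroup.finite_quotient_of_finiteIndex

/-- A chosen unimodular vector in each coset. -/
noncomputable def base (q : Q N) : ZMod N × ZMod N := col N (Quotient.out q)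

theorem base_isUnimod (q : Q N) : IsUnimod (base N q) := col_isUnimod N _

theorem mk_out_eq (q : Q N) : (QuotientGroup.mk (Quotient.out q) : Q N) = q :=
  Quotient.out_eq' q

section index

variable [NeZero N]

/-- The parametrisation of unimodular vectors by a coset and a unit. -/
noncomputable def paramV : Q N × (ZMod N)ˣ → V N := fun p =>
  ⟨((p.2 : ZMod N) * (base N p.1).1, (p.2 : ZMod N) * (base N p.1).2), by
    obtain ⟨x, y, hxy⟩ := base_isUnimod N p.1
    refine ⟨x * ((p.2⁻¹ : (ZMod N)ˣ) : ZMod N), y * ((p.2⁻¹ : (ZMod N)ˣ) : ZMod N), ?_⟩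
    have hu : ((p.2⁻¹ : (ZMod N)ˣ) : ZMod N) * (p.2 : ZMod N) = 1 := by
      rw [← Units.val_mul, inv_mul_cancel, Units.val_one]
    simp only
    linear_combination hxy + (x * (base N p.1).1 + y * (base N p.1).2) * hu⟩

theorem paramV_bijective : Function.Bijective (paramV N) := by
  constructor
  · rintro ⟨q, u⟩ ⟨q', u'⟩ h
    have h1 : (u : ZMod N) * (base N q).1 = (u' : ZMod N) * (base N q').1 :=
      congrArg (fun v : V N => v.1.1) h
    have h2 : (u : ZMod N) * (base N q).2 = (u' : ZMod N) * (base N q').2 :=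
      congrArg (fun v : V N => v.1.2) h
    have hu : ((u⁻¹ : (ZMod N)ˣ) : ZMod N) * (u : ZMod N) = 1 := by
      rw [← Units.val_mul, inv_mul_cancel, Units.val_one]
    have hu' : ((u'⁻¹ : (ZMod N)ˣ) : ZMod N) * (u' : ZMod N) = 1 := by
      rw [← Units.val_mul, inv_mul_cancel, Units.val_one]
    -- the two base vectors are proportional, hence the cosets agree
    have hq : q = q' := by
      rw [← mk_out_eq N q, ← mk_out_eq N q', mk_eq_mk_iff]
      show cross (base N q) (base N q') = 0
      simp only [cross]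
      have e1 : (base N q').1 = ((u'⁻¹ : (ZMod N)ˣ) : ZMod N) * (u : ZMod N) * (base N q).1 := by
        linear_combination (-(base N q').1) * hu' + ((u'⁻¹ : (ZMod N)ˣ) : ZMod N) * (-h1)
      have e2 : (base N q').2 = ((u'⁻¹ : (ZMod N)ˣ) : ZMod N) * (u : ZMod N) * (base N q).2 := by
        linear_combination (-(base N q').2) * hu' + ((u'⁻¹ : (ZMod N)ˣ) : ZMod N) * (-h2)
      rw [e1, e2]
      ring
    subst hq
    obtain ⟨x, y, hxy⟩ := base_isUnimod N q
    have huu : (u : ZMod N) = (u' : ZMod N) := by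
      linear_combination (-(u : ZMod N) + (u' : ZMod N)) * hxy + x * h1 + y * h2
    have : u = u' := Units.ext huu
    rw [this]
  · rintro ⟨v, hv⟩
    obtain ⟨g, hg⟩ := exists_col_eq N (v := v) hv
    have hcross : cross (base N (QuotientGroup.mk g : Q N)) v = 0 := by
      have := (mk_eq_mk_iff N (Quotient.out (QuotientGroup.mk g : Q N)) g).mp (mk_out_eq N _)
      rw [hg] at this
      exact this
    obtain ⟨u, hu⟩ := (cross_eq_zero_iff (base_isUnimod N _) hv).mp hcross
    exact ⟨(QuotientGroup.mk g, u), Subtype.ext hu.symm⟩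

/-- `#{unimodular vectors} = #(SL(2,ℤ) ⧸ Γ₀(N)) * φ(N)`. -/
theorem card_unimod_eq : Nat.card (V N) = Nat.card (Q N) * N.totient := by
  rw [← Nat.card_congr (Equiv.ofBijective _ (paramV_bijective N)), Nat.card_prod]
  congr 1
  rw [Nat.card_eq_fintype_card, ZMod.card_units_eq_totient]

/-- The index of `Γ₀(N)`, given the count of unimodular vectors. -/
theorem card_Q_of_card_prim
    (h : Nat.card {v : ZMod N × ZMod N // IsCoprime v.1 v.2} =
      N.totient * ModularCurve.dedekindPsi N) :
    Nat.card (Q N) = ModularCurve.dedekindPsi N := by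
  have h1 := card_unimod_eq N
  rw [h, mul_comm] at h1
  exact (Nat.eq_of_mul_eq_mul_right (Nat.totient_pos.mpr (NeZero.pos N)) h1).symm

theorem index_Gamma0_of_card_prim
    (h : Nat.card {v : ZMod N × ZMod N // IsCoprime v.1 v.2} =
      N.totient * ModularCurve.dedekindPsi N) :
    (Gamma0 N).index = ModularCurve.dedekindPsi N := by
  rw [Subgroup.index, card_Q_of_card_prim N h]

end index

/-! ### Conjugation and inversion -/

section general

variable {G X : Type*} [Group G] [MulAction G X]

/-- Fixed-point counts are invariant under conjugation. -/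
theorem card_fixedBy_conj (h s : G) :
    Nat.card (fixedBy X (h * s * h⁻¹)) = Nat.card (fixedBy X s) := by
  refine Nat.card_congr
    { toFun := fun q => ⟨h⁻¹ • q.1, ?_⟩
      invFun := fun q => ⟨h • q.1, ?_⟩
      left_inv := fun q => by simp
      right_inv := fun q => by simp }
  · have hq := q.2
    rw [mem_fixedBy] at hq ⊢
    calc s • h⁻¹ • q.1 = h⁻¹ • ((h * s * h⁻¹) • q.1) := by simp [mul_smul]
      _ = h⁻¹ • q.1 := by rw [hq]
  · have hq := q.2
    rw [mem_fixedBy] at hq ⊢
    calc (h * s * h⁻¹) • h • q.1 = h • (s • q.1) := by simp [mul_smul]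
      _ = h • q.1 := by rw [hq]

theorem card_fixedBy_inv (s : G) : Nat.card (fixedBy X s⁻¹) = Nat.card (fixedBy X s) := by
  rw [fixedBy_inv]

/-- Burnside's lemma for a cyclic group generated by an element of order `n`. -/
theorem burnside_zpowers [Finite X] (s : G) (n : ℕ) (hn : 0 < n) (hs : orderOf s = n) :
    n * Nat.card (orbitRel.Quotient (Subgroup.zpowers s) X) =
      ∑ i ∈ Finset.range n, Nat.card (fixedBy X (s ^ i)) := by
  classical
  have hfin : IsOfFinOrder s := orderOf_pos_iff.mp (hs ▸ hn)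
  letI : Fintype (Subgroup.zpowers s) := Fintype.ofEquiv _ (finEquivZPowers hfin)
  letI : Fintype X := Fintype.ofFinite X
  letI : ∀ a : Subgroup.zpowers s, Fintype (fixedBy X a) := fun a => Fintype.ofFinite _
  letI : Fintype (Quotient (orbitRel (Subgroup.zpowers s) X)) := Fintype.ofFinite _
  have B := sum_card_fixedBy_eq_card_orbits_mul_card_group (Subgroup.zpowers s) X
  have hc : Fintype.card (Subgroup.zpowers s) = n := by
    rw [← Fintype.card_congr (finEquivZPowers hfin), Fintype.card_fin, hs]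
  rw [hc] at B
  rw [mul_comm, Nat.card_eq_fintype_card]
  show Fintype.card (Quotient (orbitRel (Subgroup.zpowers s) X)) * n = _
  rw [← B, ← (finEquivZPowers hfin).sum_comp]
  subst hs
  rw [Finset.sum_range]
  refine Finset.sum_congr rfl fun i _ => ?_
  rw [← Nat.card_eq_fintype_card]
  rfl

end general

/-! ### Orbit counts for the elliptic elements -/

theorem orderOf_S : orderOf S = 4 := by
  rw [orderOf_eq_iff (by norm_num)]
  refine ⟨by decide, fun m hm hm0 => ?_⟩
  interval_cases m <;> decide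

theorem orderOf_ST : orderOf (S * T) = 6 := by
  rw [orderOf_eq_iff (by norm_num)]
  refine ⟨by decide, fun m hm hm0 => ?_⟩
  interval_cases m <;> decide

/-- `-s` and `s` have the same fixed points on `SL(2,ℤ) ⧸ Γ₀(N)`. -/
theorem fixedBy_neg (s : SL(2, ℤ)) : fixedBy (Q N) (-s) = fixedBy (Q N) s := by
  ext q
  have h : (-s) • q = s • q := by
    have e : (-s : SL(2, ℤ)) = (-1) * s := by simp
    rw [e, mul_smul, neg_one_smul]
  simp only [mem_fixedBy, h]

theorem card_fixedBy_one {G X : Type*} [Group G] [MulAction G X] :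
    Nat.card (fixedBy X (1 : G)) = Nat.card X := by
  rw [fixedBy_one_eq_univ]
  exact Nat.card_congr (Equiv.Set.univ X)

theorem card_fixedBy_neg_one : Nat.card (fixedBy (Q N) (-1 : SL(2, ℤ))) = Nat.card (Q N) := by
  have : fixedBy (Q N) (-1 : SL(2, ℤ)) = Set.univ := by
    ext q; simp [mem_fixedBy, neg_one_smul]
  rw [this]
  exact Nat.card_congr (Equiv.Set.univ _)

/-- Burnside for a conjugate: the right-hand side does not depend on the conjugating element. -/
theorem burnside_zpowers_conj {G X : Type*} [Group G] [MulAction G X] [Finite X] (g s : G) (n : ℕ)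
    (hn : 0 < n) (hs : orderOf s = n) :
    n * Nat.card (orbitRel.Quotient (Subgroup.zpowers (g * s * g⁻¹)) X) =
      ∑ i ∈ Finset.range n, Nat.card (fixedBy X (s ^ i)) := by
  have ho : orderOf (g * s * g⁻¹) = n := by
    rw [← hs]
    exact orderOf_injective (MulAut.conj g).toMonoidHom (MulAut.conj g).injective s
  rw [burnside_zpowers (g * s * g⁻¹) n hn ho]
  refine Finset.sum_congr rfl fun i _ => ?_
  rw [conj_pow, card_fixedBy_conj]

section elliptic

variable [NeZero N]

/-- The number `r` of `⟨g S g⁻¹⟩`-orbits on `SL(2,ℤ) ⧸ Γ₀(N)` satisfies `2 r = # + ν₂`. -/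
theorem two_mul_card_orbits_conj_S (g : SL(2, ℤ)) :
    2 * Nat.card (orbitRel.Quotient (Subgroup.zpowers (g * S * g⁻¹)) (Q N)) =
      Nat.card (Q N) + ModularCurve.nuTwo N := by
  have B := burnside_zpowers_conj (X := Q N) g S 4 (by norm_num) orderOf_S
  have e2 : (S : SL(2, ℤ)) ^ 2 = -1 := by decide
  have e3 : (S : SL(2, ℤ)) ^ 3 = S⁻¹ := by decide
  simp only [Finset.sum_range_succ, Finset.sum_range_zero, zero_add, pow_zero, pow_one] at B
  rw [card_fixedBy_one, e2, card_fixedBy_neg_one, e3, card_fixedBy_inv, card_fixedBy_S] at B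
  have B' : 4 * Nat.card (orbitRel.Quotient (Subgroup.zpowers (g * S * g⁻¹)) (Q N)) =
      Nat.card (Q N) + ModularCurve.nuTwo N + Nat.card (Q N) + ModularCurve.nuTwo N := B
  omega

theorem two_mul_card_orbits_S :
    2 * Nat.card (orbitRel.Quotient (Subgroup.zpowers S) (Q N)) =
      Nat.card (Q N) + ModularCurve.nuTwo N := by
  have := two_mul_card_orbits_conj_S N 1
  rwa [one_mul, inv_one, mul_one] at this

/-- The number `r` of `⟨g (S T) g⁻¹⟩`-orbits on `SL(2,ℤ) ⧸ Γ₀(N)` satisfies `3 r = # + 2 ν₃`. -/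
theorem three_mul_card_orbits_conj_ST (g : SL(2, ℤ)) :
    3 * Nat.card (orbitRel.Quotient (Subgroup.zpowers (g * (S * T) * g⁻¹)) (Q N)) =
      Nat.card (Q N) + 2 * ModularCurve.nuThree N := by
  have B := burnside_zpowers_conj (X := Q N) g (S * T) 6 (by norm_num) orderOf_ST
  have e2 : (S * T : SL(2, ℤ)) ^ 2 = (-(S * T))⁻¹ := by decide
  have e3 : (S * T : SL(2, ℤ)) ^ 3 = -1 := by decide
  have e4 : (S * T : SL(2, ℤ)) ^ 4 = -(S * T) := by decide
  have e5 : (S * T : SL(2, ℤ)) ^ 5 = (S * T)⁻¹ := by decide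
  simp only [Finset.sum_range_succ, Finset.sum_range_zero, zero_add, pow_zero, pow_one] at B
  rw [card_fixedBy_one, e2, card_fixedBy_inv, fixedBy_neg, e3, card_fixedBy_neg_one, e4,
    fixedBy_neg, e5, card_fixedBy_inv, card_fixedBy_ST] at B
  have B' : 6 * Nat.card (orbitRel.Quotient (Subgroup.zpowers (g * (S * T) * g⁻¹)) (Q N)) =
      Nat.card (Q N) + ModularCurve.nuThree N + ModularCurve.nuThree N + Nat.card (Q N) +
        ModularCurve.nuThree N + ModularCurve.nuThree N := B
  omega

theorem three_mul_card_orbits_ST :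
    3 * Nat.card (orbitRel.Quotient (Subgroup.zpowers (S * T)) (Q N)) =
      Nat.card (Q N) + 2 * ModularCurve.nuThree N := by
  have := three_mul_card_orbits_conj_ST N 1
  rwa [one_mul, inv_one, mul_one] at this

/-- Fixed points of conjugates and inverses of `S`, `S T`. -/
theorem card_fixedBy_conj_S (g : SL(2, ℤ)) :
    Nat.card (fixedBy (Q N) (g * S * g⁻¹)) = ModularCurve.nuTwo N := by
  rw [card_fixedBy_conj, card_fixedBy_S]

theorem card_fixedBy_conj_ST (g : SL(2, ℤ)) :
    Nat.card (fixedBy (Q N) (g * (S * T) * g⁻¹)) = ModularCurve.nuThree N := by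
  rw [card_fixedBy_conj, card_fixedBy_ST]

theorem card_fixedBy_conj_ST_inv (g : SL(2, ℤ)) :
    Nat.card (fixedBy (Q N) (g * (S * T)⁻¹ * g⁻¹)) = ModularCurve.nuThree N := by
  rw [card_fixedBy_conj, card_fixedBy_inv, card_fixedBy_ST]

end elliptic

end Fermat.Agent.S20.Count
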