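import Fermat.Agent.S20.CuspAnalytic
import Fermat.Agent.S20.CuspFinal
import Fermat.Agent.S20.CuspDFTInst
import Fermat.Agent.S20.DetNeZero

/-!
# S20 (PROJECT G), slice [F]: the behaviour at the cusps, hypothesis-free

`∑ κ_j = 6 (μ - c)` and `Δ · Φ⁻¹ → 0` at `i∞`.
-/

set_option autoImplicit false

noncomputable section

namespace Fermat.Agent.S20.Cusp

open UpperHalfPlane Filter Topology

open scoped ModularForm MatrixGroups Real

variable {N : ℕ} [NeZero N]

/-- The limit data of the normalised DFT rows. -/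
def limitData (g : Gens N) (d : DFTData N) : CuspFinal.LimitData g d where
  A := CuspAnalytic.Am d g
  hA := CuspAnalytic.Am_apply d g
  A0 := CuspAnalytic.A0 d g
  tendsto := CuspAnalytic.tendsto_Am_apply d g
  det_ne := CuspAnalytic.det_A0_ne_zero d g

/-- The sum of the weights of the generators, with explicit hypothesis `det Φ ≠ 0`. -/
theorem sum_κ_of_det (g : Gens N) (hdet : ∀ τ, (g.Φ τ).det ≠ 0) :
    ∑ j, g.κ j + 6 * orbT N = 6 * mu N :=
  CuspFinal.sum_κ_of g hdet (limitData g (CuspDFTInst.dftData N))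

/-- `Δ · Φ⁻¹` tends to `0` at `i∞`, with explicit hypothesis `det Φ ≠ 0`. -/
theorem tendsto_delta_inv_of_det (g : Gens N) (hdet : ∀ τ, (g.Φ τ).det ≠ 0) (j q : Q N) :
    Tendsto (fun τ => ModularForm.discriminant τ * (g.Φ τ)⁻¹ j q) atImInfty (𝓝 0) :=
  CuspFinal.tendsto_delta_inv_of g hdet (limitData g (CuspDFTInst.dftData N)) j q

/-- **[F]** the sum of the weights of the generators. -/
theorem sum_κ (g : Gens N) : ∑ j, g.κ j + 6 * orbT N = 6 * mu N :=
  sum_κ_of_det g (DetNeZero.det_ne_zero g)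

/-- **[F]** `Δ · Φ⁻¹` tends to `0` at `i∞`. -/
theorem tendsto_delta_inv (g : Gens N) (j q : Q N) :
    Tendsto (fun τ => ModularForm.discriminant τ * (g.Φ τ)⁻¹ j q) atImInfty (𝓝 0) :=
  tendsto_delta_inv_of_det g (DetNeZero.det_ne_zero g) j q

end Fermat.Agent.S20.Cusp
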