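import Mathlib

/-!
# S20 (PROJECT G), slice [F]: analytic lemma at the cusp

A holomorphic `1`-periodic function on the upper half plane which grows slower than `|q|⁻¹`
(`q = exp (2πiτ)`) has a limit at `i∞`.
-/

set_option autoImplicit false

noncomputable section

namespace Fermat.Agent.S20.CuspPeriodic

open UpperHalfPlane Filter Topology Function Asymptotics

open scoped Real Manifold

local notation "I∞" => comap Complex.im atTop

/-- Periodicity of `F ∘ ofComplex` from periodicity on `ℍ`. -/
theorem periodic_comp_ofComplex {F : ℍ → ℂ} (hper : ∀ τ : ℍ, F ((1 : ℝ) +ᵥ τ) = F τ) :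
    Periodic (F ∘ ofComplex) 1 := by
  intro w
  by_cases hw : 0 < Complex.im w
  · have hw1 : 0 < Complex.im (w + 1) := by simpa using hw
    simp only [comp_apply, ofComplex_apply_of_im_pos hw1, ofComplex_apply_of_im_pos hw]
    rw [← hper ⟨w, hw⟩]
    congr 1
    ext
    simp [add_comm]
  · push Not at hw
    have hw1 : Complex.im (w + 1) ≤ 0 := by simpa using hw
    simp [ofComplex_apply_of_im_nonpos hw1, ofComplex_apply_of_im_nonpos hw]

/-- A holomorphic `1`-periodic function `F` on `ℍ` with `q * F → 0` at `i∞` has a limit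
at `i∞`. -/
theorem exists_tendsto_of_qParam_mul_tendsto_zero {F : ℍ → ℂ} (hol : MDiff F)
    (hper : ∀ τ : ℍ, F ((1 : ℝ) +ᵥ τ) = F τ)
    (hzero : Tendsto (fun τ : ℍ => Complex.exp (2 * π * Complex.I * τ) * F τ)
      atImInfty (𝓝 0)) :
    ∃ c : ℂ, Tendsto F atImInfty (𝓝 c) := by
  set f : ℂ → ℂ := F ∘ ofComplex with hf
  set g : ℂ → ℂ := fun z => Complex.exp (2 * π * Complex.I * z) * f z with hg
  have hfper : Periodic f 1 := periodic_comp_ofComplex hper
  have hgper : Periodic g 1 := by
    intro z
    simp only [hg]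
    rw [hfper z]
    congr 1
    rw [mul_add, Complex.exp_add]
    simp [Complex.exp_two_pi_mul_I]
  have hfhol : ∀ z : ℂ, 0 < Complex.im z → DifferentiableAt ℂ f z := by
    intro z hz
    have h1 := (UpperHalfPlane.mdifferentiable_iff.mp hol)
    exact (h1 z hz).differentiableAt (isOpen_upperHalfPlaneSet.mem_nhds hz)
  have hev : ∀ᶠ z in I∞, 0 < Complex.im z := by
    have : Tendsto Complex.im I∞ atTop := tendsto_comap
    exact this.eventually (eventually_gt_atTop 0)
  have hghol : ∀ᶠ z in I∞, DifferentiableAt ℂ g z := by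
    filter_upwards [hev] with z hz
    exact ((Complex.differentiable_exp.differentiableAt).comp z
      (by fun_prop)).mul (hfhol z hz)
  have hgzero : ZeroAtFilter I∞ g := by
    have h1 := hzero.comp tendsto_comap_im_ofComplex
    refine h1.congr' ?_
    filter_upwards [hev] with z hz
    simp only [comp_apply, hg, hf]
    rw [ofComplex_apply_of_im_pos hz]
  have hdecay := Function.Periodic.exp_decay_of_zero_at_inf (h := 1) one_pos hgper hghol hgzero
  have hfbd : BoundedAtFilter I∞ f := by
    have h2 : (fun z : ℂ => Complex.exp (-(2 * π * Complex.I * z))) =O[I∞]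
        fun z : ℂ => Real.exp (2 * π * Complex.im z) := by
      refine IsBigO.of_bound 1 (Eventually.of_forall fun z => ?_)
      rw [Complex.norm_exp, Real.norm_eq_abs, Real.abs_exp, one_mul]
      apply le_of_eq
      congr 1
      simp
    have h3 := h2.mul hdecay
    have h4 : (fun z : ℂ => Complex.exp (-(2 * π * Complex.I * z)) * g z) = f := by
      funext z
      simp only [hg]
      rw [← mul_assoc, ← Complex.exp_add]
      simp
    rw [h4] at h3
    refine h3.trans (IsBigO.of_bound 1 (Eventually.of_forall fun z => ?_))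
    simp only [div_one, Pi.one_apply, norm_one, mul_one]
    rw [← Real.exp_add]
    simp
  have hlim := Function.Periodic.tendsto_at_I_inf (h := 1) one_pos hfper
    (by filter_upwards [hev] with z hz using hfhol z hz) hfbd
  refine ⟨Function.Periodic.cuspFunction 1 f 0, ?_⟩
  have h5 := hlim.comp tendsto_coe_atImInfty
  refine h5.congr fun τ => ?_
  simp [hf]

/-- A holomorphic `1`-periodic function on `ℍ` which is `O(|q|^(-e))` with `e < 1` has a limit
at `i∞`. -/
theorem exists_tendsto_of_isBigO {F : ℍ → ℂ} (hol : MDiff F)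
    (hper : ∀ τ : ℍ, F ((1 : ℝ) +ᵥ τ) = F τ) {e : ℝ} (he : e < 1)
    (hO : F =O[atImInfty] fun τ : ℍ => Real.exp (2 * π * e * τ.im)) :
    ∃ c : ℂ, Tendsto F atImInfty (𝓝 c) := by
  refine exists_tendsto_of_qParam_mul_tendsto_zero hol hper ?_
  have h1 : (fun τ : ℍ => Complex.exp (2 * π * Complex.I * τ)) =O[atImInfty]
      fun τ : ℍ => Real.exp (-(2 * π) * τ.im) := by
    refine IsBigO.of_bound 1 (Eventually.of_forall fun τ => ?_)
    rw [Complex.norm_exp, Real.norm_eq_abs, Real.abs_exp, one_mul]
    apply le_of_eq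
    congr 1
    simp
  have h2 := h1.mul hO
  refine h2.trans_tendsto ?_
  have h3 : ∀ τ : ℍ, Real.exp (-(2 * π) * τ.im) * Real.exp (2 * π * e * τ.im)
      = Real.exp (-(2 * π * (1 - e) * τ.im)) := by
    intro τ
    rw [← Real.exp_add]
    congr 1
    ring
  simp only [h3]
  have h4 : Tendsto (fun τ : ℍ => 2 * π * (1 - e) * τ.im) atImInfty atTop := by
    have : Tendsto (fun τ : ℍ => τ.im) atImInfty atTop := tendsto_comap
    have hpos : 0 < 2 * π * (1 - e) := by
      have := Real.pi_pos
      have : 0 < 1 - e := by linarith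
      positivity
    exact this.const_mul_atTop hpos
  exact Real.tendsto_exp_neg_atTop_nhds_zero.comp h4

end Fermat.Agent.S20.CuspPeriodic
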