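import Fermat.Agent.S20.Translates

/-!
# S20 (PROJECT G), slice [E]: the matrix of translates of a homogeneous basis is invertible
at every point of the upper half plane.
-/

set_option autoImplicit false

noncomputable section

namespace Fermat.Agent.S20

open UpperHalfPlane SlashInvariantForm CongruenceSubgroup Filter Topology

open scoped ModularForm Manifold MatrixGroups

/-! ### A Newton-type lemma -/

/-- If all power sums (of positive exponent) of a finite family of complex numbers vanish,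
the numbers all vanish. -/
theorem eq_zero_of_forall_sum_pow_eq_zero {ι : Type*} [Fintype ι] (x : ι → ℂ)
    (h : ∀ n : ℕ, 1 ≤ n → ∑ i, x i ^ n = 0) : ∀ i, x i = 0 := by
  classical
  -- for every polynomial `p` with `p 0 = 0`, `∑ i, p (x i) = 0`
  have hp : ∀ p : Polynomial ℂ, p.coeff 0 = 0 → ∑ i, p.eval (x i) = 0 := by
    intro p hp0
    have : ∀ i, p.eval (x i) = ∑ n ∈ p.support, p.coeff n * x i ^ n := by
      intro i
      rw [Polynomial.eval_eq_sum, Polynomial.sum]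
    simp_rw [this]
    rw [Finset.sum_comm]
    refine Finset.sum_eq_zero fun n _ => ?_
    rw [← Finset.mul_sum]
    rcases Nat.eq_zero_or_pos n with rfl | hn
    · rw [hp0, zero_mul]
    · rw [h n hn, mul_zero]
  intro i₀
  by_contra hne
  -- the set of values different from `x i₀`
  let Y : Finset ℂ := (Finset.univ.image x).erase (x i₀)
  let p : Polynomial ℂ := Polynomial.X * ∏ y ∈ Y, (Polynomial.X - Polynomial.C y)
  have hp0 : p.coeff 0 = 0 := by simp [p]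
  obtain ⟨c, hc⟩ : ∃ c : ℂ, c = p.eval (x i₀) := ⟨_, rfl⟩
  have hev : ∀ i, p.eval (x i) = if x i = x i₀ then c else 0 := by
    intro i
    split_ifs with hi
    · rw [hi, hc]
    · have hmem : x i ∈ Y := Finset.mem_erase.mpr ⟨hi, Finset.mem_image_of_mem x (Finset.mem_univ i)⟩
      simp only [p, Polynomial.eval_mul, Polynomial.eval_X, Polynomial.eval_prod,
        Polynomial.eval_sub, Polynomial.eval_C]
      rw [Finset.prod_eq_zero hmem (sub_self _), mul_zero]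
  have hne' : c ≠ 0 := by
    rw [hc]
    simp only [p, Polynomial.eval_mul, Polynomial.eval_X, Polynomial.eval_prod,
      Polynomial.eval_sub, Polynomial.eval_C]
    refine mul_ne_zero hne (Finset.prod_ne_zero_iff.mpr fun y hy => ?_)
    exact sub_ne_zero.mpr (Finset.ne_of_mem_erase hy).symm
  have := hp p hp0
  rw [Finset.sum_congr rfl fun i _ => hev i] at this
  rw [Finset.sum_ite, Finset.sum_const_zero, add_zero, Finset.sum_const, nsmul_eq_mul] at this
  rcases mul_eq_zero.mp this with h0 | h0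
  · have hpos : 0 < (Finset.univ.filter fun i => x i = x i₀).card :=
      Finset.card_pos.mpr ⟨i₀, by simp⟩
    have : ((Finset.univ.filter fun i => x i = x i₀).card : ℂ) ≠ 0 :=
      Nat.cast_ne_zero.mpr hpos.ne'
    exact this h0
  · exact hne' h0

/-! ### Function-level API for a homogeneous basis -/

variable {N : ℕ} [NeZero N] (g : Gens N)

theorem Gens.isMF_F (j : Q N) : IsMF (G0 N) (g.κ j) (g.F j) := ⟨g.F j, rfl⟩

theorem Gens.gen' {k : ℤ} {f : ℍ → ℂ} (hf : IsMF (G0 N) k f) :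
    ∃ c : Q N → ℍ → ℂ, (∀ j, IsMF 𝒮ℒ (k - g.κ j) (c j)) ∧ f = ∑ j, c j * ⇑(g.F j) := by
  obtain ⟨F, rfl⟩ := hf
  obtain ⟨c, hc⟩ := g.gen k F
  refine ⟨fun j => ⇑(c j), fun j => ⟨c j, rfl⟩, ?_⟩
  ext τ
  rw [hc τ, Finset.sum_apply]
  rfl

theorem Gens.indep' {k : ℤ} (c : Q N → ℍ → ℂ) (hc : ∀ j, IsMF 𝒮ℒ (k - g.κ j) (c j))
    (h : ∑ j, c j * ⇑(g.F j) = 0) : ∀ j, c j = 0 := by
  choose C hC using hc
  have := g.indep k C (fun τ => by
    have h' := congrFun h τ
    rw [Finset.sum_apply] at h'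
    simpa [hC] using h')
  intro j
  rw [← hC j, this j]
  rfl

theorem Gens.Φ_apply (τ : ℍ) (q j : Q N) : g.Φ τ q j = tr (g.κ j) (g.F j) q τ := by
  rw [Gens.Φ, quotientFunc_eq_tr]

/-- Translates of a combination of the generators with level one coefficients. -/
theorem Gens.tr_combination {k : ℤ} (c : Q N → ℍ → ℂ) (hc : ∀ j, IsMF 𝒮ℒ (k - g.κ j) (c j))
    (q : Q N) :
    tr k (∑ j, c j * ⇑(g.F j)) q = ∑ j, c j * tr (g.κ j) (g.F j) q := by
  rw [tr_sum]
  refine Finset.sum_congr rfl fun j _ => ?_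
  have h := tr_levelOne_mul (k' := (g.κ j : ℤ)) (hc j) (⇑(g.F j)) q
  rwa [sub_add_cancel] at h

/-- The Gram matrix of the trace form: entries are level one forms. -/
def Gens.gram (j l : Q N) : ℍ → ℂ :=
  ∑ q : Q N, tr (g.κ j) (g.F j) q * tr (g.κ l) (g.F l) q

theorem Gens.isMF_gram (j l : Q N) : IsMF 𝒮ℒ (g.κ j + g.κ l) (g.gram j l) := by
  have h := isMF_sum_tr ((g.isMF_F j).mul (g.isMF_F l))
  refine h.congr ?_
  refine Finset.sum_congr rfl fun q _ => ?_
  rw [tr_mul]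

theorem Gens.gram_apply (τ : ℍ) (j l : Q N) :
    g.gram j l τ = ((g.Φ τ).transpose * g.Φ τ) j l := by
  rw [Gens.gram, Finset.sum_apply, Matrix.mul_apply]
  refine Finset.sum_congr rfl fun q _ => ?_
  rw [Matrix.transpose_apply, g.Φ_apply, g.Φ_apply]
  rfl

/-- Trace pairing of a combination with a generator. -/
theorem Gens.sum_tr_combination_mul {k : ℤ} (c : Q N → ℍ → ℂ)
    (hc : ∀ j, IsMF 𝒮ℒ (k - g.κ j) (c j)) (l : Q N) :
    ∑ q : Q N, tr k (∑ j, c j * ⇑(g.F j)) q * tr (g.κ l) (g.F l) q = ∑ j, c j * g.gram j l := by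
  simp_rw [g.tr_combination c hc, Finset.sum_mul, Gens.gram, Finset.mul_sum]
  rw [Finset.sum_comm]
  refine Finset.sum_congr rfl fun j _ => Finset.sum_congr rfl fun q _ => ?_
  ring

theorem Gens.gram_comm (j l : Q N) : g.gram j l = g.gram l j := by
  unfold Gens.gram
  exact Finset.sum_congr rfl fun q _ => mul_comm _ _

/-- The sum of products of translates of two `Γ₀(N)`-forms is a level one form. -/
theorem isMF_sum_tr_mul {k k' : ℤ} {f f' : ℍ → ℂ} (hf : IsMF (G0 N) k f)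
    (hf' : IsMF (G0 N) k' f') : IsMF 𝒮ℒ (k + k') (∑ q : Q N, tr k f q * tr k' f' q) := by
  refine (isMF_sum_tr (hf.mul hf')).congr ?_
  refine Finset.sum_congr rfl fun q _ => ?_
  rw [tr_mul]

/-- **Key lemma**: if the trace pairings of `G` with all generators vanish at `τ₁`, and every
level one form vanishing at `τ₁` vanishes on the zero set of `Qf`, then all translates of `G`
vanish on the zero set of `Qf`. -/
theorem Gens.tr_eq_zero_of_trace {K' : ℤ} {G : ℍ → ℂ} (hG : IsMF (G0 N) K' G) (Qf : ℍ → ℂ)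
    (τ₁ : ℍ)
    (hdiv : ∀ (k : ℤ) (P : ℍ → ℂ), IsMF 𝒮ℒ k P → P τ₁ = 0 → ∀ τ₂, Qf τ₂ = 0 → P τ₂ = 0)
    (htr : ∀ l, (∑ q : Q N, tr K' G q * tr (g.κ l) (g.F l) q) τ₁ = 0)
    (τ₂ : ℍ) (hτ₂ : Qf τ₂ = 0) (q : Q N) : tr K' G q τ₂ = 0 := by
  refine eq_zero_of_forall_sum_pow_eq_zero (fun q => tr K' G q τ₂) (fun n hn => ?_) q
  obtain ⟨m, rfl⟩ : ∃ m, n = m + 1 := ⟨n - 1, by omega⟩
  -- expand `G ^ m` in the basis
  obtain ⟨d, hd, hGm⟩ := g.gen' (hG.pow m)
  -- the pairings `S l`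
  have hS : ∀ l, (∑ q : Q N, tr K' G q * tr (g.κ l) (g.F l) q) τ₂ = 0 := fun l =>
    hdiv _ _ (isMF_sum_tr_mul hG (g.isMF_F l)) (htr l) τ₂ hτ₂
  have key : ∀ q : Q N, (tr K' G q) ^ (m + 1) =
      ∑ l, d l * (tr K' G q * tr (g.κ l) (g.F l) q) := by
    intro q
    rw [pow_succ', ← tr_pow, hGm, g.tr_combination d hd, Finset.mul_sum]
    refine Finset.sum_congr rfl fun l _ => ?_
    ring
  have : ∀ q : Q N, tr K' G q τ₂ ^ (m + 1) =
      ∑ l, d l τ₂ * (tr K' G q τ₂ * tr (g.κ l) (g.F l) q τ₂) := by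
    intro q
    have := congrFun (key q) τ₂
    simpa [Finset.sum_apply] using this
  simp_rw [this]
  rw [Finset.sum_comm]
  refine Finset.sum_eq_zero fun l _ => ?_
  rw [← Finset.mul_sum]
  have h := hS l
  rw [Finset.sum_apply] at h
  simp only [Pi.mul_apply] at h
  rw [h, mul_zero]

/-! ### Parity of the weights -/

omit [NeZero N] in
/-- A `Γ₀(N)`-form of odd weight vanishes (`-1 ∈ Γ₀(N)`). -/
theorem eq_zero_of_odd_weight {k : ℤ} (hk : Odd k) (f : ModularForm (G0 N) k) : f = 0 := by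
  have hmem : (-1 : SL(2, ℤ)) ∈ Gamma0 N := by
    rw [Gamma0_mem]
    simp
  have h := SlashInvariantForm.slash_action_eqn_SL'' f hmem
  ext τ
  have h1 := h τ
  have hsmul : ((-1 : SL(2, ℤ)) • τ) = τ := by
    ext
    simp
  have hdenom : denom ((-1 : SL(2, ℤ)) : GL (Fin 2) ℝ) τ = -1 := by
    simp [denom]
  rw [hsmul, hdenom, hk.neg_one_zpow] at h1
  have : f τ = 0 := by linear_combination h1 / 2
  simpa using this

theorem Gens.F_ne_zero (j : Q N) : (⇑(g.F j) : ℍ → ℂ) ≠ 0 := by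
  classical
  intro h0
  -- the combination with coefficient `1` at `j` is zero
  let c : Q N → ℍ → ℂ := fun l => if l = j then 1 else 0
  have hc : ∀ l, IsMF 𝒮ℒ ((g.κ j : ℤ) - g.κ l) (c l) := by
    intro l
    by_cases hl : l = j
    · subst hl
      simp only [c, if_true, sub_self]
      exact ⟨1, by ext; simp⟩
    · simp only [c, if_neg hl]
      exact IsMF.zero
  have hsum : ∑ l, c l * ⇑(g.F l) = 0 := by
    refine Finset.sum_eq_zero fun l _ => ?_
    by_cases hl : l = j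
    · subst hl
      simp [c, h0]
    · simp [c, hl]
  have := g.indep' c hc hsum j
  simp only [c, if_true] at this
  exact one_ne_zero (congrFun this I)

theorem Gens.κ_even (j : Q N) : Even (g.κ j) := by
  by_contra hodd
  rw [Nat.not_even_iff_odd] at hodd
  have : Odd ((g.κ j : ℕ) : ℤ) := by exact_mod_cast hodd
  have := eq_zero_of_odd_weight this (g.F j)
  exact g.F_ne_zero j (by rw [this]; rfl)

/-! ### The main theorem of slice [E] -/

open ModularForm in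
/-- **Slice [E]** (Steps 3-4 of PROJECT G): the matrix of translates of a homogeneous basis is
invertible at every point of `ℍ`.  The level one inputs ([A]) and the division lemma ([B]) are
hypotheses, in exactly the shapes of the interface. -/
theorem det_ne_zero_of (g : Gens N)
    (hA2 : ∀ τ₁ : ℍ, ∃ (w : ℕ) (Qf : ModularForm 𝒮ℒ w), 0 < w ∧ Qf τ₁ = 0 ∧
      (∀ τ : ℍ, Qf τ = 0 → deriv (⇑Qf ∘ ofComplex) τ ≠ 0) ∧
      (∃ c : ℂ, c ≠ 0 ∧ Tendsto Qf atImInfty (𝓝 c)) ∧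
      ∀ (k : ℤ) (P : ModularForm 𝒮ℒ k), P τ₁ = 0 →
        ∃ U : ModularForm 𝒮ℒ (k - w), ∀ τ, P τ = Qf τ * U τ)
    (hA3a : ∀ (w : ℤ) (P : ModularForm 𝒮ℒ w) (τ₁ : ℍ), P τ₁ ≠ 0 →
      (E₆ τ₁ = 0 → (4 : ℤ) ∣ w) ∧ (E₄ τ₁ = 0 → (6 : ℤ) ∣ w))
    (hA3b : ∀ (τ₁ : ℍ) (w : ℕ), Even w → w ≠ 2 → (E₆ τ₁ = 0 → 4 ∣ w) → (E₄ τ₁ = 0 → 6 ∣ w) →
      ∃ P : ModularForm 𝒮ℒ w, P τ₁ ≠ 0)
    (hB2 : ∀ (w k : ℤ) (Qf : ModularForm 𝒮ℒ w),
      (∀ τ : ℍ, Qf τ = 0 → deriv (⇑Qf ∘ ofComplex) τ ≠ 0) →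
      (∃ c : ℂ, c ≠ 0 ∧ Tendsto Qf atImInfty (𝓝 c)) →
      ∀ f : ModularForm (G0 N) k, (∀ τ, Qf τ = 0 → f τ = 0) →
        ∃ u : ModularForm (G0 N) (k - w), ∀ τ, f τ = Qf τ * u τ)
    (τ₁ : ℍ) : (g.Φ τ₁).det ≠ 0 := by
  classical
  intro hdet
  -- the Gram matrix at `τ₁` is singular
  set M : Matrix (Q N) (Q N) ℂ := (g.Φ τ₁).transpose * g.Φ τ₁ with hM
  have hMdet : M.det = 0 := by rw [hM, Matrix.det_mul, hdet, mul_zero]
  obtain ⟨v, hv0, hMv⟩ := Matrix.exists_mulVec_eq_zero_iff.mpr hMdet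
  have hMapp : ∀ l j, M l j = g.gram l j τ₁ := fun l j => (g.gram_apply τ₁ l j).symm
  have hTv : ∀ l, ∑ j, g.gram l j τ₁ * v j = 0 := by
    intro l
    have := congrFun hMv l
    simpa [Matrix.mulVec, dotProduct, hMapp] using this
  obtain ⟨j₀, hj₀⟩ : ∃ j₀, v j₀ ≠ 0 := by
    by_contra hcon
    push Not at hcon
    exact hv0 (funext hcon)
  -- weight classes
  let same : Q N → Prop := fun j =>
    (E₆ τ₁ = 0 → (g.κ j₀ : ℤ) % 4 = (g.κ j : ℤ) % 4) ∧
    (E₄ τ₁ = 0 → (g.κ j₀ : ℤ) % 6 = (g.κ j : ℤ) % 6)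
  have hsame₀ : same j₀ := ⟨fun _ => rfl, fun _ => rfl⟩
  let v' : Q N → ℂ := fun j => if same j then v j else 0
  -- block structure of the Gram matrix
  have hblock : ∀ l j, g.gram l j τ₁ ≠ 0 →
      (E₆ τ₁ = 0 → (4 : ℤ) ∣ (g.κ l : ℤ) + g.κ j) ∧ (E₄ τ₁ = 0 → (6 : ℤ) ∣ (g.κ l : ℤ) + g.κ j) := by
    intro l j hne
    obtain ⟨P, hP⟩ := g.isMF_gram l j
    exact hA3a _ P τ₁ (by rw [hP]; exact hne)
  have hTv' : ∀ l, ∑ j, g.gram l j τ₁ * v' j = 0 := by
    intro l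
    by_cases hex : ∃ j', same j' ∧ g.gram l j' τ₁ ≠ 0
    · obtain ⟨j', hsj', hgj'⟩ := hex
      rw [← hTv l]
      refine Finset.sum_congr rfl fun j _ => ?_
      by_cases hgj : g.gram l j τ₁ = 0
      · rw [hgj, zero_mul, zero_mul]
      · have hs : same j := by
          have h1 := hblock l j hgj
          have h2 := hblock l j' hgj'
          refine ⟨fun h6 => ?_, fun h4 => ?_⟩
          · have a1 := h1.1 h6
            have a2 := h2.1 h6
            have a3 := hsj'.1 h6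
            omega
          · have a1 := h1.2 h4
            have a2 := h2.2 h4
            have a3 := hsj'.2 h4
            omega
        simp only [v', if_pos hs]
    · push Not at hex
      refine Finset.sum_eq_zero fun j _ => ?_
      by_cases hs : same j
      · rw [hex j hs, zero_mul]
      · simp only [v', if_neg hs, mul_zero]
  -- the weight `K'` and the level one forms `P j`
  set κmax : ℕ := ∑ j, g.κ j with hκmax
  have hκle : ∀ j, g.κ j ≤ κmax := fun j =>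
    Finset.single_le_sum (f := g.κ) (fun i _ => Nat.zero_le _) (Finset.mem_univ j)
  set K' : ℕ := g.κ j₀ + 12 * (κmax + 1) with hK'
  have hPex : ∀ j, same j → ∃ P : ModularForm 𝒮ℒ ((K' - g.κ j : ℕ) : ℤ), P τ₁ ≠ 0 := by
    intro j hs
    have hle := hκle j
    have hle0 := hκle j₀
    obtain ⟨r, hr⟩ := g.κ_even j
    obtain ⟨r₀, hr₀⟩ := g.κ_even j₀
    refine hA3b τ₁ (K' - g.κ j) ⟨r₀ + 6 * (κmax + 1) - r, by omega⟩ (by omega) ?_ ?_
    · intro h6
      have := hs.1 h6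
      omega
    · intro h4
      have := hs.2 h4
      omega
  -- the coefficients `c j`
  let c : Q N → ℍ → ℂ := fun j =>
    if hs : same j then (v j / (Classical.choose (hPex j hs)) τ₁) • ⇑(Classical.choose (hPex j hs))
    else 0
  have hc : ∀ j, IsMF 𝒮ℒ ((K' : ℤ) - g.κ j) (c j) := by
    intro j
    by_cases hs : same j
    · simp only [c, dif_pos hs]
      have hle : g.κ j ≤ K' := by have := hκle j; omega
      refine (IsMF.smul _ (IsMF.coe (Classical.choose (hPex j hs)))).cast ?_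
      rw [Nat.cast_sub hle]
    · simp only [c, dif_neg hs]
      exact IsMF.zero
  have hcτ : ∀ j, c j τ₁ = v' j := by
    intro j
    by_cases hs : same j
    · simp only [c, dif_pos hs, v', if_pos hs, Pi.smul_apply, smul_eq_mul]
      exact div_mul_cancel₀ _ (Classical.choose_spec (hPex j hs))
    · simp only [c, dif_neg hs, v', if_neg hs, Pi.zero_apply]
  -- the form `G`
  set G : ℍ → ℂ := ∑ j, c j * ⇑(g.F j) with hGdef
  have hG : IsMF (G0 N) (K' : ℤ) G := by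
    refine IsMF.sum _ fun j _ => ?_
    exact ((hc j).ofLevelOne.mul (g.isMF_F j)).cast (by ring)
  -- trace pairings of `G` vanish at `τ₁`
  have htr : ∀ l, (∑ q : Q N, tr (K' : ℤ) G q * tr (g.κ l) (g.F l) q) τ₁ = 0 := by
    intro l
    rw [hGdef, g.sum_tr_combination_mul c hc l, Finset.sum_apply]
    simp only [Pi.mul_apply, hcτ]
    rw [← hTv' l]
    refine Finset.sum_congr rfl fun j _ => ?_
    rw [g.gram_comm j l, mul_comm]
  -- the level one form `Qf`
  obtain ⟨w, Qf, hw, hQτ₁, hsimple, hlim, hdivQ⟩ := hA2 τ₁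
  have hdiv : ∀ (k : ℤ) (P : ℍ → ℂ), IsMF 𝒮ℒ k P → P τ₁ = 0 →
      ∀ τ₂, (⇑Qf : ℍ → ℂ) τ₂ = 0 → P τ₂ = 0 := by
    intro k P hP hPτ₁ τ₂ hτ₂
    obtain ⟨Pb, rfl⟩ := hP
    obtain ⟨U, hU⟩ := hdivQ k Pb hPτ₁
    rw [hU τ₂, hτ₂, zero_mul]
  -- `G` vanishes on the zero set of `Qf`
  have hGzero : ∀ τ₂, Qf τ₂ = 0 → G τ₂ = 0 := by
    intro τ₂ hτ₂
    have := g.tr_eq_zero_of_trace hG (⇑Qf) τ₁ hdiv htr τ₂ hτ₂ (⟦1⟧ : Q N)
    rwa [tr_one_coset hG] at this
  -- divide
  obtain ⟨Gb, hGb⟩ := hG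
  obtain ⟨u, hu⟩ := hB2 w K' Qf hsimple hlim Gb (fun τ hτ => by rw [hGb]; exact hGzero τ hτ)
  obtain ⟨b, hb, hub⟩ := g.gen' (IsMF.coe u)
  -- the relation
  have hrel : ∑ j, (c j - ⇑Qf * b j) * ⇑(g.F j) = 0 := by
    have h1 : ∑ j, (c j - ⇑Qf * b j) * ⇑(g.F j) = G - ⇑Qf * ∑ j, b j * ⇑(g.F j) := by
      rw [hGdef, Finset.mul_sum, ← Finset.sum_sub_distrib]
      refine Finset.sum_congr rfl fun j _ => ?_
      ring
    rw [h1, ← hub, ← hGb]
    ext τ
    simp only [Pi.sub_apply, Pi.mul_apply, Pi.zero_apply]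
    rw [hu τ, sub_self]
  have hcoef : ∀ j, IsMF 𝒮ℒ ((K' : ℤ) - g.κ j) (c j - ⇑Qf * b j) := by
    intro j
    refine (hc j).sub (((IsMF.coe Qf).mul (hb j)).cast (by ring))
  have := g.indep' _ hcoef hrel j₀
  have h0 := congrFun this τ₁
  simp only [Pi.sub_apply, Pi.mul_apply, Pi.zero_apply, hcτ, hQτ₁, zero_mul, sub_zero, v',
    if_pos hsame₀] at h0
  exact hj₀ h0

end Fermat.Agent.S20
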