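import Fermat.Agent.S20.CuspData
import Fermat.Agent.S20.CuspPeriodic
import Fermat.Agent.S20.Nonvanishing

/-!
# S20 (PROJECT G), slice [F], part (P4): limits of the twisted rows at `i∞`

For DFT data `d` of the `T`-action and a `Γ₀(N)`-form `f` of weight `k`, the function
`τ ↦ exp (-(2πi e_r τ)) * ∑ q, Λ r q * tr k f q τ` is holomorphic, `1`-periodic and
`O(|q|^(-e_r))` with `e_r < 1`, hence has a limit at `i∞`.
-/

set_option autoImplicit false

noncomputable section

namespace Fermat.Agent.S20.CuspLimits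

open UpperHalfPlane Filter Topology Asymptotics CongruenceSubgroup

open scoped Real Manifold ModularForm MatrixGroups

variable {N : ℕ} [NeZero N]

/-- The twisted row attached to a function. -/
def row (d : DFTData N) (k : ℤ) (f : ℍ → ℂ) (r : Q N) : ℍ → ℂ := fun τ =>
  Complex.exp (-(2 * π * Complex.I * d.e r * τ)) * ∑ q, d.Λ r q * tr k f q τ

theorem mu_pos : 0 < mu N := by
  rw [mu]
  exact Nat.card_pos

theorem e_lt_one (d : DFTData N) (r : Q N) : d.e r < 1 := by
  have h1 := d.e_le r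
  have h2 : (0 : ℝ) < 1 / (mu N : ℝ) := by
    have : (0 : ℝ) < mu N := by exact_mod_cast mu_pos (N := N)
    positivity
  linarith

/-- Translates of a `Γ₀(N)`-form are bounded at `i∞`. -/
theorem isBoundedAtImInfty_tr {k : ℤ} {f : ℍ → ℂ} (hf : IsMF (G0 N) k f) (q : Q N) :
    IsBoundedAtImInfty (tr k f q) := by
  obtain ⟨F, rfl⟩ := hf
  exact ModularFormClass.bdd_at_infty_slash F (rep q)⁻¹

theorem mdiff_row (d : DFTData N) {k : ℤ} {f : ℍ → ℂ} (hf : IsMF (G0 N) k f) (r : Q N) :
    MDiff (row d k f r) := by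
  have h1 : MDiff (fun τ : ℍ => Complex.exp (-(2 * π * Complex.I * d.e r * τ))) := by
    have : MDiff (fun τ : ℍ => (τ : ℂ)) := mdifferentiable_coe
    intro τ
    have h2 : MDiffAt (fun τ : ℍ => -(2 * π * Complex.I * d.e r * (τ : ℂ))) τ :=
      ((mdifferentiableAt_const (c := (2 * π * Complex.I * d.e r : ℂ))).mul (this τ)).neg
    exact (Complex.differentiable_exp.differentiableAt.comp_mdifferentiableAt h2)
  have h2 : MDiff (fun τ : ℍ => ∑ q, d.Λ r q * tr k f q τ) := by
    have : (fun τ : ℍ => ∑ q, d.Λ r q * tr k f q τ) = ∑ q, (fun τ : ℍ => d.Λ r q * tr k f q τ) := by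
      funext τ; simp
    rw [this]
    refine MDifferentiable.sum fun q _ => ?_
    exact (mdifferentiable_const (c := d.Λ r q)).mul (mdifferentiable_tr hf q)
  exact h1.mul h2

theorem row_vadd (d : DFTData N) {k : ℤ} {f : ℍ → ℂ} (hf : IsMF (G0 N) k f) (r : Q N) (τ : ℍ) :
    row d k f r ((1 : ℝ) +ᵥ τ) = row d k f r τ := by
  simp only [row]
  rw [d.periodic k f hf r τ]
  have : (((1 : ℝ) +ᵥ τ : ℍ) : ℂ) = 1 + (τ : ℂ) := by simp
  rw [this, ← mul_assoc, ← Complex.exp_add]
  congr 2
  ring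

theorem isBigO_row (d : DFTData N) {k : ℤ} {f : ℍ → ℂ} (hf : IsMF (G0 N) k f) (r : Q N) :
    row d k f r =O[atImInfty] fun τ : ℍ => Real.exp (2 * π * d.e r * τ.im) := by
  have h1 : (fun τ : ℍ => Complex.exp (-(2 * π * Complex.I * d.e r * τ))) =O[atImInfty]
      fun τ : ℍ => Real.exp (2 * π * d.e r * τ.im) := by
    refine IsBigO.of_bound 1 (Eventually.of_forall fun τ => ?_)
    rw [Complex.norm_exp, Real.norm_eq_abs, Real.abs_exp, one_mul]
    apply le_of_eq
    congr 1
    simp
  have h2 : (fun τ : ℍ => ∑ q, d.Λ r q * tr k f q τ) =O[atImInfty] (fun _ : ℍ => (1 : ℝ)) := by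
    refine IsBigO.fun_sum fun q _ => ?_
    have := isBoundedAtImInfty_tr hf q
    rw [IsBoundedAtImInfty, BoundedAtFilter] at this
    exact (this.const_mul_left (d.Λ r q))
  have := h1.mul h2
  simp only [mul_one] at this
  exact this

/-- **(P4)** the twisted rows have limits at `i∞`. -/
theorem exists_tendsto_row (d : DFTData N) {k : ℤ} {f : ℍ → ℂ} (hf : IsMF (G0 N) k f) (r : Q N) :
    ∃ a : ℂ, Tendsto (row d k f r) atImInfty (𝓝 a) :=
  CuspPeriodic.exists_tendsto_of_isBigO (mdiff_row d hf r) (row_vadd d hf r) (e_lt_one d r)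
    (isBigO_row d hf r)

/-- **(P4)** in the shape of the matrix of translates of a homogeneous basis. -/
theorem exists_tendsto (g : Gens N) (d : DFTData N) (r j : Q N) :
    ∃ a : ℂ, Tendsto (fun τ : ℍ => Complex.exp (-(2 * π * Complex.I * d.e r * τ)) *
      ∑ q, d.Λ r q * g.Φ τ q j) atImInfty (𝓝 a) := by
  obtain ⟨a, ha⟩ := exists_tendsto_row d (IsMF.coe (g.F j)) r
  refine ⟨a, ha.congr fun τ => ?_⟩
  simp only [row, g.Φ_apply]

/-- The limit matrix `A⁰` together with the convergence statement, in the shape consumed by the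
assembly of slice [F]. -/
theorem exists_limit_matrix (g : Gens N) (d : DFTData N) :
    ∃ A0 : Matrix (Q N) (Q N) ℂ, ∀ r j, Tendsto (fun τ : ℍ =>
      Complex.exp (-(2 * π * Complex.I * d.e r * τ)) * ∑ q, d.Λ r q * g.Φ τ q j)
      atImInfty (𝓝 (A0 r j)) := by
  choose a ha using fun r j => exists_tendsto g d r j
  exact ⟨Matrix.of a, fun r j => ha r j⟩

end Fermat.Agent.S20.CuspLimits
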