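import Fermat.Agent.S20.Defs
import Fermat.Agent.S23.Integral

/-!
# S20 (PROJECT G), slice [G]: duality

Let `g : Gens N` be a homogeneous basis of `M_*(Γ₀(N))` over `M_*(SL₂(ℤ))` and `Φ` its matrix of
translates.  Assuming that `Φ(τ)` is invertible for all `τ` (slice [E]) and that `Δ · Φ⁻¹` tends to
`0` at `i∞` (slice [F]), the functions `s_j := Δ · (Φ⁻¹)_{j, 1}` are cusp forms of weight
`12 - κ_j` for `Γ₀(N)`.  Hence `κ_j ≤ 10`, and `S₂(Γ₀(N))` has the basis `s_j`, `κ_j = 10`.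
-/

set_option autoImplicit false
set_option linter.unusedSectionVars false

noncomputable section

namespace Fermat.Agent.S20.Duality13

open UpperHalfPlane SlashInvariantForm CongruenceSubgroup Filter Topology

open scoped ModularForm Manifold MatrixGroups

local notation "Δ" => ModularForm.discriminant

variable {N : ℕ} [NeZero N]

/-! ### The transformation law of `Φ` -/

/-- `Φ(γ τ) = P_γ Φ(τ) diag(j(γ, τ) ^ κ)`, entrywise. -/
theorem Φ_smul (g : Gens N) (γ : SL(2, ℤ)) (τ : ℍ) (q j : Q N) :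
    g.Φ (γ • τ) q j = denom γ τ ^ (g.κ j : ℤ) * g.Φ τ ((sl γ)⁻¹ • q) j := by
  have h := congrFun (quotientFunc_smul (g.F j) (sl γ).2 q) τ
  change ((quotientFunc (g.F j) q) ∣[(g.κ j : ℤ)] γ) τ = _ at h
  rw [ModularForm.SL_slash_apply] at h
  have hd : denom γ τ ≠ 0 := denom_ne_zero _ _
  unfold Gens.Φ
  rw [← h, mul_comm, mul_assoc, ← zpow_add₀ hd]
  simp

/-- The inverse matrix. -/
def Ψ (g : Gens N) (τ : ℍ) : Matrix (Q N) (Q N) ℂ := (g.Φ τ)⁻¹

theorem Ψ_mul_Φ (g : Gens N) (hdet : ∀ τ, (g.Φ τ).det ≠ 0) (τ : ℍ) : Ψ g τ * g.Φ τ = 1 :=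
  Matrix.nonsing_inv_mul _ (Ne.isUnit (hdet τ))

theorem Φ_mul_Ψ (g : Gens N) (hdet : ∀ τ, (g.Φ τ).det ≠ 0) (τ : ℍ) : g.Φ τ * Ψ g τ = 1 :=
  Matrix.mul_nonsing_inv _ (Ne.isUnit (hdet τ))

/-- The transformation law of `Ψ = Φ⁻¹`, entrywise. -/
theorem Ψ_smul (g : Gens N) (hdet : ∀ τ, (g.Φ τ).det ≠ 0) (γ : SL(2, ℤ)) (τ : ℍ) (j q : Q N) :
    Ψ g (γ • τ) j q = denom γ τ ^ (-(g.κ j : ℤ)) * Ψ g τ j ((sl γ)⁻¹ • q) := by
  have hd : denom γ τ ≠ 0 := denom_ne_zero _ _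
  set B : Matrix (Q N) (Q N) ℂ :=
    fun j q => denom γ τ ^ (-(g.κ j : ℤ)) * Ψ g τ j ((sl γ)⁻¹ • q) with hB
  have hBΦ : B * g.Φ (γ • τ) = 1 := by
    ext j j'
    rw [Matrix.mul_apply]
    have h1 : ∀ q, B j q * g.Φ (γ • τ) q j' =
        denom γ τ ^ (-(g.κ j : ℤ)) * denom γ τ ^ (g.κ j' : ℤ) *
          (Ψ g τ j ((sl γ)⁻¹ • q) * g.Φ τ ((sl γ)⁻¹ • q) j') := by
      intro q
      rw [Φ_smul, hB]
      ring
    have h2 : ∑ q, Ψ g τ j ((sl γ)⁻¹ • q) * g.Φ τ ((sl γ)⁻¹ • q) j' =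
        ∑ q, Ψ g τ j q * g.Φ τ q j' :=
      Fintype.sum_equiv (MulAction.toPerm (sl γ)⁻¹ : Q N ≃ Q N) _ _ fun q => rfl
    rw [Finset.sum_congr rfl fun q _ => h1 q, ← Finset.mul_sum, h2, ← Matrix.mul_apply,
      Ψ_mul_Φ g hdet]
    by_cases hjj : j = j'
    · subst hjj
      rw [← zpow_add₀ hd]
      simp
    · simp [Matrix.one_apply_ne hjj]
  have : (g.Φ (γ • τ))⁻¹ = B := Matrix.inv_eq_left_inv hBΦ
  show (g.Φ (γ • τ))⁻¹ j q = _
  rw [this]

/-! ### Holomorphy -/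

theorem mdiff_det {n : Type} [Fintype n] [DecidableEq n] (M : ℍ → Matrix n n ℂ)
    (hM : ∀ a b, MDiff fun τ => M τ a b) : MDiff fun τ => (M τ).det := by
  have : (fun τ => (M τ).det) =
      ∑ σ : Equiv.Perm n, ((Equiv.Perm.sign σ : ℤ) : ℂ) • ∏ i, fun τ => M τ (σ i) i := by
    funext τ
    rw [Matrix.det_apply, Finset.sum_apply]
    refine Finset.sum_congr rfl fun σ _ => ?_
    rw [Pi.smul_apply, Finset.prod_apply]
    simp [Units.smul_def, zsmul_eq_mul]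
  rw [this]
  exact .sum fun σ _ => .const_smul _ (.prod fun i _ => hM _ _)

theorem mdiff_inv {n : Type} [Fintype n] [DecidableEq n] (M : ℍ → Matrix n n ℂ)
    (hM : ∀ a b, MDiff fun τ => M τ a b) (hdet : ∀ τ, (M τ).det ≠ 0) (a b : n) :
    MDiff fun τ => (M τ)⁻¹ a b := by
  have h1 : (fun τ => (M τ)⁻¹ a b) =
      (fun τ => (M τ).det)⁻¹ * fun τ => ((M τ).updateRow b (Pi.single a 1)).det := by
    funext τ
    rw [Matrix.inv_def, Matrix.smul_apply, Matrix.adjugate_apply, Ring.inverse_eq_inv']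
    simp
  rw [h1]
  refine ((mdiff_det M hM).inv hdet).mul (mdiff_det _ fun c d => ?_)
  by_cases hc : c = b
  · subst hc
    simp only [Matrix.updateRow_self]
    exact mdifferentiable_const
  · simp only [Matrix.updateRow_ne hc]
    exact hM c d

theorem mdiff_Φ (g : Gens N) (q j : Q N) : MDiff fun τ => g.Φ τ q j := by
  unfold Gens.Φ
  induction q using Quotient.inductionOn with
  | h r => exact (ModularForm.translate (g.F j) (r : GL (Fin 2) ℝ)⁻¹).holo'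

theorem mdiff_Ψ (g : Gens N) (hdet : ∀ τ, (g.Φ τ).det ≠ 0) (j q : Q N) :
    MDiff fun τ => Ψ g τ j q :=
  mdiff_inv (fun τ => g.Φ τ) (fun a b => mdiff_Φ g a b) hdet j q

/-! ### The dual forms -/

theorem discriminant_smul (σ : SL(2, ℤ)) (τ : ℍ) : Δ (σ • τ) = denom σ τ ^ (12 : ℤ) * Δ τ :=
  SlashInvariantForm.slash_action_eqn'' CuspForm.discriminant
    (show (Matrix.SpecialLinearGroup.mapGL ℝ σ) ∈ 𝒮ℒ from ⟨σ, rfl⟩) τ

/-- The functions `Δ · Ψ_{j,q}`. -/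
def sFun (g : Gens N) (j q : Q N) : ℍ → ℂ := fun τ => Δ τ * Ψ g τ j q

theorem sFun_slash (g : Gens N) (hdet : ∀ τ, (g.Φ τ).det ≠ 0) (j q : Q N) (σ : SL(2, ℤ)) :
    (sFun g j q) ∣[(12 - (g.κ j : ℤ))] σ = sFun g j ((sl σ)⁻¹ • q) := by
  funext τ
  have hd : denom σ τ ≠ 0 := denom_ne_zero _ _
  rw [ModularForm.SL_slash_apply]
  unfold sFun
  rw [discriminant_smul, Ψ_smul g hdet]
  have : denom σ τ ^ (12 : ℤ) * Δ τ * (denom σ τ ^ (-(g.κ j : ℤ)) * Ψ g τ j ((sl σ)⁻¹ • q)) *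
      denom σ τ ^ (-(12 - (g.κ j : ℤ))) =
      (denom σ τ ^ (12 : ℤ) * denom σ τ ^ (-(g.κ j : ℤ)) * denom σ τ ^ (-(12 - (g.κ j : ℤ)))) *
        (Δ τ * Ψ g τ j ((sl σ)⁻¹ • q)) := by ring
  rw [this, ← zpow_add₀ hd, ← zpow_add₀ hd]
  have : (12 : ℤ) + -(g.κ j : ℤ) + -(12 - (g.κ j : ℤ)) = 0 := by ring
  rw [this, zpow_zero, one_mul]

theorem mdiff_sFun (g : Gens N) (hdet : ∀ τ, (g.Φ τ).det ≠ 0) (j q : Q N) :
    MDiff (sFun g j q) :=
  CuspForm.discriminant.holo'.mul (mdiff_Ψ g hdet j q)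

/-- The coset of the identity. -/
def q1 : Q N := ((1 : 𝒮ℒ) : Q N)

theorem sl_inv_smul_q1 {γ : SL(2, ℤ)} (hγ : γ ∈ Gamma0 N) : (sl γ)⁻¹ • (q1 : Q N) = q1 := by
  unfold q1
  show (((sl γ)⁻¹ * 1 : 𝒮ℒ) : Q N) = ((1 : 𝒮ℒ) : Q N)
  rw [QuotientGroup.eq, mul_one, mul_one, inv_inv, Subgroup.mem_subgroupOf]
  exact ⟨γ, hγ, rfl⟩

/-- The dual cusp forms `s_j = Δ · Ψ_{j, 1}` of weight `12 - κ_j`. -/
theorem exists_dualForm (g : Gens N) (hdet : ∀ τ, (g.Φ τ).det ≠ 0)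
    (hcusp : ∀ j q : Q N, Tendsto (fun τ => Δ τ * (g.Φ τ)⁻¹ j q) atImInfty (𝓝 0)) (j : Q N) :
    ∃ s : CuspForm (Gamma0 N) (12 - (g.κ j : ℤ)), ⇑s = sFun g j q1 := by
  refine Fermat.Agent.S23.Integral.exists_cuspForm_of_zero (sFun g j q1) (mdiff_sFun g hdet j q1) ?_ ?_
  · intro γ hγ
    rw [sFun_slash g hdet, sl_inv_smul_q1 hγ]
  · intro σ
    rw [sFun_slash g hdet]
    exact hcusp j _

/-! ### Vanishing of cusp forms of weight `≤ 1` -/

theorem neg_one_mem_G0 : (-1 : GL (Fin 2) ℝ) ∈ G0 N := by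
  refine ⟨-1, ?_, ?_⟩
  · rw [SetLike.mem_coe, Gamma0_mem]
    simp
  · ext i j
    simp

theorem cuspForm_eq_zero_of_weight_le_one {k : ℤ} (hk : k ≤ 1) (s : CuspForm (Gamma0 N) k)
    (h0 : Tendsto (⇑s) atImInfty (𝓝 0)) : ∀ τ, s τ = 0 := by
  intro τ
  rcases lt_trichotomy k 0 with hneg | rfl | hpos
  · have := ModularForm.isZero_of_neg_weight hneg (CuspForm.toModularFormₗ s)
    have h2 := congrArg (fun f : ModularForm (G0 N) k => f τ) this
    simpa using h2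
  · obtain ⟨c, hc⟩ := ModularForm.eq_const_of_weight_zero (CuspForm.toModularFormₗ s)
    have hc' : (⇑s : ℍ → ℂ) = Function.const ℍ c := by
      rw [← hc]; rfl
    rw [hc'] at h0
    have : c = 0 := tendsto_nhds_unique tendsto_const_nhds h0
    rw [hc', this]
    rfl
  · have hk1 : k = 1 := le_antisymm hk hpos
    subst hk1
    have := ModularForm.eq_zero_of_neg_one_mem (Γ := G0 N) neg_one_mem_G0 odd_one
      (CuspForm.toModularFormₗ s)
    have h2 := congrArg (fun f : ModularForm (G0 N) 1 => f τ) this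
    simpa using h2

/-! ### `κ ≤ 10` -/

theorem exists_sl_smul_q1 (q : Q N) : ∃ σ : SL(2, ℤ), (sl σ)⁻¹ • (q1 : Q N) = q := by
  induction q using Quotient.inductionOn with
  | h r =>
    obtain ⟨r, σ, rfl⟩ := r
    refine ⟨σ⁻¹, ?_⟩
    unfold q1
    show (((sl σ⁻¹)⁻¹ * 1 : 𝒮ℒ) : Q N) = _
    rw [mul_one]
    congr 1
    apply Subtype.ext
    simp [sl]

/-- If `s_j = 0` then the whole row `Ψ_{j, ·}` vanishes. -/
theorem Ψ_row_eq_zero (g : Gens N) (hdet : ∀ τ, (g.Φ τ).det ≠ 0) (j : Q N)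
    (h : ∀ τ, sFun g j q1 τ = 0) (q : Q N) (τ : ℍ) : Ψ g τ j q = 0 := by
  obtain ⟨σ, rfl⟩ := exists_sl_smul_q1 q
  have h1 : sFun g j q1 = 0 := funext h
  have h2 := sFun_slash g hdet j q1 σ
  rw [h1, SlashAction.zero_slash] at h2
  have h3 := congrFun h2 τ
  unfold sFun at h3
  have hΔ : Δ τ ≠ 0 := ModularForm.discriminant_ne_zero τ
  exact (mul_eq_zero.mp h3.symm).resolve_left hΔ

/-- **`κ_j ≤ 10`.** -/
theorem κ_le_ten (g : Gens N) (hdet : ∀ τ, (g.Φ τ).det ≠ 0)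
    (hcusp : ∀ j q : Q N, Tendsto (fun τ => Δ τ * (g.Φ τ)⁻¹ j q) atImInfty (𝓝 0)) (j : Q N) :
    g.κ j ≤ 10 := by
  by_contra hlt
  rw [not_le] at hlt
  obtain ⟨s, hs⟩ := exists_dualForm g hdet hcusp j
  have hw : (12 - (g.κ j : ℤ)) ≤ 1 := by omega
  have hs0 : ∀ τ, s τ = 0 := cuspForm_eq_zero_of_weight_le_one hw s (by rw [hs]; exact hcusp j q1)
  have hrow : ∀ q τ, Ψ g τ j q = 0 := Ψ_row_eq_zero g hdet j (fun τ => by rw [← hs]; exact hs0 τ)
  have h1 := congrFun (congrFun (Ψ_mul_Φ g hdet UpperHalfPlane.I) j) j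
  rw [Matrix.mul_apply, Matrix.one_apply_eq] at h1
  simp [hrow] at h1

/-! ### The dimension of `S₂(Γ₀(N))` -/

theorem quotientFunc_mulModularForm {k₁ k₂ : ℤ} (f : CuspForm (G0 N) k₁)
    (F : ModularForm (G0 N) k₂) (q : Q N) :
    quotientFunc (f.mulModularForm F) q = quotientFunc f q * quotientFunc F q := by
  induction q using Quotient.inductionOn with
  | h r =>
    have hdet : |((r : GL (Fin 2) ℝ)⁻¹.det : ℝ)| = 1 :=
      Subgroup.HasDetPlusMinusOne.abs_det (inv_mem r.2)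
    simp only [quotientFunc_mk, CuspForm.coe_mulModularForm, ModularForm.mul_slash]
    rw [hdet, one_smul]

theorem quotientFunc_q1 {k : ℤ} (f : CuspForm (G0 N) k) : quotientFunc f (q1 : Q N) = ⇑f := by
  unfold q1
  show quotientFunc f ⟦(1 : 𝒮ℒ)⟧ = ⇑f
  rw [quotientFunc_mk]
  simp

/-- The level one cusp form `Tr(f · F_j)`. -/
def trF (g : Gens N) (f : CuspForm (Gamma0 N) 2) (j : Q N) : CuspForm 𝒮ℒ (2 + (g.κ j : ℤ)) :=
  CuspForm.trace 𝒮ℒ (f.mulModularForm (g.F j))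

theorem trF_apply (g : Gens N) (f : CuspForm (Gamma0 N) 2) (j : Q N) (τ : ℍ) :
    trF g f j τ = ∑ q, quotientFunc f q τ * g.Φ τ q j := by
  unfold trF
  rw [CuspForm.coe_trace, Finset.sum_apply]
  refine Finset.sum_congr rfl fun q _ => ?_
  rw [quotientFunc_mulModularForm]
  rfl

theorem levelOne_cusp_eq_zero {k : ℤ} (hk : k < 12) (t : CuspForm 𝒮ℒ k) : t = 0 :=
  rank_zero_iff_forall_zero.mp (CuspForm.rank_eq_zero_of_weight_lt_twelve hk) t

theorem levelOne_cusp_eq_smul {k : ℤ} (hk : k = 12) (t : CuspForm 𝒮ℒ k) :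
    ∃ c : ℂ, ∀ τ, t τ = c * Δ τ := by
  subst hk
  obtain ⟨c, hc⟩ := CuspForm.exists_smul_discriminant_of_weight_eq_twelve t
  refine ⟨c, fun τ => ?_⟩
  rw [← hc]
  rfl

/-- Every weight two cusp form is a combination of the dual forms `s_j`, `κ_j = 10`. -/
theorem exists_coeffs (g : Gens N) (hdet : ∀ τ, (g.Φ τ).det ≠ 0)
    (hκ : ∀ j, g.κ j ≤ 10) (f : CuspForm (Gamma0 N) 2) :
    ∃ c : Q N → ℂ, (∀ j, g.κ j ≠ 10 → c j = 0) ∧ ∀ τ, f τ = ∑ j, c j * sFun g j q1 τ := by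
  classical
  have hex : ∀ j, ∃ c : ℂ, (g.κ j ≠ 10 → c = 0) ∧ ∀ τ, trF g f j τ = c * Δ τ := by
    intro j
    by_cases h10 : g.κ j = 10
    · obtain ⟨c, hc⟩ := levelOne_cusp_eq_smul (by rw [h10]; norm_num) (trF g f j)
      exact ⟨c, fun h => absurd h10 h, hc⟩
    · have hlt : (2 + (g.κ j : ℤ)) < 12 := by
        have := hκ j
        omega
      refine ⟨0, fun _ => rfl, fun τ => ?_⟩
      rw [levelOne_cusp_eq_zero hlt (trF g f j)]
      simp
  choose c hc0 hc using hex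
  refine ⟨c, hc0, fun τ => ?_⟩
  -- `f_q = ∑_j t_j Ψ_{j,q}`
  have key : ∀ q, quotientFunc f q τ = ∑ j, trF g f j τ * Ψ g τ j q := by
    intro q
    have h1 : ∀ j, trF g f j τ * Ψ g τ j q =
        ∑ q', quotientFunc f q' τ * (g.Φ τ q' j * Ψ g τ j q) := by
      intro j
      rw [trF_apply, Finset.sum_mul]
      refine Finset.sum_congr rfl fun q' _ => ?_
      ring
    rw [Finset.sum_congr rfl fun j _ => h1 j, Finset.sum_comm]
    have h2 : ∀ q', ∑ j, quotientFunc f q' τ * (g.Φ τ q' j * Ψ g τ j q) =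
        quotientFunc f q' τ * (1 : Matrix (Q N) (Q N) ℂ) q' q := by
      intro q'
      rw [← Finset.mul_sum, ← Matrix.mul_apply, Φ_mul_Ψ g hdet]
    rw [Finset.sum_congr rfl fun q' _ => h2 q']
    simp [Matrix.one_apply]
  have h3 := key q1
  rw [quotientFunc_q1] at h3
  rw [h3]
  refine Finset.sum_congr rfl fun j _ => ?_
  rw [hc j]
  unfold sFun
  ring

/-- The dual forms with `κ_j = 10` are linearly independent. -/
theorem coeffs_eq_zero (g : Gens N) (hdet : ∀ τ, (g.Φ τ).det ≠ 0) (c : Q N → ℂ)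
    (hc0 : ∀ j, g.κ j ≠ 10 → c j = 0) (h : ∀ τ, ∑ j, c j * sFun g j q1 τ = 0) : ∀ j, c j = 0 := by
  -- the relation for all columns `q`
  have hq : ∀ q τ, ∑ j, c j * Ψ g τ j q = 0 := by
    intro q τ
    obtain ⟨σ, rfl⟩ := exists_sl_smul_q1 q
    have h1 := h (σ • τ)
    have hΔ : Δ (σ • τ) ≠ 0 := ModularForm.discriminant_ne_zero _
    have hd : denom σ τ ≠ 0 := denom_ne_zero _ _
    have h2 : ∑ j, c j * sFun g j q1 (σ • τ) =
        Δ (σ • τ) * denom σ τ ^ (-(10 : ℤ)) * ∑ j, c j * Ψ g τ j ((sl σ)⁻¹ • q1) := by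
      rw [Finset.mul_sum]
      refine Finset.sum_congr rfl fun j _ => ?_
      unfold sFun
      rw [Ψ_smul g hdet]
      by_cases h10 : g.κ j = 10
      · rw [h10]
        push_cast
        ring
      · rw [hc0 j h10]
        ring
    rw [h2] at h1
    exact (mul_eq_zero.mp h1).resolve_left (mul_ne_zero hΔ (zpow_ne_zero _ hd))
  intro j
  have h1 : c j = ∑ q, (∑ j', c j' * Ψ g UpperHalfPlane.I j' q) * g.Φ UpperHalfPlane.I q j := by
    have h2 : ∀ q, (∑ j', c j' * Ψ g UpperHalfPlane.I j' q) * g.Φ UpperHalfPlane.I q j =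
        ∑ j', c j' * (Ψ g UpperHalfPlane.I j' q * g.Φ UpperHalfPlane.I q j) := by
      intro q
      rw [Finset.sum_mul]
      refine Finset.sum_congr rfl fun j' _ => ?_
      ring
    rw [Finset.sum_congr rfl fun q _ => h2 q, Finset.sum_comm]
    have h3 : ∀ j', ∑ q, c j' * (Ψ g UpperHalfPlane.I j' q * g.Φ UpperHalfPlane.I q j) =
        c j' * (1 : Matrix (Q N) (Q N) ℂ) j' j := by
      intro j'
      rw [← Finset.mul_sum, ← Matrix.mul_apply, Ψ_mul_Φ g hdet]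
    rw [Finset.sum_congr rfl fun j' _ => h3 j']
    simp [Matrix.one_apply]
  rw [h1]
  simp [hq]

/-- The dual forms of weight `2`. -/
theorem exists_dualForm_two (g : Gens N) (hdet : ∀ τ, (g.Φ τ).det ≠ 0)
    (hcusp : ∀ j q : Q N, Tendsto (fun τ => Δ τ * (g.Φ τ)⁻¹ j q) atImInfty (𝓝 0)) (j : Q N)
    (hj : g.κ j = 10) : ∃ s : CuspForm (Gamma0 N) 2, ⇑s = sFun g j q1 := by
  obtain ⟨s, hs⟩ := exists_dualForm g hdet hcusp j
  exact ⟨CuspForm.mcast (by rw [hj]; norm_num) s, hs⟩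

/-- **`dim S₂(Γ₀(N)) = m₁₀`.** -/
theorem finrank_cusp (g : Gens N) (hdet : ∀ τ, (g.Φ τ).det ≠ 0)
    (hcusp : ∀ j q : Q N, Tendsto (fun τ => Δ τ * (g.Φ τ)⁻¹ j q) atImInfty (𝓝 0)) :
    Module.finrank ℂ (CuspForm (Gamma0 N) 2) = g.m 10 := by
  classical
  have hκ := κ_le_ten g hdet hcusp
  -- the family of dual forms
  let s' : {j : Q N // g.κ j = 10} → CuspForm (Gamma0 N) 2 := fun j =>
    Classical.choose (exists_dualForm_two g hdet hcusp j.1 j.2)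
  have hs' : ∀ j : {j : Q N // g.κ j = 10}, ⇑(s' j) = sFun g j.1 q1 := fun j =>
    Classical.choose_spec (exists_dualForm_two g hdet hcusp j.1 j.2)
  -- sums over the subtype versus sums over `Q N`
  have hsum : ∀ (c : Q N → ℂ) (x : Q N → ℂ), (∀ j, g.κ j ≠ 10 → c j = 0) →
      ∑ j, c j * x j = ∑ j : {j : Q N // g.κ j = 10}, c j.1 * x j.1 := by
    intro c x hc
    rw [← Finset.sum_subtype (Finset.univ.filter fun j => g.κ j = 10) (by simp)
      (fun j => c j * x j)]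
    refine (Finset.sum_subset (Finset.subset_univ _) fun j _ hj => ?_).symm
    rw [Finset.mem_filter, not_and] at hj
    rw [hc j (hj (Finset.mem_univ j)), zero_mul]
  have hli : LinearIndependent ℂ s' := by
    rw [Fintype.linearIndependent_iff]
    intro c hc j
    let c' : Q N → ℂ := fun j => if h : g.κ j = 10 then c ⟨j, h⟩ else 0
    have hc'0 : ∀ j, g.κ j ≠ 10 → c' j = 0 := fun j hj => dif_neg hj
    have hc'1 : ∀ j : {j : Q N // g.κ j = 10}, c' j.1 = c j := fun j => by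
      simp only [c', dif_pos j.2]
    have hrel : ∀ τ, ∑ j, c' j * sFun g j q1 τ = 0 := by
      intro τ
      rw [hsum c' (fun j => sFun g j q1 τ) hc'0]
      have h1 := congrArg (fun f : CuspForm (Gamma0 N) 2 => f τ) hc
      simp only [FunLike.coe_sum, Finset.sum_apply, FunLike.coe_smul, Pi.smul_apply,
        smul_eq_mul, FunLike.coe_zero, Pi.zero_apply] at h1
      rw [← h1]
      refine Finset.sum_congr rfl fun j _ => ?_
      rw [hc'1, hs']
    have := coeffs_eq_zero g hdet c' hc'0 hrel j.1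
    rw [hc'1] at this
    exact this
  have hsp : ⊤ ≤ Submodule.span ℂ (Set.range s') := by
    intro f _
    obtain ⟨c, hc0, hc⟩ := exists_coeffs g hdet hκ f
    have hf : f = ∑ j : {j : Q N // g.κ j = 10}, c j.1 • s' j := by
      apply DFunLike.ext
      intro τ
      rw [hc τ, hsum c (fun j => sFun g j q1 τ) hc0]
      simp only [FunLike.coe_sum, Finset.sum_apply, FunLike.coe_smul, Pi.smul_apply, smul_eq_mul]
      refine Finset.sum_congr rfl fun j _ => ?_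
      rw [hs']
    rw [hf]
    exact Submodule.sum_mem _ fun j _ =>
      Submodule.smul_mem _ _ (Submodule.subset_span (Set.mem_range_self j))
  have hb := Module.finrank_eq_card_basis (Module.Basis.mk hli hsp)
  rw [hb, Fintype.card_subtype]
  rfl

end Fermat.Agent.S20.Duality13
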