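import Fermat.Agent.S20.Free
import Fermat.Agent.S20.LevelOneMono

/-!
# S20 (PROJECT G), slice [C], hypothesis-free

`M_*(Γ₀(N))` has a homogeneous family which generates it over `M_*(SL₂(ℤ))` and is independent
over it (`Free.exists_basis_of` with A1 = `LevelOneMono.exists_monomials`).
-/

set_option autoImplicit false

namespace Fermat.Agent.S20.FreeFinal

open UpperHalfPlane ModularForm CongruenceSubgroup
open scoped ModularForm Manifold MatrixGroups
open Fermat.Agent.S20

/-- A1 in the shape used by `Free`. -/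
theorem a1 : Free.A1 := fun _ f => LevelOneMono.exists_monomials f

/-- **Slice [C]**, hypothesis-free, in the exact shape of the interface. -/
theorem exists_basis (N : ℕ) [NeZero N] :
    ∃ (ι : Type) (κ : ι → ℕ) (F : (j : ι) → ModularForm (G0 N) (κ j)),
      (∀ (k : ℤ) (f : ModularForm (G0 N) k), ∃ (s : Finset ι)
        (c : (j : ι) → ModularForm 𝒮ℒ (k - κ j)), ∀ τ, f τ = ∑ j ∈ s, c j τ * F j τ) ∧
      ∀ (k : ℤ) (s : Finset ι) (c : (j : ι) → ModularForm 𝒮ℒ (k - κ j)),
        (∀ τ, ∑ j ∈ s, c j τ * F j τ = 0) → ∀ j ∈ s, c j = 0 :=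
  Free.exists_basis_of a1 N

end Fermat.Agent.S20.FreeFinal
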