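/-
Project G (S20), support for slice [F] (cusps), helper26.
Block discrete Fourier transform diagonalising a permutation of a finite set.
-/
import Mathlib

open Function

namespace Fermat.Agent.S20.PermDiag

set_option linter.unusedSectionVars false

variable {Q : Type*} [Fintype Q] [DecidableEq Q] (σ : Equiv.Perm Q)

theorem mem_periodicPts (q : Q) : q ∈ periodicPts σ := by
  refine mk_mem_periodicPts (orderOf_pos σ) ?_
  show (⇑σ)^[orderOf σ] q = q
  rw [Equiv.Perm.iterate_eq_pow, pow_orderOf_eq_one]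
  rfl

/-- The length of the cycle through `q`. -/
noncomputable def per (q : Q) : ℕ := minimalPeriod σ q

theorem per_pos (q : Q) : 0 < per σ q := minimalPeriod_pos_of_mem_periodicPts (mem_periodicPts σ q)

theorem per_le_card (q : Q) : per σ q ≤ Fintype.card Q := minimalPeriod_le_card

theorem per_apply (q : Q) : per σ (σ q) = per σ q := minimalPeriod_apply (mem_periodicPts σ q)

theorem per_iterate (q : Q) (n : ℕ) : per σ ((⇑σ)^[n] q) = per σ q :=
  minimalPeriod_apply_iterate (mem_periodicPts σ q) n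

theorem iterate_per (q : Q) : (⇑σ)^[per σ q] q = q := isPeriodicPt_minimalPeriod σ q

theorem iterate_eq_iterate_iff (q : Q) (m n : ℕ) :
    (⇑σ)^[m] q = (⇑σ)^[n] q ↔ m ≡ n [MOD per σ q] := by
  rw [← iterate_mod_minimalPeriod_eq (n := m), ← iterate_mod_minimalPeriod_eq (n := n),
    iterate_eq_iterate_iff_of_lt_minimalPeriod (Nat.mod_lt _ (per_pos σ q))
      (Nat.mod_lt _ (per_pos σ q))]
  rfl

/-- The chosen base point of the cycle through `q`. -/
noncomputable def base (q : Q) : Q :=
  (Quotient.mk (Equiv.Perm.SameCycle.setoid σ) q).out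

theorem sameCycle_base (q : Q) : σ.SameCycle (base σ q) q :=
  @Quotient.mk_out _ (Equiv.Perm.SameCycle.setoid σ) q

theorem base_eq_iff (q q' : Q) : base σ q = base σ q' ↔ σ.SameCycle q q' := by
  constructor
  · intro h
    exact ((sameCycle_base σ q).symm.trans (h ▸ sameCycle_base σ q'))
  · intro h
    unfold base
    rw [@Quotient.sound _ (Equiv.Perm.SameCycle.setoid σ) q q' h]

theorem base_apply (q : Q) : base σ (σ q) = base σ q :=
  (base_eq_iff σ _ _).mpr (Equiv.Perm.sameCycle_apply_left.mpr (Equiv.Perm.SameCycle.refl σ q))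

theorem base_base (q : Q) : base σ (base σ q) = base σ q :=
  (base_eq_iff σ _ _).mpr (sameCycle_base σ q)

theorem exists_iterate_base (q : Q) : ∃ n : ℕ, (⇑σ)^[n] (base σ q) = q := by
  obtain ⟨n, hn⟩ := (sameCycle_base σ q).exists_nat_pow_eq
  exact ⟨n, by rw [Equiv.Perm.iterate_eq_pow]; exact hn⟩

theorem per_base (q : Q) : per σ (base σ q) = per σ q := by
  obtain ⟨n, hn⟩ := exists_iterate_base σ q
  conv_rhs => rw [← hn]
  rw [per_iterate]

/-- The position of `q` on its cycle, counted from the base point. -/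
noncomputable def idx (q : Q) : ℕ := (exists_iterate_base σ q).choose % per σ q

theorem idx_lt (q : Q) : idx σ q < per σ q := Nat.mod_lt _ (per_pos σ q)

theorem iterate_idx (q : Q) : (⇑σ)^[idx σ q] (base σ q) = q := by
  have h := (exists_iterate_base σ q).choose_spec
  unfold idx
  rw [← per_base, per, iterate_mod_minimalPeriod_eq]
  exact h

theorem idx_apply (q : Q) : idx σ (σ q) ≡ idx σ q + 1 [MOD per σ q] := by
  have h1 := iterate_idx σ (σ q)
  rw [base_apply] at h1
  have h2 : (⇑σ)^[idx σ q + 1] (base σ q) = σ q := by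
    rw [add_comm, iterate_add_apply, iterate_one, iterate_idx]
  rw [← per_base]
  exact (iterate_eq_iterate_iff σ _ _ _).mp (h1.trans h2.symm)

theorem idx_base (q : Q) : idx σ (base σ q) = 0 := by
  have h1 := iterate_idx σ (base σ q)
  rw [base_base] at h1
  have h2 : (⇑σ)^[0] (base σ q) = base σ q := rfl
  have h3 := (iterate_eq_iterate_iff σ _ _ _).mp (h1.trans h2.symm)
  have h4 := idx_lt σ (base σ q)
  exact Nat.eq_zero_of_dvd_of_lt ((Nat.modEq_zero_iff_dvd).mp h3) h4

theorem eq_of_base_eq_of_idx_eq {q q' : Q} (hb : base σ q = base σ q') (hi : idx σ q = idx σ q') :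
    q = q' := by
  rw [← iterate_idx σ q, ← iterate_idx σ q', hb, hi]

theorem idx_eq_zero_iff (q : Q) : idx σ q = 0 ↔ base σ q = q := by
  constructor
  · intro h
    have := iterate_idx σ q
    rwa [h] at this
  · intro h
    rw [← h, idx_base]


open Real in
/-- `ζ_h ^ n = exp (2πi n / h)`. -/
noncomputable def zeta (h : ℕ) (n : ℤ) : ℂ := Complex.exp (2 * π * Complex.I * ((n : ℂ) / (h : ℂ)))

theorem zeta_zero (h : ℕ) : zeta h 0 = 1 := by simp [zeta]

theorem zeta_add (h : ℕ) (m n : ℤ) : zeta h (m + n) = zeta h m * zeta h n := by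
  unfold zeta
  rw [← Complex.exp_add]
  congr 1
  push_cast
  ring

theorem zeta_neg (h : ℕ) (n : ℤ) : zeta h (-n) = (zeta h n)⁻¹ := by
  unfold zeta
  rw [← Complex.exp_neg]
  congr 1
  push_cast
  ring

theorem zeta_eq_one_iff {h : ℕ} (hh : 0 < h) (n : ℤ) : zeta h n = 1 ↔ (h : ℤ) ∣ n := by
  unfold zeta
  rw [Complex.exp_eq_one_iff]
  have hh' : (h : ℂ) ≠ 0 := by exact_mod_cast hh.ne'
  have hpi : (2 * (Real.pi : ℂ) * Complex.I) ≠ 0 := Complex.two_pi_I_ne_zero
  constructor
  · rintro ⟨k, hk⟩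
    refine ⟨k, ?_⟩
    have h1 : (n : ℂ) / h = k := by
      have : 2 * (Real.pi : ℂ) * Complex.I * ((n : ℂ) / h) = 2 * (Real.pi : ℂ) * Complex.I * k := by
        rw [hk]; ring
      exact mul_left_cancel₀ hpi this
    have h2 : (n : ℂ) = (h : ℂ) * k := by
      rw [← h1]; field_simp
    exact_mod_cast h2
  · rintro ⟨k, rfl⟩
    refine ⟨k, ?_⟩
    push_cast
    field_simp

theorem zeta_mul_self (h : ℕ) (hh : 0 < h) (k : ℤ) : zeta h (h * k) = 1 :=
  (zeta_eq_one_iff hh _).mpr ⟨k, rfl⟩

theorem zeta_eq_of_modEq {h : ℕ} (hh : 0 < h) {m n : ℤ} (hmn : m ≡ n [ZMOD h]) :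
    zeta h m = zeta h n := by
  have h1 : zeta h (m - n) = 1 := (zeta_eq_one_iff hh _).mpr hmn.symm.dvd
  have h2 : zeta h m = zeta h (m - n) * zeta h n := by rw [← zeta_add]; congr 1; ring
  rw [h2, h1, one_mul]

theorem zeta_mul_nat (h : ℕ) (c : ℤ) (a : ℕ) : zeta h (a * c) = zeta h c ^ a := by
  induction a with
  | zero => simp [zeta_zero]
  | succ a ih =>
    rw [pow_succ, ← ih, ← zeta_add]
    congr 1
    push_cast
    ring

/-- Orthogonality of characters of `ℤ / h`. -/
theorem sum_zeta {h : ℕ} (hh : 0 < h) (c : ℤ) :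
    ∑ a ∈ Finset.range h, zeta h (a * c) = if (h : ℤ) ∣ c then (h : ℂ) else 0 := by
  simp_rw [zeta_mul_nat]
  split_ifs with hc
  · rw [(zeta_eq_one_iff hh c).mpr hc]
    simp
  · have hne : zeta h c ≠ 1 := fun h1 => hc ((zeta_eq_one_iff hh c).mp h1)
    have hgeom := geom_sum_mul (zeta h c) h
    have hpow : zeta h c ^ h = 1 := by
      rw [← zeta_mul_nat, zeta_mul_self h hh]
    rw [hpow, sub_self] at hgeom
    exact (mul_eq_zero.mp hgeom).resolve_right (sub_ne_zero.mpr hne)


section Matrices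

variable {Q : Type*} [Fintype Q] [DecidableEq Q] (σ : Equiv.Perm Q)

theorem base_iterate (q : Q) (n : ℕ) : base σ ((⇑σ)^[n] q) = base σ q := by
  induction n with
  | zero => rfl
  | succ n ih => rw [iterate_succ_apply', base_apply, ih]

theorem per_eq_of_base_eq {q q' : Q} (h : base σ q = base σ q') : per σ q = per σ q' := by
  rw [← per_base σ q, ← per_base σ q', h]

theorem idx_iterate_base {p : Q} (hp : base σ p = p) {b : ℕ} (hb : b < per σ p) :
    idx σ ((⇑σ)^[b] p) = b := by
  have h1 := iterate_idx σ ((⇑σ)^[b] p)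
  rw [base_iterate, hp] at h1
  have h2 := (iterate_eq_iterate_iff σ p _ _).mp h1
  have h3 : idx σ ((⇑σ)^[b] p) < per σ p := by
    have := idx_lt σ ((⇑σ)^[b] p)
    rwa [per_iterate] at this
  exact Nat.ModEq.eq_of_lt_of_lt h2 h3 hb

/-- Summation over a cycle, parametrised by the position on the cycle. -/
theorem sum_cycle {M : Type*} [AddCommMonoid M] {p : Q} (hp : base σ p = p) (F : ℕ → M) :
    ∑ q ∈ Finset.univ.filter (fun q => base σ q = p), F (idx σ q) =
      ∑ b ∈ Finset.range (per σ p), F b := by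
  refine Finset.sum_nbij' (fun q => idx σ q) (fun b => (⇑σ)^[b] p) ?_ ?_ ?_ ?_ ?_
  · intro q hq
    rw [Finset.mem_filter] at hq
    rw [Finset.mem_range, ← hq.2, per_base]
    exact idx_lt σ q
  · intro b _
    rw [Finset.mem_filter]
    exact ⟨Finset.mem_univ _, by rw [base_iterate, hp]⟩
  · intro q hq
    rw [Finset.mem_filter] at hq
    rw [← hq.2]
    exact iterate_idx σ q
  · intro b hb
    exact idx_iterate_base σ hp (Finset.mem_range.mp hb)
  · intro q _
    rfl

/-- The block discrete Fourier matrix of `σ`. -/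
noncomputable def dftMat : Matrix Q Q ℂ := fun r q =>
  if base σ r = base σ q then zeta (per σ r) ((idx σ r : ℤ) * (idx σ q : ℤ)) else 0

/-- The inverse of the block discrete Fourier matrix of `σ`. -/
noncomputable def dftInv : Matrix Q Q ℂ := fun q r =>
  if base σ r = base σ q then ((per σ r : ℂ))⁻¹ * zeta (per σ r) (-((idx σ r : ℤ) * (idx σ q : ℤ)))
  else 0

theorem dftInv_mul_dftMat : dftInv σ * dftMat σ = 1 := by
  ext q q'
  rw [Matrix.mul_apply, Matrix.one_apply]
  by_cases hb : base σ q = base σ q'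
  · -- same cycle
    set p := base σ q with hp
    have hpp : base σ p = p := base_base σ q
    have hper : per σ p = per σ q := per_base σ q
    have hpos : 0 < per σ p := per_pos σ p
    have hsum : ∑ r, dftInv σ q r * dftMat σ r q' =
        ∑ r ∈ Finset.univ.filter (fun r => base σ r = p),
          ((per σ p : ℂ))⁻¹ * zeta (per σ p) ((idx σ r : ℤ) * ((idx σ q' : ℤ) - (idx σ q : ℤ))) := by
      rw [Finset.sum_filter]
      refine Finset.sum_congr rfl fun r _ => ?_
      by_cases hr : base σ r = p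
      · have hrp : per σ r = per σ p := by rw [← per_base σ r, hr]
        rw [if_pos hr, dftInv, dftMat, if_pos hr, if_pos (hr.trans hb), hrp, mul_assoc,
          ← zeta_add]
        congr 2
        ring
      · rw [if_neg hr, dftInv, if_neg hr, zero_mul]
    rw [hsum, sum_cycle σ hpp
      (fun b => ((per σ p : ℂ))⁻¹ * zeta (per σ p) ((b : ℤ) * ((idx σ q' : ℤ) - (idx σ q : ℤ)))),
      ← Finset.mul_sum, sum_zeta hpos]
    by_cases hqq : q = q'
    · subst hqq
      rw [if_pos rfl, sub_self, if_pos (dvd_zero _)]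
      exact inv_mul_cancel₀ (by exact_mod_cast hpos.ne')
    · rw [if_neg hqq, if_neg, mul_zero]
      intro hdvd
      apply hqq
      refine eq_of_base_eq_of_idx_eq σ hb ?_
      have h1 : (idx σ q' : ℤ) < per σ p := by
        have := idx_lt σ q'
        rw [← per_base σ q', ← hb] at this
        exact_mod_cast this
      have h2 : (idx σ q : ℤ) < per σ p := by
        have := idx_lt σ q
        rw [← hper] at this
        exact_mod_cast this
      have h3 : (0 : ℤ) ≤ idx σ q' := Int.natCast_nonneg _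
      have h4 : (0 : ℤ) ≤ idx σ q := Int.natCast_nonneg _
      obtain ⟨k, hk⟩ := hdvd
      have hk0 : k = 0 := by
        have hP : (0 : ℤ) < per σ p := by exact_mod_cast hpos
        by_contra hk0
        rcases lt_or_gt_of_ne hk0 with hneg | hpos'
        · have : (per σ p : ℤ) * k ≤ -(per σ p : ℤ) := by nlinarith
          omega
        · have : (per σ p : ℤ) ≤ (per σ p : ℤ) * k := by nlinarith
          omega
      rw [hk0, mul_zero] at hk
      omega
  · rw [if_neg (fun h : q = q' => hb (by rw [h]))]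
    refine Finset.sum_eq_zero fun r _ => ?_
    by_cases hr : base σ r = base σ q
    · rw [dftMat, if_neg (fun h => hb (hr.symm.trans h)), mul_zero]
    · rw [dftInv, if_neg hr, zero_mul]

theorem dftMat_mul_dftInv : dftMat σ * dftInv σ = 1 :=
  mul_eq_one_comm.mp (dftInv_mul_dftMat σ)

theorem dftMat_apply_apply (r q : Q) :
    dftMat σ r (σ q) = zeta (per σ r) (idx σ r) * dftMat σ r q := by
  unfold dftMat
  rw [base_apply]
  by_cases hb : base σ r = base σ q
  · rw [if_pos hb, if_pos hb, ← zeta_add]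
    refine zeta_eq_of_modEq (per_pos σ r) ?_
    have h1 : (idx σ (σ q) : ℤ) ≡ (idx σ q : ℤ) + 1 [ZMOD (per σ r : ℤ)] := by
      have := idx_apply σ q
      rw [← per_eq_of_base_eq σ hb] at this
      have h2 := (Int.natCast_modEq_iff).mpr this
      simpa using h2
    calc (idx σ r : ℤ) * (idx σ (σ q) : ℤ) ≡ (idx σ r : ℤ) * ((idx σ q : ℤ) + 1)
          [ZMOD (per σ r : ℤ)] := h1.mul_left _
      _ = (idx σ r : ℤ) + (idx σ r : ℤ) * (idx σ q : ℤ) := by ring
  · rw [if_neg hb, if_neg hb, mul_zero]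

end Matrices

section Exponents

variable {Q : Type*} [Fintype Q] [DecidableEq Q] (σ : Equiv.Perm Q)

/-- The exponent `b / h` of the row `r = (cycle, b)`. -/
noncomputable def expo (r : Q) : ℝ := (idx σ r : ℝ) / (per σ r : ℝ)

theorem expo_nonneg (r : Q) : 0 ≤ expo σ r := by
  unfold expo
  positivity

theorem expo_le (r : Q) : expo σ r ≤ 1 - 1 / (Fintype.card Q : ℝ) := by
  have hpos : (0 : ℝ) < per σ r := by exact_mod_cast per_pos σ r
  have hle : (per σ r : ℝ) ≤ Fintype.card Q := by exact_mod_cast per_le_card σ r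
  have hidx : (idx σ r : ℝ) + 1 ≤ per σ r := by exact_mod_cast idx_lt σ r
  have h1 : expo σ r ≤ 1 - 1 / (per σ r : ℝ) := by
    unfold expo
    rw [div_le_iff₀ hpos, sub_mul, one_mul, one_div, inv_mul_cancel₀ hpos.ne']
    linarith
  have h2 : 1 / (Fintype.card Q : ℝ) ≤ 1 / (per σ r : ℝ) :=
    one_div_le_one_div_of_le hpos hle
  linarith

theorem expo_eq_zero_iff (r : Q) : expo σ r = 0 ↔ base σ r = r := by
  have hpos : (per σ r : ℝ) ≠ 0 := by exact_mod_cast (per_pos σ r).ne'
  unfold expo
  rw [div_eq_zero_iff, or_iff_left hpos, Nat.cast_eq_zero, idx_eq_zero_iff]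

open Real in
theorem exp_expo (r : Q) :
    Complex.exp (2 * π * Complex.I * (expo σ r : ℂ)) = zeta (per σ r) (idx σ r) := by
  unfold zeta expo
  push_cast
  rfl

theorem sum_fiber {M : Type*} [AddCommMonoid M] (f : Q → M) :
    ∑ r, f r = ∑ p ∈ Finset.univ.filter (fun p => base σ p = p),
      ∑ r ∈ Finset.univ.filter (fun r => base σ r = p), f r := by
  rw [← Finset.sum_fiberwise Finset.univ (base σ) f]
  symm
  refine Finset.sum_subset (Finset.filter_subset _ _) ?_
  intro p _ hp
  refine Finset.sum_eq_zero ?_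
  intro r hr
  exfalso
  apply hp
  rw [Finset.mem_filter] at hr ⊢
  exact ⟨Finset.mem_univ _, by rw [← hr.2, base_base]⟩

theorem sum_range_cast (h : ℕ) : ∑ b ∈ Finset.range h, (b : ℝ) = (h : ℝ) * ((h : ℝ) - 1) / 2 := by
  induction h with
  | zero => simp
  | succ n ih =>
    rw [Finset.sum_range_succ, ih]
    push_cast
    ring

theorem two_mul_sum_expo_cycle {p : Q} (hp : base σ p = p) :
    2 * ∑ r ∈ Finset.univ.filter (fun r => base σ r = p), expo σ r = (per σ p : ℝ) - 1 := by
  have hpos : (per σ p : ℝ) ≠ 0 := by exact_mod_cast (per_pos σ p).ne'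
  have h1 : ∑ r ∈ Finset.univ.filter (fun r => base σ r = p), expo σ r =
      ∑ r ∈ Finset.univ.filter (fun r => base σ r = p), (idx σ r : ℝ) / (per σ p : ℝ) := by
    refine Finset.sum_congr rfl fun r hr => ?_
    rw [Finset.mem_filter] at hr
    unfold expo
    rw [← per_base σ r, hr.2]
  rw [h1, sum_cycle σ hp (fun b => (b : ℝ) / (per σ p : ℝ)), ← Finset.sum_div, sum_range_cast]
  field_simp

theorem card_cycle {p : Q} (hp : base σ p = p) :
    ((Finset.univ.filter (fun r => base σ r = p)).card : ℝ) = per σ p := by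
  have := sum_cycle σ hp (fun _ => (1 : ℝ))
  simpa using this

theorem two_mul_sum_expo :
    2 * ∑ r, expo σ r =
      (Fintype.card Q : ℝ) - ((Finset.univ.filter (fun p => base σ p = p)).card : ℝ) := by
  have hcard : (Fintype.card Q : ℝ) =
      ∑ p ∈ Finset.univ.filter (fun p => base σ p = p), (per σ p : ℝ) := by
    have h := sum_fiber σ (fun _ => (1 : ℝ))
    rw [Finset.sum_const, Finset.card_univ, nsmul_eq_mul, mul_one] at h
    rw [h]
    refine Finset.sum_congr rfl fun p hp => ?_
    rw [Finset.mem_filter] at hp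
    rw [Finset.sum_const, nsmul_eq_mul, mul_one, card_cycle σ hp.2]
  rw [sum_fiber σ (expo σ), Finset.mul_sum, hcard]
  rw [Finset.card_eq_sum_ones, Nat.cast_sum, ← Finset.sum_sub_distrib]
  refine Finset.sum_congr rfl fun p hp => ?_
  rw [Finset.mem_filter] at hp
  rw [two_mul_sum_expo_cycle σ hp.2]
  simp

/-- The base points are in bijection with the cycles. -/
theorem card_base_points :
    (Finset.univ.filter (fun p => base σ p = p)).card =
      Nat.card (Quotient (Equiv.Perm.SameCycle.setoid σ)) := by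
  rw [← Fintype.card_subtype, ← Nat.card_eq_fintype_card]
  refine Nat.card_congr (Equiv.ofBijective
    (fun p : {p // base σ p = p} => Quotient.mk (Equiv.Perm.SameCycle.setoid σ) p.1) ⟨?_, ?_⟩)
  · rintro ⟨p, hp⟩ ⟨p', hp'⟩ h
    have h1 : σ.SameCycle p p' := @Quotient.exact _ (Equiv.Perm.SameCycle.setoid σ) _ _ h
    have h2 := (base_eq_iff σ p p').mpr h1
    rw [hp, hp'] at h2
    exact Subtype.ext h2
  · intro x
    induction x using Quotient.inductionOn with
    | _ q =>
      refine ⟨⟨base σ q, base_base σ q⟩, ?_⟩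
      exact @Quotient.sound _ (Equiv.Perm.SameCycle.setoid σ) _ _ (sameCycle_base σ q)

open Real in
/-- **Block DFT for a permutation.** -/
theorem exists_dft_perm :
    ∃ (Λ Λinv : Matrix Q Q ℂ) (e : Q → ℝ), Λinv * Λ = 1 ∧ Λ * Λinv = 1 ∧ (∀ r, 0 ≤ e r) ∧
      (∀ r, e r ≤ 1 - 1 / (Fintype.card Q : ℝ)) ∧
      2 * ∑ r, e r = (Fintype.card Q : ℝ) -
        (Nat.card (Quotient (Equiv.Perm.SameCycle.setoid σ)) : ℝ) ∧
      (Finset.univ.filter (fun r => e r = 0)).card =
        Nat.card (Quotient (Equiv.Perm.SameCycle.setoid σ)) ∧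
      ∀ r q, Λ r (σ q) = Complex.exp (2 * π * Complex.I * (e r : ℂ)) * Λ r q := by
  refine ⟨dftMat σ, dftInv σ, expo σ, dftInv_mul_dftMat σ, dftMat_mul_dftInv σ, expo_nonneg σ,
    expo_le σ, ?_, ?_, ?_⟩
  · rw [two_mul_sum_expo, card_base_points]
  · rw [← card_base_points]
    congr 1
    ext r
    simp only [Finset.mem_filter, Finset.mem_univ, true_and]
    exact expo_eq_zero_iff σ r
  · intro r q
    rw [exp_expo]
    exact dftMat_apply_apply σ r q

end Exponents

section Action

variable {G Q : Type*} [Group G] [MulAction G Q]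

theorem toPerm_zpow (t : G) (k : ℤ) (q : Q) : ((MulAction.toPerm t : Equiv.Perm Q) ^ k) q = t ^ k • q := by
  have h : (MulAction.toPerm t : Equiv.Perm Q) ^ k = MulAction.toPerm (t ^ k) :=
    (map_zpow (MulAction.toPermHom G Q) t k).symm
  rw [h]
  rfl

theorem orbitRel_zpowers_iff (t : G) (x y : Q) :
    MulAction.orbitRel (Subgroup.zpowers t) Q x y ↔
      (MulAction.toPerm t : Equiv.Perm Q).SameCycle y x := by
  rw [MulAction.orbitRel_apply, MulAction.mem_orbit_iff]
  constructor
  · rintro ⟨⟨g, k, rfl⟩, hg⟩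
    exact ⟨k, by rw [toPerm_zpow]; exact hg⟩
  · rintro ⟨k, hk⟩
    rw [toPerm_zpow] at hk
    exact ⟨⟨t ^ k, k, rfl⟩, hk⟩

theorem card_orbits_zpowers (t : G) :
    Nat.card (MulAction.orbitRel.Quotient (Subgroup.zpowers t) Q) =
      Nat.card (Quotient (Equiv.Perm.SameCycle.setoid (MulAction.toPerm t : Equiv.Perm Q))) := by
  refine Nat.card_congr (Quotient.congr (Equiv.refl Q) ?_)
  intro x y
  show MulAction.orbitRel (Subgroup.zpowers t) Q x y ↔
    (MulAction.toPerm t : Equiv.Perm Q).SameCycle x y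
  rw [orbitRel_zpowers_iff, Equiv.Perm.sameCycle_comm]

open Real in
/-- **Block DFT for a group element acting on a finite set**, in the shape of the fields of
`DFTData`. -/
theorem exists_dft [Fintype Q] [DecidableEq Q] (t : G) :
    ∃ (Λ Λinv : Matrix Q Q ℂ) (e : Q → ℝ), Λinv * Λ = 1 ∧ Λ * Λinv = 1 ∧ (∀ r, 0 ≤ e r) ∧
      (∀ r, e r ≤ 1 - 1 / (Fintype.card Q : ℝ)) ∧
      2 * ∑ r, e r = (Fintype.card Q : ℝ) -
        (Nat.card (MulAction.orbitRel.Quotient (Subgroup.zpowers t) Q) : ℝ) ∧
      (Finset.univ.filter (fun r => e r = 0)).card =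
        Nat.card (MulAction.orbitRel.Quotient (Subgroup.zpowers t) Q) ∧
      ∀ r q, Λ r (t • q) = Complex.exp (2 * π * Complex.I * (e r : ℂ)) * Λ r q := by
  obtain ⟨Λ, Λinv, e, h1, h2, h3, h4, h5, h6, h7⟩ :=
    exists_dft_perm (MulAction.toPerm t : Equiv.Perm Q)
  refine ⟨Λ, Λinv, e, h1, h2, h3, h4, ?_, ?_, fun r q => h7 r q⟩
  · rw [h5, card_orbits_zpowers]
  · rw [h6, card_orbits_zpowers]

end Action

end Fermat.Agent.S20.PermDiag
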