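import Fermat.Agent.S20.Defs
import Fermat.Agent.S20.CountBridge
import Fermat.Agent.S23.FinDim
import Fermat.Agent.S23.ThetaE12
import Fermat.Agent.S23.LagrangeGamma0

/-!
# S20 (PROJECT G), slice [D]: the rank of `M_*(Γ₀(N))` over level one is the index

Input: a homogeneous family `F j` (`j : ι`, weights `κ j`) which generates `M_*(Γ₀(N))` over the
level one forms and is independent over them (the output of slice [C]).  Output: `ι` is finite of
cardinality `μ = [SL(2,ℤ) : Γ₀(N)]`, so the family can be indexed by the coset space and gives an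
element of `Gens N`.

* `card_le_index`: growth bound.  A finite independent subfamily `s` embeds
  `⨁_{j ∈ s} M_{k - κ j}(SL₂ℤ)` into `M_k(Γ₀(N))`; the level one dimension formula and the Sturm
  bound `dim M_k(Γ₀(N)) ≤ k μ / 12 + 1` force `|s| ≤ μ`.
* `mu_le_card`: the powers `θ ^ a`, `a < μ`, of the primitive element `θ` of `S23/ThetaE12` have
  translates `θ_q ^ a`; at a point where the `μ` translates `θ_q` take distinct values these
  Vandermonde vectors are independent, and they lie in the span of the `|ι|` vectors of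
  translates of the `F j`.
* `nonempty_gens_of_basis`: reindexing along `Q N ≃ ι`.
-/

set_option autoImplicit false
set_option linter.unusedSectionVars false

noncomputable section

open UpperHalfPlane SlashInvariantForm CongruenceSubgroup
open scoped ModularForm Manifold MatrixGroups

namespace Fermat.Agent.S20.Rank
open Fermat.Agent.S20 Fermat.Agent.S23

variable {N : ℕ} [NeZero N]

/-- A level one form, restricted to `Γ₀(N)`. -/
def res {k : ℤ} (c : ModularForm 𝒮ℒ k) : ModularForm (G0 N) k :=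
  Lagrange.restrict Lagrange.Gamma0_le_SL c

@[simp] lemma coe_res {k : ℤ} (c : ModularForm 𝒮ℒ k) : ⇑(res (N := N) c) = ⇑c := rfl

lemma coe_sum' {k : ℤ} {ι : Type} (s : Finset ι) (f : ι → ModularForm (G0 N) k) :
    ⇑(∑ j ∈ s, f j) = ∑ j ∈ s, ⇑(f j) := by
  classical
  induction s using Finset.induction_on with
  | empty => simp
  | insert a s ha ih => rw [Finset.sum_insert ha, Finset.sum_insert ha, FunLike.coe_add, ih]


lemma quotientFunc_res {k : ℤ} (c : ModularForm 𝒮ℒ k) (q : Q N) :
    quotientFunc (res (N := N) c) q = ⇑c := by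
  induction q using Quotient.inductionOn with
  | h r =>
    rw [quotientFunc_mk, coe_res]
    exact SlashInvariantFormClass.slash_action_eq c _ (inv_mem r.2)

lemma quotientFunc_sum {k : ℤ} {ι : Type} (s : Finset ι) (f : ι → ModularForm (G0 N) k)
    (q : Q N) :
    quotientFunc (∑ j ∈ s, f j) q = ∑ j ∈ s, quotientFunc (f j) q := by
  induction q using Quotient.inductionOn with
  | h r =>
    simp only [quotientFunc_mk, coe_sum', SlashAction.sum_slash]

lemma mdiff_quotientFunc {k : ℤ} (f : ModularForm (G0 N) k) (q : Q N) :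
    MDiff (quotientFunc f q) := by
  induction q using Quotient.inductionOn with
  | h r => exact (ModularForm.translate f r.val⁻¹).holo'

/-- The translates of a form with trivial stabiliser are pairwise distinct. -/
theorem translates_ne {w : ℤ} (θ : ModularForm (G0 N) w)
    (hθ : ∀ q : Q N, q ≠ ⟦1⟧ → quotientFunc θ q ≠ ⇑θ) (q q' : Q N) (h : q ≠ q') :
    quotientFunc θ q ≠ quotientFunc θ q' := by
  obtain ⟨r, rfl⟩ := QuotientGroup.mk_surjective q
  intro heq
  have h1 := congrArg (fun f : ℍ → ℂ => f ∣[w] r.val) heq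
  simp only [quotientFunc_smul θ r.2] at h1
  have h2 : ((⟨r.val, r.2⟩ : 𝒮ℒ)⁻¹ • ((r : 𝒮ℒ) : Q N)) = ((1 : 𝒮ℒ) : Q N) := by
    show ((r⁻¹ * r : 𝒮ℒ) : Q N) = _
    rw [inv_mul_cancel]
  rw [h2] at h1
  have h3 : quotientFunc θ ((1 : 𝒮ℒ) : Q N) = ⇑θ := by
    show (⇑θ) ∣[w] ((1 : 𝒮ℒ) : GL (Fin 2) ℝ)⁻¹ = ⇑θ
    simp
  rw [h3] at h1
  by_cases h4 : ((⟨r.val, r.2⟩ : 𝒮ℒ)⁻¹ • q') = ((1 : 𝒮ℒ) : Q N)
  · apply h
    have h5 : q' = (⟨r.val, r.2⟩ : 𝒮ℒ) • (((1 : 𝒮ℒ) : Q N)) := by
      rw [← h4, smul_inv_smul]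
    rw [h5]
    show _ = (((⟨r.val, r.2⟩ : 𝒮ℒ) * 1 : 𝒮ℒ) : Q N)
    rw [mul_one]
  · exact hθ _ h4 h1.symm

/-- There is a point at which the translates take pairwise distinct values. -/
theorem exists_injective_point {w : ℤ} (θ : ModularForm (G0 N) w)
    (hne : ∀ q q' : Q N, q ≠ q' → quotientFunc θ q ≠ quotientFunc θ q') :
    ∃ τ₀ : ℍ, Function.Injective (fun q : Q N => quotientFunc θ q τ₀) := by
  classical
  set S : Finset (Q N × Q N) := Finset.univ.filter fun p => p.1 ≠ p.2 with hS
  have hP : (∏ p ∈ S, (quotientFunc θ p.1 - quotientFunc θ p.2)) ≠ 0 := by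
    rw [Ne, UpperHalfPlane.prod_eq_zero_iff]
    · rintro ⟨p, hp, h0⟩
      have hp' : p.1 ≠ p.2 := (Finset.mem_filter.mp hp).2
      exact hne _ _ hp' (sub_eq_zero.mp h0)
    · intro p _
      exact (mdiff_quotientFunc θ p.1).sub (mdiff_quotientFunc θ p.2)
  obtain ⟨τ₀, hτ₀⟩ := Function.ne_iff.mp hP
  refine ⟨τ₀, fun q q' hqq' => ?_⟩
  by_contra hne'
  apply hτ₀
  rw [Finset.prod_apply]
  refine Finset.prod_eq_zero (i := (q, q')) (by simp [hS, hne']) ?_
  simpa [sub_eq_zero] using hqq'

theorem neg_one_mem_G0 : (-1 : GL (Fin 2) ℝ) ∈ G0 N := by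
  refine ⟨-1, ?_, ?_⟩
  · show (-1 : SL(2, ℤ)) ∈ Gamma0 N
    rw [Gamma0_mem]
    simp
  · ext i j
    simp

lemma finrank_levelOne_ge (n : ℕ) (hn : Even n) :
    n / 12 ≤ Module.finrank ℂ (ModularForm 𝒮ℒ (n : ℤ)) := by
  have h := ModularForm.dimension_level_one n hn
  have h2 : Module.finrank ℂ (ModularForm 𝒮ℒ (n : ℤ)) =
      if n ≡ 2 [MOD 12] then n / 12 else n / 12 + 1 := by
    rw [Module.finrank, h, Cardinal.toNat_natCast]
  rw [h2]
  split_ifs <;> omega

lemma finrank_levelOne_ge' (m : ℤ) (n : ℕ) (h : m = n) (hn : Even n) :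
    n / 12 ≤ Module.finrank ℂ (ModularForm 𝒮ℒ m) := by
  subst h
  exact finrank_levelOne_ge n hn

lemma finrank_le_sturm (k : ℤ) :
    Module.finrank ℂ (ModularForm (G0 N) k) ≤ FinDim.sturm N k + 1 := by
  have h := LinearMap.finrank_le_finrank_of_injective (FinDim.coeffMap_injective N k)
  rwa [Module.finrank_fin_fun] at h

section Basis

variable {ι : Type} (κ : ι → ℕ) (F : (j : ι) → ModularForm (G0 N) (κ j))

/-- The combination `∑ j ∈ s, c j * F j` as a modular form of weight `k`. -/
def comb (k : ℤ) (s : Finset ι) (c : (j : ι) → ModularForm 𝒮ℒ (k - κ j)) :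
    ModularForm (G0 N) k :=
  ∑ j ∈ s, ModularForm.mcast (by ring) ((res (c j)).mul (F j))

lemma coe_comb (k : ℤ) (s : Finset ι) (c : (j : ι) → ModularForm 𝒮ℒ (k - κ j)) :
    ⇑(comb κ F k s c) = fun τ => ∑ j ∈ s, c j τ * F j τ := by
  ext τ
  rw [comb, coe_sum', Finset.sum_apply]
  refine Finset.sum_congr rfl fun j _ => ?_
  rw [ModularForm.coe_mcast, ModularForm.coe_mul, Pi.mul_apply, coe_res]


lemma quotientFunc_comb (k : ℤ) (s : Finset ι) (c : (j : ι) → ModularForm 𝒮ℒ (k - κ j))
    (q : Q N) :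
    quotientFunc (comb κ F k s c) q = fun τ => ∑ j ∈ s, c j τ * quotientFunc (F j) q τ := by
  ext τ
  rw [comb, quotientFunc_sum, Finset.sum_apply]
  refine Finset.sum_congr rfl fun j _ => ?_
  rw [Lagrange.quotientFunc_mcast, Lagrange.quotientFunc_mul, Pi.mul_apply, quotientFunc_res]

/-- The family which is `g` at `j` and `0` elsewhere. -/
def single [DecidableEq ι] (k : ℤ) (j : ι) (g : ModularForm 𝒮ℒ (k - κ j)) :
    (i : ι) → ModularForm 𝒮ℒ (k - κ i) :=
  fun i => if h : i = j then ModularForm.mcast (by rw [h]) g else 0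

lemma coe_single_self [DecidableEq ι] (k : ℤ) (j : ι) (g : ModularForm 𝒮ℒ (k - κ j)) :
    ⇑(single κ k j g j) = ⇑g := by
  simp [single]

/-- The independence hypothesis of slice [C]. -/
def Indep : Prop :=
  ∀ (k : ℤ) (s : Finset ι) (c : (j : ι) → ModularForm 𝒮ℒ (k - κ j)),
    (∀ τ, ∑ j ∈ s, c j τ * F j τ = 0) → ∀ j ∈ s, c j = 0

/-- The generation hypothesis of slice [C]. -/
def Generates : Prop :=
  ∀ (k : ℤ) (f : ModularForm (G0 N) k),
    ∃ (s : Finset ι) (c : (j : ι) → ModularForm 𝒮ℒ (k - κ j)),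
      ∀ τ, f τ = ∑ j ∈ s, c j τ * F j τ

variable {κ F}

theorem F_ne_zero (hindep : Indep κ F) (j : ι) : F j ≠ 0 := by
  classical
  intro h0
  have h := hindep (κ j) {j}
    (single κ (κ j) j (ModularForm.mcast (by ring) (1 : ModularForm 𝒮ℒ 0)))
    (by intro τ; simp [h0]) j (Finset.mem_singleton_self j)
  have h1 := congrArg (fun f : ModularForm 𝒮ℒ _ => f I) h
  simp only [coe_single_self, ModularForm.coe_mcast] at h1
  simp at h1

theorem κ_even (hindep : Indep κ F) (j : ι) : Even (κ j) := by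
  by_contra hodd
  rw [Nat.not_even_iff_odd] at hodd
  exact F_ne_zero hindep j
    (ModularForm.eq_zero_of_neg_one_mem neg_one_mem_G0 (by exact_mod_cast hodd) (F j))

/-- Extension by zero of a family indexed by a finset. -/
def extend [DecidableEq ι] (k : ℤ) (s : Finset ι)
    (c : (j : s) → ModularForm 𝒮ℒ (k - κ j)) : (i : ι) → ModularForm 𝒮ℒ (k - κ i) :=
  fun i => if h : i ∈ s then c ⟨i, h⟩ else 0

lemma extend_mem [DecidableEq ι] (k : ℤ) (s : Finset ι)
    (c : (j : s) → ModularForm 𝒮ℒ (k - κ j)) (j : s) : extend k s c j = c j := by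
  simp [extend]

variable (κ F) in
/-- The linear map `c ↦ ∑ j ∈ s, c j * F j`. -/
def combLin [DecidableEq ι] (k : ℤ) (s : Finset ι) :
    ((j : s) → ModularForm 𝒮ℒ (k - κ j)) →ₗ[ℂ] ModularForm (G0 N) k where
  toFun c := comb κ F k s (extend k s c)
  map_add' c c' := by
    apply DFunLike.ext
    intro τ
    simp only [coe_comb, FunLike.coe_add, Pi.add_apply, ← Finset.sum_add_distrib]
    refine Finset.sum_congr rfl fun j hj => ?_
    simp only [extend, dif_pos hj, Pi.add_apply, FunLike.coe_add]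
    ring
  map_smul' a c := by
    apply DFunLike.ext
    intro τ
    simp only [coe_comb, RingHom.id_apply]
    rw [show (a • comb κ F k s (extend k s c)) τ = a * (comb κ F k s (extend k s c)) τ from rfl,
      coe_comb, Finset.mul_sum]
    refine Finset.sum_congr rfl fun j hj => ?_
    simp only [extend, dif_pos hj, Pi.smul_apply]
    rw [show (a • c ⟨j, hj⟩) τ = a * (c ⟨j, hj⟩) τ from rfl]
    ring

theorem combLin_injective [DecidableEq ι] (hindep : Indep κ F) (k : ℤ) (s : Finset ι) :
    Function.Injective (combLin κ F k s) := by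
  rw [← LinearMap.ker_eq_bot, LinearMap.ker_eq_bot']
  intro c hc
  have h0 : ∀ τ, ∑ j ∈ s, extend k s c j τ * F j τ = 0 := by
    intro τ
    have := congrArg (fun f : ModularForm (G0 N) k => f τ) hc
    simpa [combLin, coe_comb] using this
  have h1 := hindep k s (extend k s c) h0
  funext j
  have := h1 j j.2
  rwa [extend_mem] at this


/-- **Growth bound**: a finite independent family has at most `[SL(2,ℤ) : Γ₀(N)]` members. -/
theorem card_le_index (hindep : Indep κ F) (s : Finset ι) : s.card ≤ (Gamma0 N).index := by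
  classical
  by_contra hlt
  rw [not_le] at hlt
  set μ := (Gamma0 N).index with hμ
  -- an even bound for the weights
  set K0 : ℕ := 2 * s.sup κ with hK0
  have hK0le : ∀ j ∈ s, κ j ≤ K0 := fun j hj => by
    have := Finset.le_sup (f := κ) hj
    omega
  set A : ℕ := K0 * μ / 12 with hA
  set t : ℕ := A + 2 with ht
  set k : ℤ := ((K0 + 12 * t : ℕ) : ℤ) with hk
  -- lower bound
  have hlow : s.card * t ≤ Module.finrank ℂ ((j : s) → ModularForm 𝒮ℒ (k - κ j)) := by
    rw [Module.finrank_pi_fintype]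
    calc s.card * t = ∑ _j : s, t := by simp
      _ ≤ ∑ j : s, Module.finrank ℂ (ModularForm 𝒮ℒ (k - κ j)) := by
        refine Finset.sum_le_sum fun j _ => ?_
        have hj := hK0le j j.2
        obtain ⟨r, hr⟩ := κ_even hindep (j : ι)
        have hm : k - κ j = ((K0 - κ j + 12 * t : ℕ) : ℤ) := by
          rw [hk]; push_cast [Nat.cast_sub hj]; ring
        have he : Even (K0 - κ j + 12 * t) := by
          rw [Nat.even_add]
          constructor
          · intro _; exact ⟨6 * t, by ring⟩
          · intro _; exact ⟨s.sup κ - r, by omega⟩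
        have := finrank_levelOne_ge' _ _ hm he
        omega
  -- upper bound
  have hup : Module.finrank ℂ ((j : s) → ModularForm 𝒮ℒ (k - κ j)) ≤ FinDim.sturm N k + 1 := by
    have := FinDim.finiteDimensional_modularForm N k
    exact (LinearMap.finrank_le_finrank_of_injective (combLin_injective hindep k s)).trans
      (finrank_le_sturm k)
  have hst : FinDim.sturm N k = A + t * μ := by
    rw [FinDim.sturm, hk, ← hμ]
    have : (((K0 + 12 * t : ℕ) : ℤ) * (μ : ℤ)).toNat = K0 * μ + 12 * (t * μ) := by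
      rw [← Nat.cast_mul, Int.toNat_natCast]; ring
    rw [this, Nat.add_mul_div_left _ _ (by norm_num : 0 < 12)]
  have h1 : (μ + 1) * t ≤ s.card * t := Nat.mul_le_mul_right t hlt
  have h2 : (μ + 1) * t ≤ A + t * μ + 1 := by
    calc (μ + 1) * t ≤ s.card * t := h1
      _ ≤ _ := hlow.trans (hup.trans (by rw [hst]))
  rw [ht] at h2
  nlinarith


theorem finite_of_indep (hindep : Indep κ F) : Finite ι := by
  by_contra hinf
  rw [not_finite_iff_infinite] at hinf
  obtain ⟨s, hs⟩ := Infinite.exists_subset_card_eq ι ((Gamma0 N).index + 1)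
  have := card_le_index hindep s
  omega

theorem card_le_mu [Fintype ι] (hindep : Indep κ F) : Fintype.card ι ≤ mu N := by
  have h := card_le_index hindep (Finset.univ : Finset ι)
  rw [Finset.card_univ] at h
  rw [CountBridge.mu_eq_card]
  exact h


/-- Powers at distinct points are linearly independent (Vandermonde). -/
theorem linearIndependent_pow {Q' : Type} [Fintype Q'] (x : Q' → ℂ) (hx : Function.Injective x) :
    LinearIndependent ℂ (fun (a : Fin (Fintype.card Q')) (q : Q') => x q ^ (a : ℕ)) := by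
  classical
  rw [Fintype.linearIndependent_iff]
  intro g h0
  set p : Polynomial ℂ :=
    ∑ a : Fin (Fintype.card Q'), Polynomial.C (g a) * Polynomial.X ^ (a : ℕ) with hp
  have heval : ∀ q, p.eval (x q) = 0 := by
    intro q
    have := congrFun h0 q
    simp only [Finset.sum_apply, Pi.smul_apply, smul_eq_mul, Pi.zero_apply] at this
    rw [hp, Polynomial.eval_finsetSum]
    simpa using this
  have hdeg : p.degree < (Fintype.card Q' : ℕ) := Polynomial.degree_sum_fin_lt g
  have hp0 : p = 0 := by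
    by_contra hne
    exact hne (Polynomial.eq_zero_of_natDegree_lt_card_of_eval_eq_zero p hx heval
      ((Polynomial.natDegree_lt_iff_degree_lt hne).mpr hdeg))
  intro a
  have hc : p.coeff (a : ℕ) = g a := by
    rw [hp, Polynomial.finsetSum_coeff]
    simp only [Polynomial.coeff_C_mul_X_pow]
    rw [Finset.sum_eq_single a]
    · simp
    · intro b _ hb
      rw [if_neg]
      intro h
      exact hb (Fin.ext h.symm)
    · intro h; exact absurd (Finset.mem_univ a) h
  rw [← hc, hp0, Polynomial.coeff_zero]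

/-- **Lower bound**: a generating family has at least `μ` members. -/
theorem mu_le_card [Fintype ι] (hgen : Generates κ F) : mu N ≤ Fintype.card ι := by
  classical
  set θ : ModularForm (G0 N) 12 := ThetaE12.theta N with hθdef
  have hθ := Lagrange.quotientFunc_ne_of_SL θ (ThetaE12.theta_slash_ne N)
  obtain ⟨τ₀, hinj⟩ := exists_injective_point θ (translates_ne θ hθ)
  -- the powers of `θ`
  have hP : ∀ (a : ℕ) (q : Q N),
      quotientFunc (Lagrange.mulPow (res (1 : ModularForm 𝒮ℒ 0)) θ a) q =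
        (quotientFunc θ q) ^ a := by
    intro a q
    rw [Lagrange.quotientFunc_mulPow, quotientFunc_res]
    ext τ
    simp
  choose s c hc using fun a : ℕ => hgen _ (Lagrange.mulPow (res (1 : ModularForm 𝒮ℒ 0)) θ a)
  have hexp : ∀ (a : ℕ) (q : Q N), (quotientFunc θ q τ₀) ^ a =
      ∑ j ∈ s a, c a j τ₀ * quotientFunc (F j) q τ₀ := by
    intro a q
    have h1 : ⇑(Lagrange.mulPow (res (1 : ModularForm 𝒮ℒ 0)) θ a) =
        ⇑(comb κ F _ (s a) (c a)) := by
      rw [coe_comb]; funext τ; exact hc a τ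
    have h2 := Lagrange.quotientFunc_congr
      (Lagrange.mulPow (res (1 : ModularForm 𝒮ℒ 0)) θ a) (comb κ F _ (s a) (c a)) h1 q
    rw [hP, quotientFunc_comb] at h2
    have := congrFun h2 τ₀
    simpa using this
  -- linear algebra at `τ₀`
  set x : Q N → ℂ := fun q => quotientFunc θ q τ₀ with hx
  set w : ι → (Q N → ℂ) := fun j q => quotientFunc (F j) q τ₀ with hw
  have hv := linearIndependent_pow x hinj
  have hspan : Set.range (fun (a : Fin (Fintype.card (Q N))) (q : Q N) => x q ^ (a : ℕ)) ⊆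
      ↑(Submodule.span ℂ (Set.range w)) := by
    rintro _ ⟨a, rfl⟩
    have h3 : (fun q : Q N => x q ^ (a : ℕ)) = ∑ j ∈ s a, c a j τ₀ • w j := by
      funext q
      rw [Finset.sum_apply]
      simp only [hx, hw, Pi.smul_apply, smul_eq_mul]
      exact hexp a q
    show (fun q : Q N => x q ^ (a : ℕ)) ∈ Submodule.span ℂ (Set.range w)
    rw [h3]
    exact Submodule.sum_mem _ fun j _ =>
      Submodule.smul_mem _ _ (Submodule.subset_span ⟨j, rfl⟩)
  have h4 := linearIndependent_le_span' _ hv (Set.range w) hspan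
  rw [Cardinal.mk_fin, Nat.cast_le] at h4
  rw [mu, Nat.card_eq_fintype_card]
  exact h4.trans (Fintype.card_range_le w)

end Basis

/-- **Slice [D]**: a homogeneous basis over level one (the output of slice [C]) can be indexed
by the coset space, i.e. gives an element of `Gens N`. -/
theorem nonempty_gens_of_basis
    (hC : ∃ (ι : Type) (κ : ι → ℕ) (F : (j : ι) → ModularForm (G0 N) (κ j)),
      (∀ (k : ℤ) (f : ModularForm (G0 N) k),
        ∃ (s : Finset ι) (c : (j : ι) → ModularForm 𝒮ℒ (k - κ j)),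
          ∀ τ, f τ = ∑ j ∈ s, c j τ * F j τ) ∧
      ∀ (k : ℤ) (s : Finset ι) (c : (j : ι) → ModularForm 𝒮ℒ (k - κ j)),
        (∀ τ, ∑ j ∈ s, c j τ * F j τ = 0) → ∀ j ∈ s, c j = 0) :
    Nonempty (Gens N) := by
  classical
  obtain ⟨ι, κ, F, hgen, hindep⟩ := hC
  have hgen' : Generates κ F := hgen
  have hindep' : Indep κ F := hindep
  have : Finite ι := finite_of_indep hindep'
  let _ : Fintype ι := Fintype.ofFinite ι
  have hcard : Fintype.card (Q N) = Fintype.card ι := by
    have h1 := card_le_mu hindep'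
    have h2 := mu_le_card hgen'
    rw [mu, Nat.card_eq_fintype_card] at h1 h2
    omega
  let e : Q N ≃ ι := Fintype.equivOfCardEq hcard
  refine ⟨{ κ := fun q => κ (e q), F := fun q => F (e q), gen := ?_, indep := ?_ }⟩
  · intro k f
    obtain ⟨s, c, hc⟩ := hgen k f
    refine ⟨fun q => if e q ∈ s then c (e q) else 0, fun τ => ?_⟩
    rw [hc τ]
    rw [Equiv.sum_comp e (fun i => (if i ∈ s then c i else 0 : ModularForm 𝒮ℒ (k - κ i)) τ * F i τ)]
    rw [← Finset.sum_filter_add_sum_filter_not Finset.univ (fun i => i ∈ s)]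
    have hz : ∑ i ∈ Finset.univ.filter (fun i => ¬ i ∈ s),
        (if i ∈ s then c i else 0 : ModularForm 𝒮ℒ (k - κ i)) τ * F i τ = 0 := by
      refine Finset.sum_eq_zero fun i hi => ?_
      rw [if_neg (Finset.mem_filter.mp hi).2]
      simp
    rw [hz, add_zero]
    have hfil : Finset.univ.filter (fun i => i ∈ s) = s := by
      ext i; simp
    rw [hfil]
    refine Finset.sum_congr rfl fun i hi => ?_
    rw [if_pos hi]
  · intro k c h j
    have hcast : ∀ (q q' : Q N) (_ : q = q') (τ : ℍ), c q τ = c q' τ := by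
      intro q q' hq τ; subst hq; rfl
    let c' : (i : ι) → ModularForm 𝒮ℒ (k - κ i) := fun i =>
      ModularForm.mcast (by rw [e.apply_symm_apply]) (c (e.symm i))
    have hc' : ∀ (q : Q N) (τ : ℍ), c' (e q) τ = c q τ := by
      intro q τ
      show (ModularForm.mcast _ (c (e.symm (e q)))) τ = c q τ
      rw [ModularForm.coe_mcast]
      exact hcast _ _ (e.symm_apply_apply q) τ
    have h0 : ∀ τ, ∑ i ∈ (Finset.univ : Finset ι), c' i τ * F i τ = 0 := by
      intro τ
      rw [← Equiv.sum_comp e (fun i => c' i τ * F i τ), ← h τ]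
      refine Finset.sum_congr rfl fun q _ => ?_
      rw [hc']
    have h1 := hindep k Finset.univ c' h0 (e j) (Finset.mem_univ _)
    apply DFunLike.ext
    intro τ
    rw [← hc' j τ, h1]

end Fermat.Agent.S20.Rank
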