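import Fermat.Agent.S20.Translates
import Fermat.Agent.S23.Theta
import Fermat.Agent.S23.Removable

/-!
# S20 (PROJECT G), slice [D], lower bound

A family which generates `M_*(Γ₀(N))` over level one has at least `μ = [SL₂(ℤ) : Γ₀(N)]` members:
the powers `θ ^ a` (`a < μ`) of a form `θ` with `μ` pairwise distinct translates are combinations
of the family, so the (invertible) Vandermonde matrix of the translates of `θ` at a suitable point
factors through a space of dimension at most the number of members used.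
-/

set_option autoImplicit false

noncomputable section

namespace Fermat.Agent.S20.RankLower

open UpperHalfPlane ModularForm CongruenceSubgroup SlashInvariantForm Filter Topology Cardinal
open scoped ModularForm Manifold MatrixGroups
open Fermat.Agent.S20

variable {N : ℕ} [NeZero N]

/-- The weight `12` form with pairwise distinct translates. -/
abbrev θ (N : ℕ) [NeZero N] : ModularForm (G0 N) 12 := Fermat.Agent.S23.Theta.theta N

theorem tr_θ_injective (N : ℕ) [NeZero N] :
    Function.Injective (fun q : Q N => tr 12 (⇑(θ N)) q) := by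
  intro q q' h
  apply Fermat.Agent.S23.Theta.quotientFunc_theta_injective N
  have h1 := quotientFunc_eq_tr (N := N) (k := 12) (θ N) q
  have h2 := quotientFunc_eq_tr (N := N) (k := 12) (θ N) q'
  exact h1.trans (h.trans h2.symm)

theorem isMF_θ (N : ℕ) [NeZero N] : IsMF (G0 N) 12 (⇑(θ N)) := ⟨θ N, rfl⟩

/-- There is a point at which the translates of `θ` take pairwise distinct values. -/
theorem exists_distinct (N : ℕ) [NeZero N] :
    ∃ τ : ℍ, Function.Injective (fun q : Q N => tr 12 (⇑(θ N)) q τ) := by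
  have hU : IsOpen {z : ℂ | 0 < z.im} := isOpen_upperHalfPlaneSet
  have hUc : IsPreconnected {z : ℂ | 0 < z.im} := (convex_halfSpace_im_gt 0).isPreconnected
  have hz : (Complex.I : ℂ) ∈ {z : ℂ | 0 < z.im} := by simp
  have key : ∀ p : Q N × Q N, ∀ᶠ y in 𝓝[≠] (Complex.I : ℂ),
      p.1 ≠ p.2 → tr 12 (⇑(θ N)) p.1 (ofComplex y) ≠ tr 12 (⇑(θ N)) p.2 (ofComplex y) := by
    rintro ⟨q, q'⟩
    by_cases hqq : q = q'
    · exact Filter.Eventually.of_forall fun y h => absurd hqq h
    · have hne : tr 12 (⇑(θ N)) q ≠ tr 12 (⇑(θ N)) q' := fun h => hqq (tr_θ_injective N h)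
      obtain ⟨τ₀, hτ₀⟩ := Function.ne_iff.mp hne
      have hmd : MDiff (fun τ => tr 12 (⇑(θ N)) q τ - tr 12 (⇑(θ N)) q' τ) :=
        (mdifferentiable_tr (isMF_θ N) q).sub (mdifferentiable_tr (isMF_θ N) q')
      have := Fermat.Agent.S23.Removable.eventually_ne_zero_of_differentiableOn hU hUc
        (mdifferentiable_iff.mp hmd) (z₀ := (τ₀ : ℂ)) τ₀.im_pos
        (by
          simp only [Function.comp_apply, ofComplex_apply]
          exact sub_ne_zero.mpr hτ₀) hz
      filter_upwards [this] with y hy _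
      simp only [Function.comp_apply] at hy
      exact sub_ne_zero.mp hy
  have hall := Filter.eventually_all.mpr key
  have hUev : ∀ᶠ y in 𝓝[≠] (Complex.I : ℂ), y ∈ {z : ℂ | 0 < z.im} :=
    eventually_nhdsWithin_of_eventually_nhds (hU.mem_nhds hz)
  obtain ⟨y, hy, hyU⟩ := (hall.and hUev).exists
  refine ⟨ofComplex y, fun q q' h => ?_⟩
  by_contra hqq
  exact hy (q, q') hqq h

omit [NeZero N] in
theorem tr_levelOne_mul' {k k' K : ℤ} (hK : K = k + k') {c : ℍ → ℂ} (hc : IsMF 𝒮ℒ k c)
    (f : ℍ → ℂ) (q : Q N) : tr K (c * f) q = c * tr k' f q := by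
  subst hK
  exact tr_levelOne_mul hc f q

/-- **Lower bound.** A generating family has at least `μ` members. -/
theorem exists_finset_card_ge {ι : Type} (κ : ι → ℕ) (F : (j : ι) → ModularForm (G0 N) (κ j))
    (hgen : ∀ (k : ℤ) (f : ModularForm (G0 N) k), ∃ (s : Finset ι)
      (c : (j : ι) → ModularForm 𝒮ℒ (k - κ j)), ∀ τ, f τ = ∑ j ∈ s, c j τ * F j τ) :
    ∃ s : Finset ι, mu N ≤ s.card := by
  classical
  choose S C hC using fun a : ℕ => hgen ((a : ℤ) * 12) ((θ N).pow a)
  obtain ⟨τ, hτ⟩ := exists_distinct N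
  refine ⟨(Finset.range (mu N)).biUnion S, ?_⟩
  set s : Finset ι := (Finset.range (mu N)).biUnion S with hs
  -- the translate identity
  have htr : ∀ (a : ℕ) (q : Q N),
      (tr 12 (⇑(θ N)) q τ) ^ a = ∑ j ∈ S a, C a j τ * tr (κ j) (⇑(F j)) q τ := by
    intro a q
    have h1 : ((⇑(θ N) : ℍ → ℂ)) ^ a = ∑ j ∈ S a, (⇑(C a j) : ℍ → ℂ) * ⇑(F j) := by
      funext τ'
      have := hC a τ'
      rw [ModularForm.coe_pow] at this
      rw [this, Finset.sum_apply]
      rfl
    have h2 := congrArg (fun f => tr ((a : ℤ) * 12) f q τ) h1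
    beta_reduce at h2
    rw [tr_pow, tr_sum, Finset.sum_apply] at h2
    rw [Pi.pow_apply] at h2
    rw [h2]
    refine Finset.sum_congr rfl fun j _ => ?_
    rw [tr_levelOne_mul' (k := (a : ℤ) * 12 - κ j) (k' := κ j) (by ring) (IsMF.coe (C a j))]
    rfl
  -- linear algebra
  let e : Q N ≃ Fin (mu N) := Finite.equivFin (Q N)
  let v : Fin (mu N) → ℂ := fun i => tr 12 (⇑(θ N)) (e.symm i) τ
  have hv : Function.Injective v := fun i i' h => e.symm.injective (hτ h)
  have hdet : (Matrix.vandermonde v).det ≠ 0 := Matrix.det_vandermonde_ne_zero_iff.mpr hv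
  have hunit : IsUnit (Matrix.vandermonde v) :=
    (Matrix.isUnit_iff_isUnit_det _).mpr hdet.isUnit
  have hli : LinearIndependent ℂ (Matrix.vandermonde v).col :=
    Matrix.linearIndependent_cols_iff_isUnit.mpr hunit
  let Φ' : ι → (Fin (mu N) → ℂ) := fun j i => tr (κ j) (⇑(F j)) (e.symm i) τ
  let w : Finset (Fin (mu N) → ℂ) := s.image Φ'
  have hrange : Set.range (Matrix.vandermonde v).col ⊆
      (Submodule.span ℂ (w : Set (Fin (mu N) → ℂ)) : Set (Fin (mu N) → ℂ)) := by
    rintro _ ⟨a, rfl⟩
    have hcol : (Matrix.vandermonde v).col a = ∑ j ∈ S a, C (a : ℕ) j τ • Φ' j := by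
      funext i
      rw [Finset.sum_apply]
      simp only [Matrix.col_apply, Matrix.vandermonde_apply, Pi.smul_apply, smul_eq_mul]
      exact htr a (e.symm i)
    rw [hcol]
    refine Submodule.sum_mem _ fun j hj => Submodule.smul_mem _ _ (Submodule.subset_span ?_)
    have hjs : j ∈ s := Finset.mem_biUnion.mpr ⟨a, Finset.mem_range.mpr a.2, hj⟩
    exact Finset.mem_coe.mpr (Finset.mem_image_of_mem Φ' hjs)
  have hcard : #(Fin (mu N)) ≤ (w.card : Cardinal) := by
    simpa only [Finset.coe_sort_coe, Fintype.card_coe] using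
      linearIndependent_le_span' _ hli (w : Set _) hrange
  rw [Cardinal.mk_fin, Nat.cast_le] at hcard
  exact hcard.trans Finset.card_image_le

end Fermat.Agent.S20.RankLower
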