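import Fermat.Agent.S20.Translates
import Fermat.Agent.S20.CountBridge
import Fermat.Agent.S23.ThetaE12
import Fermat.Agent.S23.Removable

/-!
# S20 (PROJECT G), slice [D], second half: the lower bound for the rank and the reindexing

A homogeneous family `F j` (`j : ι`) which generates `M_*(Γ₀(N))` over level one has at least
`μ = [SL₂(ℤ) : Γ₀(N)]` members: the Vandermonde matrix of the `μ` distinct translates of
`θ = ThetaE12.theta` factors through the matrix of translates of the `F j`.  Together with the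
upper bound `card ≤ μ` on finite subfamilies this produces `Gens N`.
-/

set_option autoImplicit false

noncomputable section

namespace Fermat.Agent.S20.RankLowerAlt

open UpperHalfPlane ModularForm CongruenceSubgroup Filter Topology
open scoped ModularForm Manifold MatrixGroups
open Fermat.Agent.S20

variable {N : ℕ} [NeZero N]

/-- Finitely many holomorphic functions on `ℍ`, none identically zero, have a common point of
non vanishing. -/
theorem exists_forall_ne_zero {α : Type*} (s : Finset α) (f : α → ℍ → ℂ)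
    (hf : ∀ i ∈ s, MDiff (f i)) (hne : ∀ i ∈ s, ∃ τ, f i τ ≠ 0) :
    ∃ τ, ∀ i ∈ s, f i τ ≠ 0 := by
  classical
  suffices h : MDiff (fun τ => ∏ i ∈ s, f i τ) ∧ ∃ τ, ∏ i ∈ s, f i τ ≠ 0 by
    obtain ⟨τ, hτ⟩ := h.2
    exact ⟨τ, fun i hi => (Finset.prod_ne_zero_iff.mp hτ) i hi⟩
  induction s using Finset.induction_on with
  | empty =>
    refine ⟨?_, ⟨UpperHalfPlane.I, by simp⟩⟩
    simp only [Finset.prod_empty]
    exact mdifferentiable_const
  | insert a t ha IH =>
    obtain ⟨hd, τ₀, hτ₀⟩ := IH (fun i hi => hf i (Finset.mem_insert_of_mem hi))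
      (fun i hi => hne i (Finset.mem_insert_of_mem hi))
    have hfa : MDiff (f a) := hf a (Finset.mem_insert_self a t)
    have hprod : (fun τ => ∏ i ∈ insert a t, f i τ) = f a * fun τ => ∏ i ∈ t, f i τ := by
      funext τ
      rw [Finset.prod_insert ha, Pi.mul_apply]
    refine ⟨?_, ?_⟩
    · rw [hprod]
      exact hfa.mul hd
    · by_contra hcon
      push Not at hcon
      obtain ⟨τ₁, hτ₁⟩ := hne a (Finset.mem_insert_self a t)
      have : f a = 0 := by
        refine Fermat.Agent.S23.Removable.eq_of_mul_eq_mul (D := fun τ => ∏ i ∈ t, f i τ)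
          hfa.continuous continuous_const hd hτ₀ fun τ => ?_
        have := hcon τ
        rw [Finset.prod_insert ha] at this
        rw [this]
        simp
      exact hτ₁ (by rw [this]; rfl)

/-- The translates of `θ` attached to distinct cosets are distinct. -/
theorem tr_theta_ne {q q' : Q N} (h : q ≠ q') :
    tr 12 (⇑(Fermat.Agent.S23.ThetaE12.theta N)) q ≠
      tr 12 (⇑(Fermat.Agent.S23.ThetaE12.theta N)) q' := by
  intro heq
  apply h
  unfold tr at heq
  set θ : ℍ → ℂ := ⇑(Fermat.Agent.S23.ThetaE12.theta N) with hθ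
  have h1 : θ ∣[(12 : ℤ)] ((rep q)⁻¹ * rep q') = θ := by
    rw [SlashAction.slash_mul, heq, ← SlashAction.slash_mul, inv_mul_cancel,
      SlashAction.slash_one]
  have h2 : (rep q)⁻¹ * rep q' ∈ Gamma0 N := by
    by_contra hcon
    exact Fermat.Agent.S23.ThetaE12.theta_slash_ne N _ hcon h1
  rw [← mk_sl_rep q, ← mk_sl_rep q']
  refine Quotient.sound ?_
  show QuotientGroup.leftRel _ _ _
  rw [QuotientGroup.leftRel_apply, ← CountBridge.sl_inv, ← CountBridge.sl_mul,
    CountBridge.sl_mem_iff]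
  exact h2

/-- A point where the translates of `θ` take pairwise distinct values. -/
theorem exists_tr_theta_injective (N : ℕ) [NeZero N] :
    ∃ τ : ℍ, Function.Injective
      fun q : Q N => tr 12 (⇑(Fermat.Agent.S23.ThetaE12.theta N)) q τ := by
  classical
  set θ : ℍ → ℂ := ⇑(Fermat.Agent.S23.ThetaE12.theta N) with hθ
  have hθmf : IsMF (G0 N) 12 θ := IsMF.coe _
  obtain ⟨τ, hτ⟩ := exists_forall_ne_zero
    ((Finset.univ : Finset (Q N × Q N)).filter fun p => p.1 ≠ p.2)
    (fun p => tr 12 θ p.1 - tr 12 θ p.2)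
    (fun p _ => (mdifferentiable_tr hθmf p.1).sub (mdifferentiable_tr hθmf p.2))
    (fun p hp => by
      by_contra hcon
      push Not at hcon
      have hne : p.1 ≠ p.2 := (Finset.mem_filter.mp hp).2
      refine tr_theta_ne hne (funext fun τ => ?_)
      have := hcon τ
      rwa [Pi.sub_apply, sub_eq_zero] at this)
  refine ⟨τ, fun q q' hqq' => ?_⟩
  by_contra hne
  have := hτ (q, q') (Finset.mem_filter.mpr ⟨Finset.mem_univ _, hne⟩)
  simp only [Pi.sub_apply] at this
  exact this (sub_eq_zero.mpr hqq')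

omit [NeZero N] in
theorem tr_levelOne_mul_cast {K k k' : ℤ} (hK : K = k + k') {c : ℍ → ℂ} (hc : IsMF 𝒮ℒ k c)
    (f : ℍ → ℂ) (q : Q N) : tr K (c * f) q = c * tr k' f q := by
  subst hK
  exact tr_levelOne_mul hc f q

/-- **Lower bound.**  A finite family generating `M_*(Γ₀(N))` over level one has at least
`μ` members. -/
theorem mu_le_card {ι : Type} [Fintype ι] (κ : ι → ℕ)
    (F : (j : ι) → ModularForm (G0 N) (κ j))
    (gen : ∀ (k : ℤ) (f : ModularForm (G0 N) k), ∃ (s : Finset ι)
        (c : (j : ι) → ModularForm 𝒮ℒ (k - κ j)), ∀ τ, f τ = ∑ j ∈ s, c j τ * F j τ) :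
    mu N ≤ Fintype.card ι := by
  classical
  set θ : ℍ → ℂ := ⇑(Fermat.Agent.S23.ThetaE12.theta N) with hθ
  have hθmf : IsMF (G0 N) 12 θ := IsMF.coe _
  obtain ⟨τ₀, hinj⟩ := exists_tr_theta_injective N
  -- expansions of the powers of θ
  have hex : ∀ a : ℕ, ∃ (s : Finset ι) (c : (j : ι) → ModularForm 𝒮ℒ ((a : ℤ) * 12 - κ j)),
      ∀ (q : Q N) (τ : ℍ), (tr 12 θ q τ) ^ a = ∑ j ∈ s, c j τ * tr (κ j) (⇑(F j)) q τ := by
    intro a
    obtain ⟨Θ, hΘ⟩ := hθmf.pow a
    obtain ⟨s, c, hc⟩ := gen _ Θ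
    refine ⟨s, c, fun q τ => ?_⟩
    have hfun : θ ^ a = ∑ j ∈ s, (⇑(c j) : ℍ → ℂ) * ⇑(F j) := by
      funext τ
      rw [← hΘ, hc τ, Finset.sum_apply]
      rfl
    have h1 : tr ((a : ℤ) * 12) (θ ^ a) q = (tr 12 θ q) ^ a := tr_pow 12 θ a q
    rw [hfun, tr_sum] at h1
    have h2 := congrFun h1 τ
    rw [Pi.pow_apply, Finset.sum_apply] at h2
    rw [← h2]
    refine Finset.sum_congr rfl fun j _ => ?_
    rw [tr_levelOne_mul_cast (k := (a : ℤ) * 12 - κ j) (k' := κ j) (by ring) (IsMF.coe (c j)),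
      Pi.mul_apply]
  choose s c hc using hex
  -- matrices
  have hcard : Fintype.card (Q N) = mu N := by
    rw [mu, Nat.card_eq_fintype_card]
  let e : Fin (mu N) ≃ Q N := (Fintype.equivFinOfCardEq hcard).symm
  let V : Matrix (Fin (mu N)) (Fin (mu N)) ℂ :=
    Matrix.vandermonde fun i => tr 12 θ (e i) τ₀
  let A : Matrix (Fin (mu N)) ι ℂ := fun i j => tr (κ j) (⇑(F j)) (e i) τ₀
  let C : Matrix ι (Fin (mu N)) ℂ := fun j a => if j ∈ s a then c a j τ₀ else 0
  have hVAC : V = A * C := by
    ext i a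
    rw [Matrix.mul_apply]
    simp only [V, A, C, Matrix.vandermonde_apply]
    rw [hc (a : ℕ) (e i) τ₀]
    simp only [mul_ite, mul_zero]
    rw [← Finset.sum_filter]
    refine Finset.sum_congr (by ext; simp) fun j _ => mul_comm _ _
  have hdet : V.det ≠ 0 := by
    rw [Matrix.det_vandermonde_ne_zero_iff]
    exact hinj.comp e.injective
  have hrank : V.rank = mu N := by
    have := Matrix.rank_of_isUnit V ((Matrix.isUnit_iff_isUnit_det V).mpr (isUnit_iff_ne_zero.mpr hdet))
    simpa using this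
  calc mu N = V.rank := hrank.symm
    _ = (A * C).rank := by rw [hVAC]
    _ ≤ A.rank := Matrix.rank_mul_le_left A C
    _ ≤ Fintype.card ι := Matrix.rank_le_card_width A

/-- **Reindexing.**  A generating, independent family indexed by a type in bijection with the
coset space gives `Gens N`. -/
theorem nonempty_gens_of_equiv {ι : Type} (e : Q N ≃ ι) (κ : ι → ℕ)
    (F : (j : ι) → ModularForm (G0 N) (κ j))
    (gen : ∀ (k : ℤ) (f : ModularForm (G0 N) k), ∃ (s : Finset ι)
        (c : (j : ι) → ModularForm 𝒮ℒ (k - κ j)), ∀ τ, f τ = ∑ j ∈ s, c j τ * F j τ)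
    (indep : ∀ (k : ℤ) (s : Finset ι) (c : (j : ι) → ModularForm 𝒮ℒ (k - κ j)),
        (∀ τ, ∑ j ∈ s, c j τ * F j τ = 0) → ∀ j ∈ s, c j = 0) :
    Nonempty (Gens N) := by
  classical
  have : Fintype ι := Fintype.ofEquiv _ e
  refine ⟨{ κ := fun q => κ (e q), F := fun q => F (e q), gen := ?_, indep := ?_ }⟩
  · intro k f
    obtain ⟨s, c, hc⟩ := gen k f
    refine ⟨fun q => if e q ∈ s then c (e q) else 0, fun τ => ?_⟩
    rw [hc τ]
    have h1 : ∀ j : ι, (if j ∈ s then c j else 0) τ * F j τ = if j ∈ s then c j τ * F j τ else 0 := by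
      intro j
      split_ifs <;> simp
    have h2 : ∑ j ∈ s, c j τ * F j τ = ∑ j : ι, (if j ∈ s then c j else 0) τ * F j τ := by
      simp only [h1]
      rw [← Finset.sum_filter]
      exact Finset.sum_congr (by ext; simp) fun _ _ => rfl
    rw [h2, ← Equiv.sum_comp e]
  · intro k c hsum q
    have h := indep k Finset.univ (Equiv.piCongrLeft (fun j => ModularForm 𝒮ℒ (k - κ j)) e c)
      (fun τ => by
        rw [← hsum τ, ← Equiv.sum_comp e]
        refine Finset.sum_congr rfl fun q _ => ?_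
        rw [Equiv.piCongrLeft_apply_apply]) (e q) (Finset.mem_univ _)
    rwa [Equiv.piCongrLeft_apply_apply] at h

/-- **Slice [D] modulo the upper bound.**  A generating, independent family all of whose finite
subfamilies have at most `μ` members gives `Gens N`. -/
theorem nonempty_gens_of_card_le {ι : Type} (κ : ι → ℕ)
    (F : (j : ι) → ModularForm (G0 N) (κ j))
    (gen : ∀ (k : ℤ) (f : ModularForm (G0 N) k), ∃ (s : Finset ι)
        (c : (j : ι) → ModularForm 𝒮ℒ (k - κ j)), ∀ τ, f τ = ∑ j ∈ s, c j τ * F j τ)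
    (indep : ∀ (k : ℤ) (s : Finset ι) (c : (j : ι) → ModularForm 𝒮ℒ (k - κ j)),
        (∀ τ, ∑ j ∈ s, c j τ * F j τ = 0) → ∀ j ∈ s, c j = 0)
    (hupper : ∀ s : Finset ι, s.card ≤ mu N) :
    Nonempty (Gens N) := by
  classical
  have hfin : Finite ι := by
    by_contra hinf
    rw [not_finite_iff_infinite] at hinf
    obtain ⟨s, hs⟩ := Infinite.exists_subset_card_eq ι (mu N + 1)
    have := hupper s
    omega
  have : Fintype ι := Fintype.ofFinite ι
  have h1 : Fintype.card ι ≤ mu N := by
    have := hupper Finset.univ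
    rwa [Finset.card_univ] at this
  have h2 : mu N ≤ Fintype.card ι := mu_le_card κ F gen
  have hcard : Fintype.card (Q N) = Fintype.card ι := by
    rw [le_antisymm h1 h2, mu, Nat.card_eq_fintype_card]
  exact nonempty_gens_of_equiv (Fintype.equivOfCardEq hcard) κ F gen indep

end Fermat.Agent.S20.RankLowerAlt
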